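import Fermat.Agent.Mazur.Val
import Fermat.Agent.Mazur.Kummer

/-!
# Inertia at `q` on the roots of `q`

For `n` prime to `q` inertia at `q` permutes the `n`-th roots of `q` transitively.
-/

set_option autoImplicit false

noncomputable section

open FermatAgent.GaloisBasic

namespace FermatAgent.BAD

local notation "QB" => AlgebraicClosure ℚ
local notation "GB" => AlgebraicClosure ℚ ≃ₐ[ℚ] AlgebraicClosure ℚ

variable {A : ValuationSubring QB} {q n : ℕ}

/-- Inertia acts transitively on the `n`-th roots of `q`. -/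
theorem exists_inertia_smul_root (hq : q.Prime) (hA : A.LiesOverPrime q) (hn : n ≠ 0)
    (hnq : n.Coprime q) {ρ : QB} (hρ : ρ ^ n = (q : QB)) {ζ : QB} (hζ : ζ ^ n = 1) :
    ∃ σ : GB, σ ∈ A.inertiaSubgroupIn ℚ ∧ σ ρ = ζ * ρ ∧
      ∀ z : QB, z ^ n = 1 → σ z = z := by
  classical
  have : NeZero n := ⟨hn⟩
  have hndvd : ¬ q ∣ n := fun h =>
    hq.one_lt.ne' (Nat.dvd_one.mp (hnq ▸ Nat.dvd_gcd h dvd_rfl))
  have hfix : ∀ σ : GB, σ ∈ A.inertiaSubgroupIn ℚ → ∀ z : QB, z ^ n = 1 → σ z = z :=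
    fun σ hσ z hz => Mazur.inertia_fixes_rootsOfUnity hq hA hndvd hn hσ hz
  have hρ0 : ρ ≠ 0 := fun h => by
    rw [h, zero_pow hn] at hρ
    exact hq.ne_zero (by exact_mod_cast hρ.symm)
  have hroot : ∀ σ : A.inertiaSubgroupIn ℚ, ((σ : GB) ρ / ρ) ^ n = 1 := fun σ => by
    rw [div_pow, ← map_pow, hρ, map_natCast, div_self]
    exact_mod_cast hq.ne_zero
  let χ : A.inertiaSubgroupIn ℚ →* rootsOfUnity n QB :=
    { toFun := fun σ => rootsOfUnity.mkOfPowEq _ (hroot σ)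
      map_one' := Subtype.ext (Units.ext (by simp [div_self hρ0]))
      map_mul' := fun σ τ => Subtype.ext (Units.ext (by
        simp only [rootsOfUnity.val_mkOfPowEq_coe, Subgroup.coe_mul, Units.val_mul,
          AlgEquiv.mul_apply]
        have h := hfix σ σ.2 _ (hroot τ)
        rw [map_div₀, div_eq_iff ((map_ne_zero _).mpr hρ0)] at h
        rw [h]
        ring)) }
  have hχ : ∀ σ, ((χ σ : QBˣ) : QB) = (σ : GB) ρ / ρ := fun σ =>
    rootsOfUnity.val_mkOfPowEq_coe _ _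
  set d := Nat.card χ.range
  have hd0 : d ≠ 0 := Nat.card_pos.ne'
  have hxfix : ∀ σ ∈ A.inertiaSubgroupIn ℚ, σ (ρ ^ d) = ρ ^ d := by
    intro σ hσ
    have h := pow_card_eq_one' (x := (⟨χ ⟨σ, hσ⟩, ⟨⟨σ, hσ⟩, rfl⟩⟩ : χ.range))
    have h' : ((χ ⟨σ, hσ⟩ : QBˣ) : QB) ^ d = 1 := by
      have := congrArg (fun x : χ.range => (((x : rootsOfUnity n QB) : QBˣ) : QB)) h
      simp only [SubgroupClass.coe_pow, Units.val_pow_eq_pow_val, OneMemClass.coe_one,
        Units.val_one] at this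
      exact this
    rw [hχ, div_pow, div_eq_one_iff_eq (pow_ne_zero _ hρ0)] at h'
    rw [map_pow]
    exact h'
  obtain ⟨k, hk⟩ := Mazur.exists_zpow_valuation_eq hq hA (pow_ne_zero d hρ0) hxfix
  have hdk : (d : ℤ) = k * n := by
    refine Mazur.valuation_zpow_injective hq hA ?_
    rw [zpow_natCast, zpow_mul, ← hk, zpow_natCast, ← map_pow, ← map_pow, ← pow_mul, mul_comm,
      pow_mul, hρ]
  have hcard : Nat.card (rootsOfUnity n QB) = n := HasEnoughRootsOfUnity.natCard_rootsOfUnity QB n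
  have hdn : d = n := by
    refine le_antisymm (hcard ▸ Subgroup.card_le_card_group χ.range) (Nat.le_of_dvd
      (Nat.pos_of_ne_zero hd0) ?_)
    exact Int.natCast_dvd_natCast.mp ⟨k, by rw [hdk, mul_comm]⟩
  have htop : χ.range = ⊤ := Subgroup.eq_top_of_card_eq _ (hdn.trans hcard.symm)
  obtain ⟨σ, hσ⟩ : rootsOfUnity.mkOfPowEq ζ hζ ∈ χ.range := htop ▸ Subgroup.mem_top _
  refine ⟨σ, σ.2, ?_, hfix σ σ.2⟩
  have h := congrArg (fun x : rootsOfUnity n QB => ((x : QBˣ) : QB)) hσ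
  simp only [rootsOfUnity.val_mkOfPowEq_coe, hχ] at h
  rw [div_eq_iff hρ0] at h
  exact h

end FermatAgent.BAD
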