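import Mathlib.RingTheory.Filtration
import Mathlib.RingTheory.Finiteness.Ideal
import Mathlib.RingTheory.Finiteness.Quotient
import Mathlib.RingTheory.AdicCompletion.Algebra
import Mathlib.Algebra.Ring.GeomSum
import Mathlib.NumberTheory.Multiplicity
import Mathlib.Tactic.LinearCombination
import Mathlib.Tactic.Ring

/-!
# Roots modulo powers of a parameter are detected at maximal ideals

If `y ≡ G ^ n` modulo an ideal between `(ϖ)` and its radical and, at every maximal ideal of the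
base containing `ϖ` and the norm of `G`, the element `y` has an `n`-th root congruent to `G` in a
ring detecting membership up to a factor `f`, then `f ^ n * y` has approximate roots modulo every
power of `ϖ`; the completions of a single ring are the special case `f = 1`.
-/

set_option autoImplicit false

open Finset

namespace FermatAgent.BAD

variable {B : Type*} [CommRing B]

/-- `z` is a nonzerodivisor modulo `ϖ`. -/
def RegMod {R : Type*} [CommRing R] (ϖ z : R) : Prop := ∀ x, ϖ ∣ z * x → ϖ ∣ x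

/-- Powers of an element regular modulo `ϖ` are regular modulo `ϖ`. -/
theorem RegMod.pow {R : Type*} [CommRing R] {ϖ z : R} (h : RegMod ϖ z) (e : ℕ) :
    RegMod ϖ (z ^ e) := by
  induction e with
  | zero => intro x hx; simpa using hx
  | succ e ih => intro x hx; rw [pow_succ, mul_assoc] at hx; exact h x (ih _ hx)

/-- An element regular modulo `ϖ` is regular modulo every power of `ϖ`. -/
theorem RegMod.dvd_pow {R : Type*} [CommRing R] {ϖ z : R} (h : RegMod ϖ z)
    (hϖ : ∀ x, ϖ * x = 0 → x = 0) {c : ℕ} {x : R} (hx : ϖ ^ c ∣ z * x) : ϖ ^ c ∣ x := by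
  induction c generalizing x with
  | zero => simp
  | succ c ih =>
    obtain ⟨w, hw⟩ := h x ((dvd_pow_self ϖ c.succ_ne_zero).trans hx)
    obtain ⟨r, hr⟩ := hx
    subst hw
    have e : z * w = ϖ ^ c * r :=
      sub_eq_zero.mp (hϖ _ (by linear_combination hr))
    rw [pow_succ']
    exact mul_dvd_mul_left ϖ (ih ⟨r, e⟩)

/-- Regularity modulo `ϖ` only depends on the class modulo `ϖ`. -/
theorem RegMod.of_dvd_sub {R : Type*} [CommRing R] {ϖ z z' : R} (h : RegMod ϖ z)
    (hz : ϖ ∣ z' - z) : RegMod ϖ z' := fun x hx => h x (by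
  have := dvd_sub hx (hz.mul_right x)
  rwa [sub_mul, sub_sub_cancel] at this)

/-- Regularity modulo `ϖ` only depends on the class modulo the radical. -/
theorem regMod_of_sub_mem_radical {ϖ z z' : B} (h : RegMod ϖ z)
    (hz : z' - z ∈ (Ideal.span {ϖ}).radical) : RegMod ϖ z' := by
  intro x hx
  obtain ⟨r, hr⟩ := hz
  rw [Ideal.mem_span_singleton] at hr
  have hj : ∀ j : ℕ, ϖ ∣ z ^ j * x - (-(z' - z)) ^ j * x := by
    intro j
    induction j with
    | zero => simp
    | succ j ih =>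
      have e : z ^ (j + 1) * x - (-(z' - z)) ^ (j + 1) * x =
          z ^ j * (z' * x) + (-(z' - z)) * (z ^ j * x - (-(z' - z)) ^ j * x) := by ring
      rw [e]
      exact dvd_add (hx.mul_left _) (ih.mul_left _)
  have h1 : ϖ ∣ (-(z' - z)) ^ r * x := by
    rw [neg_pow, mul_assoc]
    exact (hr.mul_right x).mul_left _
  have h2 := dvd_add (hj r) h1
  rw [sub_add_cancel] at h2
  exact h.pow r x h2

theorem map_mem_radical {R : Type*} [CommRing R] (f : B →+* R) {ϖ x : B}
    (hx : x ∈ (Ideal.span {ϖ}).radical) : f x ∈ (Ideal.span {f ϖ}).radical := by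
  obtain ⟨r, hr⟩ := hx
  refine ⟨r, ?_⟩
  rw [Ideal.mem_span_singleton] at hr ⊢
  rw [← map_pow]
  exact map_dvd f hr

/-- An element regular modulo `ϖ` is regular modulo the radical of `(ϖ)`. -/
theorem mem_radical_of_mul_pow {ϖ G x : B} (hG : RegMod ϖ G) {e : ℕ}
    (hx : G ^ e * x ∈ (Ideal.span {ϖ}).radical) : x ∈ (Ideal.span {ϖ}).radical := by
  obtain ⟨r, hr⟩ := hx
  refine ⟨r, ?_⟩
  rw [Ideal.mem_span_singleton] at hr ⊢
  rw [mul_pow, ← pow_mul] at hr
  exact (hG.pow _) _ hr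

/-- `v` inverts `n`, `z ≡ n * G ^ j` modulo the radical: `z` is regular modulo `ϖ`. -/
theorem regMod_of_congr {ϖ G z v : B} {n : ℕ} (hv : (n : B) * v = 1) (hG : RegMod ϖ G) {j : ℕ}
    (hz : z - (n : B) * G ^ j ∈ (Ideal.span {ϖ}).radical) : RegMod ϖ z := by
  refine regMod_of_sub_mem_radical (fun x hx => hG.pow j x ?_) hz
  have := hx.mul_left v
  rwa [← mul_assoc, ← mul_assoc, mul_comm v, hv, one_mul] at this

theorem geom_sub_mem {I : Ideal B} {a b G : B} {n e : ℕ} (ha : a - G ^ e ∈ I)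
    (hb : b - G ^ e ∈ I) :
    ∑ i ∈ range n, a ^ i * b ^ (n - 1 - i) - (n : B) * G ^ (e * (n - 1)) ∈ I := by
  have h : ∀ i ∈ range n, a ^ i * b ^ (n - 1 - i) - G ^ (e * (n - 1)) ∈ I := fun i hi => by
    rw [← Ideal.Quotient.eq_zero_iff_mem] at ha hb ⊢
    rw [map_sub, sub_eq_zero] at ha hb ⊢
    rw [map_mul, map_pow, map_pow, ha, hb, ← map_pow, ← map_pow, ← map_mul, ← pow_add, pow_mul]
    congr 2
    have := mem_range.mp hi
    omega
  have h4 := Submodule.sum_mem I h
  rwa [sum_sub_distrib, sum_const, card_range, nsmul_eq_mul] at h4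

/-- Newton iteration modulo powers of an ideal, the denominators being powers of `G`. -/
theorem exists_newton_ideal {J : Ideal B} {y G v : B} {n : ℕ} (hn : 0 < n)
    (hv : (n : B) * v = 1) (hyG : y - G ^ n ∈ J) (c : ℕ) :
    ∃ (H : B) (e : ℕ), H - G ^ (e + 1) ∈ J ∧ H ^ n - y * G ^ (e * n) ∈ J ^ (c + 1) := by
  obtain ⟨N, rfl⟩ : ∃ N, n = N + 1 := ⟨n - 1, by omega⟩
  induction c with
  | zero => exact ⟨G, 0, by simp, by
      rw [zero_mul, pow_zero, mul_one, pow_one, ← neg_sub]; exact neg_mem hyG⟩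
  | succ c ih =>
    obtain ⟨H, e, hH, hD⟩ := ih
    set k := (e + 1) * N with hk
    set D := y * G ^ (e * (N + 1)) - H ^ (N + 1) with hDdef
    have hD' : D ∈ J ^ (c + 1) := by rw [hDdef, ← neg_sub]; exact neg_mem hD
    set A := H * G ^ k
    refine ⟨A + v * D, e + k, ?_, ?_⟩
    · have h1 : A + v * D - G ^ (e + k + 1) = (H - G ^ (e + 1)) * G ^ k + v * D := by
        simp only [A, pow_add]; ring
      rw [h1]
      exact add_mem (Ideal.mul_mem_right _ _ hH)
        (Ideal.mul_mem_left _ _ (Ideal.pow_le_self c.succ_ne_zero hD'))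
    obtain ⟨K, hK⟩ := sq_dvd_add_pow_sub_sub (v * D) A (N + 1)
    have e1 : (A + v * D) ^ (N + 1) - y * G ^ ((e + k) * (N + 1)) =
        (v * D) ^ 2 * K + D * (A ^ N - G ^ (k * (N + 1))) := by
      have e2 : G ^ ((e + k) * (N + 1)) = G ^ (e * (N + 1)) * G ^ (k * (N + 1)) := by
        rw [← pow_add]; ring_nf
      simp only [Nat.add_sub_cancel] at hK
      rw [e2]
      have e3 : A ^ (N + 1) = H ^ (N + 1) * G ^ (k * (N + 1)) := by rw [mul_pow, ← pow_mul]
      linear_combination hK + e3 + (A ^ N * D) * hv - G ^ (k * (N + 1)) * hDdef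
    rw [e1]
    refine add_mem (Ideal.mul_mem_right _ _ ?_) ?_
    · refine Ideal.pow_le_pow_right (m := c + 1 + 1) (n := (c + 1) * 2) (by omega) ?_
      rw [pow_mul]
      exact Ideal.pow_mem_pow (Ideal.mul_mem_left _ _ hD') 2
    · rw [pow_succ (n := c + 1)]
      refine Ideal.mul_mem_mul hD' ?_
      have h2 : G ^ (k * (N + 1)) = (G ^ (e + 1) * G ^ k) ^ N := by
        rw [← pow_add, ← pow_mul]; congr 1; simp only [hk]; ring
      rw [h2]
      refine J.mem_of_dvd (sub_dvd_pow_sub_pow _ _ N) ?_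
      simp only [A, ← sub_mul]
      exact Ideal.mul_mem_right _ _ hH

/-- An element of the ideal `I` locally at `m`. -/
def MemLoc (m I : Ideal B) (x : B) : Prop := ∃ s ∉ m, s * x ∈ I

/-- Membership in the extension to the completion gives membership modulo every power. -/
theorem mem_sup_pow_of_completion {m I : Ideal B} {x : B}
    (h : algebraMap B (AdicCompletion m B) x ∈ I.map (algebraMap B (AdicCompletion m B))) (k : ℕ) :
    x ∈ I ⊔ m ^ k := by
  have h1 := Ideal.mem_map_of_mem (AdicCompletion.evalₐ m k).toRingHom h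
  rw [Ideal.map_map, AlgHom.toRingHom_eq_coe, RingHom.coe_coe, AlgHom.commutes,
    show (↑(AdicCompletion.evalₐ m k) : AdicCompletion m B →+* B ⧸ m ^ k).comp
      (algebraMap B (AdicCompletion m B)) = Ideal.Quotient.mk (m ^ k) from
      RingHom.ext fun z => (AdicCompletion.evalₐ m k).commutes z] at h1
  obtain ⟨i, hi, he⟩ := (Ideal.mem_map_iff_of_surjective _ Ideal.Quotient.mk_surjective).mp h1
  rw [Ideal.Quotient.algebraMap_eq, Ideal.Quotient.eq] at he
  exact Submodule.mem_sup.mpr ⟨i, hi, x - i, by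
    rw [← neg_sub]; exact (m ^ k).neg_mem he, add_sub_cancel i x⟩

variable [IsNoetherianRing B]

/-- Krull: an element in `I + m ^ k` for all `k` is in `I` locally at `m`. -/
theorem memLoc_of_forall_pow {m I : Ideal B} [m.IsMaximal] {x : B}
    (h : ∀ k : ℕ, x ∈ I ⊔ m ^ k) : MemLoc m I x := by
  have hx : Ideal.Quotient.mk I x ∈
      (⨅ k : ℕ, m ^ k • ⊤ : Submodule B (B ⧸ I)) := by
    simp only [Submodule.mem_iInf]
    intro k
    obtain ⟨a, ha, b, hb, e⟩ := Submodule.mem_sup.mp (h k)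
    have : Ideal.Quotient.mk I x = b • (1 : B ⧸ I) := by
      rw [← e, map_add, Ideal.Quotient.eq_zero_iff_mem.mpr ha, zero_add, Algebra.smul_def,
        mul_one, Ideal.Quotient.algebraMap_eq]
    rw [this]
    exact Submodule.smul_mem_smul hb trivial
  obtain ⟨⟨r, hr⟩, hrx⟩ := (Ideal.mem_iInf_smul_pow_eq_bot_iff m _).mp hx
  refine ⟨1 - r, fun h1 => ?_, ?_⟩
  · exact (Ideal.IsMaximal.ne_top (I := m) inferInstance)
      ((Ideal.eq_top_iff_one m).mpr (by simpa using m.add_mem h1 hr))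
  · rw [← Ideal.Quotient.eq_zero_iff_mem, map_mul, map_sub, map_one, sub_mul, one_mul,
      sub_eq_zero]
    rw [Algebra.smul_def, Ideal.Quotient.algebraMap_eq] at hrx
    exact hrx.symm

/-- The completion at a maximal ideal detects membership. -/
theorem memLoc_of_completion {m I : Ideal B} [m.IsMaximal] {x : B}
    (h : algebraMap B (AdicCompletion m B) x ∈ I.map (algebraMap B (AdicCompletion m B))) :
    MemLoc m I x :=
  memLoc_of_forall_pow (mem_sup_pow_of_completion h)

/-- An `n`-th root of `y` congruent to `G` in the completion at `m`. -/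
structure LocalRoot (m : Ideal B) (ϖ y G : B) (n : ℕ) : Prop where
  root : ∃ L : AdicCompletion m B, L ^ n = algebraMap B (AdicCompletion m B) y ∧
    algebraMap B (AdicCompletion m B) ϖ ∣ L - algebraMap B (AdicCompletion m B) G
  reg : ∀ x : AdicCompletion m B, algebraMap B (AdicCompletion m B) ϖ * x = 0 → x = 0
  regMod : RegMod (algebraMap B (AdicCompletion m B) ϖ) (algebraMap B (AdicCompletion m B) G)

section Cover

variable {A B : Type} [CommRing A] [CommRing B] [Algebra A B]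

/-- An `n`-th root of `y` congruent to `G`, modulo the radical, in a ring detecting membership at
`𝔪` up to `f`. -/
structure CoverRoot (𝔪 : Ideal A) (ϖ : A) (f y G : B) (n : ℕ) : Prop where
  root : ∃ (C : Type) (_ : CommRing C) (ι : B →+* C) (π : C) (u : Cˣ) (e : ℕ) (L : C),
    e ≠ 0 ∧ ι (algebraMap A B ϖ) = u * π ^ e ∧ (∀ x, π * x = 0 → x = 0) ∧ RegMod π (ι G) ∧
    L ^ n = ι y ∧ L - ι G ∈ (Ideal.span {π}).radical ∧
    ∀ (b g w : B), ι b ∈ Ideal.span {ι g, ι w} → ∀ k : ℕ,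
      f * b ∈ Ideal.span {g, w} ⊔ (𝔪 ^ k).map (algebraMap A B)

variable [IsNoetherianRing A] [Module.Finite A B]

/-- **The root criterion modulo an ideal between `(ϖ)` and its radical.** -/
theorem exists_approx_mod {ϖ Nrm : A} {f y G v : B} {n : ℕ} (hn : 0 < n)
    (hv : (n : B) * v = 1) (hϖ : ∀ x, algebraMap A B ϖ * x = 0 → x = 0)
    (hG : RegMod (algebraMap A B ϖ) G) {J : Ideal B} (hJϖ : algebraMap A B ϖ ∈ J)
    (hJr : J ≤ (Ideal.span {algebraMap A B ϖ}).radical) (hJG : ∀ e x, G ^ e * x ∈ J → x ∈ J)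
    (hyG : y - G ^ n ∈ J) (hN : G ∣ algebraMap A B Nrm)
    (hloc : ∀ 𝔪 : Ideal A, 𝔪.IsMaximal → ϖ ∈ 𝔪 → Nrm ∈ 𝔪 → CoverRoot 𝔪 ϖ f y G n) (c : ℕ) :
    ∃ h : B, h - f * G ∈ J ∧ algebraMap A B ϖ ^ (c + 1) ∣ h ^ n - f ^ n * y := by
  set ϖB := algebraMap A B ϖ
  have : IsNoetherianRing B := Algebra.FiniteType.isNoetherianRing A B
  obtain ⟨r, hr⟩ := Ideal.exists_radical_pow_le_of_fg (Ideal.span {ϖB})
    (IsNoetherian.noetherian _)
  obtain ⟨H, e, hH, hDJ⟩ := exists_newton_ideal hn hv hyG (r * (c + 1))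
  have hD : ϖB ^ (c + 1) ∣ H ^ n - y * G ^ (e * n) := by
    rw [← Ideal.mem_span_singleton, ← Ideal.span_singleton_pow]
    exact Ideal.pow_right_mono hr (c + 1) (by
      rw [← pow_mul]
      exact Ideal.pow_right_mono hJr _ (Ideal.pow_le_pow_right (Nat.le_succ _) hDJ))
  set I : Ideal B := Ideal.span {G ^ e, ϖB ^ (c + 1)}
  have hHI : f * H ∈ I := by
    set K : Ideal A :=
      { carrier := {a | algebraMap A B a * (f * H) ∈ I}
        zero_mem' := by simp
        add_mem' := fun {a b} ha hb => by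
          show algebraMap A B (a + b) * (f * H) ∈ I
          rw [map_add, add_mul]; exact I.add_mem ha hb
        smul_mem' := fun r a ha => by
          show algebraMap A B (r • a) * (f * H) ∈ I
          rw [smul_eq_mul, map_mul, mul_assoc]; exact I.mul_mem_left _ ha }
    suffices hK : K = ⊤ by
      have h1 : (1 : A) ∈ K := by rw [hK]; trivial
      have h2 : algebraMap A B 1 * (f * H) ∈ I := h1
      rwa [map_one, one_mul] at h2
    by_contra hK
    obtain ⟨𝔪, h𝔪, hKm⟩ := Ideal.exists_le_maximal K hK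
    have hϖm : ϖ ∈ 𝔪 := h𝔪.isPrime.mem_of_pow_mem (c + 1) (hKm (by
      show algebraMap A B (ϖ ^ (c + 1)) * (f * H) ∈ I
      rw [map_pow]
      exact I.mul_mem_right _ (Ideal.subset_span (by simp [ϖB]))))
    have hNm : Nrm ∈ 𝔪 := h𝔪.isPrime.mem_of_pow_mem e (hKm (by
      show algebraMap A B (Nrm ^ e) * (f * H) ∈ I
      obtain ⟨w, hw⟩ := hN
      rw [map_pow, hw, mul_pow, mul_assoc]
      exact I.mul_mem_right _ (Ideal.subset_span (by simp))))
    obtain ⟨C, hC, ι, π, u, e', L, he', hu, hπ, hregG, hL, hLG, hdet⟩ := (hloc 𝔪 h𝔪 hϖm hNm).root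
    have hπJ : ∀ x ∈ J, ι x ∈ (Ideal.span {π}).radical := fun x hx => by
      have h1 := map_mem_radical ι (hJr hx)
      refine Ideal.radical_mono (Ideal.span_singleton_le_span_singleton.mpr ?_) h1
      exact hu ▸ (dvd_pow_self π he').mul_left _
    set U := ∑ i ∈ range n, ι H ^ i * (L * ι G ^ e) ^ (n - 1 - i)
    have hU : (ι H - L * ι G ^ e) * U = ι (H ^ n - y * G ^ (e * n)) := by
      rw [mul_comm, geom_sum₂_mul, mul_pow, hL, map_sub, map_pow, map_mul, map_pow, pow_mul]
    have hUreg : RegMod π U := by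
      refine regMod_of_congr (n := n) (v := ι v) (G := ι G) (j := (e + 1) * (n - 1))
        (by rw [← map_natCast ι, ← map_mul, hv, map_one]) hregG (geom_sub_mem ?_ ?_)
      · rw [← map_pow, ← map_sub]
        exact hπJ _ hH
      · rw [pow_succ', ← sub_mul]
        exact Ideal.mul_mem_right _ _ hLG
    obtain ⟨w, hw⟩ := hUreg.dvd_pow hπ (c := e' * (c + 1)) (x := ι H - L * ι G ^ e) (by
      rw [mul_comm U, hU]
      refine dvd_trans ?_ (map_dvd ι hD)
      rw [map_pow, hu, mul_pow, pow_mul]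
      exact dvd_mul_left _ _)
    have hmem : ι H ∈ Ideal.span {ι (G ^ e), ι (ϖB ^ (c + 1))} := by
      refine Ideal.mem_span_pair.mpr ⟨L, ((u⁻¹ : Cˣ) : C) ^ (c + 1) * w, ?_⟩
      rw [map_pow, map_pow, hu, mul_pow, ← pow_mul,
        show ((u⁻¹ : Cˣ) : C) ^ (c + 1) * w * ((u : C) ^ (c + 1) * π ^ (e' * (c + 1))) =
          (((u⁻¹ : Cˣ) : C) * u) ^ (c + 1) * (π ^ (e' * (c + 1)) * w) by ring,
        Units.inv_mul, one_pow, one_mul, ← hw, add_sub_cancel]
    have hx : Ideal.Quotient.mk I (f * H) ∈ (⨅ k : ℕ, 𝔪 ^ k • ⊤ : Submodule A (B ⧸ I)) := by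
      simp only [Submodule.mem_iInf]
      intro k
      obtain ⟨a, ha, b, hb, eab⟩ := Submodule.mem_sup.mp (hdet H _ _ hmem k)
      rw [← eab, map_add, Ideal.Quotient.eq_zero_iff_mem.mpr ha, zero_add,
        Ideal.smul_top_eq_map, Submodule.restrictScalars_mem,
        IsScalarTower.algebraMap_eq A B (B ⧸ I), ← Ideal.map_map, Ideal.Quotient.algebraMap_eq]
      exact Ideal.mem_map_of_mem _ hb
    obtain ⟨⟨r, hr'⟩, hrx⟩ := (Ideal.mem_iInf_smul_pow_eq_bot_iff 𝔪 _).mp hx
    refine h𝔪.ne_top ((Ideal.eq_top_iff_one _).mpr ?_)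
    have h1 : 1 - r ∈ K := by
      show algebraMap A B (1 - r) * (f * H) ∈ I
      rw [← Ideal.Quotient.eq_zero_iff_mem, map_sub, map_one, sub_mul, one_mul, map_sub,
        sub_eq_zero, ← hrx, map_mul (Ideal.Quotient.mk I) (algebraMap A B r), Algebra.smul_def,
        IsScalarTower.algebraMap_apply A B (B ⧸ I), Ideal.Quotient.algebraMap_eq]
    simpa using 𝔪.add_mem (hKm h1) hr'
  obtain ⟨h, b, hb⟩ := Ideal.mem_span_pair.mp hHI
  refine ⟨h, hJG e _ ?_, (hG.pow (e * n)).dvd_pow hϖ ?_⟩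
  · have : G ^ e * (h - f * G) = f * (H - G ^ (e + 1)) - b * ϖB ^ (c + 1) := by
      linear_combination hb
    rw [this]
    exact sub_mem (Ideal.mul_mem_left _ _ hH)
      (Ideal.mul_mem_left _ _ (Ideal.pow_mem_of_mem _ hJϖ _ c.succ_pos))
  · have h1 : ϖB ^ (c + 1) ∣ (f * H) ^ n - (h * G ^ e) ^ n :=
      dvd_trans ⟨b, by linear_combination -hb⟩ (sub_dvd_pow_sub_pow _ _ _)
    have : G ^ (e * n) * (h ^ n - f ^ n * y) =
        f ^ n * (H ^ n - y * G ^ (e * n)) - ((f * H) ^ n - (h * G ^ e) ^ n) := by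
      rw [mul_pow, mul_pow, ← pow_mul]; ring
    rw [this]
    exact dvd_sub (hD.mul_left _) h1

/-- **The root criterion for a finite algebra.** -/
theorem exists_approx_of_cover {ϖ Nrm : A} {f y G v : B} {n : ℕ} (hn : 0 < n)
    (hv : (n : B) * v = 1) (hϖ : ∀ x, algebraMap A B ϖ * x = 0 → x = 0)
    (hG : RegMod (algebraMap A B ϖ) G) (hyG : algebraMap A B ϖ ∣ y - G ^ n)
    (hN : G ∣ algebraMap A B Nrm)
    (hloc : ∀ 𝔪 : Ideal A, 𝔪.IsMaximal → ϖ ∈ 𝔪 → Nrm ∈ 𝔪 → CoverRoot 𝔪 ϖ f y G n) (c : ℕ) :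
    ∃ h : B, algebraMap A B ϖ ∣ h - f * G ∧
      algebraMap A B ϖ ^ (c + 1) ∣ h ^ n - f ^ n * y := by
  rw [← Ideal.mem_span_singleton] at hyG
  obtain ⟨h, h1, h2⟩ := exists_approx_mod hn hv hϖ hG (Ideal.mem_span_singleton_self _)
    Ideal.le_radical (fun e x hx => Ideal.mem_span_singleton.mpr
      (hG.pow e x (Ideal.mem_span_singleton.mp hx))) hyG hN hloc c
  exact ⟨h, Ideal.mem_span_singleton.mp h1, h2⟩

end Cover

section Completion

variable {B : Type} [CommRing B]

/-- A root in a completion is one for the identity cover. -/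
theorem coverRoot_of_completion {m : Ideal B} {ϖ y G : B} {n : ℕ} {L : AdicCompletion m B}
    (hϖ : ∀ x : AdicCompletion m B, algebraMap B (AdicCompletion m B) ϖ * x = 0 → x = 0)
    (hG : RegMod (algebraMap B (AdicCompletion m B) ϖ) (algebraMap B (AdicCompletion m B) G))
    (hL : L ^ n = algebraMap B (AdicCompletion m B) y)
    (hLG : L - algebraMap B (AdicCompletion m B) G ∈
      (Ideal.span {algebraMap B (AdicCompletion m B) ϖ}).radical) :
    CoverRoot m ϖ 1 y G n := by
  refine ⟨_, inferInstance, algebraMap B (AdicCompletion m B), _, 1, 1, L, one_ne_zero, by simp, hϖ,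
    hG, hL, hLG, fun b g w h k => ?_⟩
  rw [one_mul, Algebra.algebraMap_self, Ideal.map_id]
  exact mem_sup_pow_of_completion (by rwa [Ideal.map_span, Set.image_pair]) k

/-- **The root criterion.** -/
theorem exists_approx_of_localRoot [IsNoetherianRing B] {ϖ y G v : B} {n : ℕ} (hn : 0 < n)
    (hv : (n : B) * v = 1) (hϖ : ∀ x, ϖ * x = 0 → x = 0) (hG : RegMod ϖ G) (hyG : ϖ ∣ y - G ^ n)
    (hloc : ∀ m : Ideal B, m.IsMaximal → ϖ ∈ m → G ∈ m → LocalRoot m ϖ y G n) (c : ℕ) :
    ∃ h : B, ϖ ∣ h - G ∧ ϖ ^ (c + 1) ∣ h ^ n - y := by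
  simpa using exists_approx_of_cover (A := B) (f := 1) hn hv hϖ hG hyG dvd_rfl (fun m a b d => by
    obtain ⟨⟨L, hL, hLG⟩, hr, hrG⟩ := hloc m a b d
    exact coverRoot_of_completion hr hrG hL (Ideal.le_radical (Ideal.mem_span_singleton.mpr hLG))) c

end Completion

end FermatAgent.BAD
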