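import Fermat.Agent.BAD.Level
import Fermat.Agent.BAD.Crit

/-!
# The two components of the reduction at `q`

`pInf` and `pZero` consist of the functions whose expansions at all cusps of the corresponding
type are small.

They contain the uniformiser, meet in its multiples, and every prime containing the uniformiser
contains one of them; the Atkin operator exchanges them.
-/

set_option autoImplicit false

open UpperHalfPlane CongruenceSubgroup
open scoped MatrixGroups

noncomputable section

namespace FermatAgent.BAD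

open FermatAgent.ES (BSub BRing SerIn lexp lexp_eq lexp_act act zetaC CPlace twistSer)

variable {q M : ℕ} [Fact q.Prime] [NeZero M] {O : Subring ℂ}

variable (M O) in
/-- The expansion at the cusp `γ`. -/
def serAt (q : ℕ) [Fact q.Prime] (γ : SL(2, ℤ)) : LRing q M O →+* LaurentSeries ℂ :=
  (ES.expHom (M := q * M) γ).comp ((LRing q M O).subtype.codRestrict (BSub (q * M)) fun f =>
    f.2.2.1)

/-- The expansion at `γ`, unfolded. -/
theorem serAt_apply (γ : SL(2, ℤ)) (f : LRing q M O) :
    serAt M O q γ f = lexp (q * M) γ (f : ℍ → ℂ) := rfl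

/-- Expansions of elements of `LRing q M O` have coefficients in `O`. -/
theorem serIn_serAt (γ : SL(2, ℤ)) (f : LRing q M O) : SerIn O (serAt M O q γ f) := f.2.1.2 γ

/-- A constant. -/
def constL : O →+* LRing q M O where
  toFun a := ⟨fun _ => (a : ℂ), const_mem_LRing a.2⟩
  map_one' := rfl
  map_mul' _ _ := rfl
  map_zero' := rfl
  map_add' _ _ := rfl

/-- The constant `a` as a function. -/
theorem coe_constL (a : O) : ((constL a : LRing q M O) : ℍ → ℂ) = fun _ => (a : ℂ) := rfl

/-- The expansion of a constant at every cusp is that constant. -/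
theorem serAt_constL (γ : SL(2, ℤ)) (a : O) :
    serAt M O q γ (constL a) = HahnSeries.C (a : ℂ) := lexp_eq (ES.HasLExp.const (a : ℂ))

/-- A function is determined by its expansion at one cusp. -/
theorem serAt_injective (γ : SL(2, ℤ)) : Function.Injective (serAt M O q γ) := fun f g h =>
  Subtype.ext (ES.lexp_injective f.2.2.1 g.2.2.1 h)

variable {P : CPlace q}

omit [Fact (Nat.Prime q)] in
/-- If `s t` is small and `s` has a unit coefficient, `t` is small. -/
theorem serLT_mul {s t : LaurentSeries ℂ} (hs : SerIn P.ring s) (ht : SerIn P.ring t)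
    (hu : P.UnitCoeff s) (h : P.SerLT (s * t)) : P.SerLT t := by
  refine P.serLT_of_not_unitCoeff ht fun hut => ?_
  exact h.not_unitCoeff (CPlace.UnitCoeff.mul hs ht hu hut)

variable (hO : O ≤ P.ring)

/-- Functions small at all cusps satisfying `p`. -/
def smallAt (p : SL(2, ℤ) → Prop) : Ideal (LRing q M O) where
  carrier := {f | ∀ γ, p γ → P.SerLT (serAt M O q γ f)}
  zero_mem' γ _ := by rw [map_zero]; intro n; simp
  add_mem' {f g} hf hg γ hγ := by rw [map_add]; exact (hf γ hγ).add (hg γ hγ)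
  smul_mem' r f hf γ hγ := by
    rw [smul_eq_mul, map_mul, mul_comm]
    exact (hf γ hγ).mul_serIn fun n => hO (serIn_serAt γ r n)

/-- The component containing `∞`. -/
def pInf : Ideal (LRing q M O) := smallAt hO (fun γ => γ ∈ Gamma0 q)

/-- The component containing `0`. -/
def pZero : Ideal (LRing q M O) := smallAt hO (fun γ => γ ∉ Gamma0 q)

/-- The functions of `pInf` are small at every cusp of type `∞`. -/
theorem mem_pInf {f : LRing q M O} :
    f ∈ pInf hO ↔ ∀ γ ∈ Gamma0 q, P.SerLT (serAt M O q γ f) := Iff.rfl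

/-- The functions of `pZero` are small at every cusp of type `0`. -/
theorem mem_pZero {f : LRing q M O} :
    f ∈ pZero hO ↔ ∀ γ ∉ Gamma0 q, P.SerLT (serAt M O q γ f) := Iff.rfl

variable (P) in
/-- Some coefficient is a unit at each cusp satisfying `p`. -/
def UnitAt (p : SL(2, ℤ) → Prop) (f : LRing q M O) : Prop :=
  ∀ γ, p γ → P.UnitCoeff (serAt M O q γ f)

variable (P) in
/-- Some coefficient is a unit at each cusp of type `∞`. -/
abbrev UnitInf (f : LRing q M O) : Prop := UnitAt P (fun γ => γ ∈ Gamma0 q) f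

variable (P) in
/-- Some coefficient is a unit at each cusp of type `0`. -/
abbrev UnitZero (f : LRing q M O) : Prop := UnitAt P (fun γ => γ ∉ Gamma0 q) f

variable {p : SL(2, ℤ) → Prop}

/-- Having a unit coefficient at these cusps means regular modulo the ideal of functions small
there. -/
theorem UnitAt.mem_of_mul {f x : LRing q M O} (h : UnitAt P p f) (hx : f * x ∈ smallAt hO p) :
    x ∈ smallAt hO p := fun γ hγ => by
  have h1 := hx γ hγ
  rw [map_mul] at h1
  exact serLT_mul (fun n => hO (serIn_serAt γ f n)) (fun n => hO (serIn_serAt γ x n)) (h γ hγ) h1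

include hO in
/-- Products of functions with unit coefficients have unit coefficients. -/
theorem UnitAt.mul {f g : LRing q M O} (hf : UnitAt P p f) (hg : UnitAt P p g) :
    UnitAt P p (f * g) := fun γ hγ => by
  rw [map_mul]
  exact CPlace.UnitCoeff.mul (fun n => hO (serIn_serAt γ f n)) (fun n => hO (serIn_serAt γ g n))
    (hf γ hγ) (hg γ hγ)

include hO in
/-- Powers of functions with unit coefficients have unit coefficients. -/
theorem UnitAt.pow {f : LRing q M O} (hf : UnitAt P p f) (k : ℕ) : UnitAt P p (f ^ k) :=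
  fun γ hγ => by
    rw [map_pow]
    exact CPlace.UnitCoeff.pow (fun n => hO (serIn_serAt γ f n)) (hf γ hγ) k

/-- A function with a unit coefficient at a cusp is not small there. -/
theorem UnitAt.not_mem {f : LRing q M O} (hf : UnitAt P p f) {γ : SL(2, ℤ)} (hγ : p γ) :
    f ∉ smallAt hO p := fun h => (h γ hγ).not_unitCoeff (hf γ hγ)

/-- Unit coefficients depend only on the class modulo the small functions. -/
theorem UnitAt.of_sub_mem {f g : LRing q M O} (hf : UnitAt P p f)
    (h : f - g ∈ smallAt hO p) : UnitAt P p g := fun γ hγ => by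
  have h1 := h γ hγ
  rw [map_sub] at h1
  exact CPlace.UnitCoeff.of_serLE_sub (hf γ hγ) h1 fun n => hO (serIn_serAt γ g n)

section Unif

variable (hO' : P.IsCDVR O) {ϖ : O} (hϖ : Irreducible ϖ)
include hO' hϖ

omit [Fact (Nat.Prime q)] in
/-- The uniformiser has absolute value less than one. -/
theorem abv_unif : P.abv (ϖ : ℂ) < 1 := by
  have := hO'.dvr
  exact (hO'.mem_maximalIdeal_iff ϖ).mp
    ((IsLocalRing.mem_maximalIdeal ϖ).mpr hϖ.not_isUnit)

/-- The uniformiser is small at every cusp. -/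
theorem constL_unif_mem (p : SL(2, ℤ) → Prop) :
    (constL ϖ : LRing q M O) ∈ smallAt hO p := fun γ _ n => by
  rw [serAt_constL, HahnSeries.C_apply]
  rcases eq_or_ne n 0 with rfl | hn
  · rw [HahnSeries.coeff_single_same]; exact abv_unif hO' hϖ
  · rw [HahnSeries.coeff_single_of_ne hn]; simp

omit [Fact (Nat.Prime q)] in
/-- An element of `O` of absolute value less than one is a multiple of the uniformiser. -/
theorem exists_eq_unif_mul {z : ℂ} (hz : z ∈ O) (h : P.abv z < 1) :
    ∃ w ∈ O, z = (ϖ : ℂ) * w := by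
  have := hO'.dvr
  have hm : (⟨z, hz⟩ : O) ∈ IsLocalRing.maximalIdeal O := (hO'.mem_maximalIdeal_iff _).mpr h
  rw [hϖ.maximalIdeal_eq, Ideal.mem_span_singleton'] at hm
  obtain ⟨w, hw⟩ := hm
  exact ⟨w, w.2, by rw [mul_comm]; exact (congrArg Subtype.val hw).symm⟩

/-- The two components meet in the multiples of the uniformiser. -/
theorem dvd_of_mem_pInf_pZero {f : LRing q M O} (h1 : f ∈ pInf hO) (h2 : f ∈ pZero hO) :
    constL ϖ ∣ f := by
  have := hO'.dvr
  have hϖ0 : (ϖ : ℂ) ≠ 0 := fun h => hϖ.ne_zero (Subtype.ext h)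
  set g : ℍ → ℂ := (fun _ => (ϖ : ℂ)⁻¹) * (f : ℍ → ℂ) with hg
  have hgL : g ∈ LSub q M := mul_mem ((LSub q M).algebraMap_mem _) f.2.2
  have hgser : ∀ γ, lexp (q * M) γ g = HahnSeries.C (ϖ : ℂ)⁻¹ * serAt M O q γ f := fun γ =>
    lexp_eq ((ES.HasLExp.const _).mul (ES.hasLExp_lexp f.2.2.1 γ))
  have hmem : g ∈ LRing q M O := mem_LRing.mpr ⟨hgL, fun γ n => by
    rw [hgser, HahnSeries.C_apply, HahnSeries.coeff_single_zero_mul]
    have hlt : P.SerLT (serAt M O q γ f) := by
      by_cases hγ : γ ∈ Gamma0 q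
      · exact h1 γ hγ
      · exact h2 γ hγ
    obtain ⟨w, hw, hzw⟩ := exists_eq_unif_mul hO' hϖ (serIn_serAt γ f n) (hlt n)
    rw [hzw, inv_mul_cancel_left₀ hϖ0]
    exact hw⟩
  exact ⟨⟨g, hmem⟩, Subtype.ext (funext fun τ => by
    show (f : ℍ → ℂ) τ = (ϖ : ℂ) * ((ϖ : ℂ)⁻¹ * (f : ℍ → ℂ) τ)
    rw [mul_inv_cancel_left₀ hϖ0])⟩

/-- The uniformiser is a nonzerodivisor in `LRing q M O`. -/
theorem constL_unif_regular {x : LRing q M O} (h : constL ϖ * x = 0) : x = 0 := by
  have := hO'.dvr
  refine Subtype.ext (funext fun τ => ?_)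
  exact (mul_eq_zero.mp (congrFun (congrArg Subtype.val h) τ)).resolve_left
    fun h => hϖ.ne_zero (Subtype.ext h)

include hO in
/-- An element with a unit coefficient at every cusp is regular modulo the uniformiser. -/
theorem regMod_of_unit {f : LRing q M O} (h1 : UnitInf P f) (h2 : UnitZero P f) :
    RegMod (constL ϖ) f := fun x hx => by
  obtain ⟨w, hw⟩ := hx
  refine dvd_of_mem_pInf_pZero hO hO' hϖ (h1.mem_of_mul hO ?_) (h2.mem_of_mul hO ?_) <;>
    (rw [hw]; exact Ideal.mul_mem_right _ _ (constL_unif_mem hO hO' hϖ _))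

end Unif

/-- A prime containing the uniformiser contains one of the two components. -/
theorem mem_pInf_or_pZero {m : Ideal (LRing q M O)} (hm : m.IsPrime) (hO' : P.IsCDVR O) {ϖ : O}
    (hϖ : Irreducible ϖ) (h : constL ϖ ∈ m) :
    pInf hO ≤ m ∨ pZero hO ≤ m := by
  by_contra hne
  rw [not_or, SetLike.not_le_iff_exists, SetLike.not_le_iff_exists] at hne
  obtain ⟨⟨a, ha, ha'⟩, b, hb, hb'⟩ := hne
  obtain ⟨c, hc⟩ := dvd_of_mem_pInf_pZero hO hO' hϖ (f := a * b)
    (Ideal.mul_mem_right _ _ ha) (Ideal.mul_mem_left _ _ hb)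
  rcases hm.mem_or_mem (show a * b ∈ m by rw [hc]; exact m.mul_mem_right _ h) with h | h
  · exact ha' h
  · exact hb' h

section Atkin

variable (hM : M.Coprime q) (hζ : zetaC (q * M) ∈ O)
include hM hζ

omit hM hζ in
/-- Powers of the twisting root of unity have absolute value one. -/
theorem abv_twist (j : ℕ) (n : ℤ) : P.abv ((zetaC (q * M) ^ j) ^ n) = 1 := by
  have h : P.abv (zetaC (q * M)) = 1 := P.abv_eq_one_of_pow_eq_one (NeZero.ne (q * M))
    (ES.zetaC_isPrimitiveRoot (q * M)).pow_eq_one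
  rw [map_zpow₀, map_pow, h, one_pow, one_zpow]

/-- The Atkin operator carries `pZero` into `pInf`. -/
theorem atkinL_mem_pInf {f : LRing q M O} (hf : f ∈ pZero hO) : atkinL hM hζ f ∈ pInf hO := by
  intro γ hγ n
  obtain ⟨γ', hγ', h⟩ := hasLExp_atkin_inf hM f.2.2 hγ
  rw [serAt_apply, coe_atkinL, lexp_eq h]
  by_cases hn : (q : ℤ) ∣ n
  · obtain ⟨k, rfl⟩ := hn; rw [expandL_coeff_mul]; exact hf γ' hγ' k
  · rw [expandL_coeff_of_not_dvd q _ hn]; simp

/-- The Atkin operator carries `pInf` into `pZero`. -/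
theorem atkinL_mem_pZero {f : LRing q M O} (hf : f ∈ pInf hO) : atkinL hM hζ f ∈ pZero hO := by
  intro γ hγ n
  obtain ⟨γ', hγ', j, t, hts, h⟩ := hasLExp_atkin_zero hM f.2.2 hγ
  rw [serAt_apply, coe_atkinL, lexp_eq h, ES.coeff_twistSer, map_mul, abv_twist, mul_one,
    ← expandL_coeff_mul q t, ← hts]
  exact hf γ' hγ' _

/-- The Atkin operator carries unit coefficients at type `0` to unit coefficients at type `∞`. -/
theorem atkinL_unitInf {f : LRing q M O} (hf : UnitZero P f) :
    UnitInf P (atkinL hM hζ f) := by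
  intro γ hγ
  obtain ⟨γ', hγ', h⟩ := hasLExp_atkin_inf hM f.2.2 hγ
  obtain ⟨n, hn⟩ := hf γ' hγ'
  exact ⟨q * n, by rw [serAt_apply, coe_atkinL, lexp_eq h, expandL_coeff_mul]; exact hn⟩

/-- The Atkin operator carries unit coefficients at type `∞` to unit coefficients at type `0`. -/
theorem atkinL_unitZero {f : LRing q M O} (hf : UnitInf P f) :
    UnitZero P (atkinL hM hζ f) := by
  intro γ hγ
  obtain ⟨γ', hγ', j, t, hts, h⟩ := hasLExp_atkin_zero hM f.2.2 hγ
  obtain ⟨n, hn⟩ := hf γ' hγ'
  have hdvd : (q : ℤ) ∣ n := by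
    by_contra hd
    rw [serAt_apply, coeff_eq_zero_of_not_dvd_type f.2.2 hγ' hd, map_zero] at hn
    exact zero_ne_one hn
  obtain ⟨k, rfl⟩ := hdvd
  refine ⟨k, ?_⟩
  rw [serAt_apply, hts, expandL_coeff_mul] at hn
  rw [serAt_apply, coe_atkinL, lexp_eq h, ES.coeff_twistSer, map_mul, abv_twist, mul_one]
  exact hn

/-- If the Atkin transform has unit coefficients at type `∞`, so has `f` at type `0`. -/
theorem unitZero_of_atkinL {f : LRing q M O} (hf : UnitInf P (atkinL hM hζ f)) :
    UnitZero P f := by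
  obtain ⟨δ, hδ, h⟩ := exists_atkin_sq hM
  intro γ hγ
  have hγ' : δ⁻¹ * γ ∉ Gamma0 q := fun h' => hγ (by simpa using mul_mem hδ h')
  have h1 := atkinL_unitZero hM hζ hf (δ⁻¹ * γ) hγ'
  rwa [serAt_apply, coe_atkinL, coe_atkinL, h, lexp_act, mul_inv_cancel_left] at h1

/-- If the Atkin transform lies in `pZero` then `f` lies in `pInf`. -/
theorem mem_pInf_of_atkinL {f : LRing q M O} (hf : atkinL hM hζ f ∈ pZero hO) : f ∈ pInf hO := by
  obtain ⟨δ, hδ, h⟩ := exists_atkin_sq hM
  intro γ hγ
  have h1 := atkinL_mem_pInf hO hM hζ hf (δ⁻¹ * γ) (mul_mem (inv_mem hδ) hγ)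
  rwa [serAt_apply, coe_atkinL, coe_atkinL, h, lexp_act, mul_inv_cancel_left] at h1

/-- If the Atkin transform lies in `pInf` then `f` lies in `pZero`. -/
theorem mem_pZero_of_atkinL {f : LRing q M O} (hf : atkinL hM hζ f ∈ pInf hO) : f ∈ pZero hO := by
  obtain ⟨δ, hδ, h⟩ := exists_atkin_sq hM
  intro γ hγ
  have hγ' : δ⁻¹ * γ ∉ Gamma0 q := fun h' => hγ (by simpa using mul_mem hδ h')
  have h1 := atkinL_mem_pZero hO hM hζ hf (δ⁻¹ * γ) hγ'
  rwa [serAt_apply, coe_atkinL, coe_atkinL, h, lexp_act, mul_inv_cancel_left] at h1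

end Atkin

section Raise

variable (M)

/-- A function of level `M` as a function of level `q M`. -/
def raiseL : BRing M O →+* LRing q M O :=
  (BRing M O).subtype.codRestrict _ fun f => mem_LRing_of_BRing f.2

/-- A function of level `M` has its expansion with exponents multiplied by `q` at level `qM`. -/
theorem serAt_raiseL (γ : SL(2, ℤ)) (f : BRing M O) :
    serAt M O q γ (raiseL M f) = expandL q (lexp M γ (f : ℍ → ℂ)) := lexp_level f.2.1 γ

/-- Raising the level does not change the function. -/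
theorem coe_raiseL (f : BRing M O) : ((raiseL M f : LRing q M O) : ℍ → ℂ) = f := rfl

variable {M} {m : ℕ} (haux : ES.AuxLevel M m) (hM : M.Coprime q)
include hO haux hM

/-- A unit coefficient at one cusp at level `M` gives one at all cusps at level `qM`. -/
theorem unitAt_raiseL {f : BRing M O} (h : ∃ γ, P.UnitCoeff (lexp M γ (f : ℍ → ℂ)))
    (p : SL(2, ℤ) → Prop) : UnitAt P p (raiseL M f) := by
  intro γ _
  obtain ⟨γ0, h0⟩ := h
  have hf : (f : ℍ → ℂ) ∈ BRing M P.ring := ⟨f.2.1, fun δ n => hO (f.2.2 δ n)⟩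
  have h1 : P.UnitCoeff (ES.infExp P (⟨_, ES.act_mem_BRing hf γ0⟩ : BRing M P.ring)) := by
    rwa [ES.infExp_apply, lexp_act, mul_one]
  have h2 := ES.unitCoeff_act P haux hM h1 (γ0⁻¹ * γ)
  rw [ES.infExp_apply, lexp_act, mul_one] at h2
  rw [lexp_act, mul_inv_cancel_left] at h2
  obtain ⟨n, hn⟩ := h2
  exact ⟨q * n, by rw [serAt_raiseL, expandL_coeff_mul]; exact hn⟩

end Raise

end FermatAgent.BAD
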