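import Fermat.Agent.BAD.Trace
import Fermat.Agent.BAD.Components

/-!
# The trace from level `Γ₀(q) ∩ Γ(M)` to level `M`

`trB` maps `LRing q M O` to `BRing M O` and is congruent to the identity modulo `pInf` on
functions small at the cusps of type `0`; so with `η` the trace of the Hasse function every `η x`
comes from level `M` modulo `pInf`.
-/

set_option autoImplicit false

open UpperHalfPlane CongruenceSubgroup
open scoped MatrixGroups

noncomputable section

namespace FermatAgent.BAD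

open FermatAgent.ES (BSub BRing SerIn HasLExp lexp lexp_eq hasLExp_lexp lexp_act act zetaC CPlace)

variable (q M : ℕ) [Fact q.Prime] [NeZero M]

/-- The cosets of `lam q M` in `Γ(M)`. -/
abbrev CosetL : Type := Gamma M ⧸ (lam q M).subgroupOf (Gamma M)

instance finite_cosetL : Finite (CosetL q M) := by
  have h : (Gamma (q * M)) ≤ lam q M := gamma_qM_le
  have : (lam q M).FiniteIndex := Subgroup.finiteIndex_of_le h
  exact Subgroup.finite_quotient_of_finiteIndex

instance fintype_cosetL : Fintype (CosetL q M) := Fintype.ofFinite _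

/-- The representative of a coset. -/
def cosetRep (x : CosetL q M) : SL(2, ℤ) := ((x.out : Gamma M) : SL(2, ℤ))

/-- The trace to level `M`. -/
def trL (f : ℍ → ℂ) : ℍ → ℂ := ∑ x : CosetL q M, act (cosetRep q M x)⁻¹ f

variable {q M}

section

omit [Fact (Nat.Prime q)] [NeZero M]

/-- The representatives lie in `Γ(M)`. -/
theorem cosetRep_mem (x : CosetL q M) : cosetRep q M x ∈ Gamma M := (x.out : Gamma M).2

/-- An element differs from its representative by the level group. -/
theorem cosetRep_inv_mul {g : Gamma M} :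
    (cosetRep q M (g : CosetL q M))⁻¹ * (g : SL(2, ℤ)) ∈ lam q M :=
  Subgroup.mem_subgroupOf.mp ((QuotientGroup.eq (a := ((g : CosetL q M)).out) (b := g)).mp
    (QuotientGroup.out_eq' _))

/-- An invariant function only sees the coset. -/
theorem act_rep_inv {f : ℍ → ℂ} (hf : ∀ h ∈ lam q M, act h f = f) (g : Gamma M) :
    act (cosetRep q M (g : CosetL q M))⁻¹ f = act (g : SL(2, ℤ))⁻¹ f := by
  conv_rhs => rw [show (g : SL(2, ℤ))⁻¹ = ((cosetRep q M (g : CosetL q M))⁻¹ * g)⁻¹ *
    (cosetRep q M (g : CosetL q M))⁻¹ by group, ES.act_mul, hf _ (inv_mem cosetRep_inv_mul)]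

end

/-- Summing over the cosets is invariant under conjugation by elements of `Γ₀(q)`. -/
theorem sum_coset_conj {β : Type*} [AddCommMonoid β] {l : SL(2, ℤ)} (hl : l ∈ Gamma0 q)
    (F : SL(2, ℤ) → β) (hF : ∀ g : Gamma M, F (cosetRep q M (g : CosetL q M)) = F g) :
    ∑ x : CosetL q M, F (l⁻¹ * cosetRep q M x * l) = ∑ x : CosetL q M, F (cosetRep q M x) := by
  let c : Gamma M → Gamma M := fun g =>
    ⟨l⁻¹ * g * l, by simpa using (Gamma_normal M).conj_mem _ g.2 l⁻¹⟩
  let φ : CosetL q M → CosetL q M := fun x => (c x.out : CosetL q M)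
  have hφinj : Function.Injective φ := by
    intro x y h
    rw [← Quotient.out_eq x, ← Quotient.out_eq y]
    refine QuotientGroup.eq.mpr (Subgroup.mem_subgroupOf.mpr ?_)
    have h1 : (l⁻¹ * (x.out : SL(2, ℤ)) * l)⁻¹ * (l⁻¹ * y.out * l) ∈ lam q M :=
      Subgroup.mem_subgroupOf.mp (QuotientGroup.eq.mp h)
    have h2 := lam_normalised hl h1
    rw [show l * ((l⁻¹ * (x.out : SL(2, ℤ)) * l)⁻¹ * (l⁻¹ * y.out * l)) * l⁻¹ =
      (x.out : SL(2, ℤ))⁻¹ * y.out by group] at h2
    exact h2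
  refine Fintype.sum_bijective φ (Finite.injective_iff_bijective.mp hφinj) _ _ fun x => ?_
  exact (hF (c x.out)).symm

/-- The trace is invariant under `Γ(M)`. -/
theorem act_trL {f : ℍ → ℂ} (hf : ∀ h ∈ lam q M, act h f = f) {γ : SL(2, ℤ)} (hγ : γ ∈ Gamma M) :
    act γ (trL q M f) = trL q M f := by
  rw [trL, ES.act_sum]
  refine Fintype.sum_equiv (MulAction.toPerm ((⟨γ, hγ⟩ : Gamma M)⁻¹)) _ _ fun x => ?_
  rw [← ES.act_mul, MulAction.toPerm_apply]
  conv_rhs => rw [← Quotient.out_eq x]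
  change _ = act (cosetRep q M ((⟨γ, hγ⟩⁻¹ * x.out : Gamma M) : CosetL q M))⁻¹ f
  rw [act_rep_inv hf]
  simp [cosetRep]

/-- An expansion of a `Γ(M)`-invariant function has exponents divisible by `q`. -/
theorem coeff_eq_zero_of_inv {g : ℍ → ℂ} (hg : g ∈ BSub (q * M))
    (hinv : ∀ γ ∈ Gamma M, act γ g = g) (γ : SL(2, ℤ)) {n : ℤ} (hn : ¬ (q : ℤ) ∣ n) :
    (lexp (q * M) γ g).coeff n = 0 := by
  refine coeff_eq_zero_of_act_conj hg (hinv _ ((Gamma_normal M).conj_mem _ ?_ γ)) hn
  refine Gamma_mem.mpr ?_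
  rw [ES.T_pow_coe]; simp

theorem hasLExp_trL {f : ℍ → ℂ} (hf : f ∈ BSub (q * M)) (γ : SL(2, ℤ)) :
    HasLExp (q * M) (act γ (trL q M f))
      (∑ x : CosetL q M, lexp (q * M) ((cosetRep q M x)⁻¹ * γ) f) := by
  rw [trL, ES.act_sum]
  exact ES.HasLExp.sum _ fun x _ => by
    rw [← ES.act_mul]
    exact hasLExp_lexp hf _

theorem trL_mem_BSub_qM {f : ℍ → ℂ} (hf : f ∈ BSub (q * M)) : trL q M f ∈ BSub (q * M) :=
  Subalgebra.sum_mem _ fun _ _ => ES.act_mem_BSub hf _

/-- The expansions of the trace descend to level `M`. -/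
theorem exists_trL_descend {f : ℍ → ℂ} (hf : f ∈ LSub q M) (γ : SL(2, ℤ)) :
    ∃ t, HasLExp M (act γ (trL q M f)) t ∧
      ∑ x : CosetL q M, lexp (q * M) ((cosetRep q M x)⁻¹ * γ) f = expandL q t := by
  refine exists_hasLExp_descend (hasLExp_trL hf.1 γ) fun n hn => ?_
  rw [← lexp_eq (hasLExp_trL hf.1 γ)]
  exact coeff_eq_zero_of_inv (trL_mem_BSub_qM hf.1) (fun δ hδ => act_trL hf.2 hδ) γ hn

/-- The trace has level `M`. -/
theorem trL_mem_BSub {f : ℍ → ℂ} (hf : f ∈ LSub q M) : trL q M f ∈ BSub M :=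
  ⟨fun _ hδ => act_trL hf.2 hδ, fun γ => ⟨_, (exists_trL_descend hf γ).choose_spec.1⟩⟩

variable {O : Subring ℂ}

/-- The trace preserves integrality. -/
theorem trL_mem_BRing {f : ℍ → ℂ} (hf : f ∈ LRing q M O) : trL q M f ∈ BRing M O := by
  refine ⟨trL_mem_BSub hf.2, fun γ n => ?_⟩
  obtain ⟨t, ht, hts⟩ := exists_trL_descend hf.2 γ
  rw [lexp_eq ht, ← expandL_coeff_mul q t n, ← hts, HahnSeries.coeff_sum]
  exact Subring.sum_mem _ fun x _ => hf.1.2 _ _

/-- The trace on the integral ring. -/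
def trB (f : LRing q M O) : BRing M O := ⟨_, trL_mem_BRing f.2⟩

variable {P : CPlace q} (hO : O ≤ P.ring)

omit [Fact (Nat.Prime q)] [NeZero M] in
/-- The representative of a nontrivial coset lies outside `Γ₀(q)`. -/
theorem cosetRep_not_mem {x : CosetL q M} (hx : x ≠ ((1 : Gamma M) : CosetL q M)) :
    cosetRep q M x ∉ Gamma0 q := fun h => hx (by
  rw [← Quotient.out_eq x]
  refine QuotientGroup.eq.mpr ?_
  rw [mul_one, inv_mem_iff]
  exact Subgroup.mem_inf.mpr ⟨h, cosetRep_mem x⟩)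

/-- The trace of a function small at the cusps of type `0` is congruent to it at those of
type `∞`. -/
theorem trB_sub_mem_pInf {f : LRing q M O} (hf : f ∈ pZero hO) :
    raiseL M (trB f) - f ∈ pInf hO := by
  classical
  intro γ hγ
  rw [map_sub, serAt_apply, coe_raiseL, show ((trB f : BRing M O) : ℍ → ℂ) = trL q M f from rfl,
    lexp_eq (hasLExp_trL f.2.2.1 γ),
    ← Finset.add_sum_erase _ _ (Finset.mem_univ ((1 : Gamma M) : CosetL q M))]
  have h1 : lexp (q * M) ((cosetRep q M ((1 : Gamma M) : CosetL q M))⁻¹ * γ) (f : ℍ → ℂ) =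
      lexp (q * M) γ (f : ℍ → ℂ) := by
    rw [← lexp_act, act_rep_inv f.2.2.2, Subgroup.coe_one, inv_one, ES.act_one]
  rw [h1, serAt_apply, add_sub_cancel_left]
  refine Finset.sum_induction _ P.SerLT (fun _ _ => CPlace.SerLT.add) (fun n => by simp)
    fun x hx => ?_
  refine hf _ fun hmem => cosetRep_not_mem (Finset.ne_of_mem_erase hx) ?_
  simpa using mul_mem hγ (inv_mem hmem)

section Eta

variable {m : ℕ} (haux : ES.AuxLevel M m) (hM : M.Coprime q) (hA : ES.GoodRoot M O (zetaC M))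
  (hζ : zetaC (q * M) ∈ O)

/-- The trace of `hasseL`, of level `M`. -/
def eta : BRing M O := trB (hasseL haux hM hA hζ)

include hO in
/-- `η` is the Hasse function modulo `pInf`. -/
theorem eta_sub_mem_pInf : raiseL M (eta haux hM hA hζ) - hasseL haux hM hA hζ ∈ pInf hO :=
  trB_sub_mem_pInf hO (hasseL_mem_pZero haux hM hA hζ hO)

include hO in
/-- **Modulo the component at infinity, `η x` comes from level `M`.** -/
theorem eta_mul_sub_mem_pInf (x : LRing q M O) :
    raiseL M (eta haux hM hA hζ) * x - raiseL M (trB (hasseL haux hM hA hζ * x)) ∈ pInf hO := by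
  have h1 := trB_sub_mem_pInf hO
    (Ideal.mul_mem_right x _ (hasseL_mem_pZero haux hM hA hζ hO))
  have h2 := Ideal.mul_mem_right x _ (eta_sub_mem_pInf hO haux hM hA hζ)
  convert sub_mem h2 h1 using 1
  ring

include hO in
/-- `η` has unit coefficients at the cusps of type `∞`. -/
theorem eta_unitInf (hqm : q ≠ m) : UnitInf P (raiseL M (eta haux hM hA hζ) : LRing q M O) :=
  UnitAt.of_sub_mem hO (hasseL_unitInf haux hM hA hζ hO hqm) (by
    rw [← neg_sub]; exact neg_mem (eta_sub_mem_pInf hO haux hM hA hζ))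

end Eta

end FermatAgent.BAD
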