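import Fermat.Agent.ES.Ring.LeadUnit
import Mathlib.RingTheory.PowerSeries.Expand

/-!
# Integral power series as Laurent series

An integral power series is a Laurent series with integral coefficients, and substituting `X^r`
for the variable is injective.
-/

set_option autoImplicit false

namespace FermatAgent.BAD

variable {K : Type*} [Field K] {A : Subring K}

/-- A power series with coefficients in `A` is a Laurent series with coefficients in `A`. -/
theorem serIn_ofPowerSeries_of_coeff {c : PowerSeries K} (hc : ∀ e, PowerSeries.coeff e c ∈ A) :
    ES.SerIn A (HahnSeries.ofPowerSeries ℤ K c) := by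
  rw [show c = (PowerSeries.mk fun e => (⟨_, hc e⟩ : A)).map A.subtype from
    PowerSeries.ext fun e => by simp]
  exact ES.SerIn.ofPowerSeries _

/-- Substituting `X ^ r`, `r ≠ 0`, into a nonzero series gives a nonzero series. -/
theorem expand_ne_zero {R : Type*} [CommRing R] {r : ℕ} (hr : r ≠ 0) {f : PowerSeries R}
    (hf : f ≠ 0) : PowerSeries.expand r hr f ≠ 0 := fun h =>
  hf (PowerSeries.ext fun t => by
    have h1 := congrArg (PowerSeries.coeff (r * t)) h
    rwa [PowerSeries.coeff_expand_mul, map_zero] at h1)

end FermatAgent.BAD
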