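import Fermat.Agent.BAD.Trace
import Fermat.Agent.ES.Ring.Deriv
import Mathlib.Analysis.Complex.LocallyUniformLimit

/-!
# The derivation `M D / W` on functions of level `M` and its effect on expansions

`thetaSer` is `q d/dq` on Laurent series. For the auxiliary form `W` of weight two, `dW f = M Df /
W` is again a function of level `M`, preserves integrality, and its expansions are those of `f`
differentiated and divided by the expansion of `W`.
-/

set_option autoImplicit false

open Filter Topology UpperHalfPlane CongruenceSubgroup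
open scoped MatrixGroups Manifold ModularForm

noncomputable section

namespace FermatAgent.BAD

open FermatAgent.ES (BSub BRing SerIn HasExp HasLExp lexp lexp_eq hasLExp_lexp act zetaC AuxLevel
  CPlace GoodRoot qm auxW)

local notation "Dq" => Derivative.normalizedDerivOfComplex

section Theta

variable {R : Type*} [CommRing R]

/-- `q d/dq` on Laurent series. -/
def thetaSer : LaurentSeries R →+ LaurentSeries R where
  toFun s :=
    { coeff := fun n => (n : R) * s.coeff n
      isPWO_support' := s.isPWO_support.mono fun n hn h => hn (by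
        show (n : R) * s.coeff n = 0
        rw [h, mul_zero]) }
  map_zero' := by ext n; simp
  map_add' s t := by ext n; simp [mul_add]

/-- The `n`-th coefficient of `q d/dq s` is `n s_n`. -/
@[simp] theorem coeff_thetaSer (s : LaurentSeries R) (n : ℤ) :
    (thetaSer s).coeff n = (n : R) * s.coeff n := rfl

theorem support_thetaSer_subset (s : LaurentSeries R) :
    (thetaSer s).support ⊆ s.support := fun n hn h => hn (by
  show (n : R) * s.coeff n = 0
  rw [h, mul_zero])

/-- `q d/dq` satisfies the Leibniz rule. -/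
theorem thetaSer_mul (s t : LaurentSeries R) :
    thetaSer (s * t) = thetaSer s * t + s * thetaSer t := by
  ext n
  rw [HahnSeries.coeff_add, coeff_thetaSer, HahnSeries.coeff_mul,
    HahnSeries.coeff_mul_left' (x := thetaSer s) (y := t) s.isPWO_support
      (support_thetaSer_subset s),
    HahnSeries.coeff_mul_right' (x := s) (y := thetaSer t) t.isPWO_support
      (support_thetaSer_subset t), Finset.mul_sum, ← Finset.sum_add_distrib]
  refine Finset.sum_congr rfl fun x hx => ?_
  rw [Finset.mem_antidiagonal] at hx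
  rw [← hx.2.2, coeff_thetaSer, coeff_thetaSer]
  push_cast
  ring

theorem thetaSer_single (k : ℤ) (a : R) :
    thetaSer (HahnSeries.single k a) = HahnSeries.single k ((k : R) * a) := by
  ext n
  rcases eq_or_ne n k with rfl | h
  · simp
  · simp [HahnSeries.coeff_single_of_ne h]

/-- `q d/dq` kills constants. -/
theorem thetaSer_C (a : R) : thetaSer (HahnSeries.C a) = 0 := by
  rw [HahnSeries.C_apply, thetaSer_single]; simp

/-- `q d/dq` on power series. -/
theorem thetaSer_ofPowerSeries (c : PowerSeries R) :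
    thetaSer (HahnSeries.ofPowerSeries ℤ R c) =
      HahnSeries.ofPowerSeries ℤ R (PowerSeries.mk fun e => (e : R) * PowerSeries.coeff e c) := by
  ext n
  rw [coeff_thetaSer]
  rcases le_or_gt 0 n with hn | hn
  · lift n to ℕ using hn
    rw [HahnSeries.ofPowerSeries_apply_coeff, HahnSeries.ofPowerSeries_apply_coeff,
      PowerSeries.coeff_mk, Int.cast_natCast]
  · rw [HahnSeries.ofPowerSeries_apply, HahnSeries.ofPowerSeries_apply,
      HahnSeries.embDomain_of_notMem_range, HahnSeries.embDomain_of_notMem_range, mul_zero] <;>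
    · rintro ⟨k, hk⟩
      simp at hk
      omega

/-- `q d/dq` of `s(X^q)` is `q` times the derivative of `s` evaluated at `X^q`. -/
theorem thetaSer_expandL (q : ℕ) [NeZero q] (s : LaurentSeries R) :
    thetaSer (expandL q s) = (q : LaurentSeries R) * expandL q (thetaSer s) := by
  ext n
  rw [coeff_thetaSer, ← map_natCast (HahnSeries.C (Γ := ℤ) (R := R)), HahnSeries.C_mul_eq_smul,
    HahnSeries.coeff_smul, smul_eq_mul]
  by_cases hn : (q : ℤ) ∣ n
  · obtain ⟨k, rfl⟩ := hn
    rw [expandL_coeff_mul, expandL_coeff_mul, coeff_thetaSer]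
    push_cast
    ring
  · rw [expandL_coeff_of_not_dvd q _ hn, expandL_coeff_of_not_dvd q _ hn, mul_zero, mul_zero]

/-- `q d/dq` of a power. -/
theorem thetaSer_pow_succ (s : LaurentSeries R) (k : ℕ) :
    thetaSer (s ^ (k + 1)) = ((k + 1 : ℕ) : LaurentSeries R) * s ^ k * thetaSer s := by
  induction k with
  | zero => simp
  | succ k ih =>
    rw [pow_succ, thetaSer_mul, ih]
    push_cast
    ring

end Theta

/-- `q d/dq` preserves integrality of coefficients. -/
theorem serIn_thetaSer {A : Subring ℂ} {s : LaurentSeries ℂ} (h : SerIn A s) :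
    SerIn A (thetaSer s) := fun n => A.mul_mem (intCast_mem A n) (h n)

section Analytic

variable {M : ℕ} [NeZero M] {f : ℍ → ℂ}

/-- Termwise differentiation. -/
theorem hasExp_deriv {c : PowerSeries ℂ} (hc : HasExp M f c) :
    HasExp M (fun τ => (M : ℂ) * Dq f τ)
      (PowerSeries.mk fun e => (e : ℂ) * PowerSeries.coeff e c) := by
  intro τ
  set F : ℕ → ℂ → ℂ := fun e w =>
    PowerSeries.coeff e c * Function.Periodic.qParam (M : ℝ) w ^ e
  set U : Set ℂ := {w | τ.im / 2 < w.im}
  have hU : IsOpen U := isOpen_lt continuous_const Complex.continuous_im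
  set r : ℝ := Real.exp (-2 * Real.pi * (τ.im / 2) / M)
  have hM0 : (0 : ℝ) < M := by exact_mod_cast NeZero.pos M
  have hr : r < 1 := by
    rw [Real.exp_lt_one_iff]
    refine div_neg_of_neg_of_pos ?_ hM0
    nlinarith [Real.pi_pos, τ.im_pos]
  have hr0 : 0 < r := Real.exp_pos _
  have hu : Summable fun e => ‖PowerSeries.coeff e c‖ * r ^ e := by
    have h := (hc.hasSum_disc (q := (r : ℂ)) (by
      rw [Complex.norm_real, Real.norm_eq_abs, abs_of_pos hr0]; exact hr)).summable.norm
    simpa [abs_of_pos hr0] using h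
  have hdiff : ∀ e, DifferentiableOn ℂ (F e) U := fun e =>
    (((Function.Periodic.differentiable_qParam (h := (M : ℝ))).pow e).const_mul _).differentiableOn
  have hle : ∀ (e : ℕ) (w : ℂ), w ∈ U → ‖F e w‖ ≤ ‖PowerSeries.coeff e c‖ * r ^ e := by
    intro e w hw
    rw [norm_mul, norm_pow, Function.Periodic.norm_qParam]
    refine mul_le_mul_of_nonneg_left (pow_le_pow_left₀ (Real.exp_nonneg _) ?_ e) (norm_nonneg _)
    refine Real.exp_le_exp.mpr (div_le_div_of_nonneg_right ?_ hM0.le)
    have hw' : τ.im / 2 < w.im := hw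
    nlinarith [Real.pi_pos]
  have hτU : (τ : ℂ) ∈ U := by
    show τ.im / 2 < τ.im
    linarith [τ.im_pos]
  have h := Complex.hasSum_deriv_of_summable_norm hu hdiff hU hle hτU
  have hev : (fun w => ∑' e, F e w) =ᶠ[𝓝 (τ : ℂ)] (f ∘ ofComplex) := by
    filter_upwards [isOpen_upperHalfPlaneSet.mem_nhds τ.im_pos] with w hw
    rw [Function.comp_apply, ofComplex_apply_of_im_pos hw]
    exact (hc ⟨w, hw⟩).tsum_eq
  rw [hev.deriv_eq] at h
  have hπ : (2 : ℂ) * Real.pi * Complex.I ≠ 0 :=
    mul_ne_zero (mul_ne_zero two_ne_zero (by exact_mod_cast Real.pi_ne_zero)) Complex.I_ne_zero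
  show HasSum _ ((M : ℂ) * Dq f τ)
  rw [show (M : ℂ) * Dq f τ = (M : ℂ) * (2 * Real.pi * Complex.I)⁻¹ *
    deriv (f ∘ ofComplex) (τ : ℂ) by rw [Derivative.normalizedDerivOfComplex]; ring]
  refine (h.mul_left ((M : ℂ) * (2 * Real.pi * Complex.I)⁻¹)).congr_fun fun e => ?_
  have hd := (ES.hasDerivAt_qm_zpow M (e : ℤ) (τ : ℂ)).const_mul (PowerSeries.coeff e c)
  have hF : F e = fun w => PowerSeries.coeff e c *
      Complex.exp (2 * Real.pi * Complex.I * w / M) ^ (e : ℤ) := by
    funext w
    simp [F, Function.Periodic.qParam]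
  rw [hF, hd.deriv, PowerSeries.coeff_mk, ES.qm_eq, zpow_natCast]
  have hM : (M : ℂ) ≠ 0 := Nat.cast_ne_zero.mpr (NeZero.ne M)
  push_cast
  field_simp

/-- `M D` is `q d/dq` on expansions. -/
theorem hasLExp_deriv {s : LaurentSeries ℂ} (h : HasLExp M f s) :
    HasLExp M (fun τ => (M : ℂ) * Dq f τ) (thetaSer s) := by
  obtain ⟨r, c, hc, rfl⟩ := h
  set g := fun τ => qm M τ ^ r * f τ
  have hf : f = fun τ => qm M τ ^ (-(r : ℤ)) * g τ := funext fun τ => by
    rw [zpow_neg, zpow_natCast, ← mul_assoc, inv_mul_cancel₀ (pow_ne_zero r (ES.qm_ne_zero M τ)),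
      one_mul]
  refine ⟨r, PowerSeries.mk (fun e => (e : ℂ) * PowerSeries.coeff e c) -
    PowerSeries.C (r : ℂ) * c, ?_, ?_⟩
  · refine ((hasExp_deriv hc).sub (hc.smul (r : ℂ))).congr_fun fun τ => ?_
    have hd := ES.deriv_qm_zpow_mul (M := M) (-(r : ℤ)) hc.mdifferentiable τ
    rw [← hf] at hd
    simp only [Pi.sub_apply, hd, zpow_neg, zpow_natCast]
    have hM : (M : ℂ) ≠ 0 := Nat.cast_ne_zero.mpr (NeZero.ne M)
    have hq := pow_ne_zero r (ES.qm_ne_zero M τ)
    push_cast
    field_simp
    ring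
  · rw [thetaSer_mul, map_sub, map_mul, HahnSeries.ofPowerSeries_C, ← thetaSer_ofPowerSeries,
      thetaSer_single, mul_one, Int.cast_neg, Int.cast_natCast, mul_sub, HahnSeries.C_apply,
      ← mul_assoc, HahnSeries.single_mul_single, add_zero, one_mul,
      show HahnSeries.single (-(r : ℤ)) (-(r : ℂ)) = -HahnSeries.single (-(r : ℤ)) (r : ℂ) from by
        ext n; rcases eq_or_ne n (-(r : ℤ)) with rfl | hn <;> simp_all]
    ring

variable {m : ℕ} (haux : AuxLevel M m)

/-- The derivation `M D / W`. -/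
def dW (f : ℍ → ℂ) : ℍ → ℂ := fun τ => (M : ℂ) * Dq f τ / auxW haux τ

/-- The transform of `M Df / W` at a cusp. -/
theorem act_dW {f : ℍ → ℂ} (hf : MDiff f) (γ : SL(2, ℤ)) : act γ (dW haux f) = fun τ =>
    (M : ℂ) * Dq (act γ f) τ /
      ES.dif M (ES.vmul M (ES.refB haux.dvd) γ) (ES.vmul M (ES.refA haux.dvd) γ) τ := by
  funext τ
  have h := congrFun (Derivative.normalizedDerivOfComplex_SL_slash (k := 0) hf (γ := γ)) τ
  rw [ES.slash_zero_eq_act] at h
  simp only [Pi.sub_apply, ModularForm.SL_slash_apply] at h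
  rw [ES.act_apply, dW, auxW, ES.dif_smul, h]
  have := UpperHalfPlane.denom_ne_zero (γ : GL (Fin 2) ℝ) τ
  simp only [Int.cast_zero, zero_mul, sub_zero, zero_add, zpow_neg, zpow_ofNat]
  field_simp

/-- The expansion of `M Df / W` at a cusp. -/
theorem hasLExp_dW {f : ℍ → ℂ} (hf : f ∈ BSub M) (γ : SL(2, ℤ)) :
    HasLExp M (act γ (dW haux f)) (thetaSer (lexp M γ f) * (wSer haux γ)⁻¹) := by
  refine ((hasLExp_deriv (hasLExp_lexp hf γ)).mul ((hasLExp_auxW_conj haux γ).inv
    (fun τ => ((ES.adm_ref haux).mul γ).dif_ne_zero τ) (wSer_ne_zero haux γ))).congr_fun fun τ => ?_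
  rw [act_dW haux (ES.mdifferentiable_of_mem hf)]
  simp [div_eq_mul_inv]

theorem dW_mem_BSub {f : ℍ → ℂ} (hf : f ∈ BSub M) : dW haux f ∈ BSub M := by
  refine ⟨fun γ hγ => ?_, fun γ => ⟨_, hasLExp_dW haux hf γ⟩⟩
  rw [act_dW haux (ES.mdifferentiable_of_mem hf), hf.1 γ hγ, ES.vmul_of_mem hγ, ES.vmul_of_mem hγ]
  rfl

/-- `M D / W` preserves `BRing M A`. -/
theorem dW_mem_BRing {A : Subring ℂ} (hA : GoodRoot M A (zetaC M)) {f : ℍ → ℂ}
    (hf : f ∈ BRing M A) : dW haux f ∈ BRing M A :=
  ⟨dW_mem_BSub haux hf.1, fun γ => by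
    rw [lexp_eq (hasLExp_dW haux hf.1 γ)]
    exact (serIn_thetaSer (hf.2 γ)).mul (wSer_inv_serIn haux hA γ).2⟩

/-- The expansion of `M Df / W` times that of `W` is `q d/dq` of that of `f`. -/
theorem lexp_dW {f : ℍ → ℂ} (hf : f ∈ BSub M) (γ : SL(2, ℤ)) :
    lexp M γ (dW haux f) * wSer haux γ = thetaSer (lexp M γ f) := by
  rw [lexp_eq (hasLExp_dW haux hf γ), mul_assoc, inv_mul_cancel₀ (wSer_ne_zero haux γ), mul_one]

end Analytic

end FermatAgent.BAD
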