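import Fermat.Agent.BAD.Kron

/-!
# The trace to level `M` modulo the component at infinity

`hasseFun τ = W(τ) / W(q τ)` for the weight two difference `W` is a unit on the component at `∞`
and small on the other one, so multiplication by it turns the trace to level `M` into the identity
modulo the component at `∞`.
-/

set_option autoImplicit false

open UpperHalfPlane CongruenceSubgroup
open scoped MatrixGroups

noncomputable section

namespace FermatAgent.BAD

open FermatAgent.ES (BSub BRing SerIn HasLExp lexp lexp_eq hasLExp_lexp lexp_act act zetaC CPlace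
  twistSer scaleVec vmul AuxLevel difLaurent auxW refA refB)

variable {q M m : ℕ} [Fact q.Prime] [NeZero M]

/-- `W(τ) / W(q τ)`. -/
def hasseFun (haux : AuxLevel M m) (q : ℕ) [NeZero q] : ℍ → ℂ := fun τ =>
  auxW haux τ / auxW haux (dilPt q τ)

/-- Twisting commutes with inverses. -/
theorem twistSer_inv {c : ℂ} (hc : c ≠ 0) {s : LaurentSeries ℂ} (hs : s ≠ 0) :
    (twistSer c s)⁻¹ = twistSer c s⁻¹ :=
  (eq_inv_of_mul_eq_one_left
    (by rw [← twistSer_mul c hc, inv_mul_cancel₀ hs, ES.twistSer_one])).symm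

/-- Twisting keeps series nonzero. -/
theorem twistSer_ne_zero {c : ℂ} (hc : c ≠ 0) {s : LaurentSeries ℂ} (hs : s ≠ 0) :
    twistSer c s ≠ 0 := fun h => hs (HahnSeries.ext (funext fun n => by
  have := congrArg (fun u => u.coeff n) h
  simpa [zpow_ne_zero _ hc] using this))

omit [NeZero M] in
/-- The reference vectors are fixed up to sign by `q`. -/
theorem qFix_ref (haux : AuxLevel M m) (hqm : q ≠ m) :
    (scaleVec (q : ZMod M) (refB (M := M) haux.dvd) = refB (M := M) haux.dvd ∨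
      scaleVec (q : ZMod M) (refB (M := M) haux.dvd) = -refB (M := M) haux.dvd) ∧
    (scaleVec (q : ZMod M) (refA (M := M) haux.dvd) = refA (M := M) haux.dvd ∨
      scaleVec (q : ZMod M) (refA (M := M) haux.dvd) = -refA (M := M) haux.dvd) := by
  refine ⟨Or.inl ?_, ?_⟩
  · funext i
    fin_cases i
    · rfl
    · simp [scaleVec, refB, ES.baseVec, ES.embVec]
  · rcases qFix_embVec (q := q) haux hqm (ES.baseVec m 0) with h | h
    · left
      funext i
      have h1 := congrFun h 1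
      fin_cases i <;> simp_all [scaleVec, refA]
    · right
      funext i
      have h0 : ES.embVec haux.dvd (ES.baseVec m 0) 0 = 0 := by simp [ES.embVec, ES.baseVec]
      have h1 := congrFun h 1
      fin_cases i <;> simp_all [scaleVec, refA]

variable (haux : AuxLevel M m)

section Denom

/-- The automorphy denominators under dilation. -/
theorem denom_dil_conj {γ γ' : SL(2, ℤ)} (h10 : (q : ℤ) * γ' 1 0 = γ 1 0)
    (h11 : γ' 1 1 = γ 1 1) (τ : ℍ) :
    UpperHalfPlane.denom γ' (dilPt q τ) = UpperHalfPlane.denom γ τ := by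
  have e := congrArg (Int.cast : ℤ → ℂ) h10
  push_cast at e
  rw [ModularGroup.denom_apply, ModularGroup.denom_apply, coe_dilPt, h11, ← e]
  ring

/-- The automorphy denominators under contraction. -/
theorem denom_ctr_conj {γ γ' : SL(2, ℤ)} {j : ℕ} (h10 : γ' 1 0 = γ 1 0)
    (h11 : (q : ℤ) * γ' 1 1 = γ 1 1 - j * γ 1 0) (τ : ℍ) :
    (q : ℂ) * UpperHalfPlane.denom γ' (ctrPt q j τ) = UpperHalfPlane.denom γ τ := by
  have e := congrArg (Int.cast : ℤ → ℂ) h11
  push_cast at e
  rw [ModularGroup.denom_apply, ModularGroup.denom_apply, coe_ctrPt, h10, mul_add,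
    mul_left_comm, mul_div_cancel₀ _ (Nat.cast_ne_zero.mpr (NeZero.ne q))]
  linear_combination e

end Denom

/-- The expansion of a transform of the standard form. -/
theorem hasLExp_auxW_conj (γ : SL(2, ℤ)) :
    HasLExp M (ES.dif M (vmul M (refB haux.dvd) γ) (vmul M (refA haux.dvd) γ))
      (difLaurent M (zetaC M) (vmul M (refB haux.dvd) γ) (vmul M (refA haux.dvd) γ)) :=
  ES.hasLExp_dif ((ES.adm_ref haux).mul γ).left ((ES.adm_ref haux).mul γ).right

/-- Its leading coefficient is a unit. -/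
theorem leadUnit_auxW_conj {A : Subring ℂ} (hA : ES.GoodRoot M A (zetaC M)) (γ : SL(2, ℤ)) :
    ∃ k, ES.LeadUnit A
      (difLaurent M (zetaC M) (vmul M (refB haux.dvd) γ) (vmul M (refA haux.dvd) γ)) k :=
  ⟨_, ES.leadUnit_difLaurent hA ((ES.adm_ref haux).mul γ).left ((ES.adm_ref haux).mul γ).right
    ((ES.adm_ref haux).mul γ).ne ((ES.adm_ref haux).mul γ).ne_neg⟩

/-- The expansion of `W` at `γ`, in the parameter of level `M`. -/
def wSer (γ : SL(2, ℤ)) : LaurentSeries ℂ :=
  difLaurent M (zetaC M) (vmul M (refB haux.dvd) γ) (vmul M (refA haux.dvd) γ)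

/-- The expansion of `W` is nonzero. -/
theorem wSer_ne_zero (γ : SL(2, ℤ)) : wSer haux γ ≠ 0 :=
  (leadUnit_auxW_conj haux ES.zetaC_goodRoot_top γ).choose_spec.ne_zero

/-- The expansion of `W` and its inverse are integral. -/
theorem wSer_inv_serIn {A : Subring ℂ} (hA : ES.GoodRoot M A (zetaC M)) (γ : SL(2, ℤ)) :
    SerIn A (wSer haux γ) ∧ SerIn A (wSer haux γ)⁻¹ := by
  obtain ⟨k, hk⟩ := leadUnit_auxW_conj haux hA γ
  exact ⟨hk.serIn, hk.inv.serIn⟩

variable (hM : M.Coprime q)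
include hM

omit hM in
/-- The expansion of the Hasse function at a cusp of type `∞`. -/
theorem hasLExp_hasse_inf {γ : SL(2, ℤ)} (hγ : γ ∈ Gamma0 q) :
    ∃ γ' : SL(2, ℤ), ES.GalRel (q : ZMod M) γ γ' ∧
      HasLExp (q * M) (act γ (hasseFun haux q))
        (expandL q (wSer haux γ * (expandL q (wSer haux γ'))⁻¹)) := by
  obtain ⟨γ', h00, h01, h10, h11, h⟩ := exists_dil_conj q γ (mem_Gamma0_dvd.mp hγ)
  refine ⟨γ', galRel_of_dil h00 h01 h10 h11, ?_⟩
  rw [map_mul, map_inv₀]
  have e1 := hasLExp_raise q (hasLExp_auxW_conj haux γ)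
  have e2 := hasLExp_raise q (hasLExp_dilFun q (hasLExp_auxW_conj haux γ'))
  refine (e1.mul (e2.inv (fun τ => ((ES.adm_ref haux).mul γ').dif_ne_zero _) ?_)).congr_fun
    fun τ => ?_
  · exact (map_ne_zero_iff _ (expandL_injective q)).mpr
      ((map_ne_zero_iff _ (expandL_injective q)).mpr (wSer_ne_zero haux γ'))
  · rw [ES.act_apply, hasseFun, auxW, h, ES.dif_smul, ES.dif_smul, denom_dil_conj h10 h11,
      mul_div_mul_left _ _ (pow_ne_zero 2 (UpperHalfPlane.denom_ne_zero _ τ)), Pi.mul_apply,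
      Pi.inv_apply, dilFun_apply, div_eq_mul_inv]

theorem hasLExp_hasse_zero {γ : SL(2, ℤ)} (hγ : γ ∉ Gamma0 q) :
    ∃ (γ' : SL(2, ℤ)) (j : ℕ), HasLExp (q * M) (act γ (hasseFun haux q))
      (HahnSeries.C ((q : ℂ) ^ 2) * (expandL q (wSer haux γ) *
        twistSer (zetaC (q * M) ^ j) (wSer haux γ')⁻¹)) := by
  obtain ⟨j, -, hjd⟩ := exists_ctr_index q Fact.out hM γ fun hd => hγ (mem_Gamma0_dvd.mpr hd)
  obtain ⟨γ', h00, h01, h10, h11, h⟩ := exists_ctr_conj q γ j hjd
  refine ⟨γ', j, ?_⟩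
  have hz : zetaC (q * M) ^ j ≠ 0 :=
    pow_ne_zero _ ((ES.zetaC_isPrimitiveRoot (q * M)).ne_zero (NeZero.ne (q * M)))
  rw [← twistSer_inv hz (wSer_ne_zero haux γ')]
  have e1 := hasLExp_raise q (hasLExp_auxW_conj haux γ)
  have e2 := hasLExp_ctrPt q (hasLExp_auxW_conj haux γ') j
  refine ((ES.HasLExp.const ((q : ℂ) ^ 2)).mul (e1.mul (e2.inv (fun τ =>
    ((ES.adm_ref haux).mul γ').dif_ne_zero _)
      (twistSer_ne_zero hz (wSer_ne_zero haux γ'))))).congr_fun
    fun τ => ?_
  rw [ES.act_apply, hasseFun, auxW, h, ES.dif_smul, ES.dif_smul, ← denom_ctr_conj h10 h11 τ,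
    Pi.mul_apply, Pi.mul_apply, Pi.inv_apply]
  have h1 := UpperHalfPlane.denom_ne_zero (γ' : GL (Fin 2) ℝ) (ctrPt q j τ)
  have h2 := ((ES.adm_ref haux).mul γ').dif_ne_zero (ctrPt q j τ)
  field_simp

/-- The Hasse function is invariant of level `qM`. -/
theorem hasse_mem_LSub : hasseFun haux q ∈ LSub q M := by
  have hinv : ∀ γ ∈ lam q M, act γ (hasseFun haux q) = hasseFun haux q := by
    intro γ hγ
    obtain ⟨γ', h00, h01, h10, h11, h⟩ := exists_dil_conj q γ (mem_Gamma0_dvd.mp hγ.1)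
    funext τ
    rw [ES.act_apply, hasseFun, auxW, h, ES.dif_smul, ES.dif_smul, denom_dil_conj h10 h11,
      mul_div_mul_left _ _ (pow_ne_zero 2 (UpperHalfPlane.denom_ne_zero _ τ)),
      ES.vmul_of_mem hγ.2, ES.vmul_of_mem hγ.2,
      ES.vmul_of_mem (dil_conj_mem hM hγ.2 h00 h01 h10 h11),
      ES.vmul_of_mem (dil_conj_mem hM hγ.2 h00 h01 h10 h11)]
    rfl
  refine ⟨⟨fun γ hγ => hinv γ (gamma_qM_le hγ), fun γ => ?_⟩, hinv⟩
  by_cases hγ : γ ∈ Gamma0 q
  · obtain ⟨γ', -, h⟩ := hasLExp_hasse_inf haux hγ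
    exact ⟨_, h⟩
  · obtain ⟨γ', j, h⟩ := hasLExp_hasse_zero haux hM hγ
    exact ⟨_, h⟩

variable {O : Subring ℂ} (hA : ES.GoodRoot M O (zetaC M)) (hζ : zetaC (q * M) ∈ O)
include hA hζ

/-- The Hasse function is integral. -/
theorem hasse_mem_LRing : hasseFun haux q ∈ LRing q M O := by
  refine mem_LRing.mpr ⟨hasse_mem_LSub haux hM, fun γ => ?_⟩
  by_cases hγ : γ ∈ Gamma0 q
  · obtain ⟨γ', -, h⟩ := hasLExp_hasse_inf haux hγ
    rw [lexp_eq h, ← map_inv₀]
    exact expandL_serIn ((wSer_inv_serIn haux hA γ).1.mul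
      (expandL_serIn (wSer_inv_serIn haux hA γ').2))
  · obtain ⟨γ', j, h⟩ := hasLExp_hasse_zero haux hM hγ
    rw [lexp_eq h]
    exact (SerIn.C (O.pow_mem (natCast_mem O q) 2)).mul
      ((expandL_serIn (wSer_inv_serIn haux hA γ).1).mul
        (serIn_twist (wSer_inv_serIn haux hA γ').2 hζ j))

/-- `hasseFun` as an element of the ring. -/
def hasseL : LRing q M O := ⟨_, hasse_mem_LRing haux hM hA hζ⟩

variable {P : CPlace q} (hO : O ≤ P.ring) (hqm : q ≠ m)
include hO

/-- The Hasse function is small at the cusps of type `0`. -/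
theorem hasseL_mem_pZero : hasseL haux hM hA hζ ∈ pZero hO := by
  intro γ hγ
  obtain ⟨γ', j, h⟩ := hasLExp_hasse_zero haux hM hγ
  rw [serAt_apply, show ((hasseL haux hM hA hζ : LRing q M O) : ℍ → ℂ) = hasseFun haux q from rfl,
    lexp_eq h]
  refine CPlace.SerLT.mul_serIn (fun n => ?_) fun n => hO (((expandL_serIn
    (wSer_inv_serIn haux hA γ).1).mul (serIn_twist (wSer_inv_serIn haux hA γ').2 hζ j)) n)
  rw [HahnSeries.C_apply]
  rcases eq_or_ne n 0 with rfl | hn
  · rw [HahnSeries.coeff_single_same, map_pow]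
    exact pow_lt_one₀ (P.abv.nonneg _) (by simpa using P.lt_one) two_ne_zero
  · rw [HahnSeries.coeff_single_of_ne hn]; simp

include hqm

/-- On the component at `∞` the function is `W ^ (1 - q)`. -/
theorem hasse_ser {γ : SL(2, ℤ)} (hγ : γ ∈ Gamma0 q) :
    P.SerLT (serAt M O q γ (hasseL haux hM hA hζ) * expandL q (wSer haux γ ^ (q - 1)) - 1) := by
  obtain ⟨γ', hr, h⟩ := hasLExp_hasse_inf haux hγ
  rw [serAt_apply, show ((hasseL haux hM hA hζ : LRing q M O) : ℍ → ℂ) = hasseFun haux q from rfl,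
    lexp_eq h, ← map_mul, ← map_one (expandL q (R := ℂ)), ← map_sub]
  have hu : ES.Adm M (refB (M := M) haux.dvd) (refA haux.dvd) := ES.adm_ref haux
  have hp := (frobPair_difLaurent (P := P) hM (hu.mul γ).left (hu.mul γ).right).serLE
  have hsc : difLaurent M (zetaC M) (scaleVec (q : ZMod M) (vmul M (refB haux.dvd) γ))
      (scaleVec (q : ZMod M) (vmul M (refA haux.dvd) γ)) = wSer haux γ' := by
    rw [← hr.vmul_scaleVec, ← hr.vmul_scaleVec, wSer]
    obtain ⟨hB, hA'⟩ := qFix_ref (q := q) haux hqm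
    refine difLaurent_congr_sign ?_ ?_
    · rcases hB with e | e <;> simp [e, ES.vmul_neg]
    · rcases hA' with e | e <;> simp [e, ES.vmul_neg]
  rw [hsc] at hp
  have hinv : (expandL q (wSer haux γ'))⁻¹ * expandL q (wSer haux γ') = 1 :=
    inv_mul_cancel₀ ((map_ne_zero_iff _ (expandL_injective q)).mpr (wSer_ne_zero haux γ'))
  have hsplit : wSer haux γ * (expandL q (wSer haux γ'))⁻¹ * wSer haux γ ^ (q - 1) - 1 =
      (wSer haux γ ^ q - expandL q (wSer haux γ')) * (expandL q (wSer haux γ'))⁻¹ := by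
    rw [sub_mul, mul_comm (expandL _ _), hinv, mul_right_comm, ← pow_succ',
      Nat.sub_add_cancel (Fact.out : q.Prime).one_le]
  rw [hsplit]
  intro n
  have hlt : P.SerLT ((wSer haux γ ^ q - expandL q (wSer haux γ')) *
      (expandL q (wSer haux γ'))⁻¹) := by
    refine CPlace.SerLT.mul_serIn (fun i => ?_) ?_
    · have hi := hp i
      rw [wSer, ← neg_sub, HahnSeries.coeff_neg, AbsoluteValue.map_neg]
      exact hi.trans_lt (by simpa using P.lt_one)
    · rw [← map_inv₀]
      exact fun i => hO (expandL_serIn (wSer_inv_serIn haux hA γ').2 i)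
  by_cases hn : (q : ℤ) ∣ n
  · obtain ⟨k, rfl⟩ := hn; rw [expandL_coeff_mul]; exact hlt k
  · rw [expandL_coeff_of_not_dvd q _ hn]; simp

/-- The Hasse function has unit coefficients at the cusps of type `∞`. -/
theorem hasseL_unitInf : UnitInf P (hasseL haux hM hA hζ) := by
  intro γ hγ
  by_contra hno
  have hlt := P.serLT_of_not_unitCoeff
    (fun n => hO (serIn_serAt γ (hasseL haux hM hA hζ) n)) hno
  have h1 := (hlt.mul_serIn (t := expandL q (wSer haux γ ^ (q - 1))) fun n =>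
    hO (expandL_serIn ((wSer_inv_serIn haux hA γ).1.pow _) n)).sub
      (hasse_ser haux hM hA hζ hO hqm hγ)
  rw [sub_sub_cancel] at h1
  exact h1.not_unitCoeff ⟨0, by simp⟩

end FermatAgent.BAD
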