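import Fermat.Agent.BAD.Diamond.Inv

/-!
# Witnesses of divisibility for invariant functions of level `q M`

For a group `Λ` inside `Γ₀(q) ∩ Γ(M)`, the multiplicities of the zeros of an invariant function are
witnessed by invariant functions over one complete ring with finitely many generators.
-/

set_option autoImplicit false

open UpperHalfPlane CongruenceSubgroup
open scoped MatrixGroups Manifold

noncomputable section

namespace FermatAgent.BAD

open FermatAgent.ES (BSub BRing act zetaC AuxLevel CPlace GoodRoot GalGrp repG haupt hauptSub orbPt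
  fibIdem vanishOrd)

variable {q M m : ℕ} [Fact q.Prime] [NeZero M] {Λ : Subgroup SL(2, ℤ)}

variable (q M Λ) in
/-- The functions of level `q M` invariant under `Λ`. -/
def invSub : Subalgebra ℂ (ℍ → ℂ) where
  carrier := {f | f ∈ BSub (q * M) ∧ ∀ γ ∈ Λ, act γ f = f}
  mul_mem' {f g} hf hg := ⟨mul_mem hf.1 hg.1, fun γ hγ => by
    rw [ES.act_mulFun, hf.2 γ hγ, hg.2 γ hγ]⟩
  add_mem' {f g} hf hg := ⟨add_mem hf.1 hg.1, fun γ hγ => by
    rw [ES.act_add, hf.2 γ hγ, hg.2 γ hγ]⟩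
  algebraMap_mem' a := ⟨(BSub (q * M)).algebraMap_mem a, fun _ _ => rfl⟩

variable (haux : AuxLevel M m) (hΛ : Λ ≤ lam q M)
include haux

open Classical in
/-- The image of a subgroup in the group over level `m`. -/
def imgG : Finset (GalGrp (q * M) m) :=
  (Set.toFinite (Set.range fun δ : Λ =>
    ((⟨δ, Gamma_M_le haux (hΛ δ.2)⟩ : Gamma m) : GalGrp (q * M) m))).toFinset

/-- Membership in the image of `Λ`. -/
theorem mem_imgG {h : GalGrp (q * M) m} : h ∈ imgG haux hΛ ↔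
    ∃ δ : Λ, ((⟨δ, Gamma_M_le haux (hΛ δ.2)⟩ : Gamma m) : GalGrp (q * M) m) = h := by
  simp [imgG]

/-- The image of `Λ` contains one. -/
theorem one_mem_imgG : (1 : GalGrp (q * M) m) ∈ imgG haux hΛ :=
  (mem_imgG haux hΛ).mpr ⟨1, rfl⟩

/-- A `Λ`-invariant function is fixed by the representatives in the image of `Λ`. -/
theorem act_rep_of_mem_imgG {f : ℍ → ℂ} (hf : f ∈ BSub (q * M)) (hinv : ∀ δ ∈ Λ, act δ f = f)
    {h : GalGrp (q * M) m} (hh : h ∈ imgG haux hΛ) : act (repG (q * M) m h) f = f := by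
  obtain ⟨δ, rfl⟩ := (mem_imgG haux hΛ).mp hh
  rw [← ES.act_eq_act_repG hf]
  exact hinv _ δ.2

/-- The sum over the image of `Λ` is `Λ`-invariant. -/
theorem act_sum_imgG {f : ℍ → ℂ} (hf : f ∈ BSub (q * M)) {γ : SL(2, ℤ)} (hγ : γ ∈ Λ) :
    act γ (∑ h ∈ imgG haux hΛ, act (repG (q * M) m h) f) =
      ∑ h ∈ imgG haux hΛ, act (repG (q * M) m h) f := by
  rw [ES.act_sum]
  refine Finset.sum_equiv (Equiv.mulRight
      ((⟨γ, Gamma_M_le haux (hΛ hγ)⟩ : Gamma m) : GalGrp (q * M) m)) (fun h => ?_) (fun h _ => ?_)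
  · simp only [mem_imgG, Equiv.coe_mulRight]
    constructor
    · rintro ⟨δ, rfl⟩
      refine ⟨δ * ⟨γ, hγ⟩, ?_⟩
      rw [← QuotientGroup.mk_mul]
      exact congrArg QuotientGroup.mk (Subtype.ext (Subgroup.coe_mul _ _ _))
    · rintro ⟨δ, hδ⟩
      refine ⟨δ * ⟨γ, hγ⟩⁻¹, ?_⟩
      refine (congrArg QuotientGroup.mk (Subtype.ext ?_)).trans
        ((QuotientGroup.mk_mul _ ((⟨δ, Gamma_M_le haux (hΛ δ.2)⟩ : Gamma m))
          (⟨γ, Gamma_M_le haux (hΛ hγ)⟩)⁻¹).trans ?_)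
      · simp
      · rw [hδ, QuotientGroup.mk_inv, mul_inv_cancel_right]
  · simp only [Equiv.coe_mulRight]
    obtain ⟨x, rfl⟩ := QuotientGroup.mk_surjective h
    rw [← QuotientGroup.mk_mul, ← ES.act_eq_act_repG hf, ← ES.act_eq_act_repG hf, ← ES.act_mul]
    rfl

include hΛ

/-- The witness at one point. -/
theorem exists_witness {P : CPlace q} (hM : M.Coprime q) {n : ℕ} {y : ℍ → ℂ}
    (hy : y ∈ invSub q M Λ) (hy0 : y ≠ 0) (hord : ∀ τ (j : ℕ), vanishOrd y τ = j → n ∣ j) (p : ℍ) :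
    ∃ (i : ℕ) (E D X : ℍ → ℂ), E ∈ InvRing q M P.ring Λ ∧
      D ∈ InvRing q M P.ring Λ ∧ X ∈ InvRing q M P.ring Λ ∧
      E p ≠ 0 ∧ X p ≠ 0 ∧ y * E = D ^ (n * i) * X := by
  classical
  set haux' := auxLevel_level (q := q) haux
  have hg := ES.goodPoint_top haux' p
  have htop : GoodRoot (q * M) (⊤ : Subring ℂ) (zetaC (q * M)) := ES.zetaC_goodRoot_top
  set fib := fibIdem haux' p 1
  have hfib : fib ∈ BRing (q * M) (⊤ : Subring ℂ) := ES.fibIdem_mem haux' htop hg 1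
  set G := imgG haux hΛ
  set e := ∑ h ∈ G, act (repG (q * M) m h) fib
  have hsum : ∀ {f : ℍ → ℂ}, f ∈ BSub (q * M) →
      (∑ h ∈ G, act (repG (q * M) m h) f) ∈ invSub q M Λ := fun {f} hf =>
    ⟨Subalgebra.sum_mem _ fun h _ => ES.act_mem_BSub hf _, fun γ hγ =>
      act_sum_imgG haux _ hf hγ⟩
  have he : e p = 1 := by
    show (∑ h ∈ G, act (repG (q * M) m h) fib) p = 1
    rw [Finset.sum_apply, Finset.sum_eq_single (1 : GalGrp (q * M) m) (fun h _ hh => ?_)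
      (fun h => absurd (one_mem_imgG haux _) h)]
    · exact (ES.fibIdem_orbPt haux' p 1 1).trans (if_pos rfl)
    · exact (ES.fibIdem_orbPt haux' p 1 h).trans (if_neg (Ne.symm hh))
  set π := hauptSub haux (haupt haux.dvd p)
  have hπM : π ∈ BSub M :=
    sub_mem (ES.polFun_mem_BSub haux 1 (ES.one_le haux)) ((BSub M).algebraMap_mem _)
  have hπinv : ∀ δ ∈ Gamma m, act δ π = π := fun δ hδ => by
    simp only [π, hauptSub, ES.act_sub, ES.act_const, haupt, ES.act_polFun haux hδ]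
  obtain ⟨j, x, hx, hx0, heq, hj⟩ := ES.exists_normal_form (Bs := (invSub q M Λ).toSubring) (τ := p)
    (P := π) (fun f hf => ES.mdifferentiable_of_mem hf.1) (ES.mdifferentiable_of_mem hπM)
    (ES.vanishOrd_hauptSub haux p) (hsum hfib.1) (he.trans_ne one_ne_zero)
    (fun f hf hfp => by
      obtain ⟨f1, hf1, h⟩ := ES.exists_eq_mul_of_fibre_zero haux' htop hg
        (x := fib * f) (mul_mem hfib (ES.mem_BRing_top.mpr hf.1)) (fun k => by
          rw [Pi.mul_apply]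
          show fibIdem haux' p 1 _ * _ = 0
          rw [ES.fibIdem_orbPt haux']
          split_ifs with hk
          · subst hk
            rw [ES.apply_orbPt_one hf.1 p, hfp, mul_zero]
          · rw [zero_mul])
      rw [haupt_level haux] at h
      refine ⟨_, hsum hf1.1, ?_⟩
      show e * f = π * ∑ h ∈ G, act (repG (q * M) m h) f1
      rw [Finset.sum_mul, Finset.mul_sum]
      refine Finset.sum_congr rfl fun k hk => ?_
      conv_lhs => rw [← act_rep_of_mem_imgG haux _ hf.1 hf.2 hk, ← ES.act_mulFun, h]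
      rw [ES.act_mulFun]
      exact congrArg (· * _) (hπinv _ (ES.repG_mem k)))
    hy hy0
  obtain ⟨i, rfl⟩ := hord p j hj
  have hN : sepN q haux ∈ BSub M := (sepN_mem_BRing haux (A := ⊤) ES.zetaC_goodRoot_top trivial).1
  have hscale : ∀ {f : ℍ → ℂ}, f ∈ invSub q M Λ →
      ∃ c : ℂ, c ≠ 0 ∧ c ∈ P.ring ∧
        (fun _ => c) * sepN q haux * f ∈ InvRing q M P.ring Λ := by
    intro f hf
    obtain ⟨c, hc0, hcP, hc⟩ := exists_const_mul_sepN (P := P) haux hM hf.1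
    exact ⟨c, hc0, hcP, hc, (mul_mem (mul_mem ((invSub q M Λ).algebraMap_mem c)
      (⟨(mem_LSub_of_BSub hN).1, fun γ hγ => (mem_LSub_of_BSub hN).2 γ (hΛ hγ)⟩)) hf).2⟩
  obtain ⟨c1, h1, h1P, hE⟩ := hscale (pow_mem (hsum hfib.1) (n * i))
  obtain ⟨c2, h2, h2P, hX⟩ := hscale hx
  have hconst : ∀ {c : ℂ}, c ∈ P.ring → (fun _ : ℍ => c) ∈ InvRing q M P.ring Λ :=
    fun {c} hc => ⟨ES.const_mem_BRing hc, fun _ _ => rfl⟩
  obtain ⟨c3, h3, h3P, hD⟩ : ∃ c : ℂ, c ≠ 0 ∧ c ∈ P.ring ∧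
      (fun _ => c) * π ∈ InvRing q M P.ring Λ := by
    obtain ⟨c, hc0, hcP, hca⟩ : ∃ c : ℂ, c ≠ 0 ∧ c ∈ P.ring ∧ c * haupt haux.dvd p ∈ P.ring := by
      by_cases ha : P.abv (haupt haux.dvd p) ≤ 1
      · exact ⟨1, one_ne_zero, P.ring.one_mem, by rwa [one_mul]⟩
      · push Not at ha
        have ha0 : haupt haux.dvd p ≠ 0 := fun h => by rw [h, map_zero] at ha; linarith
        refine ⟨_, inv_ne_zero ha0, ?_, by rw [inv_mul_cancel₀ ha0]; exact P.ring.one_mem⟩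
        rw [P.mem_ring, map_inv₀]
        exact inv_le_one_of_one_le₀ ha.le
    have hL : (fun _ => c) * π ∈ LRing q M P.ring := by
      rw [show (fun _ : ℍ => c) * π =
        (fun _ => c) * haupt haux.dvd - fun _ => c * haupt haux.dvd p by
          funext τ; simp [π, hauptSub, mul_sub]]
      exact sub_mem (mul_mem (const_mem_LRing hcP) (mem_LRing_of_BRing
        (ES.polFun_mem_BRing haux (P.goodRoot hM) (ES.one_le haux)))) (const_mem_LRing hca)
    exact ⟨c, hc0, hcP, hL.1, fun γ hγ => hL.2.2 γ (hΛ hγ)⟩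
  refine ⟨i, (fun _ => c3 ^ (n * i) * c2) * ((fun _ => c1) * sepN q haux * e ^ (n * i)),
    (fun _ => c3) * π, (fun _ => c1) * ((fun _ => c2) * sepN q haux * x),
    mul_mem (hconst (P.ring.mul_mem (P.ring.pow_mem h3P _) h2P)) hE, hD,
    mul_mem (hconst h1P) hX, ?_, ?_, ?_⟩
  · simp only [Pi.mul_apply, Pi.pow_apply, he, one_pow, mul_one]
    exact mul_ne_zero (mul_ne_zero (pow_ne_zero _ h3) h2) (mul_ne_zero h1 (sepN_ne_zero haux p))
  · simp only [Pi.mul_apply]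
    exact mul_ne_zero h1 (mul_ne_zero (mul_ne_zero h2 (sepN_ne_zero haux p)) hx0)
  · funext τ
    have h := congrFun heq τ
    simp only [Pi.mul_apply, Pi.pow_apply, mul_pow] at h ⊢
    linear_combination (c3 ^ (n * i) * c2 * c1 * sepN q haux τ) * h

/-- **Divisibility over a ring with finitely many generators.** -/
theorem exists_finset_witness {P : CPlace q} (hM : M.Coprime q) {n : ℕ} {y : ℍ → ℂ}
    (hy : y ∈ invSub q M Λ) (hy0 : y ≠ 0) (hord : ∀ τ (j : ℕ), vanishOrd y τ = j → n ∣ j) :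
    ∃ S : Finset ℂ, (S : Set ℂ) ⊆ P.ring ∧ ∀ O : Subring ℂ, P.IsCDVR O →
      GoodRoot M O (zetaC M) → zetaC (q * M) ∈ O → (S : Set ℂ) ⊆ O →
        ∀ τ, y τ = 0 → ∃ (i : ℕ) (E D X : InvRing q M O Λ), (E : ℍ → ℂ) τ ≠ 0 ∧ (X : ℍ → ℂ) τ ≠ 0 ∧
          y * (E : ℍ → ℂ) = (D : ℍ → ℂ) ^ (n * i) * (X : ℍ → ℂ) := by
  classical
  obtain ⟨V, hV⟩ := exists_zero_values haux hy.1 hy0
  choose i E D X hE hD hX hEp hXp heq using exists_witness (P := P) haux hΛ hM hy hy0 hord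
  choose SE hSE hSEO using fun p => exists_finset_mem_InvRing haux hM (hE p)
  choose SD hSD hSDO using fun p => exists_finset_mem_InvRing haux hM (hD p)
  choose SX hSX hSXO using fun p => exists_finset_mem_InvRing haux hM (hX p)
  let base : ℂ → ℍ := fun a =>
    if h : ∃ τ, haupt haux.dvd τ = a then h.choose else UpperHalfPlane.I
  set pts : Finset ℍ := (V ×ˢ (Finset.univ : Finset (GalGrp (q * M) m))).image
    fun x => orbPt (q * M) m (base x.1) x.2
  refine ⟨pts.biUnion fun p => SE p ∪ SD p ∪ SX p, ?_, fun O hO' hA hζ hsub τ hτ => ?_⟩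
  · intro x hx
    obtain ⟨p, -, hp⟩ := Finset.mem_biUnion.mp hx
    simp only [Finset.mem_union] at hp
    rcases hp with (h | h) | h
    exacts [hSE p h, hSD p h, hSX p h]
  have hbase : haupt haux.dvd τ = haupt haux.dvd (base (haupt haux.dvd τ)) := by
    have h : ∃ σ, haupt haux.dvd σ = haupt haux.dvd τ := ⟨τ, rfl⟩
    simp only [base, dif_pos h, h.choose_spec]
  obtain ⟨g, hg⟩ := exists_orbPt_eq (q := q) haux hbase
  set p := orbPt (q * M) m (base (haupt haux.dvd τ)) g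
  have hp : p ∈ pts :=
    Finset.mem_image.mpr ⟨(_, g), Finset.mem_product.mpr ⟨hV τ hτ, Finset.mem_univ g⟩, rfl⟩
  have hmem : ∀ {x : ℂ}, (x ∈ SE p ∨ x ∈ SD p ∨ x ∈ SX p) → x ∈ O := fun hx =>
    hsub (Finset.mem_biUnion.mpr ⟨p, hp, by simp only [Finset.mem_union]; tauto⟩)
  refine ⟨i p, ⟨E p, hSEO p O hO' hA hζ fun x hx => hmem (Or.inl hx)⟩,
    ⟨D p, hSDO p O hO' hA hζ fun x hx => hmem (Or.inr (Or.inl hx))⟩,
    ⟨X p, hSXO p O hO' hA hζ fun x hx => hmem (Or.inr (Or.inr hx))⟩, ?_, ?_,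
    heq p⟩
  · show E p τ ≠ 0
    rw [hg _ (hE p).1.1]
    exact hEp p
  · show X p τ ≠ 0
    rw [hg _ (hX p).1.1]
    exact hXp p

omit hΛ in
/-- **Divisibility for functions invariant under the level group.** -/
theorem exists_finset_divisible {P : CPlace q} (hM : M.Coprime q) {n : ℕ} {y : ℍ → ℂ}
    (hy : y ∈ LSub q M) (hy0 : y ≠ 0) (hord : ∀ τ (j : ℕ), vanishOrd y τ = j → n ∣ j) :
    ∃ S : Finset ℂ, (S : Set ℂ) ⊆ P.ring ∧ ∀ O : Subring ℂ, P.IsCDVR O →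
      GoodRoot M O (zetaC M) → zetaC (q * M) ∈ O → (S : Set ℂ) ⊆ O → Divisible q M O n y := by
  obtain ⟨S, hS, h⟩ := exists_finset_witness (P := P) haux le_rfl hM hy hy0 hord
  refine ⟨S, hS, fun O hO hA hζ hs τ hτ => ?_⟩
  obtain ⟨i, E, D, X, h1, h2, h3⟩ := h O hO hA hζ hs τ hτ
  exact ⟨i, ⟨E, E.2.1, E.2.1.1, E.2.2⟩, ⟨D, D.2.1, D.2.1.1, D.2.2⟩,
    ⟨X, X.2.1, X.2.1.1, X.2.2⟩, h1, h2, h3⟩

end FermatAgent.BAD
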