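import Fermat.Agent.BAD.Level
import Fermat.Agent.ES.Cong.Congruence
import Mathlib.Algebra.CharP.Quotient

/-!
# Expansions congruent to Frobenius images modulo `q`

`FrobPair P s s'`: `s' (X ^ q) ≡ s ^ q` modulo `q`, both series being integral.  Division values
give such pairs.
-/

set_option autoImplicit false

open UpperHalfPlane CongruenceSubgroup
open scoped MatrixGroups

noncomputable section

namespace FermatAgent.BAD

open FermatAgent.ES (SerIn CPlace divCoeff difSeries difLaurent scaleVec zetaC liftSer LeadUnit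
  twistSer)

/-- `s ↦ s(X^q)` commutes with changes of coefficients. -/
theorem liftSer_expandL {q : ℕ} [NeZero q] {R S : Type*} [CommRing R] [CommRing S] (f : R →+* S)
    (s : LaurentSeries R) : liftSer f (expandL q s) = expandL q (liftSer f s) := by
  ext n
  by_cases hn : (q : ℤ) ∣ n
  · obtain ⟨k, rfl⟩ := hn
    rw [ES.coeff_liftSer, expandL_coeff_mul, expandL_coeff_mul, ES.coeff_liftSer]
  · rw [ES.coeff_liftSer, expandL_coeff_of_not_dvd q s hn, expandL_coeff_of_not_dvd q _ hn,
      map_zero]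

/-- Twisting is multiplicative. -/
theorem twistSer_mul (c : ℂ) (hc : c ≠ 0) (s t : LaurentSeries ℂ) :
    twistSer c (s * t) = twistSer c s * twistSer c t := by
  ext n
  have hsupp : ∀ u : LaurentSeries ℂ, (twistSer c u).support = u.support := fun u => by
    ext i
    simp [HahnSeries.mem_support, zpow_ne_zero _ hc]
  simp only [ES.coeff_twistSer, HahnSeries.coeff_mul]
  rw [Finset.sum_mul]
  refine Finset.sum_congr ?_ fun x hx => ?_
  · ext x
    simp only [Finset.mem_antidiagonal, hsupp]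
  · simp only [Finset.mem_antidiagonal] at hx
    rw [show n = x.1 + x.2 from hx.2.2.symm, zpow_add₀ hc]
    ring

/-- Twisting commutes with powers. -/
theorem twistSer_pow (c : ℂ) (hc : c ≠ 0) (s : LaurentSeries ℂ) (k : ℕ) :
    twistSer c (s ^ k) = twistSer c s ^ k := by
  induction k with
  | zero =>
    ext n
    rcases eq_or_ne n 0 with rfl | hn <;> simp_all
  | succ k ih => rw [pow_succ, pow_succ, twistSer_mul c hc, ih]

/-- Twisting is additive. -/
theorem twistSer_sub (c : ℂ) (s t : LaurentSeries ℂ) :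
    twistSer c (s - t) = twistSer c s - twistSer c t := by
  ext n; simp [sub_mul]

/-- Twisting by a `q`-th root of unity fixes series in `X^q`. -/
theorem twistSer_expandL {q : ℕ} [NeZero q] {c : ℂ} (hc : c ^ q = 1) (s : LaurentSeries ℂ) :
    twistSer c (expandL q s) = expandL q s := by
  ext n
  rw [ES.coeff_twistSer]
  by_cases hn : (q : ℤ) ∣ n
  · obtain ⟨k, rfl⟩ := hn
    rw [zpow_mul, zpow_natCast, hc, one_zpow, mul_one]
  · rw [expandL_coeff_of_not_dvd q s hn, zero_mul]

variable {q M : ℕ} [Fact q.Prime] [NeZero M] (P : CPlace q)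

/-- Reduction modulo `q`. -/
def redQ : P.ring →+* P.ring ⧸ Ideal.span {(q : P.ring)} := Ideal.Quotient.mk _

instance charP_redQ : CharP (P.ring ⧸ Ideal.span {(q : P.ring)}) q := by
  refine CharP.quotient P.ring q fun h => ?_
  rw [P.isUnit_ring_iff] at h
  exact (ne_of_lt (by simpa using P.lt_one)) h

/-- A Frobenius pair. -/
def FrobPair (s s' : LaurentSeries ℂ) : Prop :=
  ∃ t t' : LaurentSeries P.ring, liftSer P.ring.subtype t = s ∧ liftSer P.ring.subtype t' = s' ∧
    expandL q (liftSer (redQ P) t') = liftSer (redQ P) t ^ q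

variable {P}

omit [Fact (Nat.Prime q)] in
/-- A series with unit leading coefficient lifts to a unit of the series over the integers of the
place. -/
theorem exists_unit_lift {s : LaurentSeries ℂ} {k : ℤ} (h : LeadUnit P.ring s k) :
    ∃ t : (LaurentSeries P.ring)ˣ, liftSer P.ring.subtype t = s := by
  obtain ⟨u, hu, rfl⟩ := h
  have hk : IsUnit (HahnSeries.single k (1 : P.ring)) :=
    IsUnit.of_mul_eq_one (HahnSeries.single (-k) 1) (by
      rw [HahnSeries.single_mul_single, add_neg_cancel, mul_one, HahnSeries.single_zero_one])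
  refine ⟨(hk.mul (hu.map (HahnSeries.ofPowerSeries ℤ P.ring))).unit, ?_⟩
  rw [IsUnit.unit_spec, map_mul, ES.liftSer_ofPowerSeries]
  congr 1
  ext n
  rw [ES.coeff_liftSer]
  rcases eq_or_ne n k with rfl | hn
  · simp
  · simp [HahnSeries.coeff_single_of_ne hn]

/-- Division by a pair with unit leading coefficients. -/
theorem FrobPair.div {s s' u u' : LaurentSeries ℂ} (h : FrobPair P s s') (h' : FrobPair P u u')
    {k k' : ℤ} (hu : LeadUnit P.ring u k) (hu' : LeadUnit P.ring u' k') :
    FrobPair P (s / u) (s' / u') := by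
  obtain ⟨t, t', rfl, rfl, e⟩ := h
  obtain ⟨w, w', hw, hw', e'⟩ := h'
  obtain ⟨x, hx⟩ := exists_unit_lift hu
  obtain ⟨x', hx'⟩ := exists_unit_lift hu'
  obtain rfl : w = x := ES.liftSer_injective P.ring.subtype_injective (hw.trans hx.symm)
  obtain rfl : w' = x' := ES.liftSer_injective P.ring.subtype_injective (hw'.trans hx'.symm)
  have hinv : ∀ (y : (LaurentSeries P.ring)ˣ) (z : LaurentSeries ℂ),
      liftSer P.ring.subtype y = z → liftSer P.ring.subtype (↑y⁻¹) = z⁻¹ := fun y z hy => by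
    refine eq_inv_of_mul_eq_one_left ?_
    rw [← hy, ← map_mul, Units.inv_mul, map_one]
  refine ⟨t * ↑x⁻¹, t' * ↑x'⁻¹, ?_, ?_, ?_⟩
  · rw [map_mul, hinv x u hx, div_eq_mul_inv]
  · rw [map_mul, hinv x' u' hx', div_eq_mul_inv]
  · rw [map_mul, map_mul, map_mul, e, mul_pow]
    congr 1
    have h1 : (liftSer (redQ P) (↑x⁻¹ : LaurentSeries P.ring)) ^ q *
        liftSer (redQ P) (x : LaurentSeries P.ring) ^ q = 1 := by
      rw [← mul_pow, ← map_mul, Units.inv_mul, map_one, one_pow]
    have h2 : expandL q (liftSer (redQ P) (↑x'⁻¹ : LaurentSeries P.ring)) *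
        expandL q (liftSer (redQ P) (x' : LaurentSeries P.ring)) = 1 := by
      rw [← map_mul, ← map_mul, Units.inv_mul, map_one, map_one]
    calc expandL q (liftSer (redQ P) (↑x'⁻¹ : LaurentSeries P.ring))
        = expandL q (liftSer (redQ P) (↑x'⁻¹ : LaurentSeries P.ring)) *
          ((liftSer (redQ P) (↑x⁻¹ : LaurentSeries P.ring)) ^ q *
            liftSer (redQ P) (x : LaurentSeries P.ring) ^ q) := by rw [h1, mul_one]
      _ = (expandL q (liftSer (redQ P) (↑x'⁻¹ : LaurentSeries P.ring)) *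
          expandL q (liftSer (redQ P) (x' : LaurentSeries P.ring))) *
          (liftSer (redQ P) (↑x⁻¹ : LaurentSeries P.ring)) ^ q := by rw [e']; ring
      _ = _ := by rw [h2, one_mul]

/-- A pair is a congruence with coefficients bounded by `|q|`. -/
theorem FrobPair.serLE {s s' : LaurentSeries ℂ} (h : FrobPair P s s') :
    P.SerLE (P.abv q) (expandL q s' - s ^ q) := by
  obtain ⟨t, t', rfl, rfl, e⟩ := h
  intro n
  rw [← liftSer_expandL, ← map_pow, ← map_sub, ES.coeff_liftSer]
  have h0 : redQ P ((expandL q t' - t ^ q).coeff n) = 0 := by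
    rw [← ES.coeff_liftSer (redQ P), map_sub, liftSer_expandL, map_pow, e, sub_self,
      HahnSeries.coeff_zero]
  rw [redQ, Ideal.Quotient.eq_zero_iff_mem, Ideal.mem_span_singleton'] at h0
  obtain ⟨a, ha⟩ := h0
  rw [← ha, Subring.coe_subtype]
  push_cast
  rw [map_mul]
  exact mul_le_of_le_one_left (P.abv.nonneg _) a.2

variable (hM : M.Coprime q)
include hM

theorem redQ_divCoeff {v : Fin 2 → ZMod M} (hv : v ≠ 0) (hv' : scaleVec (q : ZMod M) v ≠ 0)
    (e : ℕ) :
    redQ P ⟨divCoeff M (zetaC M) (scaleVec (q : ZMod M) v) e,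
        ES.divCoeff_mem (P.goodRoot hM) hv' e⟩ =
      redQ P ⟨divCoeff M (zetaC M) v e, ES.divCoeff_mem (P.goodRoot hM) hv e⟩ ^ q := by
  have hA := P.goodRoot hM
  set z : P.ring := ⟨zetaC M, hA.mem⟩ with hz
  have hzM : z ^ M = 1 := Subtype.ext hA.prim.pow_eq_one
  have hmod : ∀ {a b : ℕ}, (a : ZMod M) = (b : ZMod M) → z ^ a = z ^ b := fun {a b} h => by
    rw [pow_eq_pow_mod a hzM, pow_eq_pow_mod b hzM, (ZMod.natCast_eq_natCast_iff' a b M).mp h]
  have hfrob : ∀ (x : ZMod M) (r : ℕ),
      redQ P (z ^ (((q : ZMod M) * x).val * r)) = redQ P (z ^ (x.val * r)) ^ q := fun x r => by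
    rw [← map_pow, ← pow_mul]
    refine congrArg _ (hmod ?_)
    push_cast [ZMod.natCast_zmod_val]
    ring
  have h1 : scaleVec (q : ZMod M) v 1 = (q : ZMod M) * v 1 := rfl
  have hneg : -((q : ZMod M) * v 1) = (q : ZMod M) * -v 1 := by ring
  rcases eq_or_ne e 0 with rfl | he
  · by_cases h0 : v 0 = 0
    · have hv1 : ¬ M ∣ (v 1).val := fun hd => hv (funext fun i => by
        fin_cases i
        · exact h0
        · simpa using (ZMod.natCast_eq_zero_iff (v 1).val M).mpr hd)
      have hv1' : ¬ M ∣ ((q : ZMod M) * v 1).val := fun hd => hv' (funext fun i => by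
        fin_cases i
        · exact h0
        · show (q : ZMod M) * v 1 = 0
          simpa using (ZMod.natCast_eq_zero_iff ((q : ZMod M) * v 1).val M).mpr hd)
      have key : ∀ a : ℕ, ¬ M ∣ a → ∀ (hc : zetaC M ^ a / (1 - zetaC M ^ a) ^ 2 ∈ P.ring),
          IsUnit ((1 : P.ring) - z ^ a) ∧ (⟨_, hc⟩ : P.ring) * (1 - z ^ a) ^ 2 = z ^ a := by
        intro a ha hc
        have hu := hA.unit_one_sub a ha
        refine ⟨(P.isUnit_ring_iff _).mpr (P.abv_eq_one_of_unitIn hu), Subtype.ext ?_⟩
        show zetaC M ^ a / (1 - zetaC M ^ a) ^ 2 * (1 - zetaC M ^ a) ^ 2 = zetaC M ^ a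
        rw [div_mul_cancel₀ _ (pow_ne_zero 2 hu.1)]
      have hm1 : zetaC M ^ (v 1).val / (1 - zetaC M ^ (v 1).val) ^ 2 ∈ P.ring :=
        ((hA.unit_root.pow _).div ((hA.unit_one_sub _ hv1).pow 2)).2.1
      have hm2 : zetaC M ^ ((q : ZMod M) * v 1).val /
          (1 - zetaC M ^ ((q : ZMod M) * v 1).val) ^ 2 ∈ P.ring :=
        ((hA.unit_root.pow _).div ((hA.unit_one_sub _ hv1').pow 2)).2.1
      obtain ⟨-, e1⟩ := key _ hv1 hm1
      obtain ⟨hu2, e2⟩ := key _ hv1' hm2
      rw [show (⟨divCoeff M (zetaC M) (scaleVec (q : ZMod M) v) 0, _⟩ : P.ring) = ⟨_, hm2⟩ from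
          Subtype.ext (by simp [divCoeff, scaleVec, h0]),
        show (⟨divCoeff M (zetaC M) v 0, _⟩ : P.ring) = ⟨_, hm1⟩ from
          Subtype.ext (by simp [divCoeff, h0])]
      generalize (⟨_, hm1⟩ : P.ring) = c1 at e1 ⊢
      generalize (⟨_, hm2⟩ : P.ring) = c2 at e2 ⊢
      have f1 := congrArg (fun x => redQ P x ^ q) e1
      have f2 := congrArg (redQ P) e2
      have hf := hfrob (v 1) 1
      rw [mul_one, mul_one] at hf
      simp only [map_mul, map_pow, map_sub, map_one] at f1 f2 hf
      rw [mul_pow, ← pow_mul, mul_comm 2 q, pow_mul, sub_pow_char, one_pow, ← hf] at f1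
      refine ((hu2.map (redQ P)).pow 2).mul_right_cancel ?_
      rw [map_sub, map_one, map_pow, f2, f1]
    · rw [show (⟨divCoeff M (zetaC M) (scaleVec (q : ZMod M) v) 0, _⟩ : P.ring) = 0 from
          Subtype.ext (by simp [divCoeff, scaleVec, h0]),
        show (⟨divCoeff M (zetaC M) v 0, _⟩ : P.ring) = 0 from
          Subtype.ext (by simp [divCoeff, h0]), map_zero,
        zero_pow (Fact.out : q.Prime).ne_zero]
  · have expand : ∀ (w : Fin 2 → ZMod M) (hm : divCoeff M (zetaC M) w e ∈ P.ring),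
        (⟨divCoeff M (zetaC M) w e, hm⟩ : P.ring) = ∑ r ∈ e.divisors, (r : P.ring) *
          ((if ((e / r : ℕ) : ZMod M) = w 0 then z ^ ((w 1).val * r) else 0) +
           (if ((e / r : ℕ) : ZMod M) = -w 0 then z ^ ((-w 1).val * r) else 0)) := fun w hm =>
      Subtype.ext (by
        simp only [divCoeff, if_neg he, AddSubmonoidClass.coe_finsetSum]
        refine Finset.sum_congr rfl fun r _ => ?_
        push_cast [hz]
        split_ifs <;> simp)
    rw [expand, expand, map_sum, map_sum, sum_pow_char]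
    refine Finset.sum_congr rfl fun r _ => ?_
    rw [map_mul, map_mul, map_natCast, mul_pow,
      show ((r : P.ring ⧸ Ideal.span {(q : P.ring)}) ^ q) = r by
        rw [← frobenius_def, map_natCast], map_add,
      map_add, add_pow_char, apply_ite (redQ P), apply_ite (redQ P), apply_ite (redQ P),
      apply_ite (redQ P), map_zero, ite_pow, ite_pow, zero_pow (Fact.out : q.Prime).ne_zero,
      h1, hneg, hfrob, hfrob]
    rfl

/-- The series of differences of division values. -/
theorem frobPair_difLaurent {v w : Fin 2 → ZMod M} (hv : v ≠ 0) (hw : w ≠ 0) :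
    FrobPair P (difLaurent M (zetaC M) v w)
      (difLaurent M (zetaC M) (scaleVec (q : ZMod M) v) (scaleVec (q : ZMod M) w)) := by
  have hA := P.goodRoot hM
  have hu : IsUnit (q : ZMod M) := (ZMod.isUnit_iff_coprime q M).mpr hM.symm
  let g : ∀ (a b : Fin 2 → ZMod M), a ≠ 0 → b ≠ 0 → PowerSeries P.ring := fun a b ha hb =>
    PowerSeries.mk fun e => ⟨divCoeff M (zetaC M) a e, ES.divCoeff_mem hA ha e⟩ -
      ⟨divCoeff M (zetaC M) b e, ES.divCoeff_mem hA hb e⟩
  have hg : ∀ a b ha hb, liftSer P.ring.subtype (HahnSeries.ofPowerSeries ℤ P.ring (g a b ha hb)) =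
      difLaurent M (zetaC M) a b := fun a b ha hb => by
    rw [ES.liftSer_ofPowerSeries, difLaurent]
    congr 1
  refine ⟨_, _, hg v w hv hw,
    hg _ _ (ES.scaleVec_ne_zero hu hv) (ES.scaleVec_ne_zero hu hw), ?_⟩
  rw [ES.liftSer_ofPowerSeries, ES.liftSer_ofPowerSeries, expandL_ofPowerSeries, ← map_pow,
    ES.pow_char_series (Fact.out : q.Prime).ne_zero, PowerSeries.map_expand]
  refine congrArg _ (congrArg _ (PowerSeries.ext fun e => ?_))
  simp only [g, PowerSeries.coeff_map, PowerSeries.coeff_mk, map_sub, frobenius_def,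
    redQ_divCoeff hM hv (ES.scaleVec_ne_zero hu hv),
    redQ_divCoeff hM hw (ES.scaleVec_ne_zero hu hw)]

/-- The series of ratios. -/
theorem frobPair_ratioSeries {v w v' w' : Fin 2 → ZMod M} (hv : v ≠ 0) (hw : w ≠ 0)
    (h' : ES.Adm M v' w') :
    FrobPair P (ES.ratioSeries M (zetaC M) v w v' w')
      (ES.ratioSeries M (zetaC M) (scaleVec (q : ZMod M) v) (scaleVec (q : ZMod M) w)
        (scaleVec (q : ZMod M) v') (scaleVec (q : ZMod M) w')) := by
  have hA := P.goodRoot hM
  have h'' := h'.scale ((ZMod.isUnit_iff_coprime q M).mpr hM.symm)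
  exact (frobPair_difLaurent hM hv hw).div (frobPair_difLaurent hM h'.left h'.right)
    (ES.leadUnit_difLaurent hA h'.left h'.right h'.ne h'.ne_neg)
    (ES.leadUnit_difLaurent hA h''.left h''.right h''.ne h''.ne_neg)

end FermatAgent.BAD
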