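import Fermat.Agent.BAD.Components
import Fermat.Agent.BAD.Frob

/-!
# Kronecker congruences for the Hauptmodul and the Atkin symmetry

For ratios of division values `R`, and `R'` the ratio at the vectors scaled by `q`, the
differences `R'(qτ) - R^q` and `R'(qτ)^q - R` are divisible by `q` at the cusps of type `∞` and
`0` respectively; so `X = t - t'(qτ)^q` and `Y = t(qτ) - t'^q` are small at one type each, and the
Atkin operator exchanges them.
-/

set_option autoImplicit false

open UpperHalfPlane CongruenceSubgroup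
open scoped MatrixGroups

noncomputable section

namespace FermatAgent.BAD

open FermatAgent.ES (BSub BRing SerIn HasLExp lexp lexp_eq hasLExp_lexp act zetaC CPlace twistSer
  ratio ratioSeries scaleVec vmul Adm AuxLevel embVec modMat difLaurent haupt LeadUnit UnitIn)

variable {q M m : ℕ} [Fact q.Prime] [NeZero M]

/-- `v` is fixed up to sign by multiplication by `q`. -/
def QFix (q : ℕ) (v : Fin 2 → ZMod M) : Prop := (q : ZMod M) • v = v ∨ (q : ZMod M) • v = -v

section

omit [NeZero M]

/-- `q ≡ ± 1` modulo the auxiliary prime. -/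
theorem natCast_eq_one_or (haux : AuxLevel M m) (hqm : q ≠ m) :
    (q : ZMod m) = 1 ∨ (q : ZMod m) = -1 := by
  have hq := (Fact.out : q.Prime)
  have key : ∀ x : ZMod m, x ≠ 0 → x = 1 ∨ x = -1 := by
    rcases haux.small with rfl | rfl <;> decide
  refine key _ fun h => hqm ?_
  have hm : m.Prime := by rcases haux.small with rfl | rfl <;> norm_num
  exact ((Nat.prime_dvd_prime_iff_eq hm hq).mp ((ZMod.natCast_eq_zero_iff q m).mp h)).symm

/-- Vectors from the auxiliary level are fixed up to sign by `q`. -/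
theorem qFix_embVec (haux : AuxLevel M m) (hqm : q ≠ m) (u : Fin 2 → ZMod m) :
    QFix q (embVec haux.dvd u) := by
  have h : (q : ZMod M) • embVec haux.dvd u =
      embVec haux.dvd ((q : ZMod m) • u) := funext fun i => by
    show (q : ZMod M) * ES.embHom haux.dvd (u i) = ES.embHom haux.dvd ((q : ZMod m) * u i)
    rw [← nsmul_eq_mul, ← nsmul_eq_mul, map_nsmul]
  rcases natCast_eq_one_or haux hqm with e | e
  · left; rw [h, e, one_smul]
  · right; rw [h, e, neg_one_smul, ES.embVec_neg]

omit [Fact (Nat.Prime q)] in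
theorem QFix.scale_scale {v : Fin 2 → ZMod M} (h : QFix q v) :
    scaleVec (q : ZMod M) (scaleVec (q : ZMod M) v) = v := by
  funext i
  fin_cases i
  · rfl
  · show (q : ZMod M) * ((q : ZMod M) * v 1) = v 1
    rcases h with h | h <;>
      · have h1 : (q : ZMod M) * v 1 = _ := congrFun h 1
        rw [h1]
        first | exact h1 | (rw [Pi.neg_apply, mul_neg, h1, Pi.neg_apply, neg_neg])

end

/-- Differences of division series do not see the signs of the vectors. -/
theorem difLaurent_congr_sign {v w v' w' : Fin 2 → ZMod M} (hv : v' = v ∨ v' = -v)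
    (hw : w' = w ∨ w' = -w) : difLaurent M (zetaC M) v' w' = difLaurent M (zetaC M) v w := by
  rw [difLaurent, difLaurent]
  refine congrArg _ (PowerSeries.ext fun e => ?_)
  rcases hv with rfl | rfl <;> rcases hw with rfl | rfl <;>
    simp [ES.difSeries, ES.divCoeff_neg (ES.zetaC_isPrimitiveRoot M).pow_eq_one]

theorem dif_congr_sign {v w v' w' : Fin 2 → ZMod M} (hv : v' = v ∨ v' = -v)
    (hw : w' = w ∨ w' = -w) : ES.dif M v' w' = ES.dif M v w := by
  rcases hv with rfl | rfl <;> rcases hw with rfl | rfl <;>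
    simp [ES.dif_neg_left, ES.dif_neg_right]

section Matrices

omit [Fact (Nat.Prime q)] [NeZero M] in
/-- The matrix of a dilation is related by `q`. -/
theorem galRel_of_dil {γ γ' : SL(2, ℤ)} (h00 : γ' 0 0 = γ 0 0) (h01 : γ' 0 1 = q * γ 0 1)
    (h10 : (q : ℤ) * γ' 1 0 = γ 1 0) (h11 : γ' 1 1 = γ 1 1) :
    ES.GalRel (q : ZMod M) γ γ' := by
  have e10 := congrArg (Int.cast : ℤ → ZMod M) h10
  push_cast at e10
  unfold ES.GalRel
  ext i j
  fin_cases i <;> fin_cases j <;>
    simp [modMat, Matrix.mul_apply, Fin.sum_univ_two, h00, h01, h11, e10, mul_comm]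

omit [Fact (Nat.Prime q)] [NeZero M] in
/-- The vectors at a cusp of type `0`. -/
theorem vmul_scaleVec_ctr {γ γ' : SL(2, ℤ)} {j : ℕ} (hj : M ∣ j) (h00 : γ' 0 0 = q * γ 0 0)
    (h01 : γ' 0 1 = γ 0 1 - j * γ 0 0) (h10 : γ' 1 0 = γ 1 0)
    (h11 : (q : ℤ) * γ' 1 1 = γ 1 1 - j * γ 1 0) (v : Fin 2 → ZMod M) :
    scaleVec (q : ZMod M) (vmul M (scaleVec (q : ZMod M) v) γ') =
      (q : ZMod M) • vmul M v γ := by
  have hj0 : (j : ZMod M) = 0 := (ZMod.natCast_eq_zero_iff j M).mpr hj
  have e11 := congrArg (Int.cast : ℤ → ZMod M) h11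
  push_cast at e11
  rw [hj0] at e11
  funext i
  fin_cases i <;>
    simp [vmul, scaleVec, modMat, Matrix.vecMul, dotProduct, Fin.sum_univ_two, h00, h01, h10, hj0]
  · ring
  · linear_combination (q : ZMod M) * v 1 * e11

end Matrices

variable {P : CPlace q}

omit [Fact (Nat.Prime q)] in
theorem serLE_twist {N : ℕ} [NeZero N] (j : ℕ) {c : ℝ} {s : LaurentSeries ℂ}
    (h : P.SerLE c s) : P.SerLE c (twistSer (zetaC N ^ j) s) := fun n => by
  rw [ES.coeff_twistSer, map_mul, map_zpow₀, map_pow,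
    P.abv_eq_one_of_pow_eq_one (NeZero.ne N) (ES.zetaC_isPrimitiveRoot N).pow_eq_one, one_pow,
    one_zpow, mul_one]
  exact h n

/-- The twist at a multiple of `M` is a `q`-th root of unity. -/
theorem pow_prime_twist {j : ℕ} (hj : M ∣ j) : (zetaC (q * M) ^ j) ^ q = 1 := by
  obtain ⟨k, rfl⟩ := hj
  rw [← pow_mul, show M * k * q = q * M * k by ring, pow_mul,
    (ES.zetaC_isPrimitiveRoot (q * M)).pow_eq_one, one_pow]

omit [NeZero M] in
/-- Scaling by a unit preserves admissible pairs. -/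
theorem adm_smul {a : ZMod M} (ha : IsUnit a) {v w : Fin 2 → ZMod M} (h : Adm M v w) :
    Adm M (a • v) (a • w) := by
  have hinj : Function.Injective (fun x : Fin 2 → ZMod M => a • x) := fun x y e =>
    funext fun i => ha.mul_left_cancel (congrFun e i)
  exact ⟨fun e => h.left (hinj (e.trans (smul_zero a).symm)),
    fun e => h.right (hinj (e.trans (smul_zero a).symm)), fun e => h.ne (hinj e),
    fun e => h.ne_neg (hinj (e.trans (smul_neg a w).symm))⟩

omit [NeZero M] in
/-- Scaling by a unit preserves nonzero vectors. -/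
theorem smul_ne_zero' {a : ZMod M} (ha : IsUnit a) {v : Fin 2 → ZMod M} (h : v ≠ 0) : a • v ≠ 0 :=
  fun e => h (funext fun i => ha.mul_left_cancel ((congrFun e i).trans (mul_zero a).symm))

variable (hM : M.Coprime q)
include hM

/-- **Kronecker congruence** at the cusps of type `∞`. -/
theorem kron_inf {v w v' w' : Fin 2 → ZMod M} (hv : v ≠ 0) (hw : w ≠ 0) (h' : Adm M v' w')
    {γ : SL(2, ℤ)} (hγ : γ ∈ Gamma0 q) :
    P.SerLE (P.abv q) (lexp (q * M) γ (dilFun q (ratio M (scaleVec (q : ZMod M) v)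
      (scaleVec (q : ZMod M) w) (scaleVec (q : ZMod M) v') (scaleVec (q : ZMod M) w')) -
        ratio M v w v' w' ^ q)) := by
  have hu : IsUnit (q : ZMod M) := (ZMod.isUnit_iff_coprime q M).mpr hM.symm
  obtain ⟨γ', h00, h01, h10, h11, h⟩ := exists_dil_conj q γ (mem_Gamma0_dvd.mp hγ)
  have hr := galRel_of_dil (M := M) h00 h01 h10 h11
  have hne : ∀ {u : Fin 2 → ZMod M}, u ≠ 0 → vmul M u γ ≠ 0 := fun hu' h0 =>
    hu' (ES.vmul_injective γ (by simpa [ES.vmul_zero] using h0))
  have hp := frobPair_ratioSeries (P := P) hM (hne hv) (hne hw) (h'.mul γ)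
  have hsv := ES.scaleVec_ne_zero hu hv
  have hsw := ES.scaleVec_ne_zero hu hw
  have e1 := hasLExp_lexp (ES.ratio_mem hsv hsw (h'.scale hu)) γ'
  rw [ES.lexp_ratio hsv hsw (h'.scale hu), hr.vmul_scaleVec, hr.vmul_scaleVec, hr.vmul_scaleVec,
    hr.vmul_scaleVec] at e1
  have e2 := (hasLExp_level (q := q) (ES.ratio_mem hv hw h') γ).pow q
  rw [ES.lexp_ratio hv hw h'] at e2
  rw [lexp_eq (((hasLExp_dil_conj q e1 h).sub e2).congr_fun fun τ => by
    simp [ES.act_apply]), ← map_pow, ← map_sub]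
  exact serLE_expandL (P.abv.nonneg _) hp.serLE

/-- The Kronecker congruence at the cusps of type `0`, without restriction on the vectors. -/
theorem kron_zero' {v w v' w' : Fin 2 → ZMod M} (hv : v ≠ 0) (hw : w ≠ 0) (h' : Adm M v' w')
    {γ : SL(2, ℤ)} (hγ : γ ∉ Gamma0 q) :
    P.SerLE (P.abv q) (lexp (q * M) γ (dilFun q (ratio M (scaleVec (q : ZMod M) v)
      (scaleVec (q : ZMod M) w) (scaleVec (q : ZMod M) v') (scaleVec (q : ZMod M) w')) ^ q -
        ratio M ((q : ZMod M) • v) ((q : ZMod M) • w) ((q : ZMod M) • v')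
          ((q : ZMod M) • w'))) := by
  have hu : IsUnit (q : ZMod M) := (ZMod.isUnit_iff_coprime q M).mpr hM.symm
  obtain ⟨j, hj, hjd⟩ := exists_ctr_index q Fact.out hM γ fun hd => hγ (mem_Gamma0_dvd.mpr hd)
  obtain ⟨γ', h00, h01, h10, h11, h⟩ := exists_ctr_conj q γ j hjd
  have hvec := vmul_scaleVec_ctr (M := M) hj h00 h01 h10 h11
  have hsv := ES.scaleVec_ne_zero hu hv
  have hsw := ES.scaleVec_ne_zero hu hw
  have hne : ∀ {u : Fin 2 → ZMod M}, u ≠ 0 → vmul M u γ' ≠ 0 := fun hu' h0 =>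
    hu' (ES.vmul_injective γ' (by simpa [ES.vmul_zero] using h0))
  have hf := frobPair_ratioSeries (P := P) hM (hne hsv) (hne hsw) ((h'.scale hu).mul γ')
  have hp' := adm_smul hu h'
  have hlin : ∀ u : Fin 2 → ZMod M, (q : ZMod M) • vmul M u γ = vmul M ((q : ZMod M) • u) γ :=
    fun u => (Matrix.smul_vecMul _ _ _).symm
  rw [hvec, hvec, hvec, hvec, hlin, hlin, hlin, hlin,
    ← ES.lexp_ratio (smul_ne_zero' hu hv) (smul_ne_zero' hu hw) hp'] at hf
  have e1 := hasLExp_lexp (ES.ratio_mem hsv hsw (h'.scale hu)) γ'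
  rw [ES.lexp_ratio hsv hsw (h'.scale hu)] at e1
  have e2 := hasLExp_level (q := q)
    (ES.ratio_mem (smul_ne_zero' hu hv) (smul_ne_zero' hu hw) hp') γ
  rw [lexp_eq ((((hasLExp_ctr_conj q e1 h).pow q).sub e2).congr_fun fun τ => by
    simp [ES.act_apply]),
    ← twistSer_expandL (pow_prime_twist (q := q) hj) (lexp M γ _),
    ← twistSer_pow _ (pow_ne_zero _
      ((ES.zetaC_isPrimitiveRoot (q * M)).ne_zero (NeZero.ne (q * M)))),
    ← twistSer_sub]
  refine serLE_twist j fun n => ?_
  have := hf.serLE n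
  rwa [← neg_sub, HahnSeries.coeff_neg, AbsoluteValue.map_neg]

/-- **Kronecker congruence** at the cusps of type `0`. -/
theorem kron_zero {v w v' w' : Fin 2 → ZMod M} (hv : v ≠ 0) (hw : w ≠ 0) (h' : Adm M v' w')
    (fv : QFix q v) (fw : QFix q w) (fv' : QFix q v') (fw' : QFix q w')
    {γ : SL(2, ℤ)} (hγ : γ ∉ Gamma0 q) :
    P.SerLE (P.abv q) (lexp (q * M) γ (dilFun q (ratio M (scaleVec (q : ZMod M) v)
      (scaleVec (q : ZMod M) w) (scaleVec (q : ZMod M) v') (scaleVec (q : ZMod M) w')) ^ q -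
        ratio M v w v' w')) := by
  have e : ratio M ((q : ZMod M) • v) ((q : ZMod M) • w) ((q : ZMod M) • v')
      ((q : ZMod M) • w') = ratio M v w v' w' := by
    funext τ
    rw [ratio, ratio, dif_congr_sign fv fw, dif_congr_sign fv' fw']
  exact e ▸ kron_zero' hM hv hw h' hγ

/-- The Atkin operator undoes a dilation. -/
theorem atkin_dilFun_scale {v w v' w' : Fin 2 → ZMod M} (fv : QFix q v) (fw : QFix q w)
    (fv' : QFix q v') (fw' : QFix q w') :
    atkin hM (dilFun q (ratio M (scaleVec (q : ZMod M) v) (scaleVec (q : ZMod M) w)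
      (scaleVec (q : ZMod M) v') (scaleVec (q : ZMod M) w'))) =
      ratio M (scaleVec (q : ZMod M) v) (scaleVec (q : ZMod M) w)
        (scaleVec (q : ZMod M) v') (scaleVec (q : ZMod M) w') := by
  obtain ⟨γ', h00, h01, h10, h11, h⟩ :=
    exists_ctr_conj q (atkinMat hM) 0 (by simpa using (atkinMat_dvd hM).2)
  obtain ⟨a1, b1, c1, d1⟩ := Gamma_mem.mp (atkinMat_mem hM)
  have hfix : ∀ {u : Fin 2 → ZMod M}, QFix q u →
      vmul M (scaleVec (q : ZMod M) u) γ' = scaleVec (q : ZMod M) u ∨
        vmul M (scaleVec (q : ZMod M) u) γ' = -scaleVec (q : ZMod M) u := by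
    intro u hf
    have e11 := congrArg (Int.cast : ℤ → ZMod M) h11
    push_cast at e11
    rw [d1, zero_mul, sub_zero] at e11
    have h2 := congrFun hf.scale_scale 1
    have e : vmul M (scaleVec (q : ZMod M) u) γ' = (q : ZMod M) • scaleVec (q : ZMod M) u := by
      funext i
      fin_cases i
      · simp [vmul, scaleVec, modMat, Matrix.vecMul, dotProduct, Fin.sum_univ_two, h00, h10, a1, c1,
          mul_comm]
      · simp [scaleVec] at h2
        simp [vmul, scaleVec, modMat, Matrix.vecMul, dotProduct, Fin.sum_univ_two, h01, b1]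
        linear_combination u 1 * e11 - h2
    rw [e]
    rcases hf with hh | hh
    · left
      funext i
      have h0 := congrFun hh i
      fin_cases i <;> simp_all [scaleVec]
    · right
      funext i
      have h0 := congrFun hh i
      fin_cases i <;> simp_all [scaleVec]
  funext τ
  have hτ : ctrPt q 0 (dilPt q τ) = τ := UpperHalfPlane.ext (by
    rw [coe_ctrPt, coe_dilPt, Nat.cast_zero, add_zero,
      mul_div_cancel_left₀ _ (Nat.cast_ne_zero.mpr (NeZero.ne q))])
  rw [atkin_apply_pt, dilFun_apply, h, hτ]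
  show act γ' (ratio M _ _ _ _) τ = _
  rw [ES.act_ratio]
  simp only [ratio, dif_congr_sign (hfix fv) (hfix fw), dif_congr_sign (hfix fv') (hfix fw')]

section Haupt

variable (haux : AuxLevel M m)

/-- The conjugate of `t` under Frobenius at `q`. -/
def hauptQ (haux : AuxLevel M m) (q : ℕ) : ℍ → ℂ :=
  ratio M (scaleVec (q : ZMod M) (embVec haux.dvd (ES.baseVec m (ES.polNum 1).1)))
    (scaleVec (q : ZMod M) (embVec haux.dvd (ES.baseVec m (ES.polNum 1).2)))
    (scaleVec (q : ZMod M) (embVec haux.dvd (ES.baseVec m (ES.polDen 1).1)))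
    (scaleVec (q : ZMod M) (embVec haux.dvd (ES.baseVec m (ES.polDen 1).2)))

/-- The element small at the cusps of type `0`. -/
def kronX (haux : AuxLevel M m) (q : ℕ) [NeZero q] : ℍ → ℂ :=
  haupt haux.dvd - dilFun q (hauptQ haux q) ^ q

/-- The element small at the cusps of type `∞`. -/
def kronY (haux : AuxLevel M m) (q : ℕ) [NeZero q] : ℍ → ℂ :=
  dilFun q (haupt haux.dvd) - hauptQ haux q ^ q

variable (hqm : q ≠ m)
include haux

omit [Fact (Nat.Prime q)] in
theorem hauptQ_mem_BSub : hauptQ haux q ∈ BSub M := by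
  have hu : IsUnit (q : ZMod M) := (ZMod.isUnit_iff_coprime q M).mpr hM.symm
  exact ES.ratio_mem (ES.scaleVec_ne_zero hu (ES.adm_num haux (ES.one_le haux)).left)
    (ES.scaleVec_ne_zero hu (ES.adm_num haux (ES.one_le haux)).right)
    ((ES.adm_den haux (ES.one_le haux)).scale hu)

omit [Fact (Nat.Prime q)] in
/-- The conjugate Hauptmodul is integral of level `M`. -/
theorem hauptQ_mem_BRing {A : Subring ℂ} (hA : ES.GoodRoot M A (zetaC M)) :
    hauptQ haux q ∈ BRing M A := by
  have hu : IsUnit (q : ZMod M) := (ZMod.isUnit_iff_coprime q M).mpr hM.symm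
  exact ES.ratio_mem_BRing hA (ES.scaleVec_ne_zero hu (ES.adm_num haux (ES.one_le haux)).left)
    (ES.scaleVec_ne_zero hu (ES.adm_num haux (ES.one_le haux)).right)
    ((ES.adm_den haux (ES.one_le haux)).scale hu)

include hqm

omit hM in
theorem hauptQ_scale : ratio M
    (scaleVec (q : ZMod M) (scaleVec (q : ZMod M) (embVec haux.dvd (ES.baseVec m (ES.polNum 1).1))))
    (scaleVec (q : ZMod M) (scaleVec (q : ZMod M) (embVec haux.dvd (ES.baseVec m (ES.polNum 1).2))))
    (scaleVec (q : ZMod M) (scaleVec (q : ZMod M) (embVec haux.dvd (ES.baseVec m (ES.polDen 1).1))))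
    (scaleVec (q : ZMod M)
      (scaleVec (q : ZMod M) (embVec haux.dvd (ES.baseVec m (ES.polDen 1).2)))) =
      haupt haux.dvd := by
  simp only [(qFix_embVec haux hqm _).scale_scale]
  rfl

omit hM [NeZero M] in
theorem qFix_scaleVec (u : Fin 2 → ZMod m) :
    QFix q (scaleVec (q : ZMod M) (embVec haux.dvd u)) := by
  rcases qFix_embVec (q := q) haux hqm u with h | h
  · left
    funext i
    have h0 := congrFun h i
    fin_cases i <;> simp_all [scaleVec]
  · right
    funext i
    have h0 := congrFun h i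
    fin_cases i <;> simp_all [scaleVec]

/-- `X` is divisible by `q` at the cusps of type `0`. -/
theorem kronX_small {γ : SL(2, ℤ)} (hγ : γ ∉ Gamma0 q) :
    P.SerLE (P.abv q) (lexp (q * M) γ (kronX haux q)) := by
  have h := kron_zero (P := P) hM (ES.adm_num haux (ES.one_le haux)).left
    (ES.adm_num haux (ES.one_le haux)).right (ES.adm_den haux (ES.one_le haux))
    (qFix_embVec haux hqm _) (qFix_embVec haux hqm _) (qFix_embVec haux hqm _)
    (qFix_embVec haux hqm _) hγ
  have hmem : dilFun q (hauptQ haux q) ^ q - haupt haux.dvd ∈ LSub q M :=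
    sub_mem (pow_mem (dilFun_mem_LSub hM (hauptQ_mem_BSub hM haux)) q)
      (mem_LSub_of_BSub (ES.polFun_mem_BSub haux 1 (ES.one_le haux)))
  rw [show kronX haux q = -(dilFun q (hauptQ haux q) ^ q - haupt haux.dvd) by
    rw [neg_sub]; rfl, lexp_eq (hasLExp_lexp hmem.1 γ).neg]
  exact CPlace.SerLE.neg h

/-- `Y` is divisible by `q` at the cusps of type `∞`. -/
theorem kronY_small {γ : SL(2, ℤ)} (hγ : γ ∈ Gamma0 q) :
    P.SerLE (P.abv q) (lexp (q * M) γ (kronY haux q)) := by
  have hu : IsUnit (q : ZMod M) := (ZMod.isUnit_iff_coprime q M).mpr hM.symm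
  have h := kron_inf (P := P) hM
    (ES.scaleVec_ne_zero hu (ES.adm_num haux (ES.one_le haux)).left)
    (ES.scaleVec_ne_zero hu (ES.adm_num haux (ES.one_le haux)).right)
    ((ES.adm_den haux (ES.one_le haux)).scale hu) hγ
  rwa [hauptQ_scale haux hqm] at h

omit hqm in
/-- The Kronecker congruence for the conjugate Hauptmodul. -/
theorem hauptQ_kron {γ : SL(2, ℤ)} (hγ : γ ∈ Gamma0 q) :
    P.SerLE (P.abv q) (lexp (q * M) γ (dilFun q (hauptQ haux q) - haupt haux.dvd ^ q)) :=
  kron_inf hM (ES.adm_num haux (ES.one_le haux)).left (ES.adm_num haux (ES.one_le haux)).right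
    (ES.adm_den haux (ES.one_le haux)) hγ

theorem atkin_dilFun_hauptQ : atkin hM (dilFun q (hauptQ haux q)) = hauptQ haux q :=
  atkin_dilFun_scale hM (qFix_embVec haux hqm _) (qFix_embVec haux hqm _)
    (qFix_embVec haux hqm _) (qFix_embVec haux hqm _)

/-- The Atkin operator carries `t(qτ)` to `t`. -/
theorem atkin_dilFun_haupt : atkin hM (dilFun q (haupt haux.dvd)) = haupt haux.dvd := by
  have h := atkin_dilFun_scale (q := q) hM (qFix_scaleVec haux hqm (ES.baseVec m (ES.polNum 1).1))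
    (qFix_scaleVec haux hqm (ES.baseVec m (ES.polNum 1).2))
    (qFix_scaleVec haux hqm (ES.baseVec m (ES.polDen 1).1))
    (qFix_scaleVec haux hqm (ES.baseVec m (ES.polDen 1).2))
  rwa [hauptQ_scale haux hqm] at h

/-- The Atkin operator carries `X` to `Y`. -/
theorem atkin_kronX : atkin hM (kronX haux q) = kronY haux q := by
  rw [kronX, kronY, map_sub, map_pow, atkin_dilFun_hauptQ hM haux hqm,
    atkin_of_BSub hM (f := haupt haux.dvd) (ES.polFun_mem_BSub haux 1 (ES.one_le haux))]

/-- The Atkin operator carries `Y` to `X`. -/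
theorem atkin_kronY : atkin hM (kronY haux q) = kronX haux q := by
  rw [kronX, kronY, map_sub, map_pow, atkin_dilFun_haupt hM haux hqm,
    atkin_of_BSub hM (hauptQ_mem_BSub hM haux)]

end Haupt

end FermatAgent.BAD
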