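import Fermat.Agent.BAD.Special

/-!
# Normalisation at both components

A function is moved to one with a unit coefficient at the cusps over one of `∞` and `0` by
multiplying with powers of the Hasse function or of its Atkin transform.
-/

set_option autoImplicit false

open UpperHalfPlane CongruenceSubgroup IsLocalRing
open scoped MatrixGroups

noncomputable section

namespace FermatAgent.BAD

open FermatAgent.ES (BSub BRing SerIn HasLExp lexp lexp_eq hasLExp_lexp lexp_act act zetaC AuxLevel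
  CPlace GoodRoot)

variable {q M m : ℕ} [Fact q.Prime] [NeZero M] {O : Subring ℂ} (haux : AuxLevel M m)
  (hA : GoodRoot M O (zetaC M)) {P : CPlace q} (hO : O ≤ P.ring) (hM : M.Coprime q)
  (hζ : zetaC (q * M) ∈ O) (hqm : q ≠ m)

include haux hA hO hM hζ hqm in
/-- One unit coefficient at a cusp of type `∞` gives one at all of them. -/
theorem unitInf_of_unitCoeff {g : LRing q M O} {γ : SL(2, ℤ)} (hγ : γ ∈ Gamma0 q)
    (h : P.UnitCoeff (serAt M O q γ g)) : UnitInf P g := by
  set η := eta haux hM hA hζ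
  set x := trB (hasseL haux hM hA hζ * g)
  have hd := eta_mul_sub_mem_pInf hO haux hM hA hζ g
  have hη := eta_unitInf hO haux hM hA hζ hqm
  have hser : ∀ (f : LRing q M O) (γ : SL(2, ℤ)), SerIn P.ring (serAt M O q γ f) :=
    fun f γ n => hO (serIn_serAt γ f n)
  have hprod : P.UnitCoeff (serAt M O q γ (raiseL M η * g)) := by
    rw [map_mul]
    exact CPlace.UnitCoeff.mul (hser _ γ) (hser g γ) (hη γ hγ) h
  have hx : P.UnitCoeff (serAt M O q γ (raiseL M x)) := by
    have h1 := hd γ hγ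
    rw [map_sub] at h1
    exact CPlace.UnitCoeff.of_serLE_sub hprod h1 (hser _ γ)
  obtain ⟨n, hn⟩ := hx
  rw [serAt_raiseL] at hn
  obtain ⟨k, rfl⟩ : (q : ℤ) ∣ n := by
    by_contra hd'
    rw [expandL_coeff_of_not_dvd q _ hd', map_zero] at hn
    exact zero_ne_one hn
  rw [expandL_coeff_mul] at hn
  have hall : UnitInf P (raiseL M η * g : LRing q M O) :=
    UnitAt.of_sub_mem hO (unitAt_raiseL (M := M) hO haux hM ⟨γ, k, hn⟩ _) (by
      rw [← neg_sub]; exact neg_mem hd)
  intro δ hδ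
  by_contra hno
  have h1 := hall δ hδ
  rw [map_mul] at h1
  have h2 : P.SerLT (serAt M O q δ g * serAt M O q δ (raiseL M η)) :=
    CPlace.SerLT.mul_serIn (P.serLT_of_not_unitCoeff (hser g δ) hno) (hser _ δ)
  rw [mul_comm] at h2
  exact h2.not_unitCoeff h1

omit [Fact (Nat.Prime q)] in
/-- An integral series which is not small has a unit coefficient. -/
theorem unitCoeff_of_not_serLT {s : LaurentSeries ℂ} (hs : SerIn P.ring s) (h : ¬ P.SerLT s) :
    P.UnitCoeff s := by
  by_contra hno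
  exact h (P.serLT_of_not_unitCoeff hs hno)

section Unif

variable (hO' : P.IsCDVR O) {ϖ : O} (hϖ : Irreducible ϖ)
include hO' hϖ

omit [Fact (Nat.Prime q)] in
/-- The series is a power of the uniformiser times one with a unit coefficient. -/
theorem exists_unit_part {s : LaurentSeries ℂ} (hs : SerIn O s) (h0 : s ≠ 0) :
    ∃ (j : ℕ) (u : LaurentSeries ℂ), SerIn O u ∧ P.UnitCoeff u ∧
      s = HahnSeries.C ((ϖ : ℂ) ^ j) * u := by
  classical
  have := hO'.dvr
  have hϖ0 : (ϖ : ℂ) ≠ 0 := fun h => hϖ.ne_zero (Subtype.ext h)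
  obtain ⟨n, hn⟩ : ∃ n, s.coeff n ≠ 0 := by
    by_contra! h
    exact h0 (HahnSeries.ext (funext h))
  obtain ⟨v, u, hu⟩ := IsDiscreteValuationRing.eq_unit_mul_pow_irreducible
    (x := (⟨s.coeff n, hs n⟩ : O)) (fun h => hn (congrArg Subtype.val h)) hϖ
  have hex : ∃ j, ∃ i, P.abv (ϖ : ℂ) ^ j ≤ P.abv (s.coeff i) := by
    refine ⟨v, n, le_of_eq ?_⟩
    have h1 := congrArg (fun x : O => P.abv (x : ℂ)) hu
    simp only [Subring.coe_mul, SubmonoidClass.coe_pow, map_mul, map_pow,
      (hO'.isUnit_iff _).mp u.isUnit, one_mul] at h1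
    exact h1.symm
  set j := Nat.find hex
  obtain ⟨i, hi⟩ := Nat.find_spec hex
  have hdiv : ∀ e, ϖ ^ j ∣ (⟨s.coeff e, hs e⟩ : O) := fun e => by
    by_cases he : (⟨s.coeff e, hs e⟩ : O) = 0
    · exact he ▸ dvd_zero _
    obtain ⟨v', u', hu'⟩ := IsDiscreteValuationRing.eq_unit_mul_pow_irreducible he hϖ
    have hv : j ≤ v' := Nat.find_min' hex ⟨e, by
      have h1 := congrArg (fun x : O => P.abv (x : ℂ)) hu'
      simp only [Subring.coe_mul, SubmonoidClass.coe_pow, map_mul, map_pow,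
        (hO'.isUnit_iff _).mp u'.isUnit, one_mul] at h1
      exact h1.ge⟩
    rw [hu']
    exact Dvd.dvd.mul_left (pow_dvd_pow ϖ hv) _
  have hcoef : ∀ e, (HahnSeries.C ((ϖ : ℂ) ^ j)⁻¹ * s).coeff e = ((ϖ : ℂ) ^ j)⁻¹ * s.coeff e :=
    fun e => by rw [HahnSeries.C_mul_eq_smul, HahnSeries.coeff_smul, smul_eq_mul]
  refine ⟨j, HahnSeries.C ((ϖ : ℂ) ^ j)⁻¹ * s, fun e => ?_, ⟨i, le_antisymm ?_ ?_⟩, ?_⟩
  · rw [hcoef]
    obtain ⟨c, hc⟩ := hdiv e
    have h1 := congrArg Subtype.val hc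
    simp only [Subring.coe_mul, SubmonoidClass.coe_pow] at h1
    rw [h1, inv_mul_cancel_left₀ (pow_ne_zero _ hϖ0)]
    exact c.2
  · rw [hcoef]
    obtain ⟨c, hc⟩ := hdiv i
    have h1 := congrArg Subtype.val hc
    simp only [Subring.coe_mul, SubmonoidClass.coe_pow] at h1
    rw [h1, inv_mul_cancel_left₀ (pow_ne_zero _ hϖ0)]
    exact hO'.le c.2
  · rw [hcoef, map_mul, map_inv₀, map_pow, le_inv_mul_iff₀ (pow_pos (P.abv.pos hϖ0) _), mul_one]
    exact hi
  · rw [← mul_assoc, ← map_mul, mul_inv_cancel₀ (pow_ne_zero _ hϖ0), map_one, one_mul]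

include hO haux hA hM hζ hqm in
/-- Normalisation at the component at `∞`. -/
theorem exists_normal_inf {f : LRing q M O} (hf : f ≠ 0) :
    ∃ (j : ℕ) (g : LRing q M O), UnitInf P g ∧
      hasseL haux hM hA hζ ^ j * f = constL (ϖ ^ j) * g := by
  have := hO'.dvr
  obtain ⟨j, u, hu, huu, hs⟩ := exists_unit_part hO' hϖ (serIn_serAt (1 : SL(2, ℤ)) f)
    (fun h => hf (serAt_injective 1 (h.trans (map_zero _).symm)))
  clear hf
  induction j generalizing f u with
  | zero =>
    refine ⟨0, f, unitInf_of_unitCoeff haux hA hO hM hζ hqm (γ := 1) (one_mem _) ?_, by simp⟩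
    rw [hs, pow_zero, map_one, one_mul]
    exact huu
  | succ j ih =>
    have hsmall : f ∈ pInf hO := by
      intro γ hγ
      refine P.serLT_of_not_unitCoeff (fun n => hO (serIn_serAt γ f n)) fun hunit => ?_
      obtain ⟨n, hn⟩ := unitInf_of_unitCoeff haux hA hO hM hζ hqm hγ hunit 1 (one_mem _)
      rw [hs, HahnSeries.C_mul_eq_smul, HahnSeries.coeff_smul, smul_eq_mul, map_mul, map_pow,
        pow_succ] at hn
      have h1 : P.abv (ϖ : ℂ) ^ j * P.abv (ϖ : ℂ) * P.abv (u.coeff n) < 1 :=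
        lt_of_le_of_lt (mul_le_of_le_one_right
          (mul_nonneg (pow_nonneg (P.abv.nonneg _) _) (P.abv.nonneg _)) (hO (hu n)))
          (lt_of_le_of_lt (mul_le_of_le_one_left (P.abv.nonneg _)
            (pow_le_one₀ (P.abv.nonneg _) (hO ϖ.2))) (abv_unif hO' hϖ))
      exact h1.ne hn
    obtain ⟨g1, hg1⟩ := dvd_of_mem_pInf_pZero hO hO' hϖ
      (f := hasseL haux hM hA hζ * f) (Ideal.mul_mem_left _ _ hsmall)
      (Ideal.mul_mem_right _ _ (hasseL_mem_pZero haux hM hA hζ hO))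
    obtain ⟨i, g, hg, heq⟩ := ih (f := g1) (u := serAt M O q 1 (hasseL haux hM hA hζ) * u)
      ((serIn_serAt 1 _).mul hu)
      (CPlace.UnitCoeff.mul (fun n => hO (serIn_serAt 1 _ n)) (fun n => hO (hu n))
        (hasseL_unitInf haux hM hA hζ hO hqm 1 (one_mem _)) huu) (by
        have h1 := congrArg (serAt M O q (1 : SL(2, ℤ))) hg1
        rw [map_mul, map_mul, serAt_constL, hs, pow_succ', map_mul] at h1
        refine mul_left_cancel₀ ((map_ne_zero_iff _ HahnSeries.C_injective).mpr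
          (fun h => hϖ.ne_zero (Subtype.ext h)) : HahnSeries.C (ϖ : ℂ) ≠ 0) ?_
        rw [← h1]
        ring)
    exact ⟨i + 1, g, hg, by
      rw [pow_succ, mul_assoc, hg1, pow_succ, map_mul, ← mul_assoc, mul_comm _ (constL ϖ),
        mul_assoc, heq]
      ring⟩

include hO haux hA hM hζ hqm in
/-- Normalisation at the component at `0`. -/
theorem exists_normal_zero {f : LRing q M O} (hf : f ≠ 0) :
    ∃ (j : ℕ) (g : LRing q M O), UnitZero P g ∧
      atkinEquiv hM hζ (hasseL haux hM hA hζ) ^ j * f = constL (ϖ ^ j) * g := by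
  obtain ⟨j, g, hg, heq⟩ := exists_normal_inf haux hA hO hM hζ hqm hO' hϖ
    (f := (atkinEquiv hM hζ).symm f) (fun h => hf (by
      simpa using congrArg (atkinEquiv hM hζ) h))
  refine ⟨j, atkinEquiv hM hζ g, atkinL_unitZero hM hζ hg, ?_⟩
  have h1 := congrArg (atkinEquiv hM hζ) heq
  rwa [map_mul, map_mul, map_pow, RingEquiv.apply_symm_apply,
    show atkinEquiv hM hζ (constL (ϖ ^ j)) = constL (ϖ ^ j) from
      Subtype.ext (atkin_const hM _)] at h1

end Unif

section Invariant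

include haux hM

omit [Fact (Nat.Prime q)] [NeZero M] in
/-- The auxiliary level is prime to `q`. -/
theorem coprime_aux : m.Coprime q := Nat.Coprime.coprime_dvd_left haux.dvd hM

/-- The Hasse function is invariant under `Γ₀(q) ∩ Γ(m)`. -/
theorem act_hasseFun {δ : SL(2, ℤ)} (hδ : δ ∈ lam q m) :
    act δ (hasseFun haux q) = hasseFun haux q := by
  have : NeZero m := ⟨fun h => NeZero.ne M (zero_dvd_iff.mp (h ▸ haux.dvd))⟩
  obtain ⟨γ', h00, h01, h10, h11, h⟩ := exists_dil_conj q δ (mem_Gamma0_dvd.mp hδ.1)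
  have hγ' : γ' ∈ Gamma m := dil_conj_mem (coprime_aux haux hM) hδ.2 h00 h01 h10 h11
  funext τ
  rw [ES.act_apply, hasseFun, ES.auxW, h, ES.dif_smul, ES.dif_smul, denom_dil_conj h10 h11,
    mul_div_mul_left _ _ (pow_ne_zero 2 (UpperHalfPlane.denom_ne_zero _ τ)), ES.refA, ES.refB,
    ← ES.embVec_vmul, ← ES.embVec_vmul, ← ES.embVec_vmul, ← ES.embVec_vmul, ES.vmul_of_mem hδ.2,
    ES.vmul_of_mem hδ.2, ES.vmul_of_mem hγ', ES.vmul_of_mem hγ']
  rfl

/-- The Atkin transform of a function invariant at the auxiliary level is invariant there. -/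
theorem act_atkin_of_inv {f : ℍ → ℂ} (hf : ∀ δ ∈ lam q m, act δ f = f) {δ : SL(2, ℤ)}
    (hδ : δ ∈ lam q m) : act δ (atkin hM f) = atkin hM f :=
  act_atkin_of_lam hM (ES.gamma_le_of_dvd haux.dvd (atkinMat_mem hM)) (coprime_aux haux hM) hf hδ

end Invariant

/-- The inclusion of integral rings. -/
def inclL {O' : Subring ℂ} (h : O ≤ O') : LRing q M O →+* LRing q M O' :=
  Subring.inclusion (LRing_mono h)

/-- Enlarging the coefficients does not change the function. -/
theorem coe_inclL {O' : Subring ℂ} (h : O ≤ O') (f : LRing q M O) :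
    (inclL h f : ℍ → ℂ) = f := rfl

end FermatAgent.BAD
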