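import Fermat.Agent.BAD.Special
import Fermat.Agent.ES.Forms.Conj
import Fermat.Agent.ES.Forms.Classes

/-!
# Conjugation of functions of level `q M` by automorphisms of the coefficients

An automorphism stabilising the coefficient ring preserves the integral ring. When it is congruent
to the identity it is congruent to the identity modulo the uniformiser and fixes the Kronecker
elements.
-/

set_option autoImplicit false

open UpperHalfPlane CongruenceSubgroup
open scoped MatrixGroups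

noncomputable section

namespace FermatAgent.BAD

open FermatAgent.ES (BSub BRing SerIn HasLExp lexp lexp_eq hasLExp_lexp lexp_act act zetaC AuxLevel
  CPlace GoodRoot GalRel mapSer conjHom liftSer modMat twistSer)

variable {q M m : ℕ} [Fact q.Prime] [NeZero M]

omit [NeZero M] in
/-- The `q`-th power of `ζ_(qM)` is `ζ_M`. -/
theorem zetaC_level_pow : zetaC (q * M) ^ q = zetaC M := by
  rw [zetaC, zetaC, ← Complex.exp_nat_mul]
  congr 1
  have hq : (q : ℂ) ≠ 0 := Nat.cast_ne_zero.mpr (NeZero.ne q)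
  push_cast
  field_simp

/-- A `q`-th root of unity is congruent to one at the place. -/
theorem abv_one_sub_lt_of_pow_prime (P : CPlace q) {z : ℂ} (hz : z ^ q = 1) :
    P.abv (1 - z) < 1 := by
  have hz1 : P.abv z ≤ 1 := (P.abv_eq_one_of_pow_eq_one (NeZero.ne q) hz).le
  set w : P.ring := ⟨z, hz1⟩
  obtain ⟨r, hr⟩ := exists_add_pow_prime_eq (Fact.out : q.Prime) (1 - w) w
  have h1 := congrArg Subtype.val hr
  rw [sub_add_cancel, one_pow] at h1
  simp only [Subring.coe_add, Subring.coe_mul, SubmonoidClass.coe_pow, AddSubgroupClass.coe_sub,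
    OneMemClass.coe_one] at h1
  rw [show (w : ℂ) = z from rfl, hz, show ((q : P.ring) : ℂ) = (q : ℂ) by simp] at h1
  by_contra hge
  push Not at hge
  have h2 : P.abv ((1 - z) ^ q) < 1 := by
    rw [show (1 - z) ^ q = -((q : ℂ) * ((1 - z) * z * (r : ℂ))) by linear_combination -h1,
      AbsoluteValue.map_neg, map_mul]
    exact mul_lt_one_of_nonneg_of_lt_one_left (P.abv.nonneg _) P.lt_one
      (P.ring.mul_mem (P.ring.mul_mem (P.ring.sub_mem P.ring.one_mem hz1) hz1) r.2)
  rw [map_pow] at h2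
  exact absurd h2 (not_lt.mpr (one_le_pow₀ hge))

/-- An automorphism of `ℂ` which stabilises `O`, with its exponent on roots of unity. -/
structure ConjData (q M : ℕ) (O : Subring ℂ) where
  /-- The automorphism. -/
  σ : ℂ ≃+* ℂ
  /-- Its exponent on roots of unity of order `q M`. -/
  a : ℕ
  stable : ∀ z ∈ O, σ z ∈ O
  unit : IsUnit (a : ZMod (q * M))
  zeta : σ (zetaC (q * M)) = zetaC (q * M) ^ a

/-- An automorphism stabilising `O` gives conjugation data. -/
theorem exists_conjData {O : Subring ℂ} (σ : ℂ ≃+* ℂ) (hO : ∀ z ∈ O, σ z ∈ O) :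
    ∃ D : ConjData q M O, D.σ = σ := by
  obtain ⟨a, ha, hσ⟩ := ES.exists_unit_exponent (q * M) σ
  exact ⟨⟨σ, a, hO, ha, hσ⟩, rfl⟩

namespace ConjData

variable {O : Subring ℂ} (D : ConjData q M O)

omit [NeZero M] in
/-- The automorphism raises `ζ_M` to its exponent. -/
theorem zeta_base : D.σ (zetaC M) = zetaC M ^ D.a := by
  rw [← zetaC_level_pow (q := q), map_pow, D.zeta, ← pow_mul, ← pow_mul, Nat.mul_comm D.a q]

section

omit [Fact q.Prime] [NeZero M]

/-- Related matrices lie in `Γ₀(q)` together. -/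
theorem gamma0_iff {γ γ' : SL(2, ℤ)} (h : GalRel (D.a : ZMod (q * M)) γ γ') :
    γ ∈ Gamma0 q ↔ γ' ∈ Gamma0 q :=
  (h.of_dvd (dvd_mul_right q M)).mem_Gamma0
    (ES.isUnit_natCast_of_dvd (dvd_mul_right q M) D.unit)

/-- Related matrices lie in `Γ(N)` together, for `N ∣ qM`. -/
theorem gamma_iff_of_dvd {N : ℕ} (hN : N ∣ q * M) {γ γ' : SL(2, ℤ)}
    (h : GalRel (D.a : ZMod (q * M)) γ γ') : γ ∈ Gamma N ↔ γ' ∈ Gamma N :=
  (h.of_dvd hN).mem_Gamma (ES.isUnit_natCast_of_dvd hN D.unit)

end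

omit [Fact q.Prime] [NeZero M] in
/-- The level group is stable under the relation. -/
theorem lam_of_galRel {γ γ' : SL(2, ℤ)} (h : GalRel (D.a : ZMod (q * M)) γ γ')
    (h' : γ' ∈ lam q M) : γ ∈ lam q M :=
  ⟨(D.gamma0_iff h).mpr h'.1, (D.gamma_iff_of_dvd (dvd_mul_left M q) h).mpr h'.2⟩

variable (haux : AuxLevel M m)

/-- The conjugation. -/
def conjB : BSub (q * M) →+* BSub (q * M) :=
  conjHom (auxLevel_level (q := q) haux) D.unit D.zeta

/-- The expansions of the conjugate are the conjugated expansions at related cusps. -/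
theorem lexp_conjB (f : BSub (q * M)) {γ γ' : SL(2, ℤ)}
    (h : GalRel (D.a : ZMod (q * M)) γ γ') :
    lexp (q * M) γ' (D.conjB haux f : ℍ → ℂ) =
      mapSer (D.σ : ℂ →+* ℂ) (lexp (q * M) γ (f : ℍ → ℂ)) :=
  ES.lexp_conjHom _ D.unit D.zeta f h

/-- Invariance under a set stable by the twist passes to the conjugate. -/
theorem act_conjB {G : Set SL(2, ℤ)}
    (hG : ∀ {γ γ' : SL(2, ℤ)}, GalRel (D.a : ZMod (q * M)) γ γ' → γ' ∈ G → γ ∈ G)
    {f : BSub (q * M)} (hf : ∀ γ ∈ G, act γ (f : ℍ → ℂ) = f) {γ' : SL(2, ℤ)} (hγ' : γ' ∈ G) :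
    act γ' (D.conjB haux f : ℍ → ℂ) = D.conjB haux f := by
  refine ES.lexp_injective (ES.act_mem_BSub (D.conjB haux f).2 _) (D.conjB haux f).2 (γ := 1) ?_
  obtain ⟨γ, hr⟩ := GalRel.exists_left D.unit γ'
  rw [lexp_act, mul_one, D.lexp_conjB haux f hr, D.lexp_conjB haux f (GalRel.one _),
    ← mul_one γ, ← lexp_act, hf γ (hG hr hγ')]

/-- Conjugation preserves integrality. -/
theorem conjB_mem_BRing {f : BSub (q * M)} (hf : (f : ℍ → ℂ) ∈ BRing (q * M) O) :
    (D.conjB haux f : ℍ → ℂ) ∈ BRing (q * M) O := by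
  refine ⟨(D.conjB haux f).2, fun γ' n => ?_⟩
  obtain ⟨γ, hr⟩ := GalRel.exists_left D.unit γ'
  rw [D.lexp_conjB haux _ hr, ES.coeff_mapSer]
  exact D.stable _ (hf.2 γ n)

/-- The conjugation of the integral ring. -/
def conjL : LRing q M O →+* LRing q M O :=
  ((BSub (q * M)).val.toRingHom.comp ((D.conjB haux).comp
    ((LRing q M O).subtype.codRestrict (BSub (q * M)) fun f => f.2.1.1))).codRestrict _
    fun f => ⟨D.conjB_mem_BRing haux f.2.1, (D.conjB haux _).2, fun _ hγ =>
      D.act_conjB haux (G := {γ | γ ∈ lam q M}) D.lam_of_galRel (fun γ h => f.2.2.2 γ h) hγ⟩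

/-- The automorphism of the coefficient ring. -/
def σO : O →+* O := ((D.σ : ℂ →+* ℂ).comp O.subtype).codRestrict _ fun z => D.stable z z.2

omit [Fact q.Prime] [NeZero M] in
/-- The automorphism of the coefficient ring is the given one. -/
theorem coe_σO (z : O) : ((D.σO z : O) : ℂ) = D.σ z := rfl

/-- The expansions of the conjugate in `LRing q M O`. -/
theorem serAt_conjL (f : LRing q M O) {γ γ' : SL(2, ℤ)}
    (h : GalRel (D.a : ZMod (q * M)) γ γ') :
    serAt M O q γ' (D.conjL haux f) = mapSer (D.σ : ℂ →+* ℂ) (serAt M O q γ f) :=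
  D.lexp_conjB haux ⟨f, f.2.1.1⟩ h

/-- The expansions of the conjugate with coefficients in `O`. -/
theorem serO_conjL (f : LRing q M O) {γ γ' : SL(2, ℤ)}
    (h : GalRel (D.a : ZMod (q * M)) γ γ') :
    serO M O q γ' (D.conjL haux f) = liftSer D.σO (serO M O q γ f) := by
  refine serO_ext ?_
  rw [D.serAt_conjL haux f h, ← liftSer_serO]
  rfl

/-- Conjugation acts on constants by the automorphism. -/
theorem conjL_constL (r : O) : D.conjL haux (constL r) = (constL (D.σO r) : LRing q M O) := by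
  refine serAt_injective 1 ?_
  rw [D.serAt_conjL haux _ (GalRel.one _), serAt_constL, serAt_constL, ES.mapSer_C]
  rfl

/-- A function whose expansion at `∞` has fixed coefficients is fixed. -/
theorem conjL_eq_self {f : LRing q M O}
    (hf : mapSer (D.σ : ℂ →+* ℂ) (serAt M O q 1 f) = serAt M O q 1 f) : D.conjL haux f = f :=
  serAt_injective 1 ((D.serAt_conjL haux f (GalRel.one _)).trans hf)

end ConjData

/-- An automorphism of `ℂ` which stabilises `O` and is congruent to the identity at `P`. -/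
structure InertData (M : ℕ) (P : CPlace q) (O : Subring ℂ) extends ConjData q M O where
  small : ∀ z, P.abv z ≤ 1 → P.abv (σ z - z) < 1

/-- An automorphism stabilising `O` and congruent to the identity gives inertia data. -/
theorem exists_inertData {P : CPlace q} {O : Subring ℂ} (σ : ℂ ≃+* ℂ)
    (hs : ∀ z, P.abv z ≤ 1 → P.abv (σ z - z) < 1) (hO : ∀ z ∈ O, σ z ∈ O) :
    ∃ D : InertData M P O, D.σ = σ := by
  obtain ⟨D, rfl⟩ := exists_conjData (q := q) (M := M) σ hO
  exact ⟨⟨D, hs⟩, rfl⟩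

omit [Fact q.Prime] in
/-- Two powers of `ζ_M` congruent at a place prime to `M` are equal. -/
theorem zmod_eq_of_abv_pow_sub_lt (P : CPlace q) (hM : M.Coprime q) {i j : ℕ}
    (h : P.abv (zetaC M ^ i - zetaC M ^ j) < 1) : (i : ZMod M) = j := by
  obtain ⟨hprim, -, hun⟩ := P.goodRoot hM
  have hzu : P.abv (zetaC M) = 1 := P.abv_eq_one_of_pow_eq_one (NeZero.ne M) hprim.pow_eq_one
  set k := i + (M - 1) * j
  have hk : k + j = i + M * j := by
    show i + (M - 1) * j + j = i + M * j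
    rw [add_assoc, ← Nat.succ_mul, Nat.succ_eq_add_one, Nat.sub_add_cancel (NeZero.one_le (n := M))]
  have hpow : zetaC M ^ k * zetaC M ^ j = zetaC M ^ i := by
    rw [← pow_add, hk, pow_add, pow_mul, hprim.pow_eq_one, one_pow, mul_one]
  by_cases hd : M ∣ k
  · have h1 : ((k : ℕ) : ZMod M) = 0 := (ZMod.natCast_eq_zero_iff k M).mpr hd
    have h2 := congrArg (Nat.cast : ℕ → ZMod M) hk
    push_cast at h2
    rw [h1, zero_add, ZMod.natCast_self, zero_mul, add_zero] at h2
    exact h2.symm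
  · exfalso
    rw [← hpow, show zetaC M ^ k * zetaC M ^ j - zetaC M ^ j =
      -((1 - zetaC M ^ k) * zetaC M ^ j) by ring, AbsoluteValue.map_neg, map_mul, map_pow, hzu,
      one_pow, mul_one, P.abv_eq_one_of_unitIn (hun k hd)] at h
    exact lt_irrefl _ h

omit [NeZero M] in
/-- Two cusps of type `0` congruent modulo `M` differ by the level group and a translation by a
multiple of `M`. -/
theorem exists_mem_lam_mul_T_pow (hM : M.Coprime q) {γ γ' : SL(2, ℤ)}
    (hγ : γ ∉ Gamma0 q) (hγ' : γ' ∉ Gamma0 q) (hmod : modMat M γ' = modMat M γ) :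
    ∃ (j : ℕ) (δ : SL(2, ℤ)), M ∣ j ∧ δ ∈ lam q M ∧ γ' = δ * (γ * ModularGroup.T ^ j) := by
  have hc : (γ 1 0 : ZMod q) ≠ 0 := fun h => hγ (Gamma0_mem.mpr h)
  have hc' : (γ' 1 0 : ZMod q) ≠ 0 := fun h => hγ' (Gamma0_mem.mpr h)
  have hMq : (M : ZMod q) ≠ 0 := fun h => by
    have h1 : q ∣ M := (ZMod.natCast_eq_zero_iff M q).mp h
    exact (Fact.out : q.Prime).not_dvd_one (hM ▸ Nat.dvd_gcd h1 dvd_rfl)
  set k : ZMod q := ((γ 1 0 : ZMod q) * (γ' 1 1 : ZMod q) - (γ' 1 0 : ZMod q) * (γ 1 1 : ZMod q)) /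
    ((M : ZMod q) * (γ 1 0 : ZMod q) * (γ' 1 0 : ZMod q)) with hk
  refine ⟨M * k.val, γ' * (γ * ModularGroup.T ^ (M * k.val))⁻¹, dvd_mul_right _ _, ⟨?_, ?_⟩,
    (inv_mul_cancel_right _ _).symm⟩
  · refine Gamma0_mem.mpr ?_
    simp only [Matrix.SpecialLinearGroup.coe_mul, Matrix.SpecialLinearGroup.coe_inv, ES.T_pow_coe,
      Matrix.adjugate_fin_two, Matrix.mul_apply, Fin.sum_univ_two, Matrix.of_apply,
      Matrix.cons_val',
      Matrix.cons_val_zero, Matrix.cons_val_one, Matrix.cons_val_fin_one]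
    push_cast
    rw [ZMod.natCast_zmod_val, hk]
    field_simp
    ring
  · apply ES.mem_Gamma_of_modMat
    have hT : modMat M (ModularGroup.T ^ (M * k.val)) = 1 := ES.modMat_eq_one_of_mem (by
      rw [Gamma_mem, ES.T_pow_coe]; simp)
    have h1 : modMat M (γ * ModularGroup.T ^ (M * k.val)) = modMat M γ' := by
      rw [ES.modMat_mul, hT, mul_one, hmod]
    rw [ES.modMat_mul, ← h1, ← ES.modMat_mul, mul_inv_cancel, ES.modMat_one]

namespace InertData

variable {P : CPlace q} {O : Subring ℂ} (D : InertData M P O)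

/-- The exponent of inertia data is one modulo `M`. -/
theorem a_eq_one (hM : M.Coprime q) : (D.a : ZMod M) = 1 := by
  have h := D.small _ (P.abv_eq_one_of_pow_eq_one (NeZero.ne M)
    (ES.zetaC_isPrimitiveRoot M).pow_eq_one).le
  rw [D.zeta_base] at h
  nth_rewrite 2 [← pow_one (zetaC M)] at h
  exact (zmod_eq_of_abv_pow_sub_lt P hM h).trans Nat.cast_one

variable (haux : AuxLevel M m)

/-- Matrices related by inertia data are congruent modulo `M`. -/
theorem modMat_eq_of_galRel (hM : M.Coprime q) {γ γ' : SL(2, ℤ)}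
    (h : GalRel (D.a : ZMod (q * M)) γ γ') : modMat M γ' = modMat M γ := by
  have h1 := GalRel.of_dvd (dvd_mul_left M q) h
  rw [GalRel, D.a_eq_one hM, show (!![1, 0; 0, 1] : Matrix (Fin 2) (Fin 2) (ZMod M)) = 1 from
    Matrix.one_fin_two.symm, one_mul, mul_one] at h1
  exact h1

omit [Fact (Nat.Prime q)] [NeZero M] in
/-- Inertia data act trivially on the residue field. -/
theorem residue_σO [IsLocalRing O] (hO' : P.IsCDVR O) (z : O) :
    IsLocalRing.residue O (D.σO z) = IsLocalRing.residue O z := by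
  rw [← sub_eq_zero, ← map_sub, IsLocalRing.residue_eq_zero_iff, hO'.mem_maximalIdeal_iff]
  exact D.small _ (hO'.le z.2)

variable (hM : M.Coprime q)

include hM in
theorem serLT_conjL_sub (hO : O ≤ P.ring) (f : LRing q M O) (γ' : SL(2, ℤ)) :
    P.SerLT (serAt M O q γ' (D.conjL haux f - f)) := by
  obtain ⟨γ, hr⟩ := GalRel.exists_left D.unit γ'
  have hmod := D.modMat_eq_of_galRel hM hr
  have hmem : ∀ n, P.abv ((serAt M O q γ f).coeff n) ≤ 1 := fun n => hO (serIn_serAt γ f n)
  intro n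
  rw [map_sub, D.serAt_conjL haux f hr, HahnSeries.coeff_sub, ES.coeff_mapSer,
    RingEquiv.coe_toRingHom]
  have hsm := D.small _ (hmem n)
  by_cases hγ : γ' ∈ Gamma0 q
  · have hl : γ' * γ⁻¹ ∈ lam q M :=
      ⟨(Gamma0 q).mul_mem hγ ((Gamma0 q).inv_mem ((D.gamma0_iff hr).mpr hγ)),
        ES.mem_Gamma_of_modMat (by
        rw [ES.modMat_mul, hmod, ← ES.modMat_mul, mul_inv_cancel, ES.modMat_one])⟩
    have e : serAt M O q γ' f = serAt M O q γ f := by
      rw [serAt_apply, serAt_apply]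
      conv_rhs => rw [← f.2.2.2 _ hl, lexp_act, inv_mul_cancel_right]
    rw [e]
    exact hsm
  · obtain ⟨j, δ, hj, hδ, e⟩ := exists_mem_lam_mul_T_pow hM
      (fun h => hγ ((D.gamma0_iff hr).mp h)) hγ hmod
    have e1 : serAt M O q γ' f = twistSer (zetaC (q * M) ^ j) (serAt M O q γ f) := by
      rw [serAt_apply, serAt_apply, e, ← lexp_act, f.2.2.2 δ hδ, ES.lexp_mul_T_pow f.2.2.1]
    rw [e1, ES.coeff_twistSer]
    set c := (serAt M O q γ f).coeff n
    set z := zetaC (q * M) ^ j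
    have hzq : (z ^ n) ^ q = 1 := by
      rw [← zpow_natCast, ← zpow_mul, mul_comm n, zpow_mul, zpow_natCast, pow_prime_twist hj,
        one_zpow]
    rw [show D.σ c - c * z ^ n = (D.σ c - c) + c * (1 - z ^ n) by ring]
    refine P.add_lt hsm ?_
    rw [map_mul]
    exact mul_lt_one_of_nonneg_of_lt_one_right (hmem n) (P.abv.nonneg _)
      (abv_one_sub_lt_of_pow_prime P hzq)

include hM in
/-- Conjugation by inertia data is the identity modulo the uniformiser. -/
theorem unif_dvd_conjL_sub (hO : O ≤ P.ring) (hO' : P.IsCDVR O) {ϖ : O} (hϖ : Irreducible ϖ)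
    (f : LRing q M O) : constL ϖ ∣ D.conjL haux f - f :=
  dvd_of_mem_pInf_pZero hO hO' hϖ (fun γ _ => D.serLT_conjL_sub haux hM hO f γ)
    (fun γ _ => D.serLT_conjL_sub haux hM hO f γ)

include hM in
/-- The expansion at `∞` of a ratio of division values at level `M` is fixed by inertia data. -/
theorem mapSer_lexp_ratio {v w v' w' : Fin 2 → ZMod M} (hv : v ≠ 0) (hw : w ≠ 0)
    (h' : ES.Adm M v' w') :
    mapSer (D.σ : ℂ →+* ℂ) (lexp M 1 (ES.ratio M v w v' w')) =
      lexp M 1 (ES.ratio M v w v' w') := by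
  have h1 : (D.a : ZMod M) = 1 := D.a_eq_one hM
  rw [ES.lexp_ratio hv hw h' 1, ES.mapSer_ratioSeries (a := D.a) D.zeta_base]
  have h2 : ∀ u : Fin 2 → ZMod M, ES.scaleVec (1 : ZMod M) u = u := fun u => by
    funext i; fin_cases i <;> simp [ES.scaleVec]
  simp only [h1, h2, ES.vmul_one]

/-- Conjugation fixes the Kronecker elements `X` and `Y`. -/
theorem conjL_kXL (hA : GoodRoot M O (zetaC M)) (hζ : zetaC (q * M) ∈ O) :
    D.conjL haux (kXL haux hM hA hζ) = kXL haux hM hA hζ ∧
      D.conjL haux (kYL haux hM hA hζ) = kYL haux hM hA hζ := by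
  have ht : mapSer (D.σ : ℂ →+* ℂ) (lexp M 1 (tRing haux hA : ℍ → ℂ)) =
      lexp M 1 (tRing haux hA : ℍ → ℂ) := by
    rw [coe_tRing]
    exact D.mapSer_lexp_ratio hM (ES.adm_num haux (ES.one_le haux)).left
      (ES.adm_num haux (ES.one_le haux)).right (ES.adm_den haux (ES.one_le haux))
  have hu : IsUnit (q : ZMod M) := (ZMod.isUnit_iff_coprime q M).mpr hM.symm
  have hq : mapSer (D.σ : ℂ →+* ℂ) (lexp M 1 (hauptQ haux q)) = lexp M 1 (hauptQ haux q) :=
    D.mapSer_lexp_ratio hM (ES.scaleVec_ne_zero hu (ES.adm_num haux (ES.one_le haux)).left)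
      (ES.scaleVec_ne_zero hu (ES.adm_num haux (ES.one_le haux)).right)
      ((ES.adm_den haux (ES.one_le haux)).scale hu)
  have hR : ∀ x : BRing M O, serAt M O q 1 (raiseL M x) = expandL q (lexp M 1 (x : ℍ → ℂ)) :=
    fun x => serAt_raiseL M 1 x
  have hD : ∀ x : BRing M O, serAt M O q 1 (dilL hM hζ x) =
      expandL q (expandL q (lexp M 1 (x : ℍ → ℂ))) := fun x => by
    rw [← liftSer_serO, serO_dilL_one, liftSer_expandL, liftSer_expandL, ES.liftSer_cuspSer]
  have hexp : ∀ s : LaurentSeries ℂ, mapSer (D.σ : ℂ →+* ℂ) (expandL q s) =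
      expandL q (mapSer (D.σ : ℂ →+* ℂ) s) := fun s => liftSer_expandL _ s
  constructor <;> apply D.conjL_eq_self <;>
    simp only [kXL, kYL, map_sub, map_pow, hR, hD, hexp, ht,
      show ((hQ haux hM hA : BRing M O) : ℍ → ℂ) = hauptQ haux q from rfl, hq]

end InertData

/-- Conjugation preserves unit coefficients. -/
theorem unitAt_conjL {O : Subring ℂ} (haux : AuxLevel M m) {P : CPlace q} (hO' : P.IsCDVR O)
    (hM : M.Coprime q) (D : InertData M P O) {p : SL(2, ℤ) → Prop}
    {y : LRing q M O} (hy : UnitAt P p y) : UnitAt P p (D.conjL haux y) := by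
  refine UnitAt.of_sub_mem hO'.le hy fun γ _ => ?_
  have h := (D.serLT_conjL_sub haux hM hO'.le y γ).neg
  rwa [← map_neg, neg_sub] at h

end FermatAgent.BAD
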