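import Fermat.Agent.BAD.Normal
import Fermat.Agent.BAD.GaloisConj
import Fermat.Agent.ES.Forms.Classes
import Fermat.Agent.ES.Cong.Normalize
import Fermat.Agent.BAD.Kron

/-!
# Quotients of forms with multiplier by the standard form

Their multipliers and their conjugates.
-/

set_option autoImplicit false

open UpperHalfPlane CongruenceSubgroup
open scoped MatrixGroups ModularForm

noncomputable section

namespace FermatAgent.BAD

open FermatAgent.ES (BSub BRing SerIn HasLExp HasExp lexp lexp_eq hasLExp_lexp act zetaC AuxLevel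
  CPlace GoodRoot IsTwist IsParChar parGroup GoodLevel auxW mapSer auxSer conjChar)

variable {q M m : ℕ} [Fact q.Prime] [NeZero M] (haux : AuxLevel M m) (hM : M.Coprime q)
  {Γ : Subgroup SL(2, ℤ)}

omit [Fact (Nat.Prime q)] [NeZero M] in
include haux in
/-- The level group is contained in the one of the auxiliary level. -/
theorem lam_le_lam {γ : SL(2, ℤ)} (h : γ ∈ lam q M) : γ ∈ lam q m :=
  Subgroup.mem_inf.mpr ⟨h.1, Gamma_M_le haux h⟩

/-- A form divided by the standard form is multiplied by the character. -/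
theorem act_div_auxW {i : ℕ} {φ : Γ →* ℂˣ} {v : ℍ → ℂ}
    (hv : IsTwist Γ ((2 * i : ℕ) : ℤ) φ v) {δ : SL(2, ℤ)} (hδ : δ ∈ Γ) (hδm : δ ∈ Gamma m) :
    act δ (fun τ => v τ / auxW haux τ ^ i) =
      fun τ => (φ ⟨δ, hδ⟩ : ℂ) * (v τ / auxW haux τ ^ i) := by
  funext τ
  have h1 := congrFun (hv.slash ⟨δ, hδ⟩) τ
  rw [ModularForm.SL_slash_apply] at h1
  have hd := UpperHalfPlane.denom_ne_zero (δ : GL (Fin 2) ℝ) τ
  rw [ES.act_apply, ES.auxW_smul_of_mem haux hδm, mul_pow, ← mul_div_assoc, ← h1, ← pow_mul,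
    zpow_neg, zpow_natCast]
  field_simp

include haux in
/-- The `n`-th power of the quotient by the standard form is invariant. -/
theorem act_div_auxW_pow {i n : ℕ} {φ : Γ →* ℂˣ} (hφ : φ ^ n = 1) {v : ℍ → ℂ}
    (hv : IsTwist Γ ((2 * i : ℕ) : ℤ) φ v) {δ : SL(2, ℤ)} (hδ : δ ∈ Γ) (hδm : δ ∈ Gamma m) :
    act δ ((fun τ => v τ / auxW haux τ ^ i) ^ n) = (fun τ => v τ / auxW haux τ ^ i) ^ n := by
  have h1 : ((φ ⟨δ, hδ⟩ : ℂˣ) : ℂ) ^ n = 1 := by
    have h := congrArg (fun x : ℂˣ => (x : ℂ)) (DFunLike.congr_fun hφ ⟨δ, hδ⟩)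
    simpa using h
  funext τ
  have h2 := congrFun (act_div_auxW haux hv hδ hδm) τ
  simp only [ES.act_apply] at h2
  simp only [ES.act_apply, Pi.pow_apply, h2]
  rw [mul_pow, h1, one_mul]

include hM haux in
/-- The exponent of inertia data is `± 1` modulo `m`. -/
theorem InertData.a_sign {P : CPlace q} {O : Subring ℂ} (D : InertData M P O) :
    (D.a : ZMod m) = 1 ∨ (D.a : ZMod m) = -1 := by
  left
  have h := congrArg (ZMod.castHom haux.dvd (ZMod m)) (D.a_eq_one hM)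
  rwa [map_natCast, map_one] at h

namespace ConjData

variable {O : Subring ℂ} (D : ConjData q M O)

/-- The series of the standard form is fixed when the exponent is `± 1` modulo `m`. -/
theorem mapSer_auxSer (ha : (D.a : ZMod m) = 1 ∨ (D.a : ZMod m) = -1) :
    mapSer (D.σ : ℂ →+* ℂ) (auxSer (auxLevel_level (q := q) haux) 1) =
      auxSer (auxLevel_level (q := q) haux) 1 := by
  have := haux.neZero
  set h' := (auxLevel_level (q := q) haux).dvd
  have key : ∀ u : Fin 2 → ZMod m, (u 0 = 0 ∨ u 1 = 0) →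
      ES.scaleVec (D.a : ZMod (q * M)) (ES.embVec h' u) = ES.embVec h' u ∨
      ES.scaleVec (D.a : ZMod (q * M)) (ES.embVec h' u) = -ES.embVec h' u := by
    intro u hu
    have e : ES.scaleVec (D.a : ZMod (q * M)) (ES.embVec h' u) =
        ES.embVec h' (ES.scaleVec (D.a : ZMod m) u) := by
      funext i
      fin_cases i
      · rfl
      · show (D.a : ZMod (q * M)) * ES.embHom h' (u 1) = ES.embHom h' ((D.a : ZMod m) * u 1)
        rw [← nsmul_eq_mul, ← map_nsmul, nsmul_eq_mul]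
    rw [e]
    rcases hu with h0 | h1
    · rcases ha with h | h
      · left; congr 1; funext i; fin_cases i <;> simp [ES.scaleVec, h]
      · right; rw [← ES.embVec_neg]; congr 1; funext i; fin_cases i <;> simp [ES.scaleVec, h, h0]
    · left; congr 1; funext i; fin_cases i <;> simp [ES.scaleVec, h1]
  rw [auxSer, ES.vmul_one, ES.vmul_one, ES.mapSer_difLaurent, RingEquiv.coe_toRingHom, D.zeta]
  trans ES.difLaurent (q * M) (zetaC (q * M))
    (ES.scaleVec (D.a : ZMod (q * M)) (ES.refB h')) (ES.scaleVec (D.a : ZMod (q * M)) (ES.refA h'))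
  · simp only [ES.difLaurent, ES.difSeries, ES.divCoeff_pow_root
      (ES.zetaC_isPrimitiveRoot (q * M)).pow_eq_one D.a]
  · exact difLaurent_congr_sign (key _ (Or.inr rfl)) (key _ (Or.inl rfl))

/-- Conjugation preserves invariance under the part of `Γ` of level `m`. -/
theorem act_conjB_of_inv {N : ℕ} (hG : GoodLevel N Γ) (hNM : N ∣ q * M) {w : ℍ → ℂ}
    (hw : w ∈ BSub (q * M)) (hwinv : ∀ δ ∈ Γ, δ ∈ Gamma m → act δ w = w) :
    ∀ δ ∈ Γ, δ ∈ Gamma m →
      act δ (D.conjB haux ⟨w, hw⟩ : ℍ → ℂ) = (D.conjB haux ⟨w, hw⟩ : ℍ → ℂ) :=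
  fun _ hδ hm => have := haux.neZero
  D.act_conjB haux (G := {γ | γ ∈ Γ ∧ γ ∈ Gamma m})
    (fun {γ γ'} h h' => ⟨(hG.stable _ (ES.isUnit_natCast_of_dvd hNM D.unit) γ γ'
      (h.of_dvd hNM)).mpr h'.1,
      (D.gamma_iff_of_dvd (haux.dvd.trans (dvd_mul_left M q)) h).mpr h'.2⟩)
    (f := ⟨w, hw⟩) (fun γ hγ => hwinv γ hγ.1 hγ.2) ⟨hδ, hm⟩

/-- **The conjugate of a Kummer element.** -/
theorem exists_conj_kum (ha : (D.a : ZMod m) = 1 ∨ (D.a : ZMod m) = -1) {N : ℕ} [NeZero N]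
    (hG : GoodLevel N Γ) (hNM : N ∣ q * M) {r : ℕ} (hr : r ≠ 0) (h12 : 12 * N = r * (q * M))
    {n i : ℕ} [NeZero n] (φ : parGroup Γ n) {v w y : ℍ → ℂ}
    (hv : IsTwist Γ ((2 * i : ℕ) : ℤ) (φ : Γ →* ℂˣ) v) (hv0 : v ≠ 0) (hw : w ∈ BSub (q * M))
    (hyB : y ∈ BSub (q * M)) (hy : y = (w * fun τ => v τ / auxW haux τ ^ i) ^ n) :
    ∃ v' : ℍ → ℂ, IsTwist Γ ((2 * i : ℕ) : ℤ) (conjChar hG D.σ φ : Γ →* ℂˣ) v' ∧ v' ≠ 0 ∧
      (D.conjB haux ⟨y, hyB⟩ : ℍ → ℂ) =
        ((D.conjB haux ⟨w, hw⟩ : ℍ → ℂ) * fun τ => v' τ / auxW haux τ ^ i) ^ n := by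
  set haux' := auxLevel_level (q := q) haux
  have hΓ : Gamma (q * M) ≤ Γ := (ES.gamma_le_of_dvd hNM).trans hG.gamma_le
  have hc : HasExp (q * M) v (qExpansion ((q * M : ℕ) : ℝ) v) := by
    have h := ES.hasExp_slash_twist (M := q * M) hΓ φ.2.2 hv 1
    rwa [SlashAction.slash_one] at h
  obtain ⟨v', hv', hv'0, hc'⟩ := ES.exists_conj_level haux' hG hNM hr h12 D.σ φ hv hv0 hc
  refine ⟨v', hv', hv'0, ?_⟩
  have hu := ES.pow_form_mem haux' (n := n) hΓ φ.2.1 hv
  have hu' := ES.pow_form_mem haux' (n := n) hΓ (conjChar hG D.σ φ).2.1 hv'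
  rw [auxW_level haux] at hu hu'
  have hcu : D.conjB haux ⟨_, hu⟩ = ⟨_, hu'⟩ := by
    refine Subtype.ext (ES.lexp_injective (D.conjB haux ⟨_, hu⟩).2 hu' (γ := 1) ?_)
    rw [D.lexp_conjB haux _ (ES.GalRel.one _)]
    have hser : ∀ {f : ℍ → ℂ} {c : PowerSeries ℂ}, HasExp (q * M) f c →
        lexp (q * M) 1 ((fun τ => f τ / auxW haux τ ^ i) ^ n) =
          (HahnSeries.ofPowerSeries ℤ ℂ c * (auxSer haux' 1 ^ i)⁻¹) ^ n := fun {f c} hf => by
      have h := (ES.hasLExp_form_div haux' (f := f) (γ := 1) (j := i)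
        (by rwa [SlashAction.slash_one])).pow n
      rw [auxW_level haux] at h
      exact lexp_eq (h.congr_fun fun τ => by simp)
    rw [hser hc, hser hc', map_pow, map_mul, map_inv₀, map_pow, D.mapSer_auxSer haux ha,
      ES.mapSer_ofPowerSeries]
  have hy' : (⟨y, hyB⟩ : BSub (q * M)) = ⟨w, hw⟩ ^ n * ⟨_, hu⟩ := by
    refine Subtype.ext ?_
    show y = _
    rw [hy, mul_pow]
    rfl
  rw [hy', map_mul, map_pow, hcu, mul_pow]
  rfl

end ConjData

end FermatAgent.BAD
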