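import Fermat.Agent.ES.Coeff.Padic
import Fermat.Agent.ES.Coeff.Residue
import Fermat.Agent.Mazur.LocalGal
import Mathlib.Analysis.Normed.Unbundled.SpectralNorm

/-!
# Automorphisms of `ℂ` attached to inertia elements, and coefficient rings stable under them

An element of the decomposition group at the place extends to an automorphism `conjC` of `ℂ`,
isometric for the place; for finite `S`, `stableRing Φ S` is a complete discrete valuation ring with
finite residue field containing the integral elements of `S` and stable under these automorphisms.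
-/

set_option autoImplicit false

open Polynomial IsLocalRing

noncomputable section

namespace FermatAgent.BAD

open FermatAgent.ES (GQ embC CPlace padicSubring isCDVR_padicSubring)

variable {q : ℕ} [Fact q.Prime]

/-- An element of the decomposition group extends continuously to the algebraic closure of
`ℚ_q`. -/
theorem exists_galLift (Φ : ℂ ≃+* PadicAlgCl q) {g : GQ}
    (hg : g ∈ (CPlace.ofEquiv Φ).algVal.decompositionSubgroup ℚ) :
    ∃ (ι : AlgebraicClosure ℚ →+* ℂ_[q]) (hd : g ∈ (Mazur.padVal ι).decompositionSubgroup ℚ)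
      (s : PadicAlgCl q ≃ₐ[ℚ_[q]] PadicAlgCl q), Mazur.padVal ι = (CPlace.ofEquiv Φ).algVal ∧
      (∀ x, s (Φ (embC x)) = Φ (embC (g x))) ∧
        ∀ y : PadicAlgCl q, (s y : ℂ_[q]) = Mazur.galExt ι ⟨g, hd⟩ y := by
  set ι : AlgebraicClosure ℚ →+* ℂ_[q] :=
    (algebraMap (PadicAlgCl q) ℂ_[q]).comp ((Φ : ℂ →+* PadicAlgCl q).comp embC.toRingHom)
  have hv : Mazur.padVal ι = (CPlace.ofEquiv Φ).algVal := by
    ext x
    rw [Mazur.mem_padVal, CPlace.mem_algVal, CPlace.ofEquiv_abv]
    rw [show ι x = ((Φ (embC x) : PadicAlgCl q) : ℂ_[q]) from rfl, PadicComplex.norm_extends]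
  rw [← hv] at hg
  set G : ℂ_[q] →ₐ[ℚ_[q]] ℂ_[q] :=
    { Mazur.galExt ι ⟨g, hg⟩ with commutes' := Mazur.galExt_padic ⟨g, hg⟩ }
  have hcomm : ∀ y : PadicAlgCl q, ((G.restrictNormal' (PadicAlgCl q) y : PadicAlgCl q) : ℂ_[q]) =
      G (y : ℂ_[q]) := fun y => G.restrictNormal_commutes (PadicAlgCl q) y
  exact ⟨ι, hg, G.restrictNormal' (PadicAlgCl q), hv, fun x =>
    (algebraMap (PadicAlgCl q) ℂ_[q]).injective ((hcomm _).trans (Mazur.galExt_apply ⟨g, hg⟩ x)),
    hcomm⟩

/-- An inertia element extends to an isometry which is congruent to the identity. -/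
theorem exists_inertiaAut (Φ : ℂ ≃+* PadicAlgCl q) {g : GQ}
    (hg : g ∈ (CPlace.ofEquiv Φ).algVal.inertiaSubgroupIn ℚ) :
    ∃ s : PadicAlgCl q ≃ₐ[ℚ_[q]] PadicAlgCl q, (∀ x, s (Φ (embC x)) = Φ (embC (g x))) ∧
      ∀ y, ‖y‖ ≤ 1 → ‖s y - y‖ < 1 := by
  obtain ⟨ι, hd, s, hv, hs, hc⟩ :=
    exists_galLift Φ (GaloisBasic.inertiaSubgroupIn_le_decompositionSubgroup _ hg)
  rw [← hv] at hg
  refine ⟨s, hs, fun y hy => ?_⟩
  rw [← PadicComplex.norm_extends, UniformSpace.Completion.coe_sub, hc]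
  exact Mazur.norm_galExt_sub_lt ⟨g, hd⟩ hg (by rwa [PadicComplex.norm_extends])

section Conj

variable (Φ : ℂ ≃+* PadicAlgCl q) (s : PadicAlgCl q ≃ₐ[ℚ_[q]] PadicAlgCl q)

/-- The transport of `s` to `ℂ`. -/
def conjC : ℂ ≃+* ℂ := (Φ.trans s.toRingEquiv).trans Φ.symm

/-- The transported automorphism corresponds to `s`. -/
@[simp] theorem map_conjC (z : ℂ) : Φ (conjC Φ s z) = s (Φ z) := Φ.apply_symm_apply _

/-- The automorphism preserves the absolute value of the place. -/
theorem abv_conjC (z : ℂ) :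
    (CPlace.ofEquiv Φ).abv (conjC Φ s z) = (CPlace.ofEquiv Φ).abv z := by
  rw [CPlace.ofEquiv_abv, CPlace.ofEquiv_abv, map_conjC, ← PadicAlgCl.spectralNorm_eq,
    ← PadicAlgCl.spectralNorm_eq, ← spectralNorm_eq_of_equiv]

/-- On algebraic numbers the automorphism is the Galois element. -/
theorem conjC_embC {g : GQ} (h : ∀ x, s (Φ (embC x)) = Φ (embC (g x))) (x : AlgebraicClosure ℚ) :
    conjC Φ s (embC x) = embC (g x) := Φ.injective (by rw [map_conjC, h])

/-- The conjugates over `ℚ_q` of the elements of `S`. -/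
def conjSet (S : Set ℂ) : Set ℂ :=
  Φ.symm '' ⋃ z ∈ S, (minpoly ℚ_[q] (Φ z)).rootSet (PadicAlgCl q)

theorem conjSet_finite {S : Set ℂ} (hS : S.Finite) : (conjSet Φ S).Finite :=
  (hS.biUnion fun _ _ => rootSet_finite _ _).image _

theorem subset_conjSet (S : Set ℂ) : S ⊆ conjSet Φ S := fun z hz =>
  ⟨Φ z, Set.mem_biUnion hz ((mem_rootSet_of_ne (minpoly.ne_zero
    (Algebra.IsIntegral.isIntegral _))).mpr (minpoly.aeval _ _)), Φ.symm_apply_apply z⟩

/-- The complete ring generated by `S` and its conjugates. -/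
def stableRing (S : Set ℂ) : Subring ℂ := padicSubring Φ (conjSet Φ S)

/-- The stable ring of a finite set is a complete discrete valuation ring. -/
theorem isCDVR_stableRing {S : Set ℂ} (hS : S.Finite) :
    (CPlace.ofEquiv Φ).IsCDVR (stableRing Φ S) :=
  isCDVR_padicSubring Φ (conjSet_finite Φ hS)

/-- The stable ring contains the integral elements of `S`. -/
theorem mem_stableRing {S : Set ℂ} {z : ℂ} (hz : z ∈ S) (h : (CPlace.ofEquiv Φ).abv z ≤ 1) :
    z ∈ stableRing Φ S :=
  ES.mem_padicSubring Φ (subset_conjSet Φ S hz) h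

/-- The stable ring is stable under the automorphism. -/
theorem conjC_mem_stableRing {S : Set ℂ} {z : ℂ} (hz : z ∈ stableRing Φ S) :
    conjC Φ s z ∈ stableRing Φ S := by
  refine ⟨?_, by
    have := abv_conjC Φ s z
    rw [CPlace.ofEquiv_abv, CPlace.ofEquiv_abv] at this
    exact this.trans_le hz.2⟩
  rw [map_conjC]
  have h1 := hz.1
  generalize Φ z = w at h1 ⊢
  induction h1 using IntermediateField.adjoin_induction with
  | mem y hy =>
    obtain ⟨_, ⟨x, hx, rfl⟩, rfl⟩ := hy
    obtain ⟨a, ha, hxa⟩ := Set.mem_iUnion₂.mp hx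
    refine IntermediateField.subset_adjoin _ _ ⟨Φ.symm (s x), ⟨s x, ?_, rfl⟩, ?_⟩
    · refine Set.mem_biUnion ha ?_
      rw [mem_rootSet_of_ne (minpoly.ne_zero (Algebra.IsIntegral.isIntegral _))] at hxa ⊢
      rw [show (s x) = (s : PadicAlgCl q →ₐ[ℚ_[q]] PadicAlgCl q) x from rfl,
        aeval_algHom_apply, hxa, map_zero]
    · rw [Φ.apply_symm_apply, Φ.apply_symm_apply]
  | algebraMap y => rw [s.commutes]; exact IntermediateField.algebraMap_mem _ _
  | add x y _ _ hx hy => rw [map_add]; exact add_mem hx hy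
  | inv x _ hx => rw [map_inv₀]; exact inv_mem hx
  | mul x y _ _ hx hy => rw [map_mul]; exact mul_mem hx hy

/-- The residue field of the stable ring is finite. -/
theorem finite_residueField_stableRing {S : Set ℂ} (hS : S.Finite) :
    haveI := (isCDVR_stableRing Φ hS).dvr
    Finite (ResidueField (stableRing Φ S)) := by
  have := (isCDVR_stableRing Φ hS).dvr
  set K : IntermediateField ℚ_[q] (PadicAlgCl q) :=
    IntermediateField.adjoin ℚ_[q] (Φ '' conjSet Φ S)
  have : Finite (Φ '' conjSet Φ S : Set (PadicAlgCl q)) :=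
    ((conjSet_finite Φ hS).image Φ).to_subtype
  have : FiniteDimensional ℚ_[q] K :=
    IntermediateField.finiteDimensional_adjoin fun x _ => Algebra.IsIntegral.isIntegral x
  have : ProperSpace K := FiniteDimensional.proper ℚ_[q] K
  obtain ⟨t, ht, htf, hcov⟩ :=
    (isCompact_closedBall (0 : K) 1).finite_cover_balls one_pos
  have hmem : ∀ c ∈ t, Φ.symm (c : PadicAlgCl q) ∈ stableRing Φ S := fun c hc =>
    ⟨by rw [Φ.apply_symm_apply]; exact c.2, by
      rw [Φ.apply_symm_apply]; simpa using ht hc⟩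
  have := htf.to_subtype
  refine Finite.of_surjective (fun c : t => residue (stableRing Φ S) ⟨_, hmem c c.2⟩) fun x => ?_
  obtain ⟨z, rfl⟩ := residue_surjective x
  obtain ⟨c, hc, hzc⟩ := Set.mem_iUnion₂.mp (hcov (show (⟨Φ z, z.2.1⟩ : K) ∈
    Metric.closedBall (0 : K) 1 by rw [mem_closedBall_zero_iff]; exact z.2.2))
  refine ⟨⟨c, hc⟩, ?_⟩
  rw [← sub_eq_zero, ← map_sub, residue_eq_zero_iff, (isCDVR_stableRing Φ hS).mem_maximalIdeal_iff,
    CPlace.ofEquiv_abv, AddSubgroupClass.coe_sub, map_sub, Φ.apply_symm_apply]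
  rw [Metric.mem_ball, dist_eq_norm, norm_sub_rev] at hzc
  exact hzc

end Conj

end FermatAgent.BAD
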