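import Fermat.Agent.BAD.Sep
import Fermat.Agent.ES.Local.CuspEval

/-!
# Zeros of multiplicity divisible by `n`, with integral witnesses over one complete ring

`Divisible q M O n y` says that at every zero `y` is, up to factors nonvanishing there, a power
with exponent divisible by `n`, all factors lying in `LRing q M O`; the zeros lie in finitely many
fibres of the Hauptmodul.
-/

set_option autoImplicit false

open UpperHalfPlane CongruenceSubgroup
open scoped MatrixGroups Manifold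

noncomputable section

namespace FermatAgent.BAD

open FermatAgent.ES (BSub BRing SerIn HasLExp lexp lexp_eq hasLExp_lexp act zetaC AuxLevel CPlace
  GoodRoot GalGrp repG haupt hauptSub orbPt fibIdem vanishOrd fracRing)

variable {q M m : ℕ} [Fact q.Prime] [NeZero M]

omit [Fact (Nat.Prime q)] [NeZero M] in
/-- The order of vanishing of a `k`-th power is divisible by `k`. -/
theorem dvd_vanishOrd_pow {h : ℍ → ℂ} (hh : MDiff h) {k : ℕ} (τ : ℍ) (j : ℕ)
    (hj : vanishOrd (h ^ k) τ = j) : k ∣ j := by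
  rw [ES.vanishOrd_pow hh] at hj
  rcases eq_or_ne k 0 with rfl | hk
  · simp only [zero_nsmul] at hj
    rw [show j = 0 by exact_mod_cast hj.symm]
  have htop : vanishOrd h τ ≠ ⊤ := fun htop => by
    rw [htop, nsmul_eq_mul, ENat.mul_top (by exact_mod_cast hk)] at hj
    exact ENat.top_ne_natCast j hj
  obtain ⟨i, hi⟩ := ENat.ne_top_iff_exists.mp htop
  rw [← hi, nsmul_eq_mul] at hj
  exact ⟨i, by exact_mod_cast hj.symm⟩

omit [Fact (Nat.Prime q)] in
/-- An element of the fraction field of absolute value at most one lies in `O`. -/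
theorem mem_of_mem_fracRing {P : CPlace q} {O : Subring ℂ} (hO' : P.IsCDVR O) {x : ℂ}
    (hx : x ∈ fracRing O) (h : P.abv x ≤ 1) : x ∈ O := by
  have := hO'.dvr
  obtain ⟨d, hd, hd0, hdx⟩ := ES.exists_mul_mem_of_fracRing O hx
  rcases ValuationRing.dvd_total (⟨d, hd⟩ : O) ⟨d * x, hdx⟩ with ⟨z, hz⟩ | ⟨z, hz⟩
  · have := congrArg Subtype.val hz
    simp only [Subring.coe_mul] at this
    rw [mul_left_cancel₀ hd0 this]
    exact z.2
  · have h1 := congrArg Subtype.val hz
    simp only [Subring.coe_mul] at h1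
    have h2 : x * z = 1 := mul_left_cancel₀ hd0 (by linear_combination -h1)
    have hz0 : (z : ℂ) ≠ 0 := fun h0 => by rw [h0, mul_zero] at h2; exact zero_ne_one h2
    have hz1 : P.abv (z : ℂ) = 1 := by
      refine le_antisymm (hO'.le z.2) ?_
      have h3 := congrArg P.abv h2
      rw [map_mul, map_one] at h3
      rw [← h3]
      exact mul_le_of_le_one_left (P.abv.nonneg _) h
    rw [eq_inv_of_mul_eq_one_left h2]
    exact (hO'.unitIn z.2 hz1).2.2

theorem serIn_of_mul {K : Subfield ℂ} {d s : LaurentSeries ℂ} (hd0 : d ≠ 0)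
    (hd : SerIn K.toSubring d) (hs : SerIn K.toSubring (d * s)) : SerIn K.toSubring s := by
  have hlead : ES.LeadUnit K.toSubring d d.order := ES.LeadUnit.of_coeff hd
    (fun n hn => HahnSeries.coeff_eq_zero_of_lt_order hn)
    ⟨HahnSeries.coeff_order_eq_zero.not.mpr hd0, hd _, K.inv_mem (hd _)⟩
  have h := hlead.inv.serIn.mul hs
  rwa [← mul_assoc, inv_mul_cancel₀ hd0, one_mul] at h

/-- A nonzero function has nonzero expansions. -/
theorem serAt_ne_zero {f : ℍ → ℂ} (hf : f ∈ BSub (q * M)) (h0 : f ≠ 0) (γ : SL(2, ℤ)) :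
    lexp (q * M) γ f ≠ 0 := fun h => h0 (ES.lexp_injective hf (zero_mem _) (γ := γ)
      (h.trans (lexp_eq (γ := γ) (f := (0 : ℍ → ℂ)) ES.HasLExp.zero).symm))

/-- The `qM`-th root of unity is integral at the place. -/
theorem goodRoot_zeta {P : CPlace q} : zetaC (q * M) ∈ P.ring :=
  (P.abv_eq_one_of_pow_eq_one (NeZero.ne (q * M)) (ES.zetaC_isPrimitiveRoot _).pow_eq_one).le

variable (haux : AuxLevel M m)
include haux

/-- An integral function is defined over a complete ring with finitely many generators. -/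
theorem exists_finset_mem_BRing_level {P : CPlace q} (hM : M.Coprime q) {f : ℍ → ℂ}
    (hf : f ∈ BRing (q * M) P.ring) :
    ∃ S : Finset ℂ, (S : Set ℂ) ⊆ P.ring ∧ ∀ O : Subring ℂ, P.IsCDVR O →
      GoodRoot M O (zetaC M) → zetaC (q * M) ∈ O → (S : Set ℂ) ⊆ O → f ∈ BRing (q * M) O := by
  classical
  have hP := P.goodRoot hM
  choose S hS hSO using fun T => ES.exists_finset_mem_BRing haux hP (ES.polRing_le_BRing haux hP
    (trG_sepSB_mem_polRing haux hP goodRoot_zeta hf T))
  set U := (Finset.univ.erase (1 : GalGrp (q * M) m)).powerset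
  refine ⟨U.biUnion S, ?_, fun O hO' hA hζ hsub => ⟨hf.1, fun γ n => ?_⟩⟩
  · intro x hx
    obtain ⟨T, -, hT⟩ := Finset.mem_biUnion.mp hx
    exact hS T hT
  refine mem_of_mem_fracRing hO' ?_ (hf.2 γ n)
  have hsum : sepD q haux * f ∈ BRing (q * M) O := by
    rw [sepD_mul_eq haux hf.1]
    refine sum_mem fun T hT => mul_mem (sepSA_mem haux hA hζ T)
      (mem_LRing_of_BRing (q := q) (hSO T O hA fun x hx => hsub ?_)).1
    exact Finset.mem_biUnion.mpr ⟨T, hT, hx⟩
  have hD := sepD_mem haux hA hζ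
  have hD0 : sepD q haux ≠ 0 := fun h => sepD_ne_zero haux UpperHalfPlane.I (congrFun h _)
  have hmul : lexp (q * M) γ (sepD q haux * f) =
      lexp (q * M) γ (sepD q haux) * lexp (q * M) γ f :=
    lexp_eq ((hasLExp_lexp hD.1 γ).mul (hasLExp_lexp hf.1 γ))
  exact serIn_of_mul (K := Subfield.closure (O : Set ℂ)) (serAt_ne_zero hD.1 hD0 γ)
    (fun i => Subfield.subset_closure (hD.2 γ i))
    (fun i => Subfield.subset_closure (by rw [← hmul]; exact hsum.2 γ i)) n

/-- The same for a function invariant under the level group. -/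
theorem exists_finset_mem_LRing {P : CPlace q} (hM : M.Coprime q) {f : ℍ → ℂ}
    (hf : f ∈ LRing q M P.ring) :
    ∃ S : Finset ℂ, (S : Set ℂ) ⊆ P.ring ∧ ∀ O : Subring ℂ, P.IsCDVR O →
      GoodRoot M O (zetaC M) → zetaC (q * M) ∈ O → (S : Set ℂ) ⊆ O → f ∈ LRing q M O := by
  obtain ⟨S, hS, h⟩ := exists_finset_mem_BRing_level haux hM hf.1
  exact ⟨S, hS, fun O hO' hA hζ hsub => ⟨h O hO' hA hζ hsub, hf.2⟩⟩

omit haux in
/-- The multiplicities of the zeros of `y` are divisible by `n`, witnessed over `O`. -/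
def Divisible (q M : ℕ) [Fact q.Prime] [NeZero M] (O : Subring ℂ) (n : ℕ) (y : ℍ → ℂ) : Prop :=
  ∀ τ, y τ = 0 → ∃ (i : ℕ) (E D X : LRing q M O), (E : ℍ → ℂ) τ ≠ 0 ∧ (X : ℍ → ℂ) τ ≠ 0 ∧
    y * (E : ℍ → ℂ) = (D : ℍ → ℂ) ^ (n * i) * (X : ℍ → ℂ)

/-- Along a homomorphism fixing the constants, divisible zeros give witnesses at every zero. -/
theorem exists_witness_of_divisible {O : Subring ℂ} (hA : GoodRoot M O (zetaC M)) {n : ℕ}
    {y : LRing q M O} (hdiv : Divisible q M O n (y : ℍ → ℂ)) {S : Type*} [CommRing S]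
    (F : LRing q M O →+* S) (ψ : S →+* ℂ) (hF : ∀ r, ψ (F (constL r)) = (r : ℂ))
    (h0 : ψ (F y) = 0) :
    ∃ (i : ℕ) (d e g : S), ψ e ≠ 0 ∧ ψ g ≠ 0 ∧ F y * e = d ^ (n * i) * g := by
  obtain ⟨τ, hτ⟩ := exists_point_of_constHom haux hA (ψ.comp F) hF
  obtain ⟨i, E, D, X, hE, hX, heq⟩ := hdiv τ ((hτ y).symm.trans h0)
  exact ⟨i, F D, F E, F X, (hτ E).trans_ne hE, (hτ X).trans_ne hX, by
    rw [← map_mul, show y * E = D ^ (n * i) * X from Subtype.ext heq, map_mul, map_pow]⟩

omit [Fact (Nat.Prime q)] [NeZero M] in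
/-- The level group is contained in `Γ(m)`. -/
theorem Gamma_M_le {γ : SL(2, ℤ)} (h : γ ∈ lam q M) : γ ∈ Gamma m :=
  ES.gamma_le_of_dvd haux.dvd h.2

/-- Every point of a fibre of the Hauptmodul is one of finitely many up to the level. -/
theorem exists_orbPt_eq {τ0 τ : ℍ} (h : haupt haux.dvd τ = haupt haux.dvd τ0) :
    ∃ g : GalGrp (q * M) m, ∀ f ∈ BSub (q * M), f τ = f (orbPt (q * M) m τ0 g) := by
  have hg := ES.goodPoint_top (auxLevel_level (q := q) haux) τ0
  obtain ⟨g, hgψ⟩ := ES.exists_point_of_hom (auxLevel_level (q := q) haux) ES.zetaC_goodRoot_top hg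
    ((Pi.evalRingHom (fun _ : ℍ => ℂ) τ).comp (BRing (q * M) (⊤ : Subring ℂ)).subtype)
    (by show haupt (auxLevel_level (q := q) haux).dvd τ =
          haupt (auxLevel_level (q := q) haux).dvd τ0
        rw [haupt_level haux, h])
  exact ⟨g, fun f hf => hgψ ⟨f, ES.mem_BRing_top.mpr hf⟩⟩

/-- The Hauptmodul takes finitely many values at the zeros of a nonzero function. -/
theorem exists_zero_values {y : ℍ → ℂ} (hy : y ∈ BSub (q * M)) (hy0 : y ≠ 0) :
    ∃ V : Finset ℂ, ∀ τ, y τ = 0 → haupt haux.dvd τ ∈ V := by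
  simpa only [haupt_level haux] using
    ES.exists_zero_values (auxLevel_level (q := q) haux) hy hy0

end FermatAgent.BAD
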