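import Fermat.Agent.BAD.NodeRoot
import Mathlib.RingTheory.PowerSeries.WeierstrassPreparation
import Mathlib.RingTheory.PowerSeries.Inverse

/-!
# Roots in power series rings from divisible multiplicities

Over a complete discrete valuation ring the prime factors of a series with nonzero residue are its
zeros; if all multiplicities are divisible by `n` the series is a unit times an `n`-th power,
whence `a b^(n-1)` is an `n`-th power for `a`, `b` with the same residue.
-/

set_option autoImplicit false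

open IsLocalRing

noncomputable section

namespace FermatAgent.BAD

section Point

variable {O R : Type} [CommRing O] [IsDomain O] [IsDiscreteValuationRing O] [CommRing R]
  [Algebra O R]

/-- A prime with finite quotient is the kernel of a point with values in an algebraically closed
field. -/
theorem exists_point_of_finite {I : Ideal R} [I.IsPrime] [Module.Finite O (R ⧸ I)]
    (hinj : ∀ r : O, algebraMap O R r ∈ I → r = 0) {K : Type} [Field K] [IsAlgClosed K]
    (j : O →+* K) (hj : Function.Injective j) :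
    ∃ ψ : R →+* K, (∀ r, ψ (algebraMap O R r) = j r) ∧ ∀ x, ψ x = 0 ↔ x ∈ I := by
  have : IsDomain (R ⧸ I) := Ideal.Quotient.isDomain _
  have hinj' : Function.Injective (algebraMap O (R ⧸ I)) := by
    rw [injective_iff_map_eq_zero]
    intro r hr
    exact hinj r (Ideal.Quotient.eq_zero_iff_mem.mp hr)
  let := j.toAlgebra
  have : Algebra.IsIntegral O (R ⧸ I) := Algebra.IsIntegral.of_finite O (R ⧸ I)
  have : FaithfulSMul O (R ⧸ I) := (faithfulSMul_iff_algebraMap_injective O (R ⧸ I)).mpr hinj'
  have : Module.IsTorsionFree O (R ⧸ I) := Module.isTorsionFree_iff_algebraMap_injective.mpr hinj'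
  have : Module.IsTorsionFree O K := Module.isTorsionFree_iff_algebraMap_injective.mpr hj
  let φ : (R ⧸ I) →ₐ[O] K := IsAlgClosed.lift
  refine ⟨φ.toRingHom.comp (Ideal.Quotient.mk _), fun r => φ.commutes r, fun x => ?_⟩
  rw [RingHom.comp_apply, ← Ideal.Quotient.eq_zero_iff_mem]
  refine ⟨fun h => ?_, fun h => by rw [h, map_zero]⟩
  have hker : RingHom.ker φ.toRingHom = ⊥ := Ideal.eq_bot_of_comap_eq_bot (R := O) (by
    refine eq_bot_iff.mpr fun r hr => ?_
    rw [Ideal.mem_comap, RingHom.mem_ker] at hr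
    exact hj (by rw [map_zero]; exact (φ.commutes r).symm.trans hr))
  exact (RingHom.injective_iff_ker_eq_bot _).mpr hker (h.trans (map_zero _).symm)

end Point

variable {O : Type} [CommRing O] [IsDomain O] [IsDiscreteValuationRing O]
  [IsAdicComplete (maximalIdeal O) O]

/-- Reduction of a series. -/
abbrev psRes : PowerSeries O →+* PowerSeries (ResidueField O) := PowerSeries.map (residue O)

omit [IsAdicComplete (maximalIdeal O) O] in
/-- A series with zero residue is divisible by the uniformiser. -/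
theorem dvd_of_psRes_eq_zero {ϖ : O} (hϖ : Irreducible ϖ) {f : PowerSeries O}
    (h : psRes f = 0) : PowerSeries.C ϖ ∣ f := by
  have hd : ∀ i, ∃ c, PowerSeries.coeff i f = ϖ * c := fun i => by
    have h1 := congrArg (PowerSeries.coeff i) h
    rw [PowerSeries.coeff_map, map_zero, residue_eq_zero_iff, hϖ.maximalIdeal_eq,
      Ideal.mem_span_singleton] at h1
    exact h1
  choose c hc using hd
  exact ⟨PowerSeries.mk c, by ext i; rw [PowerSeries.coeff_C_mul, PowerSeries.coeff_mk, hc]⟩

omit [IsAdicComplete (maximalIdeal O) O] in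
/-- The uniformiser reduces to zero. -/
theorem psRes_C_unif {ϖ : O} (hϖ : Irreducible ϖ) : psRes (PowerSeries.C ϖ) = 0 := by
  rw [PowerSeries.map_C, (residue_eq_zero_iff ϖ).mpr (by
    rw [hϖ.maximalIdeal_eq]; exact Ideal.mem_span_singleton_self ϖ), map_zero]

theorem exists_ps_point {f : PowerSeries O} (hf : psRes f ≠ 0)
    (hprime : (Ideal.span {f}).IsPrime) {K : Type} [Field K] [IsAlgClosed K] (j : O →+* K)
    (hj : Function.Injective j) :
    ∃ ψ : PowerSeries O →+* K, (∀ r, ψ (PowerSeries.C r) = j r) ∧ ∀ x, ψ x = 0 ↔ f ∣ x := by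
  obtain ⟨ϖ, hϖ⟩ := IsDiscreteValuationRing.exists_irreducible O
  obtain ⟨g, h, hgh⟩ := PowerSeries.exists_isWeierstrassFactorization hf
  have : Module.Finite O (Polynomial O ⧸ Ideal.span {g}) :=
    hgh.isDistinguishedAt.monic.finite_quotient
  have : Module.Finite O (PowerSeries O ⧸ Ideal.span {f}) :=
    Module.Finite.equiv hgh.algEquivQuotient.toLinearEquiv
  have := hprime
  suffices hinj : ∀ r : O, algebraMap O (PowerSeries O) r ∈ Ideal.span {f} → r = 0 by
    obtain ⟨ψ, h1, h2⟩ := exists_point_of_finite (I := Ideal.span {f}) hinj j hj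
    exact ⟨ψ, h1, fun x => by rw [h2, Ideal.mem_span_singleton]⟩
  intro r hr
  by_contra hr0
  obtain ⟨k, w, rfl⟩ := IsDiscreteValuationRing.eq_unit_mul_pow_irreducible hr0 hϖ
  rw [map_mul, map_pow] at hr
  have hm : algebraMap O (PowerSeries O) ϖ ∈ Ideal.span {f} := by
    rcases hprime.mem_or_mem hr with h | h
    · exact absurd (Ideal.eq_top_of_isUnit_mem _ h (w.isUnit.map _)) hprime.ne_top
    · exact hprime.mem_of_pow_mem k h
  obtain ⟨x, hx⟩ := Ideal.mem_span_singleton.mp hm
  change PowerSeries.C ϖ = f * x at hx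
  have hb := congrArg psRes hx
  rw [psRes_C_unif hϖ, map_mul, eq_comm, mul_eq_zero] at hb
  obtain ⟨x', rfl⟩ := dvd_of_psRes_eq_zero hϖ (hb.resolve_left hf)
  have hC : PowerSeries.C ϖ ≠ 0 :=
    fun h0 => hϖ.ne_zero (PowerSeries.C_injective (by rw [h0, map_zero]))
  have h3 : f * x' = 1 := mul_left_cancel₀ hC (by linear_combination -hx)
  exact hprime.ne_top (Ideal.span_singleton_eq_top.mpr (IsUnit.of_mul_eq_one x' h3))

/-- Two series with equal `n`-th powers differ by a constant root of unity. -/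
theorem exists_C_mul_of_pow_eq {k : Type} [Field k] {n : ℕ} (hn : IsUnit (n : k))
    {x y : PowerSeries k} (hy : y ≠ 0) (h : x ^ n = y ^ n) :
    ∃ c : k, c ^ n = 1 ∧ x = PowerSeries.C c * y := by
  have hn0 : n ≠ 0 := by rintro rfl; simp at hn
  have hyx : y ∣ x := (IsIntegrallyClosed.pow_dvd_pow_iff hn0).mp (dvd_of_eq h.symm)
  obtain ⟨w, rfl⟩ := hyx
  rw [mul_pow] at h
  have hw : w ^ n = 1 := mul_left_cancel₀ (pow_ne_zero n hy) (h.trans (mul_one _).symm)
  refine ⟨PowerSeries.constantCoeff w, by rw [← map_pow, hw, map_one], ?_⟩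
  rw [mul_comm y]
  congr 1
  refine eq_of_pow_eq_pow (O := PowerSeries k) (n := n) ?_ (IsUnit.of_pow_eq_one hw hn0) ?_ ?_
  · rw [PowerSeries.isUnit_iff_constantCoeff, map_natCast]
    exact hn
  · rw [hw, ← map_pow, ← map_pow, hw, map_one, map_one]
  · rw [← sub_eq_zero, ← map_sub, residue_eq_zero_iff, IsLocalRing.mem_maximalIdeal,
      mem_nonunits_iff, PowerSeries.isUnit_iff_constantCoeff]
    simp

/-- A series with nonzero residue whose zeros have multiplicities divisible by `n` is a unit
times an `n`-th power. -/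
theorem exists_factor_of_witness {K : Type} [Field K] [IsAlgClosed K] (j : O →+* K)
    (hj : Function.Injective j) {n : ℕ} {F : PowerSeries O} (hF : psRes F ≠ 0)
    (hw : ∀ ψ : PowerSeries O →+* K, (∀ r, ψ (PowerSeries.C r) = j r) → ψ F = 0 →
      ∃ (i : ℕ) (d e g : PowerSeries O), ψ e ≠ 0 ∧ ψ g ≠ 0 ∧ F * e = d ^ (n * i) * g) :
    ∃ (u : (PowerSeries O)ˣ) (H : PowerSeries O), F = u * H ^ n := by
  refine exists_unit_mul_pow F (fun h => hF (by rw [h, map_zero])) fun f hf hfF => ?_
  have hres : psRes f ≠ 0 := fun h0 => by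
    obtain ⟨z, rfl⟩ := hfF
    exact hF (by rw [map_mul, h0, zero_mul])
  obtain ⟨ψ, hψC, hψ⟩ :=
    exists_ps_point hres ((Ideal.span_singleton_prime hf.ne_zero).mpr hf) j hj
  obtain ⟨i, d, e, g, he, hg, hid⟩ := hw ψ hψC ((hψ F).mpr hfF)
  exact ⟨i, d, e, g, fun h => he ((hψ e).mpr h), fun h => hg ((hψ g).mpr h), hid⟩

/-- **The root of `a b ^ (n - 1)` from divisible multiplicities.** -/
theorem exists_ps_root {K : Type} [Field K] [IsAlgClosed K] (j : O →+* K)
    (hj : Function.Injective j) {n : ℕ} (hn : IsUnit (n : O)) {a b : PowerSeries O}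
    (hab : psRes a = psRes b) (hb : psRes b ≠ 0)
    (hdiv : ∀ y ∈ ({a, b} : Set (PowerSeries O)), ∀ ψ : PowerSeries O →+* K,
      (∀ r, ψ (PowerSeries.C r) = j r) → ψ y = 0 →
        ∃ (i : ℕ) (d e g : PowerSeries O), ψ e ≠ 0 ∧ ψ g ≠ 0 ∧ y * e = d ^ (n * i) * g) :
    ∃ L : PowerSeries O, L ^ n = a * b ^ (n - 1) ∧ psRes L = psRes b := by
  obtain ⟨ϖ, hϖ⟩ := IsDiscreteValuationRing.exists_irreducible O
  have : IsAdicComplete (maximalIdeal (PowerSeries O)) (PowerSeries O) :=
    GaloisBasic.isAdicComplete_mvPowerSeries_of_complete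
  have hn0 : n ≠ 0 := by rintro rfl; simp at hn
  have hfac : ∀ y ∈ ({a, b} : Set (PowerSeries O)),
      ∃ (u : (PowerSeries O)ˣ) (H : PowerSeries O), y = u * H ^ n := fun y hy =>
    exists_factor_of_witness j hj (by rcases hy with rfl | rfl <;> simp [hab, hb]) (hdiv y hy)
  obtain ⟨u, H, hu⟩ := hfac a (by simp)
  obtain ⟨v, K', hv⟩ := hfac b (by simp)
  set z : (PowerSeries O)ˣ := u * v ^ (n - 1)
  have hpow : n = n - 1 + 1 := by omega
  have hz : (z : PowerSeries O) * (H * K' ^ (n - 1)) ^ n = a * b ^ (n - 1) := by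
    rw [hu, hv, Units.val_mul, Units.val_pow_eq_pow_val]
    ring
  have hH : psRes H ≠ 0 := fun h0 => hb (by
    rw [← hab, hu, map_mul, map_pow, h0, zero_pow hn0, mul_zero])
  -- the residual root of the unit
  obtain ⟨w, hw⟩ : ∃ w, psRes (z : PowerSeries O) = w ^ n := by
    have e : psRes (z : PowerSeries O) * psRes H ^ n = (psRes v * psRes K') ^ n := by
      have h1 : psRes (u : PowerSeries O) * psRes H ^ n = psRes v * psRes K' ^ n := by
        simpa [hu, hv] using hab
      rw [Units.val_mul, Units.val_pow_eq_pow_val, map_mul, map_pow, mul_pow]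
      have h2 : psRes (v : PowerSeries O) ^ n = psRes (v : PowerSeries O) ^ (n - 1) * psRes v := by
        conv_lhs => rw [hpow, pow_succ]
      linear_combination (psRes (v : PowerSeries O)) ^ (n - 1) * h1 - psRes K' ^ n * h2
    obtain ⟨w, hw⟩ := (IsIntegrallyClosed.pow_dvd_pow_iff hn0).mp (Dvd.intro_left _ e)
    exact ⟨w, mul_right_cancel₀ (pow_ne_zero n hH) (e.trans (by rw [hw, mul_pow, mul_comm]))⟩
  obtain ⟨r0, hr0⟩ := residue_surjective (PowerSeries.constantCoeff w)
  have hr0u : IsUnit r0 := by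
    by_contra h
    have h1 := congrArg PowerSeries.constantCoeff hw
    rw [map_pow, ← hr0, (residue_eq_zero_iff r0).mpr ((IsLocalRing.mem_maximalIdeal r0).mpr h),
      zero_pow hn0] at h1
    exact ((z.isUnit.map psRes).map PowerSeries.constantCoeff).ne_zero h1
  obtain ⟨α, hα, -⟩ := exists_root_of_residue (O := PowerSeries O) (n := n)
    (u := (z : PowerSeries O)) (r := PowerSeries.C r0)
    (by rw [← map_natCast (PowerSeries.C (R := O))]; exact hn.map _) (hr0u.map _) (by
      rw [← map_pow, ← sub_eq_zero, ← map_sub, residue_eq_zero_iff, IsLocalRing.mem_maximalIdeal,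
        mem_nonunits_iff, PowerSeries.isUnit_iff_constantCoeff, ← isUnit_map_iff (residue O)]
      have h1 := congrArg PowerSeries.constantCoeff hw
      rw [map_pow, ← hr0] at h1
      change ¬ IsUnit
        (residue O (PowerSeries.constantCoeff ((z : PowerSeries O) - PowerSeries.C r0 ^ n)))
      rw [map_sub, map_sub, map_pow, map_pow, PowerSeries.constantCoeff_C, ← h1]
      rw [← PowerSeries.coeff_zero_eq_constantCoeff_apply,
        ← PowerSeries.coeff_zero_eq_constantCoeff_apply, PowerSeries.coeff_map, sub_self]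
      exact not_isUnit_zero)
  set L0 := α * (H * K' ^ (n - 1))
  have hL0 : L0 ^ n = a * b ^ (n - 1) := by rw [mul_pow, hα, hz]
  obtain ⟨c, hc, hcL⟩ := exists_C_mul_of_pow_eq (by
      rw [← map_natCast (residue O)]; exact hn.map _) hb
    (show psRes L0 ^ n = psRes b ^ n by
      rw [← map_pow, hL0, map_mul, map_pow, hab, ← pow_succ', ← hpow])
  obtain ⟨c', hc'⟩ := residue_surjective c
  have hc'u : IsUnit c' := by
    refine isUnit_of_map_unit (residue O) _ ?_
    rw [hc']
    exact IsUnit.of_pow_eq_one hc hn0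
  obtain ⟨d, hd, hdc⟩ := exists_root_of_residue (O := O) hn (u := 1) (r := c') hc'u
    (by rw [map_one, hc', hc])
  obtain ⟨du, rfl⟩ : IsUnit d := IsUnit.of_pow_eq_one hd hn0
  refine ⟨PowerSeries.C ((du⁻¹ : Oˣ) : O) * L0, ?_, ?_⟩
  · rw [mul_pow, hL0, ← map_pow, ← Units.val_pow_eq_pow_val, inv_pow,
      show du ^ n = 1 from Units.ext (by simpa using hd), inv_one, Units.val_one, map_one, one_mul]
  · rw [map_mul, hcL, ← mul_assoc, PowerSeries.map_C, ← map_mul, ← hc', ← hdc, ← map_mul,
      Units.inv_mul, map_one, map_one, one_mul]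

end FermatAgent.BAD
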