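import Fermat.Agent.BAD.Points
import Fermat.Agent.BAD.PSFactor
import Fermat.Agent.ES.Local.Approx
import Fermat.Agent.ES.Local.FinGen

/-!
# The local parameter on the component at infinity

Near a maximal ideal `m` on that component, every function is congruent to one of level `M`, and
`t - a` generates `m`.
-/

set_option autoImplicit false

open UpperHalfPlane CongruenceSubgroup
open scoped MatrixGroups

noncomputable section

namespace FermatAgent.BAD

open FermatAgent.ES (BSub BRing SerIn HasLExp lexp lexp_eq hasLExp_lexp act zetaC AuxLevel CPlace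
  GoodRoot GoodPoint haupt orbPt fibIdem discHom GalGrp repG)

variable {q M m : ℕ} [Fact q.Prime] [NeZero M] (haux : AuxLevel M m)
  {O : Subring ℂ} (hA : GoodRoot M O (zetaC M)) {P : CPlace q} (hO : O ≤ P.ring)
  (hO' : P.IsCDVR O) (hM : M.Coprime q)

include haux hA in
/-- The conjugates of a good point are good. -/
theorem goodPoint_orbPt {τ0 : ℍ} (h : GoodPoint haux O τ0) (g : GalGrp M m) :
    GoodPoint haux O (orbPt M m τ0 g) where
  val := by rw [ES.haupt_orbPt haux]; exact h.val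
  sepA_mem S k :=
    (ES.exists_fibre_decomp haux hA h
      (ES.act_mem_BRing (ES.sepA_mem haux hA S) (repG M m k))).1 g
  sepB_mem S k :=
    (ES.exists_fibre_decomp haux hA h
      (ES.act_mem_BRing (ES.sepB_mem haux hA S) (repG M m k))).1 g

/-- The function `t - t(τ0)`. -/
def tPar {τ0 : ℍ} (h : GoodPoint haux O τ0) : BRing M O :=
  tRing haux hA - ⟨_, ES.const_mem_BRing h.val.mem⟩

/-- The parameter is `t - t(τ0)`. -/
theorem coe_tPar {τ0 : ℍ} (h : GoodPoint haux O τ0) :
    ((tPar haux hA h : BRing M O) : ℍ → ℂ) = ES.hauptSub haux (haupt haux.dvd τ0) := rfl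

/-- The Taylor series of `t - t(τ0)` is the variable. -/
theorem discHom_tPar {τ0 : ℍ} (h : GoodPoint haux O τ0) :
    discHom haux τ0 hA h (tPar haux hA h) = PowerSeries.X := by
  rw [tPar, map_sub, show tRing haux hA =
    ⟨_, ES.polRing_le_BRing haux hA (ES.haupt_mem_polRing haux O)⟩ from rfl, ES.discHom_haupt,
    ES.discHom_const haux τ0 hA h h.val.mem, add_sub_cancel_left]

omit [Fact (Nat.Prime q)] in
include hO hO' hM in
/-- A function with a unit coefficient has nonzero residual Taylor series. -/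
theorem psRes_discHom_ne_zero {τ0 : ℍ} (h : GoodPoint haux O τ0) {f : BRing M O}
    (hf : P.UnitCoeff (lexp M 1 (f : ℍ → ℂ))) :
    haveI := hO'.dvr; psRes (discHom haux τ0 hA h f) ≠ 0 := by
  have := hO'.dvr
  intro h0
  have hAP := P.goodRoot hM
  have hgP : GoodPoint haux P.ring τ0 :=
    GoodPoint.of_integrallyClosed haux hAP (fun x => P.integrallyClosed x)
      ⟨⟨h.val.unit.1, hO h.val.unit.2.1, hO h.val.unit.2.2⟩,
        ⟨h.val.unit_one.1, hO h.val.unit_one.2.1, hO h.val.unit_one.2.2⟩,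
        ⟨h.val.unit_root.1, hO h.val.unit_root.2.1, hO h.val.unit_root.2.2⟩⟩
  set G : BRing M P.ring := ⟨f, ES.BRing_mono hO f.2⟩
  obtain ⟨G', L, hGG, -⟩ := ES.exists_norm_factor P haux hM (c := 1 / 2) (by norm_num) (G := G) hf
  have hz := ES.map_res_discHom_of_maxSmall P haux hM hgP
    (ES.smallIdeal_le_maxSmall P (c := 1 / 2) (by norm_num) (by norm_num) hGG)
  have hG0 : PowerSeries.map P.res (discHom haux τ0 hAP hgP G) = 0 := by
    rw [ES.discHom_mono haux τ0 hA h hAP hgP hO f]
    ext i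
    have hi := congrArg (PowerSeries.coeff i) h0
    rw [PowerSeries.coeff_map, map_zero, IsLocalRing.residue_eq_zero_iff,
      hO'.mem_maximalIdeal_iff] at hi
    rw [PowerSeries.coeff_map, PowerSeries.coeff_map, map_zero]
    exact P.res_eq_zero_iff.mpr hi
  rw [map_sub, map_sub, map_mul, map_mul, hG0, zero_mul, zero_sub, neg_eq_zero, ES.linProd,
    map_multiset_prod, map_multiset_prod, Multiset.map_map, Multiset.map_map,
    Multiset.prod_eq_zero_iff] at hz
  obtain ⟨x, -, hx⟩ := Multiset.mem_map.mp hz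
  simp only [Function.comp_apply, ES.constantCoeff_discHom_tSub P haux hM hgP] at hx
  have := congrArg (PowerSeries.coeff 1) hx
  simp at this

section Local

variable {𝔪 : Ideal (LRing q M O)} [h𝔪 : 𝔪.IsMaximal] {τ0 : ℍ} (hg : GoodPoint haux O τ0)
  (hinf : pInf hO ≤ 𝔪) (ht : raiseL M (tPar haux hA hg) ∈ 𝔪)
include ht

/-- The point of the fibre under `m`, with its idempotent. -/
theorem exists_fibre_point :
    ∃ (g : GalGrp M m) (e : BRing M O), (e : ℍ → ℂ) (orbPt M m τ0 g) = 1 ∧
      raiseL M e - 1 ∈ 𝔪 ∧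
      (∀ x : BRing M O, raiseL M x -
        constL ⟨_, (ES.exists_fibre_decomp haux hA hg x.2).1 g⟩ ∈ 𝔪) ∧
      ∀ x : BRing M O, ∃ x2 : BRing M O,
        e * (x - ⟨_, ES.const_mem_BRing ((ES.exists_fibre_decomp haux hA hg x.2).1 g)⟩) =
          tPar haux hA hg * x2 := by
  let := Ideal.Quotient.field 𝔪
  obtain ⟨g, hgψ⟩ := ES.exists_point_of_hom haux hA hg ((Ideal.Quotient.mk 𝔪).comp (raiseL M))
    (Ideal.Quotient.eq.mpr (by rw [← map_sub]; exact ht))
  set e : BRing M O := ⟨fibIdem haux τ0 g, ES.fibIdem_mem haux hA hg g⟩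
  have he : (e : ℍ → ℂ) (orbPt M m τ0 g) = 1 :=
    (ES.fibIdem_orbPt haux τ0 g g).trans (if_pos rfl)
  have hval : ∀ x : BRing M O, raiseL M x -
      constL ⟨_, (ES.exists_fibre_decomp haux hA hg x.2).1 g⟩ ∈ 𝔪 := fun x =>
    Ideal.Quotient.eq.mp (hgψ x)
  refine ⟨g, e, he, ?_, hval, fun x => ?_⟩
  · have h := hval e
    rwa [show (⟨_, (ES.exists_fibre_decomp haux hA hg e.2).1 g⟩ : O) = 1 from Subtype.ext he,
      map_one] at h
  · obtain ⟨x2, hx2, h⟩ := ES.exists_eq_mul_of_fibre_zero haux hA hg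
      (x := ((e * (x - ⟨_, ES.const_mem_BRing ((ES.exists_fibre_decomp haux hA hg x.2).1 g)⟩) :
        BRing M O) : ℍ → ℂ)) (SetLike.coe_mem _) (fun k => by
        show fibIdem haux τ0 g (orbPt M m τ0 k) *
          ((x : ℍ → ℂ) (orbPt M m τ0 k) - (x : ℍ → ℂ) (orbPt M m τ0 g)) = 0
        rw [ES.fibIdem_orbPt haux]
        split_ifs with hk
        · subst hk; rw [sub_self, mul_zero]
        · rw [zero_mul])
    exact ⟨⟨x2, hx2⟩, Subtype.ext h⟩

include hO' hM in
/-- **Normal form.** A function of level `M` with a unit coefficient is, modulo the component and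
up to units at `m`, a power of `t - t(τ0)`. -/
theorem exists_order {f : BRing M O} (hf : P.UnitCoeff (lexp M 1 (f : ℍ → ℂ))) :
    ∃ (i : ℕ) (e u : BRing M O), raiseL M e ∉ 𝔪 ∧ raiseL M u ∉ 𝔪 ∧
      raiseL M (e * f) - raiseL M (tPar haux hA hg ^ i * u) ∈ pInf hO := by
  have := hO'.dvr
  obtain ⟨ϖ, hϖ⟩ := IsDiscreteValuationRing.exists_irreducible O
  obtain ⟨g, e, he, he1, hval, hdiv⟩ := exists_fibre_point haux hA hg ht
  have he' : raiseL M e ∉ 𝔪 := fun h => h𝔪.ne_top ((Ideal.eq_top_iff_one _).mpr (by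
    have := sub_mem h he1
    rwa [sub_sub_cancel] at this))
  set τ := orbPt M m τ0 g
  have hgτ : GoodPoint haux O τ := goodPoint_orbPt haux hA hg g
  set ψ := discHom haux τ hA hgτ
  have hψT : ψ (tPar haux hA hg) = PowerSeries.X := by
    rw [show tPar haux hA hg = tPar haux hA hgτ from Subtype.ext (by
      rw [coe_tPar, coe_tPar, ES.haupt_orbPt haux])]
    exact discHom_tPar haux hA hgτ
  have hψc : ∀ x : BRing M O, PowerSeries.constantCoeff (ψ x) =
      ⟨_, (ES.exists_fibre_decomp haux hA hg x.2).1 g⟩ := fun x =>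
    Subtype.ext (ES.constantCoeff_discHom haux τ hA hgτ x)
  have hψe : IsUnit (psRes (ψ e)) := by
    refine (PowerSeries.isUnit_iff_constantCoeff.mpr ?_).map _
    rw [hψc, show (⟨_, (ES.exists_fibre_decomp haux hA hg e.2).1 g⟩ : O) = 1 from Subtype.ext he]
    exact isUnit_one
  have hne := psRes_discHom_ne_zero haux hA hO hO' hM hgτ hf
  obtain ⟨i, r, hr, hfr⟩ := WfDvdMonoid.max_power_factor hne PowerSeries.X_irreducible
  suffices key : ∀ i, ∀ f : BRing M O, (PowerSeries.X ^ i ∣ psRes (ψ f)) →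
      ¬ PowerSeries.X ^ (i + 1) ∣ psRes (ψ f) →
      ∃ u : BRing M O, raiseL M u ∉ 𝔪 ∧
        raiseL M (e ^ i * f) - raiseL M (tPar haux hA hg ^ i * u) ∈ pInf hO by
    obtain ⟨u, hu, h⟩ := key i f ⟨r, hfr⟩ (fun ⟨s, hs⟩ => hr ⟨s, by
      have hX : (PowerSeries.X ^ i : PowerSeries (IsLocalRing.ResidueField O)) ≠ 0 :=
        pow_ne_zero _ PowerSeries.X_ne_zero
      exact mul_left_cancel₀ hX (by rw [← hfr, hs, pow_succ, mul_assoc])⟩)
    refine ⟨i, e ^ i, u, fun h => he' ?_, hu, h⟩
    rw [map_pow] at h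
    exact h𝔪.isPrime.mem_of_pow_mem i h
  intro i
  induction i with
  | zero =>
    intro f _ hf1
    refine ⟨f, fun hfm => hf1 ?_, by simp⟩
    rw [zero_add, pow_one, PowerSeries.X_dvd_iff, ← PowerSeries.coeff_zero_eq_constantCoeff_apply,
      PowerSeries.coeff_map, PowerSeries.coeff_zero_eq_constantCoeff_apply,
      IsLocalRing.residue_eq_zero_iff, IsLocalRing.mem_maximalIdeal]
    intro hu
    refine h𝔪.ne_top (Ideal.eq_top_of_isUnit_mem _ ?_ (hu.map constL))
    rw [hψc]
    have := sub_mem hfm (hval f)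
    rwa [sub_sub_cancel] at this
  | succ i ih =>
    intro f hf0 hf1
    obtain ⟨f2, hf2⟩ := hdiv f
    set c : O := ⟨_, (ES.exists_fibre_decomp haux hA hg f.2).1 g⟩
    have hc : IsLocalRing.residue O c = 0 := by
      have h := PowerSeries.X_dvd_iff.mp ((dvd_pow_self _ i.succ_ne_zero).trans hf0)
      rwa [← PowerSeries.coeff_zero_eq_constantCoeff_apply, PowerSeries.coeff_map,
        PowerSeries.coeff_zero_eq_constantCoeff_apply, hψc] at h
    have hcC : (⟨_, ES.const_mem_BRing c.2⟩ : BRing M O) =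
        ⟨_, ES.const_mem_BRing ((ES.exists_fibre_decomp haux hA hg f.2).1 g)⟩ := rfl
    have hser : psRes (ψ e) * psRes (ψ f) = PowerSeries.X * psRes (ψ f2) := by
      have h := congrArg (fun x => psRes (ψ x)) hf2
      simp only [map_mul, map_sub, hψT, PowerSeries.map_X] at h
      rw [← hcC, ES.discHom_const haux τ hA hgτ c.2, PowerSeries.map_C, hc, map_zero, sub_zero] at h
      exact h
    obtain ⟨u, hu, hrel⟩ := ih f2
      ((mul_dvd_mul_iff_left PowerSeries.X_ne_zero).mp (by
        rw [← pow_succ', ← hser]; exact hf0.mul_left _))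
      (fun hd => hf1 ((IsUnit.dvd_mul_left hψe).mp (by
        rw [hser, pow_succ']; exact mul_dvd_mul_left _ hd)))
    have hcp : (constL c : LRing q M O) ∈ pInf hO := by
      obtain ⟨c', hc'⟩ : ϖ ∣ c := by
        rw [← Ideal.mem_span_singleton, ← hϖ.maximalIdeal_eq, ← IsLocalRing.residue_eq_zero_iff]
        exact hc
      rw [hc', map_mul]
      exact Ideal.mul_mem_right _ _ (constL_unif_mem hO hO' hϖ _)
    refine ⟨u, hu, ?_⟩
    have e1 :
        (raiseL M (e ^ (i + 1) * f) - raiseL M (tPar haux hA hg ^ (i + 1) * u) : LRing q M O) =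
        raiseL M (e ^ (i + 1)) * constL c + raiseL M (tPar haux hA hg) *
          (raiseL M (e ^ i * f2) - raiseL M (tPar haux hA hg ^ i * u)) := by
      rw [show (constL c : LRing q M O) =
        raiseL M ⟨_, ES.const_mem_BRing c.2⟩ from rfl, hcC]
      simp only [← map_mul, ← map_sub, ← map_add]
      congr 1
      linear_combination e ^ i * hf2
    rw [e1]
    exact add_mem (Ideal.mul_mem_left _ _ hcp) (Ideal.mul_mem_left _ _ hrel)

variable (hζ : zetaC (q * M) ∈ O) (hqm : q ≠ m)
include hO' hM hinf hζ hqm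

/-- **Every function is congruent to a quotient of functions of level `M`.** -/
theorem exists_levelM_congr (x : LRing q M O) :
    ∃ w u : BRing M O, raiseL M w ∉ 𝔪 ∧ raiseL M w * x - raiseL M u ∈ pInf hO := by
  by_cases hx : x ∈ pInf hO
  · refine ⟨1, 0, ?_, by simpa using hx⟩
    rw [map_one]
    exact h𝔪.ne_top ∘ (Ideal.eq_top_iff_one _).mpr
  set η := eta haux hM hA hζ
  set h := trB (hasseL haux hM hA hζ * x)
  have hrel : raiseL M η * x - raiseL M h ∈ pInf hO := eta_mul_sub_mem_pInf hO haux hM hA hζ x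
  have hηu := eta_unitInf hO haux hM hA hζ hqm
  have hne : raiseL M h ∉ pInf hO := fun hm =>
    hx (hηu.mem_of_mul hO (by have := add_mem hrel hm; rwa [sub_add_cancel] at this))
  have hunit : ∀ {f : BRing M O}, UnitInf P (raiseL M f : LRing q M O) →
      P.UnitCoeff (lexp M 1 (f : ℍ → ℂ)) := by
    intro f hf
    have h1 := hf 1 (one_mem _)
    rw [serAt_raiseL] at h1
    exact unitCoeff_of_expandL h1
  have hhu : P.UnitCoeff (lexp M 1 (h : ℍ → ℂ)) := by
    rw [mem_pInf] at hne
    push Not at hne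
    obtain ⟨γ, hγ, hne⟩ := hne
    have hu : P.UnitCoeff (serAt M O q γ (raiseL M h)) := by
      by_contra hno
      exact hne (P.serLT_of_not_unitCoeff (fun n => hO (serIn_serAt γ (raiseL M h) n)) hno)
    refine hunit (unitAt_raiseL (M := M) hO haux hM ⟨γ, ?_⟩ _)
    rw [serAt_raiseL] at hu
    exact unitCoeff_of_expandL hu
  obtain ⟨i, ei, u, hei, hu, hi⟩ := exists_order haux hA hO hO' hM hg ht hhu
  obtain ⟨j, ej, w, hej, hw, hj⟩ := exists_order haux hA hO hO' hM hg ht (hunit hηu)
  set T := tPar haux hA hg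
  have hTu : UnitInf P (raiseL M T : LRing q M O) := by
    refine unitAt_raiseL (M := M) hO haux hM ⟨1, ?_⟩ _
    exact ES.unitCoeff_tSub P haux hM ⟨_, hO hg.val.mem⟩
  set π := Ideal.Quotient.mk (pInf hO : Ideal (LRing q M O))
  have hz : ∀ {z}, z ∈ pInf hO → π z = 0 := fun hz => Ideal.Quotient.eq_zero_iff_mem.mpr hz
  have key : π (raiseL M (T ^ j * (w * ei)) * x - raiseL M (T ^ i * (u * ej))) = 0 := by
    have e1 := hz hj
    have e2 := hz hi
    have e3 := hz hrel
    simp only [map_sub, map_mul] at e1 e2 e3 ⊢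
    linear_combination (π (raiseL M ej) * π (raiseL M ei)) * e3 + π (raiseL M ej) * e2 -
      (π (raiseL M ei) * π x) * e1
  rw [Ideal.Quotient.eq_zero_iff_mem] at key
  rcases Nat.lt_or_ge i j with hlt | hge
  · exfalso
    obtain ⟨d, rfl⟩ : ∃ d, j = i + (d + 1) := ⟨j - i - 1, by omega⟩
    have h1 : raiseL M T ^ i *
        (raiseL M (T ^ (d + 1) * (w * ei)) * x - raiseL M (u * ej)) ∈ pInf hO := by
      convert key using 1
      simp only [map_mul, map_pow, pow_add]
      ring
    have h2 := hinf ((hTu.pow hO i).mem_of_mul hO h1)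
    have h3 : raiseL M (T ^ (d + 1) * (w * ei)) * x ∈ 𝔪 := by
      rw [map_mul, map_pow]
      exact Ideal.mul_mem_right _ _
        (Ideal.mul_mem_right _ _ (Ideal.pow_mem_of_mem _ ht _ d.succ_pos))
    have h4 := sub_mem h3 h2
    rw [sub_sub_cancel, map_mul] at h4
    exact (h𝔪.isPrime.mem_or_mem h4).elim hu hej
  · obtain ⟨d, rfl⟩ := Nat.exists_eq_add_of_le hge
    refine ⟨w * ei, T ^ d * (u * ej), ?_, (hTu.pow hO j).mem_of_mul hO ?_⟩
    · rw [map_mul]
      exact fun h => (h𝔪.isPrime.mem_or_mem h).elim hw hei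
    · convert key using 1
      · rfl
      · simp only [map_mul, map_pow, pow_add]
        ring

/-- **`t - t(τ0)` generates `m` locally on the component, and the residues are constants.** -/
theorem exists_inf_param (x : LRing q M O) :
    ∃ s ∉ 𝔪, ∃ (c : O) (x1 : LRing q M O),
      s * (x - constL c) - raiseL M (tPar haux hA hg) * x1 ∈ pInf hO := by
  have := hO'.dvr
  obtain ⟨w, u, hw, hrel⟩ := exists_levelM_congr haux hA hO hO' hM hg hinf ht hζ hqm x
  obtain ⟨g, e, -, he1, hval, hdiv⟩ := exists_fibre_point haux hA hg ht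
  set w0 : O := ⟨_, (ES.exists_fibre_decomp haux hA hg w.2).1 g⟩
  set u0 : O := ⟨_, (ES.exists_fibre_decomp haux hA hg u.2).1 g⟩
  have hw0 : IsUnit w0 := by
    by_contra hno
    obtain ⟨ϖ, hϖ⟩ := IsDiscreteValuationRing.exists_irreducible O
    obtain ⟨c', hc'⟩ : ϖ ∣ w0 := by
      rw [← Ideal.mem_span_singleton, ← hϖ.maximalIdeal_eq]
      exact (IsLocalRing.mem_maximalIdeal w0).mpr hno
    have hm : (constL w0 : LRing q M O) ∈ 𝔪 := by
      rw [hc', map_mul]
      exact Ideal.mul_mem_right _ _ (hinf (constL_unif_mem hO hO' hϖ _))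
    have := add_mem (hval w) hm
    rw [sub_add_cancel] at this
    exact hw this
  obtain ⟨v, hv⟩ := hw0.exists_right_inv
  obtain ⟨w2, hw2⟩ := hdiv w
  obtain ⟨u2, hu2⟩ := hdiv u
  set c := u0 * v
  refine ⟨raiseL M (e * w), ?_, c, raiseL M u2 - constL c * raiseL M w2, ?_⟩
  · rw [map_mul]
    refine fun h => (h𝔪.isPrime.mem_or_mem h).elim (fun h' => h𝔪.ne_top ?_) hw
    exact (Ideal.eq_top_iff_one _).mpr (by have := sub_mem h' he1; rwa [sub_sub_cancel] at this)
  have hwu := congrArg (raiseL (q := q) M) hw2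
  have huu := congrArg (raiseL (q := q) M) hu2
  simp only [map_mul, map_sub] at hwu huu ⊢
  rw [show raiseL M (⟨_, ES.const_mem_BRing ((ES.exists_fibre_decomp haux hA hg w.2).1 g)⟩) =
    constL w0 from rfl] at hwu
  rw [show raiseL M (⟨_, ES.const_mem_BRing ((ES.exists_fibre_decomp haux hA hg u.2).1 g)⟩) =
    constL u0 from rfl] at huu
  have hcv : constL c * constL w0 = (constL u0 : LRing q M O) := by
    rw [← map_mul, mul_assoc, mul_comm v, hv, mul_one]
  convert Ideal.mul_mem_left _ (raiseL M e) hrel using 1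
  linear_combination huu - constL c * hwu - raiseL M e * hcv

end Local

end FermatAgent.BAD
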