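import Fermat.Agent.BAD.Surject
import Fermat.Agent.BAD.LocalParam
import Fermat.Agent.BAD.Divisible
import Mathlib.RingTheory.AdicCompletion.AsTensorProduct

/-!
# Local roots at the points of a single component

There the completion is a ring of power series in one variable.

So at a maximal ideal lying on one component only, `a b^(n-1)` has an `n`-th root congruent to `b`
when `a ≡ b` and the zeros of both have multiplicities divisible by `n`.
-/

set_option autoImplicit false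

open UpperHalfPlane CongruenceSubgroup IsLocalRing
open scoped MatrixGroups

noncomputable section

namespace FermatAgent.BAD

open FermatAgent.ES (BSub BRing zetaC AuxLevel CPlace GoodRoot GoodPoint)

variable {q M m : ℕ} [Fact q.Prime] [NeZero M] {O : Subring ℂ}

instance algL : Algebra O (LRing q M O) := constL.toAlgebra

/-- The structure map of `LRing q M O` is the inclusion of constants. -/
theorem algL_apply (a : O) : algebraMap O (LRing q M O) a = constL a := rfl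

omit [Fact (Nat.Prime q)] in
/-- A number prime to `q` is a unit of `O`. -/
theorem isUnit_natCast_O {P : CPlace q} (hO' : P.IsCDVR O) {n : ℕ} (hn : n.Coprime q) :
    IsUnit (n : O) := (hO'.isUnit_iff _).mpr (by
  rw [show ((n : O) : ℂ) = (n : ℂ) by simp]; exact P.abv_natCast_eq_one hn)

/-- Multiplication by `ϖ` stays injective on a completion. -/
theorem completion_regular {B : Type} [CommRing B] [IsNoetherianRing B] (m : Ideal B) {ϖ : B}
    (h : ∀ x, ϖ * x = 0 → x = 0) (x : AdicCompletion m B)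
    (hx : algebraMap B (AdicCompletion m B) ϖ * x = 0) : x = 0 := by
  have : Module.Flat B (AdicCompletion m B) := AdicCompletion.flat_of_isNoetherian m
  have hreg : IsSMulRegular B ϖ := fun a b hab => by
    simp only [smul_eq_mul] at hab
    exact sub_eq_zero.mp (h _ (by rw [mul_sub, hab, sub_self]))
  refine (hreg.of_flat (S := AdicCompletion m B)) ?_
  show algebraMap B (AdicCompletion m B) ϖ • x = algebraMap B (AdicCompletion m B) ϖ • 0
  rw [smul_eq_mul, smul_zero, hx]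

variable (haux : AuxLevel M m) (hA : GoodRoot M O (zetaC M)) {P : CPlace q} (hO : O ≤ P.ring)
  (hO' : P.IsCDVR O) {ϖ : O} (hϖ : Irreducible ϖ)
include haux hA hO hO' hϖ

omit haux hA hO hO' hϖ in
/-- Divisibility by `ϖ` in the completion is local. -/
theorem exists_not_mem_dvd_of_completion [IsNoetherianRing (LRing q M O)] {𝔪 : Ideal (LRing q M O)}
    [𝔪.IsMaximal] {z : LRing q M O}
    (hz : algebraMap (LRing q M O) (AdicCompletion 𝔪 (LRing q M O)) (constL ϖ) ∣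
      algebraMap (LRing q M O) (AdicCompletion 𝔪 (LRing q M O)) z) :
    ∃ s ∉ 𝔪, constL ϖ ∣ s * z := by
  obtain ⟨s, hs, hsz⟩ := memLoc_of_completion (m := 𝔪) (I := Ideal.span {constL ϖ}) (x := z) (by
    rw [Ideal.map_span, Set.image_singleton, Ideal.mem_span_singleton]; exact hz)
  exact ⟨s, hs, Ideal.mem_span_singleton.mp hsz⟩

omit haux hA hO in
/-- **One parameter generating a completion makes it `O⟦T⟧`.** -/
theorem complHom_param_bijective [IsNoetherianRing (LRing q M O)] {𝔪 : Ideal (LRing q M O)}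
    [𝔪.IsMaximal] (hϖm : constL ϖ ∈ 𝔪) {T : LRing q M O} (hT : T ∈ 𝔪)
    (hgen : ∀ g, ∃ s ∉ 𝔪, ∃ (c : O) (x : LRing q M O), constL ϖ ∣ s * (g - constL c) - T * x)
    (hTreg : ∀ s ∉ 𝔪, ∀ i, ¬ constL ϖ ∣ s * T ^ i) :
    haveI := hO'.dvr
    haveI := hO'.complete
    Function.Bijective
      (complHom (σ := Unit) (O := O) 𝔪 (fun _ => T) (fun _ => hT) :
        PowerSeries O →+* AdicCompletion 𝔪 (LRing q M O)) := by
  have := hO'.dvr
  have := hO'.complete
  set f := algebraMap (LRing q M O) (AdicCompletion 𝔪 (LRing q M O))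
  set Φ : PowerSeries O →+* AdicCompletion 𝔪 (LRing q M O) :=
    complHom (σ := Unit) (O := O) 𝔪 (fun _ => T) (fun _ => hT)
  have hΦC : ∀ r : O, Φ (PowerSeries.C r) = f (constL r) := fun r =>
    complHom_C (σ := Unit) (O := O) 𝔪 (fun _ => T) (fun _ => hT) r
  have hΦX : Φ PowerSeries.X = f T :=
    complHom_X (σ := Unit) (O := O) 𝔪 (fun _ => T) (fun _ => hT) ()
  have hsurj : Function.Surjective Φ := by
    refine complHom_surjective (σ := Unit) (O := O) 𝔪 hϖ (fun _ => T) (fun _ => hT)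
      (fun g => ?_) hϖm
    obtain ⟨s, hs, c, x, w, hw⟩ := hgen g
    refine ⟨s, hs, c, ?_⟩
    rw [algL_apply, algL_apply, show s * (g - constL c) = T * x + constL ϖ * w by
      rw [← hw, add_sub_cancel]]
    exact Submodule.add_mem_sup (Ideal.mul_mem_right _ _ (Ideal.subset_span ⟨(), rfl⟩))
      (Ideal.mul_mem_right _ _ (Ideal.mem_span_singleton_self _))
  have hreg : ∀ x, f (constL ϖ) * x = 0 → x = 0 :=
    completion_regular 𝔪 (fun x hx => constL_unif_regular hO' hϖ hx)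
  have hloc : ∀ {z : LRing q M O}, f (constL ϖ) ∣ f z → ∃ s ∉ 𝔪, constL ϖ ∣ s * z := fun hz =>
    exists_not_mem_dvd_of_completion hz
  have hC : PowerSeries.C ϖ ≠ 0 := fun h0 =>
    hϖ.ne_zero (PowerSeries.C_injective (by rw [h0, map_zero]))
  have hCu : ¬ IsUnit (PowerSeries.C ϖ) := fun h => hϖ.not_isUnit (by
    have := h.map PowerSeries.constantCoeff
    rwa [PowerSeries.constantCoeff_C] at this)
  have hinj : Function.Injective Φ := by
    rw [injective_iff_map_eq_zero]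
    intro r hr
    by_contra hr0
    obtain ⟨k, r', hk, rfl⟩ := WfDvdMonoid.max_power_factor' hr0 hCu
    rw [map_mul, map_pow, hΦC] at hr
    have hr' : Φ r' = 0 := by
      induction k with
      | zero => simpa using hr
      | succ k ih =>
        rw [pow_succ', mul_assoc] at hr
        exact ih (hreg _ hr) (fun h0 => hr0 (by rw [pow_succ', mul_assoc, h0, mul_zero]))
    have hres : psRes r' ≠ 0 := fun h0 => hk (dvd_of_psRes_eq_zero hϖ h0)
    obtain ⟨i, w, hw, hfac⟩ := WfDvdMonoid.max_power_factor hres PowerSeries.X_irreducible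
    obtain ⟨W, rfl⟩ : ∃ W, psRes W = w := PowerSeries.map_surjective _ residue_surjective w
    have hWu : IsUnit W := by
      rw [PowerSeries.X_dvd_iff, ← PowerSeries.coeff_zero_eq_constantCoeff_apply,
        PowerSeries.coeff_map, PowerSeries.coeff_zero_eq_constantCoeff_apply] at hw
      exact PowerSeries.isUnit_iff_constantCoeff.mpr
        (IsLocalRing.residue_ne_zero_iff_isUnit _ |>.mp hw)
    obtain ⟨u, hu⟩ := dvd_of_psRes_eq_zero hϖ (f := r' - PowerSeries.X ^ i * W) (by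
      rw [map_sub, map_mul, map_pow, PowerSeries.map_X, ← hfac, sub_self])
    have h1 := congrArg Φ hu
    rw [map_sub, map_mul, map_mul, map_pow, hr', hΦX, hΦC, zero_sub] at h1
    obtain ⟨v, hv⟩ := (hWu.map Φ).exists_right_inv
    obtain ⟨s, hs, hdvd⟩ := hloc (z := T ^ i) ⟨-(Φ u * v), by
      rw [map_pow]
      linear_combination -v * h1 - f T ^ i * hv⟩
    exact hTreg s hs i hdvd
  exact ⟨hinj, hsurj⟩

omit haux hA hO in
/-- **The completion where one parameter generates.** -/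
theorem exists_param_iso [IsNoetherianRing (LRing q M O)] {𝔪 : Ideal (LRing q M O)}
    [𝔪.IsMaximal] (hϖm : constL ϖ ∈ 𝔪) {T : LRing q M O} (hT : T ∈ 𝔪)
    (hgen : ∀ g, ∃ s ∉ 𝔪, ∃ (c : O) (x : LRing q M O), constL ϖ ∣ s * (g - constL c) - T * x)
    (hTreg : ∀ s ∉ 𝔪, ∀ i, ¬ constL ϖ ∣ s * T ^ i) :
    haveI := hO'.dvr
    ∃ e : PowerSeries O ≃+* AdicCompletion 𝔪 (LRing q M O),
      (∀ r, e (PowerSeries.C r) = algebraMap _ _ (constL r : LRing q M O)) ∧
      e PowerSeries.X = algebraMap _ _ T ∧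
      (∀ {θ : O →+* O} {τ : LRing q M O →+* LRing q M O},
        (∀ r, τ (constL r) = constL (θ r)) → (∀ x ∈ 𝔪, τ x ∈ 𝔪) → τ T = T →
        ∀ z, ∀ b : LRing q M O, e z = algebraMap _ _ b →
          e (PowerSeries.map θ z) = algebraMap _ _ (τ b)) ∧
      ∀ z, ∀ b : LRing q M O, e z = algebraMap _ _ b →
        (psRes z = 0 ↔ ∃ s ∉ 𝔪, constL ϖ ∣ s * b) := by
  have := hO'.dvr
  have := hO'.complete
  set f := algebraMap (LRing q M O) (AdicCompletion 𝔪 (LRing q M O))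
  set Φ : PowerSeries O →+* AdicCompletion 𝔪 (LRing q M O) :=
    complHom (σ := Unit) (O := O) 𝔪 (fun _ => T) (fun _ => hT)
  have hΦC : ∀ r : O, Φ (PowerSeries.C r) = f (constL r) := fun r =>
    complHom_C (σ := Unit) (O := O) 𝔪 (fun _ => T) (fun _ => hT) r
  obtain ⟨hinj, hsurj⟩ : Function.Bijective Φ :=
    complHom_param_bijective hO' hϖ hϖm hT hgen hTreg
  have hloc : ∀ {z : LRing q M O}, f (constL ϖ) ∣ f z → ∃ s ∉ 𝔪, constL ϖ ∣ s * z := fun hz =>
    exists_not_mem_dvd_of_completion hz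
  refine ⟨RingEquiv.ofBijective Φ ⟨hinj, hsurj⟩, hΦC,
    complHom_X (σ := Unit) (O := O) 𝔪 (fun _ => T) (fun _ => hT) (),
    fun {θ τ} hτC hτm hτT z b hz => AdicCompletion.ext_evalₐ fun k => ?_,
    fun z b hz => ⟨fun h0 => ?_, ?_⟩⟩
  · have h := congrArg (AdicCompletion.evalₐ 𝔪 k) hz
    rw [show AdicCompletion.evalₐ 𝔪 k (f b) = Ideal.Quotient.mk (𝔪 ^ k) b from
      (AdicCompletion.evalₐ 𝔪 k).commutes b] at h
    rw [show AdicCompletion.evalₐ 𝔪 k (f (τ b)) = Ideal.Quotient.mk (𝔪 ^ k) (τ b) from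
      (AdicCompletion.evalₐ 𝔪 k).commutes _]
    refine (evalₐ_complHom (O := O) 𝔪 (fun _ : Unit => T) (fun _ => hT) k _).trans ?_
    exact evalMod_map 𝔪 _ _ hτC hτm (fun i => by rw [hτT, sub_self]; exact Ideal.zero_mem _) z
      ((evalₐ_complHom (O := O) 𝔪 (fun _ : Unit => T) (fun _ => hT) k z).symm.trans h)
  · obtain ⟨u, hu⟩ := dvd_of_psRes_eq_zero hϖ h0
    exact hloc ⟨Φ u, by rw [← hz, hu]; exact (map_mul Φ _ _).trans (by rw [hΦC])⟩
  · rintro ⟨s, hs, w, hw⟩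
    obtain ⟨sN, hsN⟩ := hsurj (f s)
    obtain ⟨wN, hwN⟩ := hsurj (f w)
    change Φ z = f b at hz
    have h1 : sN * z = PowerSeries.C ϖ * wN := hinj (by
      rw [map_mul, map_mul, hsN, hz, hΦC, hwN, ← map_mul, ← map_mul, hw])
    have h2 := congrArg psRes h1
    rw [map_mul, map_mul, psRes_C_unif hϖ, zero_mul] at h2
    refine (mul_eq_zero.mp h2).resolve_left fun h3 => ?_
    obtain ⟨u, hu⟩ := dvd_of_psRes_eq_zero hϖ h3
    obtain ⟨s', hs', v, hv⟩ := hloc (z := s) ⟨Φ u, by rw [← hsN, hu, map_mul, hΦC]⟩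
    exact (‹𝔪.IsMaximal›.isPrime.mem_or_mem
      (show s' * s ∈ 𝔪 by rw [hv]; exact Ideal.mul_mem_right _ _ hϖm)).elim hs' hs

omit hO in
/-- **The local root where the completion is `O⟦T⟧`.** -/
theorem localRoot_of_param [IsNoetherianRing (LRing q M O)] {𝔪 : Ideal (LRing q M O)}
    [𝔪.IsMaximal] (hϖm : constL ϖ ∈ 𝔪) {T : LRing q M O} (hT : T ∈ 𝔪)
    (hgen : ∀ g, ∃ s ∉ 𝔪, ∃ (c : O) (x : LRing q M O), constL ϖ ∣ s * (g - constL c) - T * x)
    (hTreg : ∀ s ∉ 𝔪, ∀ i, ¬ constL ϖ ∣ s * T ^ i)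
    {n : ℕ} (hn : n.Coprime q) {a b : LRing q M O} (hab : constL ϖ ∣ a - b)
    (hb : ∀ s ∉ 𝔪, ¬ constL ϖ ∣ s * b) (hda : Divisible q M O n (a : ℍ → ℂ))
    (hdb : Divisible q M O n (b : ℍ → ℂ)) :
    LocalRoot 𝔪 (constL ϖ) (a * b ^ (n - 1)) b n := by
  have := hO'.dvr
  have := hO'.complete
  set f := algebraMap (LRing q M O) (AdicCompletion 𝔪 (LRing q M O))
  obtain ⟨e, heC, -, -, he⟩ := exists_param_iso hO' hϖ hϖm hT hgen hTreg
  have hreg : ∀ x, f (constL ϖ) * x = 0 → x = 0 :=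
    completion_regular 𝔪 (fun x hx => constL_unif_regular hO' hϖ hx)
  set F : LRing q M O →+* PowerSeries O := e.symm.toRingHom.comp f
  have heF : ∀ z, e (F z) = f z := fun z => e.apply_symm_apply (f z)
  have hFC : ∀ r : O, F (constL r) = PowerSeries.C r := fun r => e.injective (by rw [heF, heC])
  have hFb : psRes (F b) ≠ 0 := fun h0 => by
    obtain ⟨s, hs, hdvd⟩ := (he _ b (heF b)).mp h0
    exact hb s hs hdvd
  have hFab : psRes (F a) = psRes (F b) := by
    obtain ⟨w, hw⟩ := hab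
    rw [← sub_eq_zero, ← map_sub, ← map_sub, hw, map_mul, hFC, map_mul, psRes_C_unif hϖ, zero_mul]
  obtain ⟨L, hL, hLb⟩ := exists_ps_root (O := O) O.subtype O.subtype_injective
    (isUnit_natCast_O hO' hn) hFab hFb (fun y hy ψ hψ hy0 => by
      obtain ⟨z, hz, rfl⟩ : ∃ z : LRing q M O, Divisible q M O n (z : ℍ → ℂ) ∧ F z = y := by
        rcases hy with rfl | rfl
        exacts [⟨a, hda, rfl⟩, ⟨b, hdb, rfl⟩]
      exact exists_witness_of_divisible haux hA hz F ψ (fun r => by rw [hFC, hψ]; rfl) hy0)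
  refine ⟨⟨e L, ?_, ?_⟩, hreg, fun x hx => ?_⟩
  · rw [← map_pow, hL, map_mul e, map_pow e, heF, heF, ← map_pow, ← map_mul]
  · obtain ⟨u, hu⟩ := dvd_of_psRes_eq_zero hϖ (f := L - F b) (by rw [map_sub, hLb, sub_self])
    exact ⟨e u, by rw [← heF b, ← map_sub, hu, map_mul, heC]⟩
  · obtain ⟨u, rfl⟩ := e.surjective x
    obtain ⟨z, hz⟩ := hx
    obtain ⟨z', rfl⟩ := e.surjective z
    rw [← heF b, ← heC, ← map_mul, ← map_mul] at hz
    have h1 := congrArg psRes (e.injective hz)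
    rw [map_mul, map_mul, psRes_C_unif hϖ, zero_mul] at h1
    obtain ⟨v, hv⟩ := dvd_of_psRes_eq_zero hϖ ((mul_eq_zero.mp h1).resolve_left hFb)
    exact ⟨e v, by rw [hv, map_mul, heC]⟩

variable (hM : M.Coprime q) (hζ : zetaC (q * M) ∈ O) (hqm : q ≠ m)
include hM hζ hqm

omit hO' hϖ hζ hqm in
/-- `t - t(τ0)` has a unit coefficient at the cusps of type `∞`. -/
theorem tPar_unitInf {τ0 : ℍ} (hg : GoodPoint haux O τ0) :
    UnitInf P (raiseL M (tPar haux hA hg) : LRing q M O) := by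
  refine unitAt_raiseL (M := M) hO haux hM ⟨1, ?_⟩ _
  have h := ES.unitCoeff_tSub P haux hM ⟨_, hO hg.val.mem⟩
  rw [ES.infExp_apply] at h
  exact h

/-- The parameter at a point of the component at infinity only. -/
theorem param_inf {𝔪 : Ideal (LRing q M O)} [h𝔪 : 𝔪.IsMaximal] (hinf : pInf hO ≤ 𝔪)
    (hzero : ¬ pZero hO ≤ 𝔪) {τ0 : ℍ} (hg : GoodPoint haux O τ0)
    (ht : raiseL M (tPar haux hA hg) ∈ 𝔪) :
    (∀ g, ∃ s ∉ 𝔪, ∃ (c : O) (x : LRing q M O),
      constL ϖ ∣ s * (g - constL c) - raiseL M (tPar haux hA hg) * x) ∧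
    (∀ s ∉ 𝔪, ∀ i, ¬ constL ϖ ∣ s * raiseL M (tPar haux hA hg) ^ i) ∧
    ∀ {f : LRing q M O}, UnitInf P f → ∀ s ∉ 𝔪, ¬ constL ϖ ∣ s * f := by
  have hnot : ∀ {f : LRing q M O}, UnitInf P f → ∀ s ∉ 𝔪, ¬ constL ϖ ∣ s * f := by
    rintro f hf s hs ⟨w, hw⟩
    refine hs (hinf (hf.mem_of_mul hO ?_))
    rw [mul_comm, hw]
    exact Ideal.mul_mem_right _ _ (constL_unif_mem hO hO' hϖ _)
  refine ⟨fun g => ?_, fun s hs i => hnot ((tPar_unitInf haux hA hO hM hg).pow hO i) s hs, hnot⟩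
  obtain ⟨z, hz, hzm⟩ := SetLike.not_le_iff_exists.mp hzero
  obtain ⟨s, hs, c, x, hx⟩ := exists_inf_param haux hA hO hO' hM hg hinf ht hζ hqm g
  refine ⟨z * s, fun h => (h𝔪.isPrime.mem_or_mem h).elim hzm hs, c, z * x, ?_⟩
  rw [show z * s * (g - constL c) - raiseL M (tPar haux hA hg) * (z * x) =
    z * (s * (g - constL c) - raiseL M (tPar haux hA hg) * x) by ring]
  exact dvd_of_mem_pInf_pZero hO hO' hϖ (Ideal.mul_mem_left _ _ hx)
    (Ideal.mul_mem_right _ _ hz)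

/-- Points of the component at infinity only. -/
theorem localRoot_inf [IsNoetherianRing (LRing q M O)] {𝔪 : Ideal (LRing q M O)} [h𝔪 : 𝔪.IsMaximal]
    (hϖm : constL ϖ ∈ 𝔪) (hinf : pInf hO ≤ 𝔪) (hzero : ¬ pZero hO ≤ 𝔪) {τ0 : ℍ}
    (hg : GoodPoint haux O τ0) (ht : raiseL M (tPar haux hA hg) ∈ 𝔪) {n : ℕ} (hn : n.Coprime q)
    {a b : LRing q M O} (hab : constL ϖ ∣ a - b) (hb : UnitInf P b)
    (hda : Divisible q M O n (a : ℍ → ℂ)) (hdb : Divisible q M O n (b : ℍ → ℂ)) :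
    LocalRoot 𝔪 (constL ϖ) (a * b ^ (n - 1)) b n := by
  obtain ⟨hgen, hTreg, hnot⟩ := param_inf haux hA hO hO' hϖ hM hζ hqm hinf hzero hg ht
  exact localRoot_of_param haux hA hO' hϖ hϖm ht hgen hTreg hn hab (hnot hb) hda hdb

omit hqm hO haux hA hO' hϖ in
/-- The Atkin automorphism fixes constants. -/
theorem atkinEquiv_constL (r : O) : atkinEquiv hM hζ (constL r) = (constL r : LRing q M O) :=
  Subtype.ext (atkin_const hM (r : ℂ))

/-- The parameter at a point of the component containing `0` only. -/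
theorem param_zero {𝔪 : Ideal (LRing q M O)} [h𝔪 : 𝔪.IsMaximal] (hzero : pZero hO ≤ 𝔪)
    (hinf : ¬ pInf hO ≤ 𝔪) {τ0 : ℍ} (hg : GoodPoint haux O τ0)
    (ht : (atkinEquiv hM hζ).symm (raiseL M (tPar haux hA hg)) ∈ 𝔪) :
    (∀ g, ∃ s ∉ 𝔪, ∃ (c : O) (x : LRing q M O),
      constL ϖ ∣ s * (g - constL c) - (atkinEquiv hM hζ).symm (raiseL M (tPar haux hA hg)) * x) ∧
    (∀ s ∉ 𝔪, ∀ i, ¬ constL ϖ ∣ s * (atkinEquiv hM hζ).symm (raiseL M (tPar haux hA hg)) ^ i) ∧
    ∀ {f : LRing q M O}, UnitZero P f → ∀ s ∉ 𝔪, ¬ constL ϖ ∣ s * f := by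
  have hnot : ∀ {f : LRing q M O}, UnitZero P f → ∀ s ∉ 𝔪, ¬ constL ϖ ∣ s * f := by
    rintro f hf s hs ⟨w, hw⟩
    refine hs (hzero (hf.mem_of_mul hO ?_))
    rw [mul_comm, hw]
    exact Ideal.mul_mem_right _ _ (constL_unif_mem hO hO' hϖ _)
  set E : LRing q M O ≃+* LRing q M O := atkinEquiv hM hζ
  set 𝔫 := 𝔪.comap (E.symm : LRing q M O →+* LRing q M O)
  have : 𝔫.IsMaximal := Ideal.comap_isMaximal_of_surjective _ E.symm.surjective
  refine ⟨fun g => ?_, fun s hs i => hnot (UnitAt.pow hO (show UnitZero P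
    (E.symm (raiseL M (tPar haux hA hg))) from unitZero_of_atkinL hM hζ (by
      show UnitInf P (E (E.symm _))
      rw [E.apply_symm_apply]
      exact tPar_unitInf haux hA hO hM hg)) i) s hs, hnot⟩
  have hinf' : pInf hO ≤ 𝔫 := fun f hf => hzero (mem_pZero_of_atkinL hO hM hζ (by
    show E (E.symm f) ∈ pInf hO
    rwa [E.apply_symm_apply]))
  obtain ⟨z, hz, hzm⟩ := SetLike.not_le_iff_exists.mp hinf
  obtain ⟨s, hs, c, x, hx⟩ := exists_inf_param haux hA hO hO' hM hg hinf' ht hζ hqm (E g)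
  refine ⟨z * E.symm s, fun h => (h𝔪.isPrime.mem_or_mem h).elim hzm hs, c, z * E.symm x, ?_⟩
  rw [show z * E.symm s * (g - constL c) -
      E.symm (raiseL M (tPar haux hA hg)) * (z * E.symm x) =
    z * (E.symm s * (g - constL c) - E.symm (raiseL M (tPar haux hA hg)) * E.symm x) by ring]
  refine dvd_of_mem_pInf_pZero hO hO' hϖ (Ideal.mul_mem_right _ _ hz)
    (Ideal.mul_mem_left _ _ (mem_pZero_of_atkinL hO hM hζ ?_))
  show E _ ∈ _
  simp only [map_sub, map_mul, E.apply_symm_apply,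
    show ∀ r : O, E (constL r) = constL r from atkinEquiv_constL hM hζ]
  exact hx

/-- Points of the component containing `0` only. -/
theorem localRoot_zero [IsNoetherianRing (LRing q M O)] {𝔪 : Ideal (LRing q M O)}
    [h𝔪 : 𝔪.IsMaximal] (hϖm : constL ϖ ∈ 𝔪) (hzero : pZero hO ≤ 𝔪) (hinf : ¬ pInf hO ≤ 𝔪) {τ0 : ℍ}
    (hg : GoodPoint haux O τ0)
    (ht : (atkinEquiv hM hζ).symm (raiseL M (tPar haux hA hg)) ∈ 𝔪) {n : ℕ} (hn : n.Coprime q)
    {a b : LRing q M O} (hab : constL ϖ ∣ a - b) (hb : UnitZero P b)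
    (hda : Divisible q M O n (a : ℍ → ℂ)) (hdb : Divisible q M O n (b : ℍ → ℂ)) :
    LocalRoot 𝔪 (constL ϖ) (a * b ^ (n - 1)) b n := by
  obtain ⟨hgen, hTreg, hnot⟩ := param_zero haux hA hO hO' hϖ hM hζ hqm hzero hinf hg ht
  exact localRoot_of_param haux hA hO' hϖ hϖm ht hgen hTreg hn hab (hnot hb) hda hdb

end FermatAgent.BAD
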