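import Fermat.Agent.BAD.Trace2
import Fermat.Agent.ES.Ring.Points

/-!
# Ring homomorphisms to `ℂ` fixing the constants are points

A ring homomorphism `LRing q M O → ℂ` fixing the constants is evaluation at some `τ` in the upper
half plane; the proof descends the functions invariant under `Γ(M)` to level `M`.
-/

set_option autoImplicit false

open UpperHalfPlane CongruenceSubgroup
open scoped MatrixGroups

noncomputable section

namespace FermatAgent.BAD

open FermatAgent.ES (BSub BRing HasLExp lexp lexp_eq hasLExp_lexp act zetaC AuxLevel GoodRoot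
  haupt)

variable {q M m : ℕ} [Fact q.Prime] [NeZero M] {O : Subring ℂ}

theorem exists_descend_of_inv {f : ℍ → ℂ} (hf : f ∈ BSub (q * M))
    (hinv : ∀ γ ∈ Gamma M, act γ f = f) (γ : SL(2, ℤ)) :
    ∃ t, HasLExp M (act γ f) t ∧ lexp (q * M) γ f = expandL q t :=
  exists_hasLExp_descend (hasLExp_lexp hf γ) fun _ hn => coeff_eq_zero_of_inv hf hinv γ hn

/-- A function of level `q M` invariant under `Γ(M)` has level `M`. -/
theorem mem_BSub_of_inv {f : ℍ → ℂ} (hf : f ∈ BSub (q * M))
    (hinv : ∀ γ ∈ Gamma M, act γ f = f) : f ∈ BSub M :=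
  ⟨hinv, fun γ => ⟨_, (exists_descend_of_inv hf hinv γ).choose_spec.1⟩⟩

/-- An element of `BRing (qM) O` invariant under `Γ(M)` lies in `BRing M O`. -/
theorem mem_BRing_of_inv {f : ℍ → ℂ} (hf : f ∈ BRing (q * M) O)
    (hinv : ∀ γ ∈ Gamma M, act γ f = f) : f ∈ BRing M O := by
  refine ⟨mem_BSub_of_inv hf.1 hinv, fun γ n => ?_⟩
  obtain ⟨t, ht, hts⟩ := exists_descend_of_inv hf.1 hinv γ
  rw [lexp_eq ht, ← expandL_coeff_mul q t n, ← hts]
  exact hf.2 γ _

variable (haux : AuxLevel M m) (hA : GoodRoot M O (zetaC M))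
  (ψ : LRing q M O →+* ℂ) (hψ : ∀ a : O, ψ (constL a) = a)

/-- The Hauptmodul in `BRing M O`. -/
def tRing : BRing M O := ⟨_, ES.polRing_le_BRing haux hA (ES.haupt_mem_polRing haux O)⟩

/-- The Hauptmodul of `BRing M O` as a function. -/
theorem coe_tRing : ((tRing haux hA : BRing M O) : ℍ → ℂ) = haupt haux.dvd := rfl

/-- The Hauptmodul in `LRing q M O`. -/
def tL : LRing q M O := raiseL M (tRing haux hA)

/-- The Hauptmodul of `LRing q M O` as a function. -/
theorem coe_tL : ((tL haux hA : LRing q M O) : ℍ → ℂ) = haupt haux.dvd := rfl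

include haux hA hψ in
/-- **Points.** A homomorphism fixing the constants is evaluation at a point. -/
theorem exists_point_of_constHom : ∃ τ, ∀ x : LRing q M O, ψ x = (x : ℍ → ℂ) τ :=
  ES.exists_point_of_charFun haux hA (raiseL M) (fun _ => rfl) (fun _ hx => hx.1.1)
    (fun _ hx i => ES.invariant_mem_polRing haux hA
      (mem_BRing_of_inv (ES.charFun_coeff_mem hx.1 i) fun _ hγ =>
        ES.charFun_coeff_invariant hx.1.1 i (ES.gamma_le_of_dvd haux.dvd hγ))
      fun _ hδ => ES.charFun_coeff_invariant hx.1.1 i hδ) ψ hψ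

end FermatAgent.BAD
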