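import Fermat.Agent.BAD.Residual
import Fermat.Agent.BAD.PSFactor
import Fermat.Agent.BAD.Points
import Mathlib.RingTheory.LaurentSeries

/-!
# Roots of the expansions at the cusps

The zeros inside the residue disc of a cusp have multiplicities divisible by `n`, so the expansion
of `a b ^ (n - 1)` has an integral root congruent to that of `b`. The argument works for any ring
mapping to series (`exists_series_root_of_zeros`), so it also serves the covering.
-/

set_option autoImplicit false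

open UpperHalfPlane CongruenceSubgroup IsLocalRing
open scoped MatrixGroups

noncomputable section

namespace FermatAgent.BAD

open FermatAgent.ES (BSub BRing SerIn lexp act zetaC AuxLevel CPlace GoodRoot liftSer)

section Shift

variable {O : Type} [CommRing O]

/-- A large shift of a Laurent series is a power series, a power of `X` times the part with
nonzero constant term. -/
theorem exists_shift (s : LaurentSeries O) :
    ∃ e : ℕ, ∀ N : ℕ, e ≤ N → ∃ A : PowerSeries O,
      HahnSeries.ofPowerSeries ℤ O A = HahnSeries.single (N : ℤ) 1 * s ∧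
      ∃ r : ℕ, (r : ℤ) = N + s.order ∧ A = PowerSeries.X ^ r * s.powerSeriesPart := by
  refine ⟨(-s.order).toNat, fun N hN => ?_⟩
  obtain ⟨r, hr⟩ := Int.eq_ofNat_of_zero_le (show (0 : ℤ) ≤ N + s.order by omega)
  refine ⟨_, ?_, r, hr.symm, rfl⟩
  rw [map_mul, HahnSeries.ofPowerSeries_X_pow, LaurentSeries.ofPowerSeries_powerSeriesPart,
    ← mul_assoc, HahnSeries.single_mul_single, one_mul,
    show (r : ℤ) + -s.order = (N : ℤ) by omega]

/-- Changing the coefficients of a constant series. -/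
theorem liftSer_C {S : Type*} [CommRing S] (f : O →+* S) (r : O) :
    liftSer f (HahnSeries.C r) = HahnSeries.C (f r) := by
  rw [HahnSeries.C_apply, ES.liftSer_single, HahnSeries.C_apply]

theorem exists_witness_of_laurent {K : Type} [Field K] (ψ : PowerSeries O →+* K)
    (hX : ψ PowerSeries.X ≠ 0) {A : PowerSeries O}
    (Ψ : LaurentSeries O →+* K) (hΨ : ∀ x, Ψ (HahnSeries.ofPowerSeries ℤ O x) = ψ x)
    {n i : ℕ} {E D G : LaurentSeries O} (hE : Ψ E ≠ 0) (hG : Ψ G ≠ 0)
    (h : HahnSeries.ofPowerSeries ℤ O A * E = D ^ (n * i) * G) :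
    ∃ (d e g : PowerSeries O), ψ e ≠ 0 ∧ ψ g ≠ 0 ∧ A * e = d ^ (n * i) * g := by
  have hx : ∀ k : ℕ, Ψ (HahnSeries.single (k : ℤ) 1) = ψ PowerSeries.X ^ k := fun k => by
    rw [← map_pow, ← hΨ, HahnSeries.ofPowerSeries_X_pow]
  obtain ⟨e0, he0⟩ := exists_shift E
  obtain ⟨d0, hd0⟩ := exists_shift D
  obtain ⟨g0, hg0⟩ := exists_shift G
  obtain ⟨E', hE', -⟩ := he0 (e0 + d0 * (n * i) + g0) (by omega)
  obtain ⟨D', hD', -⟩ := hd0 d0 le_rfl
  obtain ⟨G', hG', -⟩ := hg0 (g0 + e0) (by omega)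
  refine ⟨D', E', G', ?_, ?_, HahnSeries.ofPowerSeries_injective (Γ := ℤ) ?_⟩
  · rw [← hΨ, hE', map_mul, hx]
    exact mul_ne_zero (pow_ne_zero _ hX) hE
  · rw [← hΨ, hG', map_mul, hx]
    exact mul_ne_zero (pow_ne_zero _ hX) hG
  · rw [map_mul, map_mul, map_pow, hE', hD', hG', mul_pow, HahnSeries.single_pow, one_pow,
      mul_left_comm, h, mul_mul_mul_comm _ (D ^ (n * i)), HahnSeries.single_mul_single, one_mul]
    congr 2
    simp only [nsmul_eq_mul]
    push_cast
    ring

end Shift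

section Root

variable {q : ℕ} {P : CPlace q} {O : Subring ℂ}

/-- The coefficients of a shifted series. -/
private theorem coeff_of_shift {N : ℕ} {X : PowerSeries O} {t : LaurentSeries O}
    (h : HahnSeries.ofPowerSeries ℤ O X = HahnSeries.single (N : ℤ) 1 * t) (i : ℕ) :
    PowerSeries.coeff i X = t.coeff ((i : ℤ) - N) := by
  rw [← HahnSeries.ofPowerSeries_apply_coeff (Γ := ℤ), h]
  conv_lhs => rw [show ((i : ℕ) : ℤ) = ((i : ℤ) - N) + N by ring,
    HahnSeries.coeff_single_mul_add, one_mul]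

variable [IsDiscreteValuationRing O]

/-- Shifts of series congruent modulo `ϖ` are residually equal. -/
private theorem psRes_eq_of_dvd {ϖ : O} (hϖ : Irreducible ϖ) {x y w : LaurentSeries O}
    (hw : x - y = HahnSeries.C ϖ * w) {N : ℕ} {A B : PowerSeries O}
    (hA : HahnSeries.ofPowerSeries ℤ O A = HahnSeries.single (N : ℤ) 1 * x)
    (hB : HahnSeries.ofPowerSeries ℤ O B = HahnSeries.single (N : ℤ) 1 * y) :
    psRes A = psRes B := by
  have hdiff : liftSer (residue O) x = liftSer (residue O) y := by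
    rw [← sub_eq_zero, ← map_sub, hw, map_mul, liftSer_C,
      (residue_eq_zero_iff _).mpr (hϖ.maximalIdeal_eq ▸ Ideal.mem_span_singleton_self ϖ), map_zero,
      zero_mul]
  ext i
  rw [PowerSeries.coeff_map, PowerSeries.coeff_map, coeff_of_shift hA, coeff_of_shift hB]
  have h := congrArg (fun s : LaurentSeries (ResidueField O) => s.coeff ((i : ℤ) - N)) hdiff
  simpa only [ES.coeff_liftSer] using h

/-- The shift of a series with a unit coefficient is residually nonzero. -/
private theorem psRes_ne_zero_of_unitCoeff (hO' : P.IsCDVR O) {y : LaurentSeries O}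
    (hy : P.UnitCoeff (liftSer O.subtype y)) {N r : ℕ} (hr : (r : ℤ) = N + y.order)
    {B : PowerSeries O}
    (hB : HahnSeries.ofPowerSeries ℤ O B = HahnSeries.single (N : ℤ) 1 * y) : psRes B ≠ 0 := by
  intro h0
  obtain ⟨k, hk⟩ := hy
  rw [ES.coeff_liftSer] at hk
  have hk0 : y.coeff k ≠ 0 := fun h => by simp [h] at hk
  have hkN : 0 ≤ k + N := by
    have : y.order ≤ k := HahnSeries.order_le_of_coeff_ne_zero hk0
    omega
  obtain ⟨i, hi⟩ := Int.eq_ofNat_of_zero_le hkN
  have h1 := congrArg (PowerSeries.coeff i) h0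
  rw [PowerSeries.coeff_map, map_zero, coeff_of_shift hB, show (i : ℤ) - N = k by omega,
    residue_eq_zero_iff, hO'.mem_maximalIdeal_iff] at h1
  exact h1.ne hk

omit [IsDiscreteValuationRing O] in
/-- At an evaluation killing `X` the shift is a power with exponent divisible by `n` times a
series which does not vanish. -/
private theorem exists_witness_at_zero {n N : ℕ} (hn0 : n ≠ 0) (hN : n ∣ N) {t : LaurentSeries O}
    (ht : t ≠ 0) (ho : (n : ℤ) ∣ t.order) {r : ℕ} (hr : (r : ℤ) = N + t.order)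
    {F : PowerSeries O} (hF : F = PowerSeries.X ^ r * t.powerSeriesPart)
    {ψ : PowerSeries O →+* ℂ} (hψ : ∀ c, ψ (PowerSeries.C c) = O.subtype c)
    (hX : ψ PowerSeries.X = 0) :
    ∃ (i : ℕ) (d e g : PowerSeries O), ψ e ≠ 0 ∧ ψ g ≠ 0 ∧ F * e = d ^ (n * i) * g := by
  obtain ⟨i, hi⟩ : (n : ℤ) ∣ (r : ℤ) := hr ▸ dvd_add (Int.natCast_dvd_natCast.mpr hN) ho
  have hi0 : 0 ≤ i := by
    by_contra hneg
    have : (n : ℤ) * i < 0 :=
      mul_neg_of_pos_of_neg (by exact_mod_cast Nat.pos_of_ne_zero hn0) (not_le.mp hneg)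
    omega
  lift i to ℕ using hi0
  have hri : r = n * i := by exact_mod_cast hi
  refine ⟨i, PowerSeries.X, 1, t.powerSeriesPart, by simp, ?_, by rw [mul_one, hF, hri]⟩
  set g := t.powerSeriesPart
  have hg : g = PowerSeries.X * PowerSeries.mk (fun p => PowerSeries.coeff (p + 1) g) +
      PowerSeries.C (PowerSeries.constantCoeff g) := g.eq_X_mul_shift_add_const
  rw [hg, map_add, map_mul, hX, zero_mul, zero_add, hψ,
    ← PowerSeries.coeff_zero_eq_constantCoeff_apply, LaurentSeries.powerSeriesPart_coeff,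
    Nat.cast_zero, add_zero]
  exact fun h => HahnSeries.coeff_order_eq_zero.not.mpr ht (Subtype.ext h)

variable {R : Type*} [CommRing R] (S : R →+* LaurentSeries O) {ι : O → R}

omit [IsDiscreteValuationRing O] in
/-- At any other evaluation the witnesses come from a point. -/
theorem exists_witness_at_point (hι : ∀ c, S (ι c) = HahnSeries.C c) {n : ℕ} {f : R}
    (hd : ∀ Φ : R →+* ℂ, (∀ c, Φ (ι c) = (c : ℂ)) → Φ f = 0 →
      ∃ (i : ℕ) (E D G : R), Φ E ≠ 0 ∧ Φ G ≠ 0 ∧ f * E = D ^ (n * i) * G)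
    {F : PowerSeries O} {r : ℤ}
    (hF : S f = HahnSeries.single r 1 * HahnSeries.ofPowerSeries ℤ O F)
    {ψ : PowerSeries O →+* ℂ} (hψ : ∀ c, ψ (PowerSeries.C c) = O.subtype c) (h0 : ψ F = 0)
    (hX : ψ PowerSeries.X ≠ 0) :
    ∃ (i : ℕ) (d e g : PowerSeries O), ψ e ≠ 0 ∧ ψ g ≠ 0 ∧ F * e = d ^ (n * i) * g := by
  set Ψ : LaurentSeries O →+* ℂ := IsLocalization.lift
    (M := Submonoid.powers (PowerSeries.X : PowerSeries O)) (g := ψ) (by
      rintro ⟨_, k, rfl⟩
      rw [map_pow]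
      exact (isUnit_iff_ne_zero.mpr hX).pow k)
  have hΨ : ∀ x, Ψ (HahnSeries.ofPowerSeries ℤ O x) = ψ x := fun x => by
    rw [show HahnSeries.ofPowerSeries ℤ O x = algebraMap _ (LaurentSeries O) x from rfl]
    exact IsLocalization.lift_eq _ x
  have hC : ∀ c : O, (Ψ.comp S) (ι c) = (c : ℂ) := fun c => by
    rw [RingHom.comp_apply, hι, ← HahnSeries.ofPowerSeries_C, hΨ, hψ]
    rfl
  obtain ⟨i, E, D, G, hE, hG, heq⟩ := hd (Ψ.comp S) hC (by
    rw [RingHom.comp_apply, hF, map_mul, hΨ, h0, mul_zero])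
  have h5 : HahnSeries.single (-r) (1 : O) * HahnSeries.single r 1 = 1 := by
    rw [HahnSeries.single_mul_single, neg_add_cancel, one_mul]; rfl
  have hsu : IsUnit (HahnSeries.single (-r) (1 : O)) := IsUnit.of_mul_eq_one _ h5
  obtain ⟨d, e, g, h1, h2, h3⟩ := exists_witness_of_laurent ψ hX (A := F) Ψ hΨ
    (n := n) (i := i) (E := S E) (D := S D) (G := HahnSeries.single (-r) 1 * S G) hE
    (by rw [map_mul]; exact mul_ne_zero (hsu.map Ψ).ne_zero hG) (by
      have h6 := congrArg S heq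
      rw [map_mul, map_mul, map_pow, hF] at h6
      linear_combination HahnSeries.single (-r) (1 : O) * h6 -
        HahnSeries.ofPowerSeries ℤ O F * S E * h5)
  exact ⟨i, d, e, g, h1, h2, h3⟩

/-- Undoing the shift of a root of the shifted product. -/
private theorem root_of_shift (hO' : P.IsCDVR O) {n N rb : ℕ} (hn0 : n ≠ 0) {a b : R}
    {A B L : PowerSeries O}
    (hAs : HahnSeries.ofPowerSeries ℤ O A = HahnSeries.single (N : ℤ) 1 * S a)
    (hBs : HahnSeries.ofPowerSeries ℤ O B = HahnSeries.single (N : ℤ) 1 * S b)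
    (hrb : (rb : ℤ) = N + (S b).order) (hL : L ^ n = A * B ^ (n - 1))
    (hLres : psRes L = psRes B) :
    ∃ L : LaurentSeries ℂ, SerIn O L ∧ L ^ n = liftSer O.subtype (S (a * b ^ (n - 1))) ∧
      P.SerLT (L - liftSer O.subtype (S b)) := by
  set L' : LaurentSeries O := HahnSeries.single (-(N : ℤ)) 1 * HahnSeries.ofPowerSeries ℤ O L
  refine ⟨liftSer O.subtype L', fun i => by rw [ES.coeff_liftSer]; exact (L'.coeff i).2, ?_, ?_⟩
  · have hpow : HahnSeries.ofPowerSeries ℤ O L ^ n =
        HahnSeries.single ((n * N : ℕ) : ℤ) 1 * (S a * S b ^ (n - 1)) := by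
      rw [← map_pow, hL, map_mul, map_pow, hAs, hBs, mul_pow, mul_mul_mul_comm,
        HahnSeries.single_pow, one_pow, HahnSeries.single_mul_single, one_mul]
      congr 2
      obtain ⟨n', rfl⟩ := Nat.exists_eq_succ_of_ne_zero hn0
      simp
      ring_nf
    rw [← map_pow, map_mul S, map_pow S]
    congr 1
    rw [mul_pow, hpow, HahnSeries.single_pow, one_pow, ← mul_assoc, HahnSeries.single_mul_single,
      one_mul, show n • (-(N : ℤ)) + ((n * N : ℕ) : ℤ) = 0 by simp,
      show (HahnSeries.single (0 : ℤ) (1 : O)) = 1 from rfl, one_mul]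
  · intro i
    rw [← map_sub, ES.coeff_liftSer]
    show P.abv ((((L' - S b).coeff i : O)) : ℂ) < 1
    refine (hO'.mem_maximalIdeal_iff _).mp ((residue_eq_zero_iff _).mp ?_)
    rw [HahnSeries.coeff_sub, map_sub, sub_eq_zero]
    show residue O ((HahnSeries.single (-(N : ℤ)) 1 * HahnSeries.ofPowerSeries ℤ O L).coeff i) = _
    rw [show i = (i + N) + -(N : ℤ) by ring, HahnSeries.coeff_single_mul_add, one_mul,
      show i + (N : ℤ) + -(N : ℤ) = i by ring]
    rcases lt_or_ge (i + (N : ℤ)) 0 with hneg | hpos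
    · rw [HahnSeries.ofPowerSeries_apply, HahnSeries.embDomain_of_notMem_range, map_zero]
      · have : i < (S b).order := by omega
        rw [HahnSeries.coeff_eq_zero_of_lt_order this, map_zero]
      · rintro ⟨k, hk⟩; simp at hk; omega
    · obtain ⟨k, hk⟩ := Int.eq_ofNat_of_zero_le hpos
      rw [hk, HahnSeries.ofPowerSeries_apply_coeff]
      have h1 := congrArg (PowerSeries.coeff k) hLres
      rw [PowerSeries.coeff_map, PowerSeries.coeff_map, coeff_of_shift hBs,
        show (k : ℤ) - N = i by omega] at h1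
      exact h1

/-- **An integral root of an expansion**, for any ring of functions whose zeros at evaluations
have multiplicities divisible by `n`. -/
theorem exists_series_root_of_zeros [Fact q.Prime] (hO' : P.IsCDVR O)
    (hι : ∀ c, S (ι c) = HahnSeries.C c) {n : ℕ} (hn : n.Coprime q) {ϖ : O} (hϖ : Irreducible ϖ)
    {a b : R} (hab : ι ϖ ∣ a - b)
    (hda : ∀ Φ : R →+* ℂ, (∀ c, Φ (ι c) = (c : ℂ)) → Φ a = 0 →
      ∃ (i : ℕ) (E D G : R), Φ E ≠ 0 ∧ Φ G ≠ 0 ∧ a * E = D ^ (n * i) * G)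
    (hdb : ∀ Φ : R →+* ℂ, (∀ c, Φ (ι c) = (c : ℂ)) → Φ b = 0 →
      ∃ (i : ℕ) (E D G : R), Φ E ≠ 0 ∧ Φ G ≠ 0 ∧ b * E = D ^ (n * i) * G)
    (hb : P.UnitCoeff (liftSer O.subtype (S b)))
    (hoa : (n : ℤ) ∣ (S a).order) (hob : (n : ℤ) ∣ (S b).order) :
    ∃ L : LaurentSeries ℂ, SerIn O L ∧ L ^ n = liftSer O.subtype (S (a * b ^ (n - 1))) ∧
      P.SerLT (L - liftSer O.subtype (S b)) := by
  classical
  have := hO'.complete
  have hn0 : n ≠ 0 := by
    rintro rfl
    exact (Fact.out : q.Prime).one_lt.ne' (by simpa using hn)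
  obtain ⟨ea, hea⟩ := exists_shift (S a)
  obtain ⟨eb, heb⟩ := exists_shift (S b)
  set N := n * (ea + eb)
  have hle : ea + eb ≤ N := Nat.le_mul_of_pos_left _ (Nat.pos_of_ne_zero hn0)
  obtain ⟨A, hAs, ra, hra, hA0⟩ := hea N (by omega)
  obtain ⟨B, hBs, rb, hrb, hB0⟩ := heb N (by omega)
  obtain ⟨w, hw⟩ := hab
  have hABres : psRes A = psRes B :=
    psRes_eq_of_dvd hϖ (w := S w) (by rw [← map_sub, hw, map_mul, hι]) hAs hBs
  have hBres : psRes B ≠ 0 := psRes_ne_zero_of_unitCoeff hO' hb hrb hBs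
  have hb0 : S b ≠ 0 := fun h => hBres (by
    rw [hB0, h, LaurentSeries.powerSeriesPart_zero, mul_zero, map_zero])
  have ha0 : S a ≠ 0 := fun h => hBres (by
    rw [← hABres, hA0, h, LaurentSeries.powerSeriesPart_zero, mul_zero, map_zero])
  have hsh : ∀ {x : LaurentSeries O} {X : PowerSeries O}, HahnSeries.ofPowerSeries ℤ O X =
      HahnSeries.single (N : ℤ) 1 * x →
      x = HahnSeries.single (-(N : ℤ)) 1 * HahnSeries.ofPowerSeries ℤ O X := fun h => by
    rw [h, ← mul_assoc, HahnSeries.single_mul_single, neg_add_cancel, one_mul,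
      show HahnSeries.single (0 : ℤ) (1 : O) = 1 from rfl, one_mul]
  have hdiv : ∀ y ∈ ({A, B} : Set (PowerSeries O)), ∀ ψ : PowerSeries O →+* ℂ,
      (∀ r, ψ (PowerSeries.C r) = O.subtype r) → ψ y = 0 →
        ∃ (i : ℕ) (d e g : PowerSeries O), ψ e ≠ 0 ∧ ψ g ≠ 0 ∧ y * e = d ^ (n * i) * g := by
    intro y hy ψ hψ h0
    by_cases hX : ψ PowerSeries.X = 0
    · rcases hy with rfl | rfl
      · exact exists_witness_at_zero hn0 (dvd_mul_right n _) ha0 hoa hra hA0 hψ hX
      · exact exists_witness_at_zero hn0 (dvd_mul_right n _) hb0 hob hrb hB0 hψ hX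
    · rcases hy with rfl | rfl
      · exact exists_witness_at_point S hι hda (hsh hAs) hψ h0 hX
      · exact exists_witness_at_point S hι hdb (hsh hBs) hψ h0 hX
  obtain ⟨L, hL, hLres⟩ := exists_ps_root O.subtype Subtype.val_injective
    ((hO'.isUnit_iff (n : O)).mpr (by
      rw [show ((n : O) : ℂ) = (n : ℂ) by simp]; exact P.abv_natCast_eq_one hn)) hABres hBres hdiv
  exact root_of_shift S hO' hn0 hAs hBs hrb hL hLres

end Root

variable {q M m : ℕ} [Fact q.Prime] [NeZero M] {O : Subring ℂ} (haux : AuxLevel M m)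
  (hA : GoodRoot M O (zetaC M)) {P : CPlace q} (hO' : P.IsCDVR O)

include haux hA in
/-- Along a homomorphism to series fixing the constants, a function with divisible zeros and
nonzero residue is a unit times an `n`-th power. -/
theorem exists_series_factor [IsDiscreteValuationRing O] [IsAdicComplete (maximalIdeal O) O]
    {n : ℕ} {y : LRing q M O} (hdiv : Divisible q M O n (y : ℍ → ℂ))
    (F : LRing q M O →+* PowerSeries O) (hF : ∀ r, F (constL r) = PowerSeries.C r)
    (hy : psRes (F y) ≠ 0) : ∃ (U : (PowerSeries O)ˣ) (H : PowerSeries O), F y = U * H ^ n := by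
  exact exists_factor_of_witness O.subtype Subtype.val_injective hy fun ψ hψ h0 =>
    exists_witness_of_divisible haux hA hdiv F ψ (fun r => by rw [hF, hψ]; rfl) h0

include haux hA hO' in
/-- **An integral root of the expansion at a cusp.** -/
theorem exists_cusp_root [IsDiscreteValuationRing O] {n : ℕ} (hn : n.Coprime q) {ϖ : O}
    (hϖ : Irreducible ϖ) {a b : LRing q M O} (hab : constL ϖ ∣ a - b)
    (hda : Divisible q M O n (a : ℍ → ℂ)) (hdb : Divisible q M O n (b : ℍ → ℂ))
    (γ : SL(2, ℤ)) (hb : P.UnitCoeff (serAt M O q γ b))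
    (hoa : (n : ℤ) ∣ (serO M O q γ a).order) (hob : (n : ℤ) ∣ (serO M O q γ b).order) :
    ∃ L : LaurentSeries ℂ, SerIn O L ∧ L ^ n = serAt M O q γ (a * b ^ (n - 1)) ∧
      P.SerLT (L - serAt M O q γ b) := by
  have hd : ∀ {f : LRing q M O}, Divisible q M O n (f : ℍ → ℂ) →
      ∀ Φ : LRing q M O →+* ℂ, (∀ c, Φ (constL c) = (c : ℂ)) → Φ f = 0 →
        ∃ (i : ℕ) (E D G : LRing q M O), Φ E ≠ 0 ∧ Φ G ≠ 0 ∧ f * E = D ^ (n * i) * G := by
    intro f hf Φ hΦ h0
    obtain ⟨i, d, e, g, he, hg, heq⟩ :=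
      exists_witness_of_divisible haux hA hf (RingHom.id _) Φ hΦ h0
    exact ⟨i, e, d, g, he, hg, heq⟩
  rw [← liftSer_serO] at hb ⊢
  rw [← liftSer_serO]
  exact exists_series_root_of_zeros (serO M O q γ) hO'
    (fun c => serO_ext (by rw [serAt_constL, liftSer_C]; rfl)) hn hϖ hab (hd hda) (hd hdb) hb hoa
    hob

end FermatAgent.BAD
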