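import Fermat.Agent.BAD.GalMat
import Fermat.Agent.Flat.Hecke.Embed
import Fermat.Prelude.Def_GaloisRep_LocalConditions
import Fermat.Agent.GaloisBasic.TracePairing

/-!
# Representations over Hecke algebras at a prime exactly dividing the level

A two dimensional representation over the Hecke algebra with the traces of Frobenius has
cyclotomic determinant, and inertia at `q ∥ N`, `q ≠ p`, acts unipotently on it.
-/

set_option autoImplicit false

open IsLocalRing CongruenceSubgroup Polynomial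
open FermatAgent.GaloisBasic (GQ repMatrix)

noncomputable section

namespace FermatAgent.BAD

variable {p N : ℕ} [Fact p.Prime] [NeZero N]

/-- Second difference of the trace operators along inertia at `q ∣∣ N`. -/
theorem galTrace_second_diff {q : ℕ} (hq : q.Prime) (hqN : q ∣ N) (hq2 : ¬ q ^ 2 ∣ N) (hqp : q ≠ p)
    {A : ValuationSubring (AlgebraicClosure ℚ)} (hA : A.LiesOverPrime q) {τ : GQ}
    (hτ : τ ∈ A.inertiaSubgroupIn ℚ) (g : GQ) :
    ES.galTrace N p (τ * (τ * g)) + ES.galTrace N p g =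
      ES.galTrace N p (τ * g) + ES.galTrace N p (τ * g) := by
  have hG := galMat_unipotent p (N := N) hq hqN hq2 hqp hA hτ
  have hG' := galMat_unipotent p (N := N) hq hqN hq2 hqp hA (inv_mem hτ)
  rw [sq] at hG hG'
  set G := ES.galMat p N τ
  set G' := ES.galMat p N τ⁻¹
  simp only [ES.galTrace, mul_inv_rev, map_mul, ES.padCyclo_inertia p hq hqp hA hτ, one_mul]
  have h1 := congrArg (fun Z => Z * ES.galMat p N g) hG
  have h2 := congrArg (fun Z => algebraMap ℤ_[p] _ (ES.padCyclo p g) * (ES.galMat p N g⁻¹ * Z)) hG'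
  simp only [zero_mul, mul_zero, sub_mul, mul_sub, one_mul, mul_one, mul_assoc] at h1 h2
  simp only [mul_assoc]
  linear_combination (norm := abel) h1 + h2

variable {S : Finset ℕ} {O : Type} [CommRing O] [IsDomain O]
  [IsDiscreteValuationRing O] [IsAdicComplete (maximalIdeal O) O]
  {θ : CuspForm.heckeAlgebra N 2 (↑S : Set ℕ) →+* ResidueField O}
  {T : Type} [CommRing T] [IsLocalRing T] [IsNoetherianRing T]
  [IsAdicComplete (maximalIdeal T) T] [Algebra O T] [IsLocalHom (algebraMap O T)]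
  [Module.Finite O T] [Module.Free O T]
  (H : CuspForm.HeckeGaloisRepDatum N (↑S : Set ℕ) O θ T)

/-- The determinant of the datum is the cyclotomic character. -/
theorem det_repMatrix_datum (hpO : (p : O) ∈ maximalIdeal O) (hpS : p ∈ S)
    (hNS : ∀ q : ℕ, q.Prime → q ∣ N → q ∈ S) (ι : ℤ_[p] →+* T) (g : GQ) :
    (repMatrix H.ρ g).det = ι (ES.padCyclo p g) := by
  have hpT : (p : T) ∈ maximalIdeal T := by
    rw [← map_natCast (algebraMap O T)]
    exact map_nonunit (algebraMap O T) _ hpO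
  rw [← sub_eq_zero, ← Ideal.mem_bot,
    ← Ideal.iInf_pow_eq_bot_of_isLocalRing (maximalIdeal T) (maximalIdeal.isMaximal T).ne_top,
    Ideal.mem_iInf]
  intro n
  obtain ⟨L₁, hL₁, h₁⟩ := ES.padCyclo_continuous p n
  obtain ⟨L₂, hL₂, h₂⟩ := GaloisBasic.repMatrix_map_eq_one H.ρ n
  have := hL₁; have := hL₂
  obtain ⟨ℓ, P, σ, j, -, hℓ, hℓS, hP, hσ, -, hgσ, -⟩ :=
    GaloisBasic.exists_frobenius_pow_congr (L₁ ⊔ L₂) g S
  have hℓN : ¬ ℓ ∣ N := fun h => hℓS (hNS ℓ hℓ h)
  have hℓp : ℓ ≠ p := fun h => hℓS (h ▸ hpS)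
  have hch : (repMatrix H.ρ σ).charpoly =
      X ^ 2 - C (H.π (CuspForm.heckeAlgebra.T hℓ hℓN hℓS)) * X + C (ℓ : T) := by
    rw [GaloisBasic.charpoly_repMatrix]; exact H.charpoly_frob ℓ hℓ hℓN hℓS P hP σ hσ
  have hdet : (repMatrix H.ρ σ).det = (ℓ : T) := by
    simp [Matrix.det_eq_sign_charpoly_coeff, hch]
  obtain ⟨u, hu, rfl⟩ : ∃ u ∈ (L₁ ⊔ L₂).fixingSubgroup, g = σ ^ j * u :=
    ⟨_, hgσ, (mul_inv_cancel_left _ _).symm⟩
  set mk := Ideal.Quotient.mk (maximalIdeal T ^ n)
  have e1 : mk (repMatrix H.ρ u).det = 1 := by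
    rw [RingHom.map_det, RingHom.mapMatrix_apply,
      h₂ u (IntermediateField.fixingSubgroup_antitone le_sup_right hu), Matrix.det_one]
  have e2 : mk (ι (ES.padCyclo p u)) = 1 := by
    obtain ⟨y, hy⟩ := h₁ u fun x hx => (IntermediateField.mem_fixingSubgroup_iff _ u).mp hu x
      ((le_sup_left : L₁ ≤ L₁ ⊔ L₂) hx)
    rw [sub_eq_iff_eq_add.mp hy, map_add, map_mul, map_pow, map_natCast, map_one, map_add,
      Ideal.Quotient.eq_zero_iff_mem.mpr (Ideal.mul_mem_right _ _ (Ideal.pow_mem_pow hpT n)),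
      map_one, zero_add]
  rw [← Ideal.Quotient.eq_zero_iff_mem, map_sub, sub_eq_zero]
  simp only [map_mul, map_pow, Matrix.det_mul, Matrix.det_pow, hdet,
    ES.padCyclo_frobenius p hℓ hℓp hP hσ, map_natCast]
  exact congrArg _ (e1.trans e2.symm)

/-- A matrix of determinant one whose difference with the identity squares to zero has
characteristic polynomial `(X - 1)²`, over any nonzero commutative ring. -/
theorem charpoly_eq_of_sq_eq_zero {R : Type*} [CommRing R] [Nontrivial R]
    {M : Matrix (Fin 2) (Fin 2) R}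
    (hsq : (M - 1) * (M - 1) = 0) (hdet : M.det = 1) : M.charpoly = (X - 1) ^ 2 := by
  have e00 := congrFun (congrFun hsq 0) 0
  have e01 := congrFun (congrFun hsq 0) 1
  have e10 := congrFun (congrFun hsq 1) 0
  have e11 := congrFun (congrFun hsq 1) 1
  simp [Matrix.mul_apply, Fin.sum_univ_two] at e00 e01 e10 e11
  rw [Matrix.det_fin_two] at hdet
  -- `tr A * (A + 1) = 0` for `A = M - 1`
  set t := M 0 0 + M 1 1 - 2 with htdef
  have f00 : t * M 0 0 = 0 := by rw [htdef]; linear_combination e00 + hdet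
  have f01 : t * M 0 1 = 0 := by rw [htdef]; linear_combination e01
  have ht : t = 0 := by linear_combination -t * hdet + (M 1 1) * f00 - (M 1 0) * f01
  rw [Matrix.charpoly_fin_two, Matrix.trace_fin_two, Matrix.det_fin_two, hdet,
    show M 0 0 + M 1 1 = 2 from sub_eq_zero.mp ht]
  simp only [map_ofNat, map_one]
  ring

/-- For inertia `τ` at `q ∣∣ N` the matrix of the datum satisfies `(τ - 1)² = 0`: the Galois action
on the Hecke module does, so the trace of `(τ - 1)² g` vanishes for all `g`, and by residual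
absolute irreducibility the matrices of the datum span all matrices. -/
theorem sq_sub_one_eq_zero (hpO : (p : O) ∈ maximalIdeal O) (hpS : p ∈ S)
    (hNS : ∀ q : ℕ, q.Prime → q ∣ N → q ∈ S) {q : ℕ} (hq : q.Prime) (hqp : q ≠ p) (hqN : q ∣ N)
    (hq2 : ¬ q ^ 2 ∣ N) {A : ValuationSubring (AlgebraicClosure ℚ)} (hA : A.LiesOverPrime q)
    {τ : GQ} (hτ : τ ∈ A.inertiaSubgroupIn ℚ) :
    (repMatrix H.ρ τ - 1) * (repMatrix H.ρ τ - 1) = 0 := by
  set M := repMatrix H.ρ
  obtain ⟨π', hπ'⟩ := Flat.Hecke.exists_comparison p hpS hNS H hpO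
  have key : ∀ g, ((M τ - 1) * (M τ - 1) * M g).trace = 0 := fun g => by
    have h := congrArg π' (show (Flat.Hecke.latTd p hpS hNS).t (τ * (τ * g)) +
        (Flat.Hecke.latTd p hpS hNS).t g = (Flat.Hecke.latTd p hpS hNS).t (τ * g) +
          (Flat.Hecke.latTd p hpS hNS).t (τ * g) from
      Subtype.ext (galTrace_second_diff hq hqN hq2 hqp hA hτ g))
    simp only [map_add, hπ', map_mul] at h
    simp only [sub_mul, mul_sub, one_mul, mul_one, Matrix.trace_sub, mul_assoc]
    linear_combination h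
  exact GaloisBasic.eq_zero_of_trace_mul_span (ES.span_repMatrix_eq_top H.ρ H.residual_absIrr) key

/-- **Inertia at `q ∣∣ N`, `q ≠ p`, acts unipotently**: on a representation over the Hecke algebra
with the traces of the Hecke operators its characteristic polynomials are `(X - 1)²`. -/
theorem datum_unipotent (hpO : (p : O) ∈ maximalIdeal O) (hpS : p ∈ S)
    (hNS : ∀ q : ℕ, q.Prime → q ∣ N → q ∈ S) {q : ℕ} (hq : q.Prime) (hqp : q ≠ p) (hqN : q ∣ N)
    (hq2 : ¬ q ^ 2 ∣ N) : H.ρ.IsUnipotentOnInertiaAt q := by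
  intro A hA τ hτ
  have hpT : (p : T) ∈ maximalIdeal T := by
    rw [← map_natCast (algebraMap O T)]
    exact map_nonunit (algebraMap O T) _ hpO
  obtain ⟨ι⟩ := ES.exists_padicRingHom p T hpT
  rw [← GaloisBasic.charpoly_repMatrix]
  refine charpoly_eq_of_sq_eq_zero (sq_sub_one_eq_zero H hpO hpS hNS hq hqp hqN hq2 hA hτ) ?_
  rw [det_repMatrix_datum H hpO hpS hNS ι τ, ES.padCyclo_inertia p hq hqp hA hτ, map_one]

end FermatAgent.BAD
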