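import Fermat.Agent.BAD.Deriv
import Fermat.Agent.BAD.LocalParam

/-!
# The derivative of the Hauptmodul: a unit constant times factors `t - r` at the cusps
-/

set_option autoImplicit false

open UpperHalfPlane CongruenceSubgroup Polynomial
open scoped MatrixGroups Manifold

noncomputable section

namespace FermatAgent.BAD

open FermatAgent.ES (BSub BRing SerIn HasLExp lexp lexp_eq hasLExp_lexp act zetaC AuxLevel CPlace
  GoodRoot haupt hauptRoot cuspPoly auxW)

local notation "Dq" => Derivative.normalizedDerivOfComplex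

variable {q M m : ℕ} [Fact q.Prime] [NeZero M] (haux : AuxLevel M m)

theorem abv_intCast_eq_one {P : CPlace q} {k : ℤ} (hk : ¬ (q : ℤ) ∣ k) : P.abv (k : ℂ) = 1 := by
  have h : k.natAbs.Coprime q := ((Nat.Prime.coprime_iff_not_dvd Fact.out).mpr fun hd =>
    hk (Int.natCast_dvd.mpr hd)).symm
  rcases Int.natAbs_eq k with hk' | hk' <;> rw [hk']
  · rw [Int.cast_natCast]; exact P.abv_natCast_eq_one h
  · rw [Int.cast_neg, Int.cast_natCast, AbsoluteValue.map_neg]; exact P.abv_natCast_eq_one h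

theorem dW_haupt_ne_zero (τ : ℍ) : dW haux (haupt haux.dvd) τ ≠ 0 := by
  refine div_ne_zero (mul_ne_zero (Nat.cast_ne_zero.mpr (NeZero.ne M)) ?_) (ES.auxW_ne_zero haux τ)
  rw [Derivative.normalizedDerivOfComplex]
  refine mul_ne_zero (inv_ne_zero ?_) (ES.deriv_haupt_ne_zero haux τ)
  simp [Real.pi_ne_zero, Complex.I_ne_zero]

theorem dW_haupt_mem_polRing {A : Subring ℂ} (hA : GoodRoot M A (zetaC M)) :
    dW haux (haupt haux.dvd) ∈ ES.polRing haux A := by
  have ht : haupt haux.dvd ∈ BRing M A := ES.polFun_mem_BRing haux hA (ES.one_le haux)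
  refine ES.invariant_mem_polRing haux hA (dW_mem_BRing haux hA ht) fun δ hδ => ?_
  rw [act_dW haux (ES.mdifferentiable_of_mem ht.1), haupt, ES.act_polFun haux hδ]
  funext τ
  simp only [dW, auxW, ES.refA, ES.refB, ← ES.embVec_vmul, ES.vmul_of_mem hδ]

theorem dW_haupt_unitCoeff {A : Subring ℂ} (hA : GoodRoot M A (zetaC M)) {P : CPlace q}
    (hA' : A ≤ P.ring) (hM : M.Coprime q) :
    P.UnitCoeff (lexp M (ES.cuspRep 1) (dW haux (haupt haux.dvd))) := by
  have hk := ES.leadUnit_polFun haux hA 1 1 (ES.one_le haux)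
  rw [(ES.polOrd_table haux.small 1 (ES.one_le haux) 1 (ES.one_le haux)).1 rfl] at hk
  set k : ℤ := ((M / m : ℕ) : ℤ) * -1
  have hqk : ¬ (q : ℤ) ∣ k := by
    show ¬ (q : ℤ) ∣ ((M / m : ℕ) : ℤ) * -1
    rw [mul_neg, mul_one, dvd_neg, Int.natCast_dvd_natCast]
    intro hd
    exact (Fact.out : q.Prime).one_lt.ne' (Nat.eq_one_of_dvd_coprimes hM
      (hd.trans (Nat.div_dvd_of_dvd haux.dvd)) dvd_rfl)
  obtain ⟨l, hl⟩ := leadUnit_auxW_conj haux hA (ES.cuspRep 1)
  rw [haupt, lexp_eq (hasLExp_dW haux (ES.polFun_mem_BSub haux 1 (ES.one_le haux)) _)]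
  refine CPlace.UnitCoeff.mul (fun n => hA' (serIn_thetaSer hk.serIn n))
    (fun n => hA' (hl.inv.serIn n)) ⟨k, ?_⟩ ⟨-l, ?_⟩
  · rw [coeff_thetaSer, map_mul, abv_intCast_eq_one hqk, one_mul]
    exact P.abv_eq_one_of_unitIn
      ⟨hk.unitIn_coeff.1, hA' hk.unitIn_coeff.2.1, hA' hk.unitIn_coeff.2.2⟩
  · exact P.abv_eq_one_of_unitIn
      ⟨hl.inv.unitIn_coeff.1, hA' hl.inv.unitIn_coeff.2.1, hA' hl.inv.unitIn_coeff.2.2⟩

/-- `cuspPoly t` in the ring of level `M`. -/
def cuspElt {O : Subring ℂ} (hA : GoodRoot M O (zetaC M)) : BRing M O :=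
  tRing haux hA * (tRing haux hA - 1) *
    (tRing haux hA - ⟨_, ES.const_mem_BRing (ES.hauptRoot_spec haux hA).1⟩)

/-- **The shape of `D t / W`.** -/
theorem exists_dW_haupt_shape {P : CPlace q} {O : Subring ℂ} (hO : O ≤ P.ring)
    (hA : GoodRoot M O (zetaC M)) (hM : M.Coprime q) :
    ∃ (e : ℕ) (a : O) (L : Multiset O), P.abv (a : ℂ) = 1 ∧
      (∀ r ∈ L, (r : ℂ) = 0 ∨ (r : ℂ) = 1 ∨ (r : ℂ) = hauptRoot haux) ∧
      (⟨_, dW_mem_BRing haux hA (ES.polFun_mem_BRing haux hA (ES.one_le haux))⟩ : BRing M O) *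
          cuspElt haux hA ^ e =
        ⟨_, ES.const_mem_BRing a.2⟩ *
          (L.map fun r : O => tRing haux hA - ⟨_, ES.const_mem_BRing r.2⟩).prod := by
  classical
  obtain ⟨hr, -, -⟩ := ES.hauptRoot_spec haux hA
  obtain ⟨e, F, hF⟩ := ES.exists_poly_of_mem haux hA (dW_haupt_mem_polRing haux hA)
  have hroot : ∀ x ∈ (F.map O.subtype).roots, x = 0 ∨ x = 1 ∨ x = hauptRoot haux := by
    intro x hx
    by_contra hne
    push Not at hne
    have hcp : cuspPoly haux x ≠ 0 :=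
      mul_ne_zero (mul_ne_zero hne.1 (sub_ne_zero.mpr hne.2.1)) (sub_ne_zero.mpr hne.2.2)
    obtain ⟨τ, hτ⟩ := ES.exists_haupt_eq haux hcp
    have h := hF τ
    rw [hτ, (Polynomial.isRoot_of_mem_roots hx : (F.map O.subtype).eval x = 0)] at h
    exact mul_ne_zero (dW_haupt_ne_zero haux τ) (pow_ne_zero _ hcp) h
  have hmem : ∀ x ∈ (F.map O.subtype).roots, x ∈ O := fun x hx => by
    rcases hroot x hx with rfl | rfl | rfl
    exacts [O.zero_mem, O.one_mem, hr]
  set L : Multiset O := (F.map O.subtype).roots.pmap (fun x h => ⟨x, h⟩) hmem with hL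
  have hLval : L.map (fun r : O => (r : ℂ)) = (F.map O.subtype).roots := by
    rw [hL, Multiset.map_pmap, Multiset.pmap_eq_map, Multiset.map_id']
  have ha : (F.map O.subtype).leadingCoeff ∈ O := by
    rw [Polynomial.leadingCoeff, Polynomial.coeff_map]; exact (F.coeff _).2
  have hid :
      (⟨_, dW_mem_BRing haux hA (ES.polFun_mem_BRing haux hA (ES.one_le haux))⟩ : BRing M O) *
          cuspElt haux hA ^ e =
        ⟨_, ES.const_mem_BRing ha⟩ *
          (L.map fun r : O => tRing haux hA - ⟨_, ES.const_mem_BRing r.2⟩).prod := by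
    refine Subtype.ext (funext fun τ => ?_)
    set ev : BRing M O →+* ℂ := (Pi.evalRingHom (fun _ : ℍ => ℂ) τ).comp (BRing M O).subtype
    show ev (_ * _) = ev (_ * _)
    rw [map_mul, map_mul, map_pow, map_multiset_prod, Multiset.map_map]
    show dW haux (haupt haux.dvd) τ * cuspPoly haux (haupt haux.dvd τ) ^ e = _
    rw [hF τ, (IsAlgClosed.splits (F.map O.subtype)).eval_eq_prod_roots, ← hLval, Multiset.map_map]
    rfl
  refine ⟨e, ⟨_, ha⟩, L, le_antisymm (hO ha) ?_, fun r hr' => hroot _ ?_, hid⟩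
  swap
  · rw [← hLval]; exact Multiset.mem_map_of_mem _ hr'
  by_contra hlt
  push Not at hlt
  set γ := ES.cuspRep 1
  generalize hPr : (L.map fun r : O => tRing haux hA - ⟨_, ES.const_mem_BRing r.2⟩).prod = Pr
    at hid
  have hser := congrArg (fun z : BRing M O => lexp M γ (z : ℍ → ℂ)) hid
  simp only [Subring.coe_mul, SubmonoidClass.coe_pow] at hser
  have hmul : ∀ {f g : ℍ → ℂ}, f ∈ BRing M O → g ∈ BRing M O →
      lexp M γ (f * g) = lexp M γ f * lexp M γ g := fun hf hg =>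
    lexp_eq ((hasLExp_lexp hf.1 γ).mul (hasLExp_lexp hg.1 γ))
  have hD := dW_mem_BRing haux hA (ES.polFun_mem_BRing haux hA (ES.one_le haux))
  rw [hmul hD (pow_mem (cuspElt haux hA).2 e),
    hmul (ES.const_mem_BRing ha) (SetLike.coe_mem _)] at hser
  have hsmall : P.SerLT (lexp M γ (fun _ : ℍ => (F.map O.subtype).leadingCoeff) *
      lexp M γ ((Pr : BRing M O) : ℍ → ℂ)) := by
    refine CPlace.SerLT.mul_serIn (fun n => ?_) fun n => hO (Pr.2.2 γ n)
    rw [lexp_eq (ES.HasLExp.const _)]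
    rcases eq_or_ne n 0 with rfl | hn
    · rw [HahnSeries.C_apply, HahnSeries.coeff_single_same]; exact hlt
    · simp [HahnSeries.coeff_single_of_ne hn]
  rw [← hser] at hsmall
  have hu1 := dW_haupt_unitCoeff haux hA hO hM
  refine hsmall.not_unitCoeff (CPlace.UnitCoeff.mul (fun n => hO (hD.2 γ n))
    (fun n => hO ((pow_mem (cuspElt haux hA).2 e).2 γ n)) hu1 ?_)
  have hcu : P.UnitCoeff (lexp M γ ((cuspElt haux hA : BRing M O) : ℍ → ℂ)) := by
    have hAP := P.goodRoot hM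
    have hb : ∀ b : P.ring, P.UnitCoeff (lexp M γ
        ((ES.tSub P haux hM b : BRing M P.ring) : ℍ → ℂ)) := fun b => by
      have h := ES.unitCoeff_act P haux hM (ES.unitCoeff_tSub P haux hM b) γ
      rw [ES.infExp_apply] at h
      rwa [ES.lexp_act, mul_one] at h
    have e1 : ((cuspElt haux hA : BRing M O) : ℍ → ℂ) =
        ((ES.tSub P haux hM 0 * ES.tSub P haux hM 1 * ES.tSub P haux hM ⟨_, hO hr⟩ :
          BRing M P.ring) : ℍ → ℂ) := funext fun τ => by
      show cuspPoly haux (haupt haux.dvd τ) = (haupt haux.dvd τ - ((0 : P.ring) : ℂ)) *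
        (haupt haux.dvd τ - ((1 : P.ring) : ℂ)) * (haupt haux.dvd τ - hauptRoot haux)
      simp [cuspPoly]
    have hh : ∀ x y : BRing M P.ring, P.UnitCoeff (lexp M γ (x : ℍ → ℂ)) →
        P.UnitCoeff (lexp M γ (y : ℍ → ℂ)) →
        P.UnitCoeff (lexp M γ ((x * y : BRing M P.ring) : ℍ → ℂ)) := fun x y hx hy => by
      rw [Subring.coe_mul, lexp_eq ((hasLExp_lexp x.2.1 γ).mul (hasLExp_lexp y.2.1 γ))]
      exact CPlace.UnitCoeff.mul (x.2.2 γ) (y.2.2 γ) hx hy
    rw [e1]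
    exact hh _ _ (hh _ _ (hb 0) (hb 1)) (hb _)
  have hpow : lexp M γ (((cuspElt haux hA : BRing M O) : ℍ → ℂ) ^ e) =
      lexp M γ ((cuspElt haux hA : BRing M O) : ℍ → ℂ) ^ e :=
    lexp_eq (((hasLExp_lexp (cuspElt haux hA).2.1 γ).pow e).congr_fun fun τ => by simp)
  rw [hpow]
  exact hcu.pow (fun n => hO ((cuspElt haux hA).2.2 γ n)) e

end FermatAgent.BAD
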