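import Fermat.Agent.BAD.Kummer
import Fermat.Agent.BAD.Divisible

/-!
# Functions with multiplier on `Γ ∩ Γ(m)` and expansions at all cusps

Such functions are closed under products and powers, the characters multiplying; twisted forms
divided by powers of the auxiliary form are examples, and their `n`-th powers have expansions of
order divisible by `n`.
-/

set_option autoImplicit false

open UpperHalfPlane CongruenceSubgroup
open scoped MatrixGroups ModularForm Manifold

noncomputable section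

namespace FermatAgent.BAD

open FermatAgent.ES (BSub SerIn HasLExp HasExp lexp lexp_eq hasLExp_lexp act zetaC AuxLevel
  CPlace IsTwist IsParChar parGroup GoodLevel auxW liftSer)

variable {q M m : ℕ} [Fact q.Prime] [NeZero M] {Γ : Subgroup SL(2, ℤ)}

/-- A holomorphic function multiplied by `χ` under `Γ ∩ Γ(m)`. -/
structure KumLaw (m : ℕ) {Γ : Subgroup SL(2, ℤ)} (χ : Γ →* ℂˣ) (h : ℍ → ℂ) : Prop where
  mdiff : MDiff h
  law : ∀ (δ : SL(2, ℤ)) (hδ : δ ∈ Γ), δ ∈ Gamma m →
    act δ h = fun τ => (χ ⟨δ, hδ⟩ : ℂ) * h τ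

/-- `h` is multiplied by `χ` under `Γ ∩ Γ(m)` and has expansions at all cusps of level `q M`. -/
structure IsKum (q M m : ℕ) {Γ : Subgroup SL(2, ℤ)} (χ : Γ →* ℂˣ) (h : ℍ → ℂ) : Prop where
  exp : ∀ γ : SL(2, ℤ), ∃ s, HasLExp (q * M) (act γ h) s
  law : ∀ (δ : SL(2, ℤ)) (hδ : δ ∈ Γ), δ ∈ Gamma m →
    act δ h = fun τ => (χ ⟨δ, hδ⟩ : ℂ) * h τ

/-- A Kummer function is holomorphic. -/
theorem IsKum.mdiff {χ : Γ →* ℂˣ} {h : ℍ → ℂ} (hh : IsKum q M m χ h) : MDiff h := by
  obtain ⟨s, hs⟩ := hh.exp 1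
  rw [ES.act_one] at hs
  exact hs.mdifferentiable

section

omit [Fact (Nat.Prime q)] [NeZero M]

variable {χ χ' : Γ →* ℂˣ} {h h' : ℍ → ℂ}

/-- Products of functions with multipliers have the product multiplier. -/
theorem KumLaw.mul (hh : KumLaw m χ h) (hh' : KumLaw m χ' h') :
    KumLaw m (χ * χ') (h * h') where
  mdiff := hh.mdiff.mul hh'.mdiff
  law δ hδ hm := by
    funext τ
    rw [ES.act_mulFun, hh.law δ hδ hm, hh'.law δ hδ hm]
    simp only [Pi.mul_apply, MonoidHom.mul_apply, Units.val_mul]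
    ring

/-- Powers of functions with multipliers have the power multiplier. -/
theorem KumLaw.pow (hh : KumLaw m χ h) (i : ℕ) : KumLaw m (χ ^ i) (h ^ i) where
  mdiff := hh.mdiff.pow i
  law δ hδ hm := by
    funext τ
    have h1 := congrFun (hh.law δ hδ hm) τ
    simp only [ES.act_apply] at h1
    simp only [ES.act_apply, Pi.pow_apply, h1, MonoidHom.pow_apply, Units.val_pow_eq_pow_val,
      mul_pow]

/-- If `χ ^ n = 1` the `n`-th power is invariant. -/
theorem KumLaw.act_pow (hh : KumLaw m χ h) {n : ℕ} (hn : χ ^ n = 1)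
    {δ : SL(2, ℤ)} (hδ : δ ∈ Γ) (hm : δ ∈ Gamma m) : act δ (h ^ n) = h ^ n := by
  rw [(hh.pow n).law δ hδ hm, hn]
  funext τ
  simp

end

variable {χ χ' : Γ →* ℂˣ} {h h' : ℍ → ℂ}

/-- A Kummer function has the multiplier law. -/
theorem IsKum.kumLaw (hh : IsKum q M m χ h) : KumLaw m χ h := ⟨hh.mdiff, hh.law⟩

/-- Products of Kummer functions are Kummer functions. -/
theorem IsKum.mul (hh : IsKum q M m χ h) (hh' : IsKum q M m χ' h') :
    IsKum q M m (χ * χ') (h * h') where
  exp γ := by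
    obtain ⟨s, hs⟩ := hh.exp γ
    obtain ⟨t, ht⟩ := hh'.exp γ
    exact ⟨s * t, by rw [ES.act_mulFun]; exact hs.mul ht⟩
  law := (hh.kumLaw.mul hh'.kumLaw).law

/-- Powers of Kummer functions are Kummer functions. -/
theorem IsKum.pow (hh : IsKum q M m χ h) (i : ℕ) : IsKum q M m (χ ^ i) (h ^ i) where
  exp γ := by
    obtain ⟨s, hs⟩ := hh.exp γ
    exact ⟨s ^ i, (hs.pow i).congr_fun fun τ => by simp⟩
  law := (hh.kumLaw.pow i).law

/-- An invariant function times a twisted form divided by the auxiliary form is a Kummer function.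
-/
theorem isKum_form (haux : AuxLevel M m) (hΓ : Gamma (q * M) ≤ Γ) {φ : Γ →* ℂˣ}
    (hφ : IsParChar Γ φ) {i : ℕ} {v w : ℍ → ℂ} (hv : IsTwist Γ ((2 * i : ℕ) : ℤ) φ v)
    (hw : w ∈ BSub (q * M)) (hwinv : ∀ δ ∈ Γ, δ ∈ Gamma m → act δ w = w) :
    IsKum q M m φ (w * fun τ => v τ / auxW haux τ ^ i) where
  exp γ := by
    have h := ES.hasLExp_form_div (auxLevel_level (q := q) haux) (j := i)
      (ES.hasExp_slash_twist (M := q * M) hΓ hφ hv γ)
    rw [auxW_level haux] at h
    exact ⟨_, by rw [ES.act_mulFun]; exact (hasLExp_lexp hw γ).mul h⟩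
  law δ hδ hm := by
    funext τ
    rw [ES.act_mulFun, hwinv δ hδ hm, act_div_auxW haux hv hδ hm]
    simp only [Pi.mul_apply]
    ring

variable {O : Subring ℂ}

/-- An injective change of coefficients preserves the order of a series. -/
theorem order_liftSer {R S : Type} [CommRing R] [CommRing S] (f : R →+* S)
    (hf : Function.Injective f) (s : LaurentSeries R) : (liftSer f s).order = s.order := by
  rcases eq_or_ne s 0 with rfl | hs
  · rw [map_zero, HahnSeries.order_zero, HahnSeries.order_zero]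
  have hne : ∀ n, (liftSer f s).coeff n = 0 ↔ s.coeff n = 0 := fun n => by
    rw [ES.coeff_liftSer, map_eq_zero_iff f hf]
  have hls : liftSer f s ≠ 0 := fun h => hs (ES.liftSer_injective hf (h.trans (map_zero _).symm))
  refine le_antisymm (HahnSeries.order_le_of_coeff_ne_zero fun h =>
    HahnSeries.coeff_order_eq_zero.not.mpr hs ((hne _).mp h))
    (HahnSeries.order_le_of_coeff_ne_zero fun h =>
      HahnSeries.coeff_order_eq_zero.not.mpr hls ((hne _).mpr h))

/-- The orders of the `n`-th power of a Kummer function at the cusps are divisible by `n`. -/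
theorem IsKum.dvd_order {χ : Γ →* ℂˣ} {h : ℍ → ℂ} (hh : IsKum q M m χ h) {n : ℕ}
    {f : LRing q M O} (hf : (f : ℍ → ℂ) = h ^ n) (γ : SL(2, ℤ)) :
    (n : ℤ) ∣ (serO M O q γ f).order := by
  obtain ⟨s, hs⟩ := hh.exp γ
  have e : serAt M O q γ f = s ^ n := by
    rw [serAt_apply, hf]
    exact lexp_eq ((hs.pow n).congr_fun fun τ => by simp)
  rw [← order_liftSer O.subtype Subtype.val_injective, liftSer_serO, e, HahnSeries.order_pow,
    nsmul_eq_mul]
  exact dvd_mul_right _ _

end FermatAgent.BAD
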