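import Fermat.Agent.BAD.Sep
import Fermat.Agent.BAD.Components
import Fermat.Agent.ES.Local.Exact

/-!
# Limits of approximations at level `q M`

A family of series at the cusps which is approximated uniformly by functions of level `q M` is the
family of expansions of a function.
-/

set_option autoImplicit false

open UpperHalfPlane CongruenceSubgroup
open scoped MatrixGroups

noncomputable section

namespace FermatAgent.BAD

open FermatAgent.ES (BSub BRing SerIn HasLExp lexp lexp_eq hasLExp_lexp act zetaC AuxLevel CPlace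
  GoodRoot GalGrp repG trG)

variable {q M m : ℕ} [Fact q.Prime] [NeZero M] (haux : AuxLevel M m) {P : CPlace q}
  (hM : M.Coprime q)

omit [Fact (Nat.Prime q)] in
/-- Two series congruent to every precision are equal. -/
theorem eq_of_forall_serLE {s t : LaurentSeries ℂ}
    (h : ∀ c : ℝ, 0 < c → c < 1 → P.SerLE c (s - t)) : s = t := by
  ext n
  refine sub_eq_zero.mp ((P.abv.eq_zero).mp (le_antisymm ?_ (P.abv.nonneg _)))
  by_contra hpos
  push Not at hpos
  set v := P.abv (s.coeff n - t.coeff n)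
  have hc : 0 < min (1 / 2) (v / 2) := lt_min (by norm_num) (by linarith)
  have h1 := h _ hc ((min_le_left _ _).trans_lt (by norm_num)) n
  rw [HahnSeries.coeff_sub] at h1
  have := h1.trans (min_le_right _ _)
  linarith

omit [Fact (Nat.Prime q)] in
include haux hM in
/-- The `q`-expansion principle at level `M`. -/
theorem serLE_of_serLE_one {f : ℍ → ℂ} (hf : f ∈ BSub M) {c : ℝ} (hc : 0 ≤ c)
    (h : P.SerLE c (lexp M 1 f)) (γ : SL(2, ℤ)) : P.SerLE c (lexp M γ f) := by
  by_cases hf0 : f = 0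
  · intro n
    rw [hf0, lexp_eq (γ := γ) (f := (0 : ℍ → ℂ)) ES.HasLExp.zero]
    simpa using hc
  obtain ⟨a, -, g, hg, hfg, n0, hn0⟩ := Curve.Red.exists_normalize_one P haux hM hf hf0
  have ha : P.abv a ≤ c := by
    have h1 := h n0
    rwa [hfg, Curve.Red.coeff_lexp_const_mul hg.1, map_mul, hn0, mul_one] at h1
  intro n
  rw [hfg, Curve.Red.coeff_lexp_const_mul hg.1, map_mul]
  calc P.abv a * P.abv ((lexp M γ g).coeff n) ≤ c * 1 :=
        mul_le_mul ha (hg.2 γ n) (P.abv.nonneg _) hc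
    _ = c := mul_one c

/-- A limit of series in the powers `q ^ n` is such a series. -/
theorem exists_expandL_eq_of_approx {U : LaurentSeries ℂ}
    (h : ∀ c : ℝ, 0 < c → c < 1 → ∃ t, P.SerLE c (expandL q t - U)) :
    ∃ t, expandL q t = U := by
  refine ⟨_, expandL_contractL q fun n hn => ?_⟩
  refine (P.abv.eq_zero).mp (le_antisymm ?_ (P.abv.nonneg _))
  by_contra hpos
  push Not at hpos
  set v := P.abv (U.coeff n)
  have hc : 0 < min (1 / 2) (v / 2) := lt_min (by norm_num) (by linarith)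
  have hc1 : min (1 / 2) (v / 2) < 1 :=
    (min_le_left (1 / 2 : ℝ) (v / 2)).trans_lt (by norm_num)
  obtain ⟨t, ht⟩ := h _ hc hc1
  have h1 := ht n
  rw [HahnSeries.coeff_sub, expandL_coeff_of_not_dvd q _ hn, zero_sub,
    AbsoluteValue.map_neg] at h1
  have := h1.trans (min_le_right _ _)
  linarith

include haux hM in
/-- **Exactness at level `q M`.** -/
theorem exists_mem_of_approx_level (L : SL(2, ℤ) → LaurentSeries ℂ)
    (happ : ∀ c : ℝ, 0 < c → c < 1 →
      ∃ h ∈ BRing (q * M) P.ring, ∀ γ, P.SerLE c (lexp (q * M) γ h - L γ)) :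
    ∃ Z ∈ BSub (q * M), ∀ γ, lexp (q * M) γ Z = L γ := by
  classical
  have hP := P.goodRoot hM
  have hζ : zetaC (q * M) ∈ P.ring :=
    (P.abv_eq_one_of_pow_eq_one (NeZero.ne (q * M))
      (ES.zetaC_isPrimitiveRoot _).pow_eq_one).le
  set Sidx := (Finset.univ.erase (1 : GalGrp (q * M) m)).powerset
  set U : Finset (GalGrp (q * M) m) → SL(2, ℤ) → LaurentSeries ℂ := fun S γ =>
    ∑ g : GalGrp (q * M) m, lexp (q * M) (repG (q * M) m g * γ) (sepSB haux S) *
      L (repG (q * M) m g * γ) with hU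
  choose! h hh hclose using happ
  set tr : Finset (GalGrp (q * M) m) → ℝ → (ℍ → ℂ) := fun S c =>
    trG (q * M) m (sepSB haux S * h c)
  have htrM : ∀ S c, 0 < c → c < 1 → tr S c ∈ BRing M P.ring := fun S c hc hc1 =>
    ES.polRing_le_BRing haux hP (trG_sepSB_mem_polRing haux hP hζ (hh c hc hc1) S)
  have htrU : ∀ S γ c, 0 < c → c < 1 →
      P.SerLE c (expandL q (lexp M γ (tr S c)) - U S γ) := by
    intro S γ c hc hc1
    have hmem : sepSB haux S * h c ∈ BRing (q * M) P.ring :=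
      mul_mem (sepSB_mem haux hP hζ S) (hh c hc hc1)
    have e : lexp (q * M) γ (tr S c) = ∑ g : GalGrp (q * M) m,
        lexp (q * M) (repG (q * M) m g * γ) (sepSB haux S * h c) := by
      refine lexp_eq ?_
      simp only [tr, trG, ES.act_sum]
      refine ES.HasLExp.sum _ fun g _ => ?_
      rw [← ES.act_mul]
      exact hasLExp_lexp hmem.1 _
    rw [← lexp_level (htrM S c hc hc1).1 γ, e, hU, ← Finset.sum_sub_distrib]
    refine CPlace.SerLE.sum hc.le _ fun g _ => ?_
    rw [show lexp (q * M) (repG (q * M) m g * γ) (sepSB haux S * h c) =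
        lexp (q * M) (repG (q * M) m g * γ) (sepSB haux S) *
          lexp (q * M) (repG (q * M) m g * γ) (h c) from
      (ES.expHom (M := q * M) _).map_mul ⟨_, (sepSB_mem haux hP hζ S).1⟩ ⟨_, (hh c hc hc1).1⟩,
      ← mul_sub]
    exact CPlace.SerLE.serIn_mul hc.le ((sepSB_mem haux hP hζ S).2 _) (hclose c hc hc1 _)
  have hdesc : ∀ S γ, ∃ t, expandL q t = U S γ := fun S γ =>
    exists_expandL_eq_of_approx fun c hc hc1 => ⟨_, htrU S γ c hc hc1⟩
  choose T hT using hdesc
  have happT : ∀ S γ c, 0 < c → c < 1 → P.SerLE c (lexp M γ (tr S c) - T S γ) := by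
    intro S γ c hc hc1 n
    have h1 := htrU S γ c hc hc1 (q * n)
    rwa [← hT, ← map_sub, expandL_coeff_mul] at h1
  have hz : ∀ S, ∃ z ∈ BSub M, ∀ γ, lexp M γ z = T S γ := by
    intro S
    obtain ⟨z, hz, hz1⟩ := ES.exists_mem_BSub_of_approx haux hM (T S)
      fun c hc hc1 => ⟨tr S c, htrM S c hc hc1, fun γ => happT S γ c hc hc1⟩
    refine ⟨z, hz, fun γ => eq_of_forall_serLE (P := P) fun c hc hc1 => ?_⟩
    have h1 : P.SerLE c (lexp M 1 (tr S c - z)) := by
      rw [Curve.Red.lexp_sub (htrM S c hc hc1).1 hz, hz1]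
      exact happT S 1 c hc hc1
    have h2 := serLE_of_serLE_one haux hM (sub_mem (htrM S c hc hc1).1 hz) hc.le h1 γ
    rw [Curve.Red.lexp_sub (htrM S c hc hc1).1 hz] at h2
    have h3 := (happT S γ c hc hc1).sub h2
    rwa [sub_sub_sub_cancel_left] at h3
  choose z hzB hz using hz
  have hD : sepD q haux ∈ BRing (q * M) P.ring := sepD_mem haux hP hζ
  have hsum : (∑ S ∈ Sidx, sepSA haux S * z S) ∈ BSub (q * M) :=
    Subalgebra.sum_mem _ fun S _ =>
      mul_mem (sepSA_mem haux hP hζ S).1 (mem_LSub_of_BSub (q := q) (hzB S)).1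
  refine ⟨(∑ S ∈ Sidx, sepSA haux S * z S) * (sepD q haux)⁻¹,
    mul_mem hsum (ES.inv_mem_BSub hD.1 (sepD_ne_zero haux)), fun γ => ?_⟩
  have hD0 : lexp (q * M) γ (sepD q haux) ≠ 0 := fun h0 => by
    have h1 := ES.lexp_injective hD.1 (zero_mem _) (γ := γ)
      (h0.trans (lexp_eq (γ := γ) (f := (0 : ℍ → ℂ)) ES.HasLExp.zero).symm)
    exact sepD_ne_zero haux UpperHalfPlane.I (congrFun h1 _)
  have hs : lexp (q * M) γ (∑ S ∈ Sidx, sepSA haux S * z S) =
      ∑ S ∈ Sidx, lexp (q * M) γ (sepSA haux S) * U S γ := by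
    refine lexp_eq ?_
    rw [ES.act_sum]
    refine ES.HasLExp.sum _ fun S _ => ?_
    rw [← hT, ← hz, ← lexp_level (hzB S) γ, ES.act_mulFun]
    exact (hasLExp_lexp (sepSA_mem haux hP hζ S).1 γ).mul
      (hasLExp_lexp (mem_LSub_of_BSub (q := q) (hzB S)).1 γ)
  have hkey : lexp (q * M) γ (∑ S ∈ Sidx, sepSA haux S * z S) =
      lexp (q * M) γ (sepD q haux) * L γ := by
    refine eq_of_forall_serLE (P := P) fun c hc hc1 => ?_
    have e : lexp (q * M) γ (sepD q haux) * lexp (q * M) γ (h c) =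
        ∑ S ∈ Sidx, lexp (q * M) γ (sepSA haux S) * expandL q (lexp M γ (tr S c)) := by
      rw [show lexp (q * M) γ (sepD q haux) * lexp (q * M) γ (h c) =
          lexp (q * M) γ (sepD q haux * h c) from
        ((ES.expHom (M := q * M) γ).map_mul ⟨_, hD.1⟩ ⟨_, (hh c hc hc1).1⟩).symm,
        sepD_mul_eq haux (hh c hc hc1).1]
      refine lexp_eq ?_
      rw [ES.act_sum]
      refine ES.HasLExp.sum _ fun S _ => ?_
      rw [← lexp_level (htrM S c hc hc1).1 γ, ES.act_mulFun]
      exact (hasLExp_lexp (sepSA_mem haux hP hζ S).1 γ).mul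
        (hasLExp_lexp (mem_LSub_of_BSub (q := q) (htrM S c hc hc1).1).1 γ)
    have h1 : P.SerLE c (∑ S ∈ Sidx, lexp (q * M) γ (sepSA haux S) * U S γ -
        lexp (q * M) γ (sepD q haux) * lexp (q * M) γ (h c)) := by
      rw [e, ← Finset.sum_sub_distrib]
      refine CPlace.SerLE.sum hc.le _ fun S _ => ?_
      rw [← mul_sub, ← neg_sub (expandL q _)]
      exact CPlace.SerLE.serIn_mul hc.le ((sepSA_mem haux hP hζ S).2 γ)
        (htrU S γ c hc hc1).neg
    have h2 := h1.add (CPlace.SerLE.serIn_mul hc.le (hD.2 γ) (hclose c hc hc1 γ))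
    rw [hs]
    rwa [mul_sub, sub_add_sub_cancel] at h2
  rw [show lexp (q * M) γ ((∑ S ∈ Sidx, sepSA haux S * z S) * (sepD q haux)⁻¹) =
      lexp (q * M) γ (∑ S ∈ Sidx, sepSA haux S * z S) * (lexp (q * M) γ (sepD q haux))⁻¹ from
    lexp_eq (by
      rw [ES.act_mulFun, ES.act_inv]
      exact (hasLExp_lexp hsum γ).mul
        ((hasLExp_lexp hD.1 γ).inv (fun τ => sepD_ne_zero haux _) hD0)),
    hkey, mul_comm (lexp (q * M) γ (sepD q haux)), mul_inv_cancel_right₀ hD0]

end FermatAgent.BAD
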