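import Fermat.Agent.BAD.CuspRoot
import Fermat.Agent.BAD.Limit
import Fermat.Agent.BAD.IsKum

/-!
# Exact roots from congruent approximations

For congruent `a`, `b` with divisible multiplicities, congruent approximations of an `n`-th root of
`a b ^ (n - 1)` give a root among the functions of level `q M`, invariant where `a` and `b` are.
-/

set_option autoImplicit false

open UpperHalfPlane CongruenceSubgroup IsLocalRing
open scoped MatrixGroups

noncomputable section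

namespace FermatAgent.BAD

open FermatAgent.ES (BSub BRing SerIn lexp lexp_eq lexp_act act zetaC AuxLevel CPlace GoodRoot
  GoodPoint)

variable {q M m : ℕ} [Fact q.Prime] [NeZero M] {O : Subring ℂ} (haux : AuxLevel M m)
  (hA : GoodRoot M O (zetaC M)) {P : CPlace q} (hO' : P.IsCDVR O) (hM : M.Coprime q)
  (hζ : zetaC (q * M) ∈ O) (hqm : q ≠ m)

include hO' in
theorem serLE_of_unif_pow_dvd {ϖ : O} {k : ℕ} {f : LRing q M O} (h : constL ϖ ^ k ∣ f)
    (γ : SL(2, ℤ)) : P.SerLE (P.abv (ϖ : ℂ) ^ k) (serAt M O q γ f) := by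
  obtain ⟨w, rfl⟩ := h
  intro n
  rw [map_mul, map_pow, serAt_constL, ← map_pow, HahnSeries.C_mul_eq_smul, HahnSeries.coeff_smul,
    smul_eq_mul, map_mul, map_pow]
  exact mul_le_of_le_one_right (pow_nonneg (P.abv.nonneg _) _) (hO'.le (serIn_serAt γ w n))

include hO' in
theorem serLT_of_unif_dvd {ϖ : O} (hϖ : Irreducible ϖ) {f : LRing q M O} (h : constL ϖ ∣ f)
    (γ : SL(2, ℤ)) : P.SerLT (serAt M O q γ f) := fun n => by
  have h1 := serLE_of_unif_pow_dvd hO' (k := 1) (by simpa using h) γ n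
  rw [pow_one] at h1
  exact h1.trans_lt (abv_unif hO' hϖ)

include haux hA hO' hM in
/-- **The exact root from congruent approximations**, with the uniqueness that makes it
invariant. -/
theorem exists_root_of_approx [IsDiscreteValuationRing O] {ϖ : O} (hϖ : Irreducible ϖ) {n : ℕ}
    (hn : n.Coprime q) {a b : LRing q M O} (hab : constL ϖ ∣ a - b)
    (hunit : ∀ γ, P.UnitCoeff (serAt M O q γ b))
    (hda : Divisible q M O n (a : ℍ → ℂ)) (hdb : Divisible q M O n (b : ℍ → ℂ))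
    (hoa : ∀ γ, (n : ℤ) ∣ (serO M O q γ a).order) (hob : ∀ γ, (n : ℤ) ∣ (serO M O q γ b).order)
    (happrox : ∀ k : ℕ, ∃ h : LRing q M O, constL ϖ ∣ h - b ∧
      constL ϖ ^ (k + 1) ∣ h ^ n - a * b ^ (n - 1)) :
    ∃ Z ∈ BSub (q * M), Z ^ n = (a : ℍ → ℂ) * (b : ℍ → ℂ) ^ (n - 1) ∧
      ∀ δ, act δ (a : ℍ → ℂ) = a → act δ (b : ℍ → ℂ) = b → act δ Z = Z := by
  choose L hLin hLpow hLb using fun γ => exists_cusp_root haux hA hO' hn hϖ hab hda hdb γ (hunit γ)
    (hoa γ) (hob γ)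
  have hLP : ∀ γ, SerIn P.ring (L γ) := fun γ i => hO'.le (hLin γ i)
  have hLu : ∀ γ, P.UnitCoeff (L γ) := fun γ =>
    CPlace.UnitCoeff.of_serLE_sub (hunit γ) (neg_sub (L γ) _ ▸ CPlace.SerLT.neg (hLb γ)) (hLP γ)
  obtain ⟨Z, hZ, hZL⟩ := exists_mem_of_approx_level haux hM L fun c hc hc1 => by
    obtain ⟨k, hk⟩ := exists_pow_lt_of_lt_one hc (abv_unif hO' hϖ)
    obtain ⟨h, hh1, hh2⟩ := happrox k
    refine ⟨h, ES.BRing_mono hO'.le h.2.1, fun γ => ?_⟩
    refine CPlace.SerLE.of_pow_sub_pow hc.le hn (fun i => hO'.le (serIn_serAt γ h i)) (hLP γ) ?_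
      (hLu γ) ?_
    · rw [show lexp (q * M) γ (h : ℍ → ℂ) - L γ =
        serAt M O q γ (h - b) - (L γ - serAt M O q γ b) by rw [map_sub, ← serAt_apply]; abel]
      exact (serLT_of_unif_dvd hO' hϖ hh1 γ).sub (hLb γ)
    · rw [← serAt_apply, ← map_pow, hLpow, ← map_sub]
      refine (serLE_of_unif_pow_dvd hO' hh2 γ).mono ?_
      rw [pow_succ]
      exact (mul_le_of_le_one_right (pow_nonneg (P.abv.nonneg _) _) (hO'.le ϖ.2)).trans hk.le
  refine ⟨Z, hZ, ?_, fun δ hδa hδb => ?_⟩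
  · refine ES.lexp_injective (pow_mem hZ n) (mul_mem a.2.1.1 (pow_mem b.2.1.1 _)) (γ := 1) ?_
    rw [show lexp (q * M) 1 (Z ^ n) = lexp (q * M) 1 Z ^ n from
      (ES.expHom (M := q * M) 1).map_pow ⟨Z, hZ⟩ n, hZL, hLpow]
    rfl
  · refine ES.lexp_injective (ES.act_mem_BSub hZ δ) hZ (γ := 1) ?_
    rw [lexp_act, mul_one, hZL, hZL]
    refine eq_of_forall_serLE (P := P) fun c hc _ => ?_
    have hser : ∀ f : LRing q M O, act δ (f : ℍ → ℂ) = f →
        serAt M O q δ f = serAt M O q 1 f := fun f hf => by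
      rw [serAt_apply, serAt_apply]
      conv_rhs => rw [← hf, lexp_act, mul_one]
    refine CPlace.SerLE.of_pow_sub_pow hc.le hn (hLP δ) (hLP 1) ?_ (hLu 1) ?_
    · rw [show L δ - L 1 = (L δ - serAt M O q δ b) - (L 1 - serAt M O q 1 b) by
        rw [hser b hδb]; abel]
      exact CPlace.SerLT.sub (hLb δ) (hLb 1)
    · rw [hLpow, hLpow, hser (a * b ^ (n - 1)) (by
        simp only [Subring.coe_mul, SubmonoidClass.coe_pow]
        rw [ES.act_mulFun, hδa, show act δ ((b : ℍ → ℂ) ^ (n - 1)) = act δ (b : ℍ → ℂ) ^ (n - 1)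
          from rfl, hδb]), sub_self]
      exact CPlace.SerLE.zero hc.le

end FermatAgent.BAD
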