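import Fermat.Agent.BAD.Normal

/-!
# Values of the Hauptmodul at the zeros of a function with unit coefficients

Over a ring with finitely many generators, every maximal ideal containing such a function contains
some `t - a` at a good value `a`.
-/

set_option autoImplicit false

open UpperHalfPlane CongruenceSubgroup IsLocalRing
open scoped MatrixGroups

noncomputable section

namespace FermatAgent.BAD

open FermatAgent.ES (BSub BRing SerIn HasLExp lexp lexp_eq hasLExp_lexp act zetaC AuxLevel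
  CPlace GoodRoot GoodPoint haupt cuspPoly fibVals)

variable {q M m : ℕ} [Fact q.Prime] [NeZero M] (haux : AuxLevel M m) {P : CPlace q}
  (hM : M.Coprime q) (hqm : q ≠ m)

include haux hM hqm in
/-- The values of the Hauptmodul on the component at `∞`. -/
theorem exists_finset_tValue {y : LRing q M P.ring} (hy : UnitInf P y) :
    ∃ S : Finset ℂ, (S : Set ℂ) ⊆ P.ring ∧ ∀ (O : Subring ℂ) (hO' : P.IsCDVR O)
      (hA : GoodRoot M O (zetaC M)), zetaC (q * M) ∈ O → (S : Set ℂ) ⊆ O →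
      ∀ (hyO : (y : ℍ → ℂ) ∈ LRing q M O) (𝔪 : Ideal (LRing q M O)), 𝔪.IsMaximal →
        pInf hO'.le ≤ 𝔪 → (⟨_, hyO⟩ : LRing q M O) ∈ 𝔪 →
        ∃ (τ0 : ℍ) (hg : GoodPoint haux O τ0), raiseL M (tPar haux hA hg) ∈ 𝔪 := by
  classical
  have hP := P.goodRoot hM
  have hζP : zetaC (q * M) ∈ P.ring := goodRoot_zeta
  set h0 := trB (hasseL haux hM hP hζP * y)
  -- its residual expansion is nonzero
  have hser : ∀ (f : LRing q M P.ring) (γ : SL(2, ℤ)), SerIn P.ring (serAt M P.ring q γ f) :=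
    fun f γ => serIn_serAt γ f
  have hh0 : P.UnitCoeff (ES.infExp P h0) := by
    have h1 : UnitInf P (raiseL M h0 : LRing q M P.ring) :=
      UnitAt.of_sub_mem le_rfl (UnitAt.mul le_rfl (eta_unitInf le_rfl haux hM hP hζP hqm) hy)
        (eta_mul_sub_mem_pInf le_rfl haux hM hP hζP y)
    have h2 := h1 1 (one_mem _)
    rw [serAt_raiseL] at h2
    exact unitCoeff_of_expandL h2
  obtain ⟨G', L, hGG, hL⟩ :=
    ES.exists_norm_factor P haux hM (c := 1 / 2) (by norm_num) (G := h0) hh0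
  have hpt : ∀ l : {x // x ∈ L}, ∃ τ0, haupt haux.dvd τ0 = ((l : P.ring) : ℂ) ∧
      GoodPoint haux P.ring τ0 := by
    rintro ⟨l, hl⟩
    have hg := hL l hl
    obtain ⟨τ0, hτ0⟩ := ES.exists_haupt_eq haux (a := (l : ℂ))
      (mul_ne_zero (mul_ne_zero hg.unit.1 hg.unit_one.1) hg.unit_root.1)
    exact ⟨τ0, hτ0, GoodPoint.of_integrallyClosed haux hP P.integrallyClosed (hτ0 ▸ hg)⟩
  choose pt hpt1 hpt2 using hpt
  obtain ⟨S1, hS1, hS1O⟩ := ES.exists_finset_mem_BRing haux hP G'.2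
  set U : Set ℂ := ⋃ l : {x // x ∈ L}, fibVals haux (pt l)
  have hU : U.Finite := Set.finite_iUnion fun l => ES.finite_fibVals haux (pt l)
  refine ⟨S1 ∪ hU.toFinset, ?_, fun O hO' hA hζ hsub hyO 𝔪 h𝔪 hinf hy𝔪 => ?_⟩
  · intro x hx
    rcases Finset.mem_union.mp hx with h | h
    · exact hS1 h
    · obtain ⟨l, hl⟩ := Set.mem_iUnion.mp (hU.mem_toFinset.mp h)
      exact ES.fibVals_subset haux (hpt2 l) hl
  have := hO'.dvr
  have hgood : ∀ l : {x // x ∈ L}, GoodPoint haux O (pt l) := fun l =>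
    ES.goodPoint_of_isCDVR haux hO' (hpt2 l) fun x hx =>
      hsub (Finset.mem_union_right _ (hU.mem_toFinset.mpr (Set.mem_iUnion.mpr ⟨l, hx⟩)))
  set yO : LRing q M O := ⟨_, hyO⟩
  set hh := trB (hasseL haux hM hA hζ * yO)
  have hhe : (hh : ℍ → ℂ) = (h0 : ℍ → ℂ) := rfl
  have hh𝔪 : (raiseL M hh : LRing q M O) ∈ 𝔪 := by
    have h1 := hinf (eta_mul_sub_mem_pInf hO'.le haux hM hA hζ yO)
    have h2 := 𝔪.mul_mem_left (raiseL M (eta haux hM hA hζ)) hy𝔪
    have h3 := 𝔪.sub_mem h2 h1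
    rwa [sub_sub_cancel] at h3
  set GO : BRing M O :=
    ⟨_, hS1O O hA fun x hx => hsub (Finset.mem_union_left _ hx)⟩
  set Lt : Multiset (BRing M O) := L.attach.map fun l => tPar haux hA (hgood l)
  have hprod : (Lt.prod : ℍ → ℂ) = (ES.linProd P haux hM L : ℍ → ℂ) := by
    rw [show (Lt.prod : ℍ → ℂ) = (BRing M O).subtype Lt.prod from rfl,
      show (ES.linProd P haux hM L : ℍ → ℂ) =
        (BRing M P.ring).subtype (ES.linProd P haux hM L) from rfl,
      map_multiset_prod, ES.linProd, map_multiset_prod, Multiset.map_map, Multiset.map_map]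
    conv_rhs => rw [← Multiset.attach_map_val L, Multiset.map_map]
    refine congrArg Multiset.prod (Multiset.map_congr rfl fun l _ => ?_)
    funext τ
    show haupt haux.dvd τ - haupt haux.dvd (pt l) = haupt haux.dvd τ - ((l : P.ring) : ℂ)
    rw [hpt1]
  have hd : (raiseL M (hh * GO - Lt.prod) : LRing q M O) ∈ pInf hO'.le := by
    refine raiseL_mem_pInf_of_resCusp hO'.le hO' haux hM
      (liftSer_residue_eq_zero hO' (s := ES.cuspSer O 1 (hh * GO - Lt.prod)) fun n => ?_)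
    have e : ((hh * GO - Lt.prod : BRing M O) : ℍ → ℂ) =
        ((h0 * G' - ES.linProd P haux hM L : BRing M P.ring) : ℍ → ℂ) := by
      show (hh : ℍ → ℂ) * (GO : ℍ → ℂ) - (Lt.prod : ℍ → ℂ) = _
      rw [hprod, hhe]
      rfl
    rw [ES.liftSer_cuspSer, e]
    exact ((ES.mem_smallIdeal P (by norm_num)).mp hGG n).trans_lt (by norm_num)
  have hLt : (raiseL M Lt.prod : LRing q M O) ∈ 𝔪 := by
    have h1 := hinf hd
    rw [map_sub, map_mul] at h1
    have h2 := 𝔪.sub_mem (𝔪.mul_mem_right (raiseL M GO) hh𝔪) h1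
    rwa [sub_sub_cancel] at h2
  rw [map_multiset_prod, h𝔪.isPrime.multiset_prod_mem_iff_exists_mem] at hLt
  obtain ⟨x, hx, hx𝔪⟩ := hLt
  simp only [Lt, Multiset.map_map, Multiset.mem_map, Function.comp_apply] at hx
  obtain ⟨l, -, rfl⟩ := hx
  exact ⟨pt l, hgood l, hx𝔪⟩

include haux hM hqm in
/-- **The values of the Hauptmodul on both components.** -/
theorem exists_finset_tValues {y : LRing q M P.ring} (hy : UnitInf P y) (hy' : UnitZero P y) :
    ∃ S : Finset ℂ, (S : Set ℂ) ⊆ P.ring ∧ ∀ (O : Subring ℂ) (hO' : P.IsCDVR O)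
      (hA : GoodRoot M O (zetaC M)) (hζ : zetaC (q * M) ∈ O), (S : Set ℂ) ⊆ O →
      ∀ (hyO : (y : ℍ → ℂ) ∈ LRing q M O) (𝔪 : Ideal (LRing q M O)), 𝔪.IsMaximal →
        (⟨_, hyO⟩ : LRing q M O) ∈ 𝔪 →
        (pInf hO'.le ≤ 𝔪 →
          ∃ (τ0 : ℍ) (hg : GoodPoint haux O τ0), raiseL M (tPar haux hA hg) ∈ 𝔪) ∧
        (pZero hO'.le ≤ 𝔪 → ∃ (τ0 : ℍ) (hg : GoodPoint haux O τ0),
          (atkinEquiv hM hζ).symm (raiseL M (tPar haux hA hg)) ∈ 𝔪) := by
  classical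
  have hζP : zetaC (q * M) ∈ P.ring := goodRoot_zeta
  obtain ⟨S1, hS1, h1⟩ := exists_finset_tValue haux hM hqm hy
  obtain ⟨S2, hS2, h2⟩ := exists_finset_tValue haux hM hqm (atkinL_unitInf hM hζP hy')
  refine ⟨S1 ∪ S2, fun x hx => ?_, fun O hO' hA hζ hsub hyO 𝔪 h𝔪 hy𝔪 =>
    ⟨fun hinf => ?_, fun hzero => ?_⟩⟩
  · rcases Finset.mem_union.mp hx with h | h
    exacts [hS1 h, hS2 h]
  · exact h1 O hO' hA hζ (fun x hx => hsub (Finset.mem_union_left _ hx)) hyO 𝔪 h𝔪 hinf hy𝔪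
  set 𝔫 := 𝔪.comap (atkinEquiv hM hζ).symm.toRingHom
  have h𝔫 : 𝔫.IsMaximal :=
    Ideal.comap_isMaximal_of_surjective _ (atkinEquiv hM hζ).symm.surjective
  have hyn : atkinEquiv hM hζ ⟨_, hyO⟩ ∈ 𝔫 := by
    show (atkinEquiv hM hζ).symm (atkinEquiv hM hζ ⟨_, hyO⟩) ∈ 𝔪
    rwa [RingEquiv.symm_apply_apply]
  exact h2 O hO' hA hζ (fun x hx => hsub (Finset.mem_union_right _ hx))
    (atkin_mem_LRing hM hζ hyO) 𝔫 h𝔫 (fun x hx => hzero (mem_pZero_of_atkinL hO'.le hM hζ (by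
      rw [show atkinL hM hζ ((atkinEquiv hM hζ).symm.toRingHom x) = x from
        (atkinEquiv hM hζ).apply_symm_apply x]
      exact hx))) hyn

end FermatAgent.BAD
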