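import Fermat.Agent.ES.Cong.Normalize

/-!
# Dilation `τ ↦ q τ` and contraction `τ ↦ (τ + j) / q` of expansions

The point maps are intertwined with `SL(2, ℤ)` at cusps of the two types; `expandL` substitutes
`X^q` for `X` and `contractL` is its inverse on series with exponents divisible by `q`. The
expansion of `f(qτ)` at a cusp is obtained from one of `f` by `expandL` or by a root of unity
twist.
-/

set_option autoImplicit false

open UpperHalfPlane
open scoped MatrixGroups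

noncomputable section

namespace FermatAgent.BAD

open FermatAgent.ES (HasExp HasLExp qm zetaC act twistSer)

variable (q : ℕ) [NeZero q]

/-- The point `q τ`. -/
def dilPt (τ : ℍ) : ℍ :=
  ⟨(q : ℂ) * τ, by
    rw [Complex.mul_im, Complex.natCast_re, Complex.natCast_im, zero_mul, add_zero]
    exact mul_pos (Nat.cast_pos.mpr (NeZero.pos q)) τ.im_pos⟩

/-- The point `(τ + j) / q`. -/
def ctrPt (j : ℕ) (τ : ℍ) : ℍ :=
  ⟨((τ : ℂ) + j) / q, by
    rw [Complex.div_natCast_im, Complex.add_im, Complex.natCast_im, add_zero]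
    exact div_pos τ.im_pos (Nat.cast_pos.mpr (NeZero.pos q))⟩

/-- `dilPt q τ` is `q τ`. -/
theorem coe_dilPt (τ : ℍ) : (dilPt q τ : ℂ) = (q : ℂ) * τ := rfl

/-- `ctrPt q j τ` is `(τ + j) / q`. -/
theorem coe_ctrPt (j : ℕ) (τ : ℍ) : (ctrPt q j τ : ℂ) = ((τ : ℂ) + j) / q := rfl

theorem dilPt_ctrPt (τ : ℍ) : dilPt q (ctrPt q 0 τ) = τ := UpperHalfPlane.ext (by
  rw [coe_dilPt, coe_ctrPt, Nat.cast_zero, add_zero,
    mul_div_cancel₀ _ (Nat.cast_ne_zero.mpr (NeZero.ne q))])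

/-- `τ ↦ f (q τ)`. -/
def dilFun : (ℍ → ℂ) →+* (ℍ → ℂ) where
  toFun f τ := f (dilPt q τ)
  map_one' := rfl
  map_mul' _ _ := rfl
  map_zero' := rfl
  map_add' _ _ := rfl

/-- The value of `f(qτ)`. -/
theorem dilFun_apply (f : ℍ → ℂ) (τ : ℍ) : dilFun q f τ = f (dilPt q τ) := rfl

/-- A function is determined by `f(qτ)`. -/
theorem dilFun_injective : Function.Injective (dilFun q) := fun f g h => funext fun τ => by
  have := congrFun h (ctrPt q 0 τ)
  rwa [dilFun_apply, dilFun_apply, dilPt_ctrPt] at this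

/-- `diag(q,1) γ = γ' diag(q,1)` when `q` divides the lower left entry. -/
theorem exists_dil_conj (γ : SL(2, ℤ)) (hc : (q : ℤ) ∣ γ 1 0) :
    ∃ γ' : SL(2, ℤ), γ' 0 0 = γ 0 0 ∧ γ' 0 1 = q * γ 0 1 ∧ (q : ℤ) * γ' 1 0 = γ 1 0 ∧
      γ' 1 1 = γ 1 1 ∧ ∀ τ, dilPt q (γ • τ) = γ' • dilPt q τ := by
  obtain ⟨c, hc⟩ := hc
  have hdet : γ 0 0 * γ 1 1 - γ 0 1 * γ 1 0 = 1 := by
    have := Matrix.det_fin_two (γ : Matrix (Fin 2) (Fin 2) ℤ)
    rwa [γ.2, eq_comm] at this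
  let g : SL(2, ℤ) := ⟨!![γ 0 0, q * γ 0 1; c, γ 1 1], by
    rw [Matrix.det_fin_two_of]; linear_combination hdet + γ 0 1 * hc⟩
  refine ⟨g, rfl, rfl, hc.symm, rfl, fun τ => ?_⟩
  refine UpperHalfPlane.ext ?_
  rw [coe_dilPt, Curve.coe_sl_smul, Curve.coe_sl_smul, coe_dilPt]
  show (q : ℂ) * (((γ 0 0 : ℂ) * τ + (γ 0 1 : ℂ)) / ((γ 1 0 : ℂ) * τ + (γ 1 1 : ℂ))) =
      (((γ 0 0 : ℤ) : ℂ) * ((q : ℂ) * τ) + ((q * γ 0 1 : ℤ) : ℂ)) /
        ((c : ℂ) * ((q : ℂ) * τ) + ((γ 1 1 : ℤ) : ℂ))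
  rw [hc]
  push_cast
  rw [mul_div_assoc']
  congr 1 <;> ring

/-- `diag(q,1) γ = γ' (1 j; 0 q)` when `q` divides `d - j c`. -/
theorem exists_ctr_conj (γ : SL(2, ℤ)) (j : ℕ) (hd : (q : ℤ) ∣ γ 1 1 - j * γ 1 0) :
    ∃ γ' : SL(2, ℤ), γ' 0 0 = q * γ 0 0 ∧ γ' 0 1 = γ 0 1 - j * γ 0 0 ∧ γ' 1 0 = γ 1 0 ∧
      (q : ℤ) * γ' 1 1 = γ 1 1 - j * γ 1 0 ∧ ∀ τ, dilPt q (γ • τ) = γ' • ctrPt q j τ := by
  obtain ⟨d, hd⟩ := hd
  have hdet : γ 0 0 * γ 1 1 - γ 0 1 * γ 1 0 = 1 := by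
    have := Matrix.det_fin_two (γ : Matrix (Fin 2) (Fin 2) ℤ)
    rwa [γ.2, eq_comm] at this
  let g : SL(2, ℤ) := ⟨!![q * γ 0 0, γ 0 1 - j * γ 0 0; γ 1 0, d], by
    rw [Matrix.det_fin_two_of]; linear_combination hdet - γ 0 0 * hd⟩
  refine ⟨g, rfl, rfl, rfl, hd.symm, fun τ => ?_⟩
  refine UpperHalfPlane.ext ?_
  rw [coe_dilPt, Curve.coe_sl_smul, Curve.coe_sl_smul, coe_ctrPt]
  show (q : ℂ) * (((γ 0 0 : ℂ) * τ + (γ 0 1 : ℂ)) / ((γ 1 0 : ℂ) * τ + (γ 1 1 : ℂ))) =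
    (((q * γ 0 0 : ℤ) : ℂ) * (((τ : ℂ) + j) / q) + ((γ 0 1 - j * γ 0 0 : ℤ) : ℂ)) /
      ((γ 1 0 : ℂ) * (((τ : ℂ) + j) / q) + (d : ℂ))
  have hq : (q : ℂ) ≠ 0 := Nat.cast_ne_zero.mpr (NeZero.ne q)
  have hd' : (γ 1 1 : ℂ) = (q : ℂ) * d + (j : ℂ) * (γ 1 0 : ℂ) := by
    have : γ 1 1 = q * d + j * γ 1 0 := by linarith
    rw [this]; push_cast; ring
  rw [hd', show (γ 1 0 : ℂ) * (((τ : ℂ) + j) / q) + (d : ℂ) =
    ((γ 1 0 : ℂ) * τ + ((q : ℂ) * d + (j : ℂ) * (γ 1 0 : ℂ))) / q by field_simp; ring,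
    div_div_eq_mul_div, mul_div_assoc']
  congr 1
  push_cast
  field_simp
  ring

/-- A residue `j` with `q ∣ d - j c`, divisible by a given `M` prime to `q`. -/
theorem exists_ctr_index (hq : q.Prime) {M : ℕ} (hM : M.Coprime q) (γ : SL(2, ℤ))
    (hc : ¬ (q : ℤ) ∣ γ 1 0) : ∃ j : ℕ, M ∣ j ∧ (q : ℤ) ∣ γ 1 1 - j * γ 1 0 := by
  have := Fact.mk hq
  have hc0 : ((γ 1 0 : ℤ) : ZMod q) ≠ 0 :=
    fun h => hc ((ZMod.intCast_zmod_eq_zero_iff_dvd _ _).mp h)
  have hM0 : (M : ZMod q) ≠ 0 := fun h =>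
    hq.coprime_iff_not_dvd.mp hM.symm ((ZMod.natCast_eq_zero_iff M q).mp h)
  refine ⟨M * (((γ 1 1 : ℤ) : ZMod q) / ((M : ZMod q) * (γ 1 0 : ℤ))).val, dvd_mul_right _ _, ?_⟩
  rw [← ZMod.intCast_zmod_eq_zero_iff_dvd]
  push_cast
  rw [ZMod.natCast_zmod_val]
  field_simp
  ring

/-- The substitution `X ↦ X ^ q` on Laurent series. -/
def expandL {R : Type*} [CommRing R] : LaurentSeries R →+* LaurentSeries R :=
  HahnSeries.embDomainRingHom (AddMonoidHom.mulLeft (q : ℤ))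
    (mul_right_injective₀ (Nat.cast_ne_zero.mpr (NeZero.ne q)))
    fun _ _ => mul_le_mul_iff_right₀ (Nat.cast_pos.mpr (NeZero.pos q))

/-- The coefficient of `X^(qn)` in `s(X^q)`. -/
theorem expandL_coeff_mul {R : Type*} [CommRing R] (s : LaurentSeries R) (n : ℤ) :
    (expandL q s).coeff ((q : ℤ) * n) = s.coeff n :=
  HahnSeries.embDomain_coeff

/-- Other coefficients of `s(X^q)` vanish. -/
theorem expandL_coeff_of_not_dvd {R : Type*} [CommRing R] (s : LaurentSeries R) {n : ℤ}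
    (h : ¬ (q : ℤ) ∣ n) : (expandL q s).coeff n = 0 := by
  refine HahnSeries.embDomain_of_notMem_range ?_
  rintro ⟨k, rfl⟩
  exact h ⟨k, rfl⟩

/-- `s ↦ s(X^q)` is injective. -/
theorem expandL_injective {R : Type*} [CommRing R] : Function.Injective (expandL (R := R) q) :=
  fun s t h => HahnSeries.ext (funext fun n => by
    rw [← expandL_coeff_mul q s, h, expandL_coeff_mul])

/-- `s ↦ s(X^q)` on monomials. -/
theorem expandL_single {R : Type*} [CommRing R] (k : ℤ) (a : R) :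
    expandL q (HahnSeries.single k a) = HahnSeries.single ((q : ℤ) * k) a :=
  HahnSeries.embDomain_single

/-- If `s(X^r)` has a unit coefficient, so has `s`. -/
theorem unitCoeff_of_expandL {r ℓ : ℕ} [NeZero r] {P : ES.CPlace ℓ} {s : LaurentSeries ℂ}
    (h : P.UnitCoeff (expandL r s)) : P.UnitCoeff s := by
  obtain ⟨n, hn⟩ := h
  obtain ⟨k, rfl⟩ : (r : ℤ) ∣ n := by
    by_contra hd
    rw [expandL_coeff_of_not_dvd r _ hd, map_zero] at hn
    exact zero_ne_one hn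
  rw [expandL_coeff_mul] at hn
  exact ⟨k, hn⟩

/-- `s(X^r)` has coefficients in the same ring. -/
theorem expandL_serIn {O : Subring ℂ} {r : ℕ} [NeZero r] {s : LaurentSeries ℂ} (h : ES.SerIn O s) :
    ES.SerIn O (expandL r s) := fun n => by
  by_cases hn : (r : ℤ) ∣ n
  · obtain ⟨k, rfl⟩ := hn; rw [expandL_coeff_mul]; exact h k
  · rw [expandL_coeff_of_not_dvd r s hn]; exact O.zero_mem

/-- `s(X^r)` satisfies the same bound. -/
theorem serLE_expandL {r ℓ : ℕ} [NeZero r] {P : ES.CPlace ℓ} {c : ℝ} (hc : 0 ≤ c)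
    {s : LaurentSeries ℂ} (h : P.SerLE c s) : P.SerLE c (expandL r s) := fun n => by
  by_cases hn : (r : ℤ) ∣ n
  · obtain ⟨k, rfl⟩ := hn; rw [expandL_coeff_mul]; exact h k
  · rw [expandL_coeff_of_not_dvd r s hn, map_zero]; exact hc

/-- `s ↦ s(X^r)` commutes with maps of coefficients. -/
theorem mapSer_expandL (σ : ℂ →+* ℂ) {r : ℕ} [NeZero r] (s : LaurentSeries ℂ) :
    ES.mapSer σ (expandL r s) = expandL r (ES.mapSer σ s) := by
  ext i
  rw [ES.coeff_mapSer]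
  by_cases hd : (r : ℤ) ∣ i
  · obtain ⟨j, rfl⟩ := hd
    rw [expandL_coeff_mul, expandL_coeff_mul, ES.coeff_mapSer]
  · rw [expandL_coeff_of_not_dvd r _ hd, expandL_coeff_of_not_dvd r _ hd, map_zero]

/-- The series `∑ s_{q k} X ^ k`. -/
def contractL {R : Type*} [Zero R] (s : LaurentSeries R) : LaurentSeries R :=
  HahnSeries.ofSuppBddBelow (fun k => s.coeff ((q : ℤ) * k)) ⟨min s.order 0, fun k hk => by
    have h1 := HahnSeries.order_le_of_coeff_ne_zero hk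
    have hq0 : (1 : ℤ) ≤ q := by exact_mod_cast NeZero.one_le
    rcases le_or_gt 0 k with h | h
    · exact (min_le_right _ _).trans h
    · exact (min_le_left _ _).trans (h1.trans (by nlinarith))⟩

/-- The coefficients of the contracted series. -/
@[simp] theorem coeff_contractL {R : Type*} [Zero R] (s : LaurentSeries R) (k : ℤ) :
    (contractL q s).coeff k = s.coeff ((q : ℤ) * k) := rfl

/-- Contraction inverts `s ↦ s(X^q)` on series with exponents divisible by `q`. -/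
theorem expandL_contractL {R : Type*} [CommRing R] {s : LaurentSeries R}
    (h : ∀ m : ℤ, ¬ (q : ℤ) ∣ m → s.coeff m = 0) : expandL q (contractL q s) = s := by
  ext m
  by_cases hm : (q : ℤ) ∣ m
  · obtain ⟨k, rfl⟩ := hm
    rw [expandL_coeff_mul, coeff_contractL]
  · rw [expandL_coeff_of_not_dvd q _ hm, h m hm]

/-- `s ↦ s(X^q)` on power series. -/
theorem expandL_ofPowerSeries {R : Type*} [CommRing R] (c : PowerSeries R) :
    expandL q (HahnSeries.ofPowerSeries ℤ R c) =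
      HahnSeries.ofPowerSeries ℤ R (PowerSeries.expand q (NeZero.ne q) c) := by
  have hq : (0 : ℤ) < q := Nat.cast_pos.mpr (NeZero.pos q)
  ext n
  rcases le_or_gt 0 n with hn | hn
  · lift n to ℕ using hn
    rw [HahnSeries.ofPowerSeries_apply_coeff]
    by_cases h : q ∣ n
    · obtain ⟨k, rfl⟩ := h
      rw [PowerSeries.coeff_expand_mul, Nat.cast_mul, expandL_coeff_mul,
        HahnSeries.ofPowerSeries_apply_coeff]
    · rw [PowerSeries.coeff_expand_of_not_dvd q (NeZero.ne q) _ h,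
        expandL_coeff_of_not_dvd q _ fun h' => h (Int.natCast_dvd_natCast.mp h')]
  · have hzero : ∀ (d : PowerSeries R) (k : ℤ), k < 0 →
        (HahnSeries.ofPowerSeries ℤ R d).coeff k = 0 := fun d k hk => by
      rw [HahnSeries.ofPowerSeries_apply, HahnSeries.embDomain_of_notMem_range]
      rintro ⟨i, hi⟩
      simp at hi
      omega
    rw [hzero _ _ hn]
    by_cases h : (q : ℤ) ∣ n
    · obtain ⟨k, rfl⟩ := h
      rw [expandL_coeff_mul, hzero _ _ (by nlinarith)]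
    · exact expandL_coeff_of_not_dvd q _ h

variable {M : ℕ}

omit [NeZero q] in
theorem qm_pow_eq (r : ℕ) (τ : ℍ) (σ : ℍ) (h : (σ : ℂ) = (r : ℂ) * τ) :
    qm M σ = qm M τ ^ r := by
  rw [ES.qm_eq, ES.qm_eq, ← Complex.exp_nat_mul, h]
  congr 1
  ring

/-- The parameter at `qτ` is the `q`-th power of that at `τ`. -/
theorem qm_dilPt (τ : ℍ) : qm M (dilPt q τ) = qm M τ ^ q := qm_pow_eq q τ _ rfl

theorem qm_ctrPt [NeZero M] (j : ℕ) (τ : ℍ) :
    qm M (ctrPt q j τ) = zetaC (q * M) ^ j * qm (q * M) τ := by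
  rw [ES.qm_eq, ES.qm_eq, zetaC, ← Complex.exp_nat_mul, ← Complex.exp_add, coe_ctrPt]
  congr 1
  have hq : (q : ℂ) ≠ 0 := Nat.cast_ne_zero.mpr (NeZero.ne q)
  have hM : (M : ℂ) ≠ 0 := Nat.cast_ne_zero.mpr (NeZero.ne M)
  push_cast
  field_simp
  ring

/-- An expansion at level `M` gives one at level `qM` with exponents multiplied by `q`. -/
theorem hasLExp_raise [NeZero M] {f : ℍ → ℂ} {s : LaurentSeries ℂ} (h : HasLExp M f s) :
    HasLExp (q * M) f (expandL q s) := by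
  obtain ⟨r, c, hc, rfl⟩ := h
  refine ⟨q * r, PowerSeries.expand q (NeZero.ne q) c, ?_, ?_⟩
  · refine (hc.expand (NeZero.ne q)).congr_fun fun τ => ?_
    rw [pow_mul, ES.qm_mul_pow (NeZero.ne q)]
  · rw [map_mul, expandL_single, expandL_ofPowerSeries]
    push_cast
    rw [mul_neg]

/-- The expansion of `f(qτ)` at level `M`. -/
theorem hasLExp_dilFun {f : ℍ → ℂ} {s : LaurentSeries ℂ} (h : HasLExp M f s) :
    HasLExp M (dilFun q f) (expandL q s) := by
  obtain ⟨r, c, hc, rfl⟩ := h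
  refine ⟨q * r, PowerSeries.expand q (NeZero.ne q) c, ?_, ?_⟩
  · intro τ
    have hinj : Function.Injective fun e : ℕ => q * e := mul_right_injective₀ (NeZero.ne q)
    refine (hinj.hasSum_iff fun e he => ?_).mp ?_
    · rw [PowerSeries.coeff_expand_of_not_dvd q (NeZero.ne q), zero_mul]
      rintro ⟨k, rfl⟩
      exact he ⟨k, rfl⟩
    · have h1 := hc (dilPt q τ)
      simp only [qm_dilPt, ← pow_mul] at h1
      refine h1.congr_fun fun e => ?_
      rw [Function.comp_apply, PowerSeries.coeff_expand_mul]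
  · rw [map_mul, expandL_single, expandL_ofPowerSeries]
    push_cast
    rw [mul_neg]

/-- The expansion of `f((τ + j)/q)` at level `qM` is a twist of that of `f`. -/
theorem hasLExp_ctrPt [NeZero M] {f : ℍ → ℂ} {s : LaurentSeries ℂ} (h : HasLExp M f s) (j : ℕ) :
    HasLExp (q * M) (fun τ => f (ctrPt q j τ)) (twistSer (zetaC (q * M) ^ j) s) := by
  obtain ⟨r, c, hc, rfl⟩ := h
  set z := zetaC (q * M) ^ j with hz
  have hz0 : z ≠ 0 := pow_ne_zero _ (Complex.exp_ne_zero _)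
  refine ⟨r, PowerSeries.mk fun e => PowerSeries.coeff e c * z ^ ((e : ℤ) - r), ?_, ?_⟩
  · intro τ
    have h1 := (hc (ctrPt q j τ)).div_const (z ^ r)
    simp only [qm_ctrPt, ← hz] at h1
    have e : (z * qm (q * M) τ) ^ r * f (ctrPt q j τ) / z ^ r =
        qm (q * M) τ ^ r * f (ctrPt q j τ) := by field_simp; ring
    rw [e] at h1
    refine h1.congr_fun fun n => ?_
    rw [PowerSeries.coeff_mk, zpow_sub₀ hz0, zpow_natCast, zpow_natCast, mul_pow]
    field_simp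
  · ext n
    simp only [ES.coeff_twistSer, ES.coeff_single_mul_ofPowerSeries, PowerSeries.coeff_mk]
    split_ifs with h
    · congr 2; omega
    · simp

/-- The expansion of `f (q τ)` at a cusp of type `∞`. -/
theorem hasLExp_dil_conj [NeZero M] {f : ℍ → ℂ} {γ γ' : SL(2, ℤ)} {s : LaurentSeries ℂ}
    (h : HasLExp M (act γ' f) s) (hγ : ∀ τ, dilPt q (γ • τ) = γ' • dilPt q τ) :
    HasLExp (q * M) (act γ (dilFun q f)) (expandL q (expandL q s)) :=
  (hasLExp_raise q (hasLExp_dilFun q h)).congr_fun fun τ => by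
    rw [ES.act_apply, dilFun_apply, hγ, dilFun_apply, ES.act_apply]

/-- The expansion of `f (q τ)` at a cusp of type `0`. -/
theorem hasLExp_ctr_conj [NeZero M] {f : ℍ → ℂ} {γ γ' : SL(2, ℤ)} {s : LaurentSeries ℂ} {j : ℕ}
    (h : HasLExp M (act γ' f) s) (hγ : ∀ τ, dilPt q (γ • τ) = γ' • ctrPt q j τ) :
    HasLExp (q * M) (act γ (dilFun q f)) (twistSer (zetaC (q * M) ^ j) s) :=
  (hasLExp_ctrPt q h j).congr_fun fun τ => by
    rw [ES.act_apply, dilFun_apply, hγ, ES.act_apply]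

end FermatAgent.BAD
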