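import Fermat.Agent.BAD.Residual
import Fermat.Agent.BAD.DerivT

/-!
# The crossing parameters at the points of both components

`X Y = - q G` for the two Kronecker functions `X`, `Y`; the function `G` is a unit at every point
where the two components meet.
-/

set_option autoImplicit false

open UpperHalfPlane CongruenceSubgroup
open scoped MatrixGroups

noncomputable section

namespace FermatAgent.BAD

open FermatAgent.ES (BSub BRing SerIn HasLExp lexp lexp_eq hasLExp_lexp act zetaC AuxLevel CPlace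
  GoodRoot GoodPoint haupt hauptRoot cuspPoly scaleVec liftSer cuspSer difLaurent refA refB)

variable {q M m : ℕ} [Fact q.Prime] [NeZero M] {O : Subring ℂ} (haux : AuxLevel M m)
  (hM : M.Coprime q) (hA : GoodRoot M O (zetaC M)) (hζ : zetaC (q * M) ∈ O)

/-- The conjugate of `t` as an element of the ring. -/
def hQ : BRing M O := ⟨_, hauptQ_mem_BRing hM haux hA⟩

/-- The element small at the cusps of type `0`. -/
def kXL : LRing q M O :=
  raiseL M (tRing haux hA) - dilL hM hζ (hQ haux hM hA) ^ q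

/-- The element small at the cusps of type `∞`. -/
def kYL : LRing q M O :=
  dilL hM hζ (tRing haux hA) - raiseL M (hQ haux hM hA) ^ q

theorem coe_kXL : ((kXL haux hM hA hζ : LRing q M O) : ℍ → ℂ) = kronX haux q := rfl

theorem coe_kYL : ((kYL haux hM hA hζ : LRing q M O) : ℍ → ℂ) = kronY haux q := rfl

variable {P : CPlace q} (hO : O ≤ P.ring) (hO' : P.IsCDVR O) (hqm : q ≠ m)

include hqm in
/-- `X` is small at the cusps of type `0`. -/
theorem kXL_mem_pZero : kXL haux hM hA hζ ∈ pZero hO := fun γ hγ n => by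
  rw [serAt_apply, coe_kXL]
  exact (kronX_small hM haux hqm hγ n).trans_lt (by simpa using P.lt_one)

include hqm in
/-- `Y` is small at the cusps of type `∞`. -/
theorem kYL_mem_pInf : kYL haux hM hA hζ ∈ pInf hO := fun γ hγ n => by
  rw [serAt_apply, coe_kYL]
  exact (kronY_small hM haux hqm hγ n).trans_lt (by simpa using P.lt_one)

include hO hO' hqm in
/-- The product of the crossing parameters is a multiple of `q`. -/
theorem exists_nodeG :
    ∃ G : LRing q M O, kXL haux hM hA hζ * kYL haux hM hA hζ = -((q : LRing q M O) * G) := by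
  set x := kXL haux hM hA hζ
  set y := kYL haux hM hA hζ
  have hq0 : (q : ℂ) ≠ 0 := Nat.cast_ne_zero.mpr (Fact.out : q.Prime).ne_zero
  set g : ℍ → ℂ := (fun _ => -(q : ℂ)⁻¹) * ((x * y : LRing q M O) : ℍ → ℂ) with hg
  have hgL : g ∈ LSub q M := mul_mem ((LSub q M).algebraMap_mem _) (x * y).2.2
  have hgser : ∀ γ, lexp (q * M) γ g = HahnSeries.C (-(q : ℂ)⁻¹) * serAt M O q γ (x * y) :=
    fun γ => lexp_eq ((ES.HasLExp.const _).mul (hasLExp_lexp (x * y).2.2.1 γ))
  have hle : ∀ γ, P.SerLE (P.abv q) (serAt M O q γ (x * y)) := by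
    intro γ
    rw [map_mul]
    by_cases hγ : γ ∈ Gamma0 q
    · exact CPlace.SerLE.serIn_mul (P.abv.nonneg _) (fun n => hO (serIn_serAt γ x n))
        (kronY_small hM haux hqm hγ)
    · exact CPlace.SerLE.mul_serIn (P.abv.nonneg _) (kronX_small hM haux hqm hγ)
        fun n => hO (serIn_serAt γ y n)
  have hmem : g ∈ LRing q M O := mem_LRing.mpr ⟨hgL, fun γ n => by
    rw [hgser, HahnSeries.C_apply, HahnSeries.coeff_single_zero_mul]
    obtain ⟨w, hw⟩ := dvd_of_abv_le hO' (x := (⟨_, serIn_serAt γ (x * y) n⟩ : O)) (y := (q : O))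
      natCast_q_ne_zero (by simpa using hle γ n)
    have hw' : (serAt M O q γ (x * y)).coeff n = (q : ℂ) * (w : ℂ) := by
      simpa using congrArg Subtype.val hw
    rw [hw', neg_mul, inv_mul_cancel_left₀ hq0]
    exact O.neg_mem w.2⟩
  refine ⟨⟨g, hmem⟩, Subtype.ext (funext fun τ => ?_)⟩
  show ((x * y : LRing q M O) : ℍ → ℂ) τ =
    -(((q : LRing q M O) : ℍ → ℂ) τ * ((-(q : ℂ)⁻¹) * ((x * y : LRing q M O) : ℍ → ℂ) τ))
  rw [show ((q : LRing q M O) : ℍ → ℂ) τ = (q : ℂ) by simp]
  field_simp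

/-- The function `G` with `X Y = - q G`. -/
def nodeG : LRing q M O := (exists_nodeG haux hM hA hζ hO hO' hqm).choose

/-- `X Y = - q G`. -/
theorem kXL_mul_kYL : kXL haux hM hA hζ * kYL haux hM hA hζ =
    -((q : LRing q M O) * nodeG haux hM hA hζ hO hO' hqm) :=
  (exists_nodeG haux hM hA hζ hO hO' hqm).choose_spec

include hA in
/-- The factors `t - r` of the cusps are invertible. -/
theorem exists_haupt_sub_inv {r : O}
    (h : (r : ℂ) = 0 ∨ (r : ℂ) = 1 ∨ (r : ℂ) = hauptRoot haux) :
    ∃ w : BRing M O, (tRing haux hA - ⟨_, ES.const_mem_BRing r.2⟩) * w = 1 := by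
  have key : ∀ (w : ℍ → ℂ), w ∈ BRing M O → (∀ τ, (haupt haux.dvd τ - r) * w τ = 1) →
      ∃ w : BRing M O, (tRing haux hA - ⟨_, ES.const_mem_BRing r.2⟩) * w = 1 :=
    fun w hw hmul => ⟨⟨w, hw⟩, Subtype.ext (funext hmul)⟩
  have h0 : (r : ℂ) = 0 → ∃ w : BRing M O,
      (tRing haux hA - ⟨_, ES.const_mem_BRing r.2⟩) * w = 1 := fun hr =>
    key _ (ES.polFun_mem_BRing haux hA (ES.two_le haux)) fun τ => by
      have := congrFun (ES.polFun_two_mul_haupt haux) τ
      simp only [Pi.mul_apply, Pi.one_apply] at this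
      rw [hr, sub_zero, mul_comm]; exact this
  rcases h with hr | hr | hr
  · exact h0 hr
  · refine key _ (ES.polFun_mem_BRing haux hA (j := 0) (Nat.zero_le _)) fun τ => ?_
    have := congrFun (ES.polFun_zero_mul haux) τ
    simp only [Pi.mul_apply, Pi.one_apply, Pi.sub_apply] at this
    rw [hr, mul_comm]; exact this
  · by_cases hm : m = 3
    · obtain ⟨-, -, -, α, hα, hαe⟩ := ES.polFun_three haux hm hA
      refine key _ (mul_mem (ES.const_mem_BRing hα.2.2)
        (ES.polFun_mem_BRing haux hA (j := 3) (by omega))) fun τ => ?_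
      rw [hr, Pi.mul_apply, mul_left_comm, mul_comm (_ - _), hαe τ, inv_mul_cancel₀ hα.1]
    · exact h0 (by rw [hr, ES.hauptRoot, if_neg hm])

section Series

variable [IsDiscreteValuationRing O]

include hO hO' hqm in
/-- The residual expansions at `∞` of `X` and `G` in terms of `V = (t(qτ) - h^q) / q`. -/
private lemma exists_kron_quotient : ∃ V : LaurentSeries O,
    expandL q (cuspSer O 1 (tRing haux hA)) - cuspSer O 1 (hQ haux hM hA) ^ q = q * V ∧
    resSer M O q 1 (kXL haux hM hA hζ) = expandL q (liftSer (IsLocalRing.residue O)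
      (cuspSer O 1 (tRing haux hA) - expandL q (cuspSer O 1 (hQ haux hM hA)) ^ q)) ∧
    resSer M O q 1 (nodeG haux hM hA hζ hO hO' hqm) = -expandL q (liftSer (IsLocalRing.residue O)
      (cuspSer O 1 (tRing haux hA) - expandL q (cuspSer O 1 (hQ haux hM hA)) ^ q) *
        liftSer (IsLocalRing.residue O) V) := by
  set To := cuspSer O 1 (tRing haux hA)
  set Qo := cuspSer O 1 (hQ haux hM hA)
  set X := kXL haux hM hA hζ
  set G := nodeG haux hM hA hζ hO hO' hqm
  have hXo : serO M O q 1 X = expandL q (To - expandL q Qo ^ q) := by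
    simp only [X, kXL, map_sub, map_pow, serO_raiseL, serO_dilL_one, To, Qo]
  have hYo : serO M O q 1 (kYL haux hM hA hζ) = expandL q (expandL q To - Qo ^ q) := by
    simp only [kYL, map_sub, map_pow, serO_raiseL, serO_dilL_one, To, Qo]
  obtain ⟨V, hV⟩ := exists_natCast_mul hO' (s := expandL q To - Qo ^ q) (fun n => by
    have h := kronY_small (P := P) hM haux hqm (one_mem _) ((q : ℤ) * n)
    rw [← coe_kYL haux hM hA hζ, ← serAt_apply, ← liftSer_serO, hYo, liftSer_expandL,
      expandL_coeff_mul] at h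
    exact h)
  have hGo : serO M O q 1 G = -expandL q ((To - expandL q Qo ^ q) * V) := by
    have h := congrArg (serO M O q 1) (kXL_mul_kYL haux hM hA hζ hO hO' hqm)
    rw [map_mul, map_neg, map_mul, map_natCast, hXo, hYo, hV, map_mul, map_natCast,
      mul_left_comm, ← map_mul, eq_neg_iff_add_eq_zero, ← mul_add] at h
    exact eq_neg_of_add_eq_zero_right ((mul_eq_zero.mp h).resolve_left natCast_q_laurent_ne_zero)
  refine ⟨V, hV, ?_, ?_⟩
  · show liftSer _ (serO M O q 1 X) = _
    rw [hXo, liftSer_expandL]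
  · show liftSer _ (serO M O q 1 G) = _
    rw [hGo, map_neg, liftSer_expandL, map_mul]

/-- Differentiating `q V = T(qτ) - Q^q` and reducing. -/
private lemma thetaSer_residue_quotient {To Qo V : LaurentSeries O}
    (hV : expandL q To - Qo ^ q = q * V) :
    thetaSer (liftSer (IsLocalRing.residue O) V) =
      expandL q (thetaSer (liftSer (IsLocalRing.residue O) To)) -
        liftSer (IsLocalRing.residue O) Qo ^ (q - 1) *
          thetaSer (liftSer (IsLocalRing.residue O) Qo) := by
  have hθV : thetaSer V = expandL q (thetaSer To) - Qo ^ (q - 1) * thetaSer Qo := by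
    refine mul_left_cancel₀ (natCast_q_laurent_ne_zero (q := q) (O := O)) ?_
    have h := congrArg thetaSer hV
    obtain ⟨k, hk⟩ : ∃ k, q = k + 1 :=
      ⟨q - 1, (Nat.sub_add_cancel (Fact.out : q.Prime).one_le).symm⟩
    rw [thetaSer_mul, map_sub, thetaSer_expandL,
      show thetaSer (q : LaurentSeries O) = 0 by
        rw [← map_natCast (HahnSeries.C (Γ := ℤ) (R := O)), thetaSer_C], zero_mul, zero_add] at h
    rw [← h, mul_sub]
    congr 1
    rw [show thetaSer (Qo ^ q) = thetaSer (Qo ^ (k + 1)) by rw [hk], thetaSer_pow_succ, ← hk,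
      show q - 1 = k by omega, mul_assoc]
  rw [← liftSer_thetaSer, ← liftSer_thetaSer, ← liftSer_thetaSer, hθV, map_sub, map_mul,
    map_pow, liftSer_expandL]

include hO' in
/-- `T(qτ)` reduces to `Q^q`. -/
private lemma expandL_residue_eq_pow {To Qo V : LaurentSeries O}
    (hV : expandL q To - Qo ^ q = q * V) :
    expandL q (liftSer (IsLocalRing.residue O) To) = liftSer (IsLocalRing.residue O) Qo ^ q := by
  rw [← sub_eq_zero, ← liftSer_expandL, ← map_pow, ← map_sub, hV, map_mul, map_natCast, show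
    ((q : ℕ) : LaurentSeries (IsLocalRing.ResidueField O)) = 0 from ?_, zero_mul]
  rw [← map_natCast (HahnSeries.C (Γ := ℤ) (R := IsLocalRing.ResidueField O)),
    ← map_natCast (IsLocalRing.residue O), (IsLocalRing.residue_eq_zero_iff _).mpr
      ((hO'.mem_maximalIdeal_iff _).mpr (by simpa using P.lt_one)), map_zero]

include hM hA hζ hO hO' hqm in
/-- The residual weight: derivations act through it, it is its own Frobenius, and the trace of the
Hasse function inverts its `(q - 1)`-st power. -/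
private lemma exists_residual_weight : ∃ W : LaurentSeries (IsLocalRing.ResidueField O),
    (∀ f : BRing M O, thetaSer (resCusp M O 1 f) =
      W * resCusp M O 1 ⟨_, dW_mem_BRing haux hA f.2⟩) ∧
    W ≠ 0 ∧ expandL q W = W ^ q ∧ resCusp M O 1 (eta haux hM hA hζ) * W ^ (q - 1) = 1 := by
  obtain ⟨Wo, hWo⟩ := ES.exists_liftSer (O := O) (wSer_inv_serIn haux hA 1).1
  refine ⟨liftSer (IsLocalRing.residue O) Wo, fun f => ?_, fun h0 => ?_, ?_, ?_⟩
  · have h : thetaSer (cuspSer O 1 f) = Wo * cuspSer O 1 ⟨_, dW_mem_BRing haux hA f.2⟩ := by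
      refine ES.liftSer_injective O.subtype_injective ?_
      rw [map_mul, liftSer_thetaSer, ES.liftSer_cuspSer, ES.liftSer_cuspSer, hWo,
        mul_comm, lexp_dW haux f.2.1 1]
    show thetaSer (liftSer _ (cuspSer O 1 f)) = _
    rw [← liftSer_thetaSer, h, map_mul]
    rfl
  · refine not_unitCoeff_of_residue (P := P) hO' h0 ?_
    rw [hWo]
    obtain ⟨k, hk⟩ := leadUnit_auxW_conj haux hA 1
    exact ⟨k, P.abv_eq_one_of_unitIn
      ⟨hk.unitIn_coeff.1, hO hk.unitIn_coeff.2.1, hO hk.unitIn_coeff.2.2⟩⟩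
  · rw [← sub_eq_zero, ← liftSer_expandL, ← map_pow, ← map_sub]
    refine liftSer_residue_eq_zero (P := P) hO' fun n => ?_
    rw [map_sub, map_pow, liftSer_expandL, hWo, wSer, ES.vmul_one, ES.vmul_one]
    have hp := (frobPair_difLaurent (P := P) hM (ES.adm_ref haux).left
      (ES.adm_ref haux).right).serLE n
    obtain ⟨hB, hA'⟩ := qFix_ref (q := q) haux hqm
    rw [difLaurent_congr_sign hB hA'] at hp
    exact hp.trans_lt (by simpa using P.lt_one)
  · refine expandL_injective q ?_
    have h1 : resSer M O q 1 (raiseL M (eta haux hM hA hζ) - hasseL haux hM hA hζ) = 0 :=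
      resSer_eq_zero_of_mem_pInf hO hO' (eta_sub_mem_pInf hO haux hM hA hζ) (one_mem _)
    rw [map_sub, resSer_raiseL, sub_eq_zero] at h1
    rw [map_mul, h1, map_one]
    show liftSer _ (serO M O q 1 (hasseL haux hM hA hζ)) * expandL q (_ ^ (q - 1)) = 1
    rw [← map_pow, ← liftSer_expandL, ← map_mul, ← sub_eq_zero,
      ← map_one (liftSer (IsLocalRing.residue O)), ← map_sub]
    refine liftSer_residue_eq_zero (P := P) hO' ?_
    rw [map_sub, map_mul, map_one, liftSer_serO, liftSer_expandL, map_pow, hWo]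
    exact hasse_ser haux hM hA hζ hO hqm (one_mem _)

/-- Constants are fixed by `τ ↦ qτ`. -/
private lemma expandL_resCusp_const (r : O) :
    expandL q (resCusp M O 1 ⟨_, ES.const_mem_BRing r.2⟩) =
      resCusp M O 1 ⟨_, ES.const_mem_BRing r.2⟩ := by
  have e : cuspSer O 1 (⟨_, ES.const_mem_BRing r.2⟩ : BRing M O) = HahnSeries.C r :=
    ES.liftSer_injective O.subtype_injective (by
      rw [ES.liftSer_cuspSer, lexp_eq (ES.HasLExp.const _)]
      ext n
      rcases eq_or_ne n 0 with rfl | hn <;> simp [ES.coeff_liftSer, HahnSeries.C_apply, *])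
  show expandL q (liftSer _ _) = liftSer _ _
  rw [e, ← liftSer_expandL, HahnSeries.C_apply, expandL_single, mul_zero]

end Series

section Crossing

include hO hO' hqm

variable {𝔪 : Ideal (LRing q M O)} [h𝔪 : 𝔪.IsMaximal] {τ0 : ℍ} (hg : GoodPoint haux O τ0)
  (hinf : pInf hO ≤ 𝔪) (hzero : pZero hO ≤ 𝔪)
  (ht : raiseL M (tPar haux hA hg) ∈ 𝔪)
include hinf hzero ht

/-- At a crossing point `X` is `t - t(τ0)` times a unit on the component at `∞`. -/
theorem exists_kXL_param :
    ∃ u : BRing M O, raiseL M u ∉ 𝔪 ∧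
      kXL haux hM hA hζ - raiseL M (tPar haux hA hg * u) ∈ pInf hO := by
  have := hO'.dvr
  obtain ⟨ϖ, hϖ⟩ := IsDiscreteValuationRing.exists_irreducible O
  set a : O := ⟨_, hg.val.mem⟩
  set tr := tRing haux hA
  set ca : BRing M O := ⟨_, ES.const_mem_BRing a.2⟩
  have hTa : tPar haux hA hg = tr - ca := rfl
  set N := q * q
  set u : BRing M O := 1 - ∑ i ∈ Finset.range N, tr ^ i * ca ^ (N - 1 - i)
  have hca : (raiseL M ca : LRing q M O) = constL a := rfl
  have hq𝔪 : (q : LRing q M O) ∈ 𝔪 := by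
    obtain ⟨c, hc⟩ : ϖ ∣ (q : O) := by
      rw [← Ideal.mem_span_singleton, ← hϖ.maximalIdeal_eq, hO'.mem_maximalIdeal_iff]
      simpa using P.lt_one
    rw [← map_natCast (constL (q := q) (M := M) (O := O)), hc, map_mul]
    exact Ideal.mul_mem_right _ _ (hinf (constL_unif_mem hO hO' hϖ _))
  refine ⟨u, fun hu => ?_, ?_⟩
  · have hsum : (Ideal.Quotient.mk 𝔪) (raiseL M (∑ i ∈ Finset.range N,
        tr ^ i * ca ^ (N - 1 - i))) = 0 := by
      have htc : Ideal.Quotient.mk 𝔪 (raiseL M tr) = Ideal.Quotient.mk 𝔪 (raiseL M ca) :=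
        Ideal.Quotient.eq.mpr (by rw [← map_sub, ← hTa]; exact ht)
      have hqq : ((q : ℕ) : LRing q M O ⧸ 𝔪) = 0 := by
        rw [← map_natCast (Ideal.Quotient.mk 𝔪)]
        exact Ideal.Quotient.eq_zero_iff_mem.mpr hq𝔪
      rw [map_sum, map_sum, Finset.sum_eq_card_nsmul
        (b := Ideal.Quotient.mk 𝔪 (raiseL M ca) ^ (N - 1)) fun i hi => ?_]
      · rw [Finset.card_range, nsmul_eq_mul, Nat.cast_mul, hqq, zero_mul, zero_mul]
      · rw [map_mul, map_mul, map_pow, map_pow, map_pow, map_pow, htc, ← pow_add,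
          Nat.add_sub_cancel' (by have := Finset.mem_range.mp hi; omega)]
    rw [← Ideal.Quotient.eq_zero_iff_mem, map_sub, map_sub, hsum, map_one, map_one, sub_zero] at hu
    exact one_ne_zero hu
  · have hTu : tPar haux hA hg * u = tr - tr ^ N - (ca - ca ^ N) := by
      rw [mul_sub, mul_one, hTa, mul_comm (tr - ca), geom_sum₂_mul]
      ring
    have hkron : dilL hM hζ (hQ haux hM hA) - raiseL M tr ^ q ∈ pInf hO := fun γ hγ n => by
      rw [serAt_apply]
      exact (hauptQ_kron hM haux hγ n).trans_lt (by simpa using P.lt_one)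
    have h1 : kXL haux hM hA hζ - (raiseL M tr - raiseL M tr ^ N) ∈ pInf hO := by
      rw [kXL, sub_sub_sub_cancel_left]
      obtain ⟨c, hc⟩ := sub_dvd_pow_sub_pow (raiseL M tr ^ q) (dilL hM hζ (hQ haux hM hA)) q
      rw [← pow_mul] at hc
      rw [show N = q * q from rfl, hc]
      exact Ideal.mul_mem_right _ _ (by rw [← neg_sub]; exact neg_mem hkron)
    have h2 : (constL (a - a ^ N) : LRing q M O) ∈ pInf hO := by
      have hmem : (constL (a - a ^ N) : LRing q M O) ∈ 𝔪 := by
        have e1 : kXL haux hM hA hζ - (raiseL M tr - raiseL M tr ^ N) ∈ 𝔪 := hinf h1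
        have e2 : kXL haux hM hA hζ ∈ 𝔪 := hzero (kXL_mem_pZero haux hM hA hζ hO hqm)
        have e3 : raiseL M (tPar haux hA hg * u) ∈ 𝔪 := by
          rw [map_mul]; exact 𝔪.mul_mem_right _ ht
        rw [hTu] at e3
        have := sub_mem (sub_mem e2 e1) e3
        simp only [map_sub, map_pow, hca] at this ⊢
        convert this using 1
        ring
      obtain ⟨c, hc⟩ : ϖ ∣ a - a ^ N := by
        rw [← Ideal.mem_span_singleton, ← hϖ.maximalIdeal_eq, IsLocalRing.mem_maximalIdeal]
        exact fun hu => h𝔪.ne_top (Ideal.eq_top_of_isUnit_mem _ hmem (hu.map _))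
      rw [hc, map_mul]
      exact Ideal.mul_mem_right _ _ (constL_unif_mem hO hO' hϖ _)
    have := add_mem h1 h2
    rw [hTu]
    simp only [map_sub, map_pow, hca] at this ⊢
    convert this using 1
    ring

variable [IsDiscreteValuationRing O]

include hM hA hζ in
/-- If `G` vanishes at the crossing point then `s G ≡ X x` at `∞` with `s` nonzero there. -/
private lemma exists_inf_relation (hG : nodeG haux hM hA hζ hO hO' hqm ∈ 𝔪) :
    ∃ s ∉ 𝔪, ∃ x, s * nodeG haux hM hA hζ hO hO' hqm - kXL haux hM hA hζ * x ∈ pInf hO := by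
  obtain ⟨ϖ, hϖ⟩ := IsDiscreteValuationRing.exists_irreducible O
  set G := nodeG haux hM hA hζ hO hO' hqm
  set T := tPar haux hA hg
  set X := kXL haux hM hA hζ
  obtain ⟨u, hu, hXu⟩ := exists_kXL_param haux hM hA hζ hO hO' hqm hg hinf hzero ht
  obtain ⟨s0, hs0, c, x, hx⟩ := exists_inf_param haux hA hO hO' hM hg hinf ht hζ hqm G
  have hc : (constL c : LRing q M O) ∈ pInf hO := by
    obtain ⟨c', hc'⟩ : ϖ ∣ c := by
      rw [← Ideal.mem_span_singleton, ← hϖ.maximalIdeal_eq, IsLocalRing.mem_maximalIdeal]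
      intro hcu
      have e : s0 * constL c =
          s0 * G - raiseL M T * x - (s0 * (G - constL c) - raiseL M T * x) := by ring
      have hmem : s0 * constL c ∈ 𝔪 := by
        rw [e]
        exact sub_mem (sub_mem (𝔪.mul_mem_left _ hG) (𝔪.mul_mem_right _ ht)) (hinf hx)
      exact h𝔪.ne_top (Ideal.eq_top_of_isUnit_mem _
        ((h𝔪.isPrime.mem_or_mem hmem).resolve_left hs0) (hcu.map _))
    rw [hc', map_mul]
    exact Ideal.mul_mem_right _ _ (constL_unif_mem hO hO' hϖ _)
  refine ⟨raiseL M u * s0, fun h => (h𝔪.isPrime.mem_or_mem h).elim hu hs0, x, ?_⟩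
  have e : raiseL M u * s0 * G - X * x =
      raiseL M u * (s0 * (G - constL c) - raiseL M T * x) +
        raiseL M u * s0 * constL c - (X - raiseL M (T * u)) * x := by
    rw [map_mul]; ring
  rw [e]
  exact sub_mem (add_mem (Ideal.mul_mem_left _ _ hx) (Ideal.mul_mem_left _ _ hc))
    (Ideal.mul_mem_right _ _ hXu)

include hM hA hζ in
/-- If `G` vanishes at the crossing point then `x₁ ≡ s₁ V` at level `M`, with `s₁` nonzero
there. -/
private lemma exists_levelM_relation (hG : nodeG haux hM hA hζ hO hO' hqm ∈ 𝔪)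
    {Xb Vb : LaurentSeries (IsLocalRing.ResidueField O)}
    (hρX : resSer M O q 1 (kXL haux hM hA hζ) = expandL q Xb)
    (hρG : resSer M O q 1 (nodeG haux hM hA hζ hO hO' hqm) = -expandL q (Xb * Vb)) :
    ∃ s₁ x₁ : BRing M O, raiseL M s₁ ∉ 𝔪 ∧ resCusp M O 1 x₁ = resCusp M O 1 s₁ * Vb := by
  set E := expandL (R := IsLocalRing.ResidueField O) q
  set χ := resCusp M O 1
  set ρ := resSer M O q 1
  have hρ : ∀ x : BRing M O, ρ (raiseL M x) = E (χ x) := resSer_raiseL 1
  have hρ0 : ∀ {f : LRing q M O}, f ∈ pInf hO → ρ f = 0 := fun h =>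
    resSer_eq_zero_of_mem_pInf hO hO' h (one_mem _)
  have hEinj : Function.Injective E := expandL_injective q
  obtain ⟨u, hu, hXu⟩ := exists_kXL_param haux hM hA hζ hO hO' hqm hg hinf hzero ht
  obtain ⟨s, hs, x, hrel⟩ := exists_inf_relation haux hM hA hζ hO hO' hqm hg hinf hzero ht hG
  have hTne : χ (tPar haux hA hg) ≠ 0 :=
    resCusp_ne_zero hO' (ES.unitCoeff_tSub P haux hM ⟨_, hO hg.val.mem⟩)
  have hXne : E Xb ≠ 0 := by
    rw [← hρX]
    have h := hρ0 hXu
    rw [map_sub, hρ, map_mul, sub_eq_zero] at h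
    rw [h]
    exact (map_ne_zero_iff E hEinj).mpr (mul_ne_zero hTne fun h0 =>
      hu (hinf (raiseL_mem_pInf_of_resCusp hO hO' haux hM h0)))
  have hρx : ρ x = -(ρ s * E Vb) := by
    have h := hρ0 hrel
    rw [map_sub, map_mul ρ s, map_mul ρ _ x, hρX, hρG, map_mul E] at h
    refine mul_left_cancel₀ hXne ?_
    linear_combination -h
  obtain ⟨w1, u1, hw1, h1⟩ := exists_levelM_congr haux hA hO hO' hM hg hinf ht hζ hqm s
  obtain ⟨w2, u2, hw2, h2⟩ := exists_levelM_congr haux hA hO hO' hM hg hinf ht hζ hqm x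
  have hu1 : raiseL M u1 ∉ 𝔪 := fun h => by
    have := add_mem (hinf h1) h
    rw [sub_add_cancel] at this
    exact (h𝔪.isPrime.mem_or_mem this).elim hw1 hs
  refine ⟨u1 * w2, -(u2 * w1), fun h => ?_, hEinj ?_⟩
  · rw [map_mul] at h
    exact (h𝔪.isPrime.mem_or_mem h).elim hu1 hw2
  · have e1 := hρ0 h1
    have e2 := hρ0 h2
    rw [map_sub, map_mul, hρ, hρ] at e1 e2
    simp only [map_neg, map_mul]
    linear_combination E (χ w1) * e2 + E (χ w2) * E Vb * e1 - E (χ w1) * E (χ w2) * hρx

omit hzero ht in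
include hM hA hζ in
/-- The product formula for `D t / W`, with a product of cusp factors nonzero at the point. -/
private lemma exists_cusp_product
    (hET : expandL q (resCusp M O 1 (tRing haux hA)) = resCusp M O 1 (hQ haux hM hA) ^ q) :
    ∃ (e : ℕ) (cQ PP : BRing M O), raiseL M PP ∉ 𝔪 ∧
      expandL q (resCusp M O 1 ⟨_, dW_mem_BRing haux hA (tRing haux hA).2⟩) *
        resCusp M O 1 cQ ^ e = resCusp M O 1 PP := by
  set E := expandL (R := IsLocalRing.ResidueField O) q
  set χ := resCusp M O 1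
  set Q := hQ haux hM hA
  obtain ⟨e, a, L, ha, hL, hshape⟩ := exists_dW_haupt_shape (q := q) haux hO hA hM
  let cst : O → BRing M O := fun r => ⟨_, ES.const_mem_BRing r.2⟩
  refine ⟨e, Q ^ q * (Q ^ q - 1) * (Q ^ q - cst ⟨_, (ES.hauptRoot_spec haux hA).1⟩),
    cst a * (L.map fun r => Q ^ q - cst r).prod, fun hP => ?_, ?_⟩
  · simp only [map_mul, map_multiset_prod, Multiset.map_map] at hP
    rcases h𝔪.isPrime.mem_or_mem hP with hP | hP
    · have hau : IsUnit a := (hO'.isUnit_iff a).mpr ha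
      exact h𝔪.ne_top (Ideal.eq_top_of_isUnit_mem _ hP (hau.map (constL (q := q) (M := M))))
    rw [h𝔪.isPrime.multiset_prod_mem_iff_exists_mem] at hP
    obtain ⟨z, hz, hz𝔪⟩ := hP
    obtain ⟨r, hr, rfl⟩ := Multiset.mem_map.mp hz
    obtain ⟨w, hw⟩ := exists_haupt_sub_inv haux hA (hL r hr)
    have h1 : dilL hM hζ (tRing haux hA - cst r) ∈ 𝔪 := by
      have hY := hinf (kYL_mem_pInf haux hM hA hζ hO hqm)
      have := add_mem hY hz𝔪
      simp only [Function.comp_apply, map_sub, map_pow, kYL] at this ⊢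
      rw [show dilL hM hζ (cst r) = raiseL M (cst r) from rfl]
      convert this using 1
      ring
    exact h𝔪.ne_top (Ideal.eq_top_of_isUnit_mem _ h1 ((IsUnit.of_mul_eq_one w hw).map _))
  · have hcst : ∀ r, E (χ (cst r)) = χ (cst r) := expandL_resCusp_const
    have h := congrArg (fun z => E (χ z)) hshape
    simp only [map_mul, map_pow, map_multiset_prod, Multiset.map_map, cuspElt, map_sub, map_one,
      Function.comp_def] at h
    simp only [map_mul, map_pow, map_sub, map_one, map_multiset_prod, Multiset.map_map,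
      Function.comp_def]
    simp only [cst] at hcst ⊢
    simp only [hcst, show E (χ (tRing haux hA)) = χ Q ^ q from hET] at h
    rw [← hcst ⟨_, (ES.hauptRoot_spec haux hA).1⟩]
    exact h

omit [IsDiscreteValuationRing O] in
include hM hζ in
/-- **`G` is a unit at every crossing point.** -/
theorem nodeG_not_mem : nodeG haux hM hA hζ hO hO' hqm ∉ 𝔪 := by
  have := hO'.dvr
  intro hG𝔪
  set E := expandL (R := IsLocalRing.ResidueField O) q
  set χ := resCusp M O 1
  obtain ⟨V, hV, hρX, hρG⟩ := exists_kron_quotient haux hM hA hζ hO hO' hqm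
  set Vb := liftSer (IsLocalRing.residue O) V
  obtain ⟨s1, x1, hs1, hx1⟩ :=
    exists_levelM_relation haux hM hA hζ hO hO' hqm hg hinf hzero ht hG𝔪 hρX hρG
  obtain ⟨Wb, hθ, hWne, hEW, hη⟩ := exists_residual_weight haux hM hA hζ hO hO' hqm
  obtain ⟨e, cQ, PP, hPP, hshape⟩ := exists_cusp_product haux hM hA hζ hO hO' hqm hinf
    (expandL_residue_eq_pow hO' hV)
  set Q := hQ haux hM hA
  set tR := tRing haux hA
  let dEl : BRing M O → BRing M O := fun f => ⟨_, dW_mem_BRing haux hA f.2⟩
  set δt := χ (dEl tR)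
  -- differentiation
  have hmain : Wb * (χ s1 * χ (dEl x1) - χ (dEl s1) * χ x1 +
      χ s1 ^ 2 * χ Q ^ (q - 1) * χ (dEl Q)) = χ s1 ^ 2 * Wb ^ q * E δt := by
    have h := congrArg thetaSer hx1
    have hV' : thetaSer Vb = E (thetaSer (χ tR)) - χ Q ^ (q - 1) * thetaSer (χ Q) :=
      thetaSer_residue_quotient hV
    rw [thetaSer_mul, hθ, hθ, hV', hθ, hθ, map_mul E, hEW] at h
    linear_combination χ s1 * h - Wb * χ (dEl s1) * hx1
  set F := cQ ^ e * (s1 * dEl x1 - dEl s1 * x1 + s1 ^ 2 * Q ^ (q - 1) * dEl Q)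
  have hF : χ (PP * s1 ^ 2) * Wb ^ (q - 1) = χ F := by
    refine mul_left_cancel₀ hWne ?_
    simp only [F, map_mul, map_add, map_sub, map_pow]
    rw [← show E δt * χ cQ ^ e = χ PP from hshape,
      show Wb * (E δt * χ cQ ^ e * χ s1 ^ 2 * Wb ^ (q - 1)) =
        χ cQ ^ e * (χ s1 ^ 2 * (Wb * Wb ^ (q - 1)) * E δt) by ring, ← pow_succ',
      Nat.sub_add_cancel (Fact.out : q.Prime).one_le, ← hmain]
    ring
  -- the trace of the Hasse function
  set η := eta haux hM hA hζ
  have hD : raiseL M (PP * s1 ^ 2 - η * F) ∈ 𝔪 := hinf (raiseL_mem_pInf_of_resCusp hO hO' haux hM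
    (by
      show χ (PP * s1 ^ 2 - η * F) = 0
      rw [map_sub, map_mul χ η F, ← hF, mul_left_comm, hη, mul_one, sub_self]))
  have hη𝔪 : raiseL M η ∈ 𝔪 := by
    have := add_mem (hinf (eta_sub_mem_pInf hO haux hM hA hζ))
      (hzero (hasseL_mem_pZero haux hM hA hζ hO))
    rwa [sub_add_cancel] at this
  have hP : raiseL M (PP * s1 ^ 2) ∈ 𝔪 := by
    have := add_mem hD (𝔪.mul_mem_right (raiseL M F) hη𝔪)
    rwa [← map_mul, ← map_add, sub_add_cancel] at this
  rw [map_mul, map_pow] at hP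
  exact (h𝔪.isPrime.mem_or_mem hP).elim hPP fun h => hs1 (h𝔪.isPrime.mem_of_pow_mem _ h)

end Crossing

end FermatAgent.BAD
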