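import Fermat.Agent.BAD.Level
import Fermat.Agent.ES.Cong.Normalize

/-!
# Parabolic characters trivial at level `2` or `3`, and the level `q N'`

A parabolic character of `Γ₀(N)` trivial on `Γ₀(N) ∩ Γ(m)`, `m ∈ {2, 3}`, is trivial, and a prime
`q` exactly dividing `N` has an auxiliary level `M` prime to `q` with `Γ₀(q) ∩ Γ(M) ⊆ Γ₀(N)`.
-/

set_option autoImplicit false

open CongruenceSubgroup
open scoped MatrixGroups

noncomputable section

namespace FermatAgent.BAD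

open FermatAgent.ES (IsParChar AuxLevel)

/-- The lower triangular unipotent matrix. -/
def lowU (c : ℤ) : SL(2, ℤ) := ⟨!![1, 0; c, 1], by simp [Matrix.det_fin_two]⟩

/-- The matrix of a lower unipotent element. -/
theorem coe_lowU (c : ℤ) : (lowU c).1 = !![1, 0; c, 1] := rfl

theorem trace_lowU (c : ℤ) : (lowU c).1.trace ^ 2 = 4 := by
  simp [lowU, Matrix.trace_fin_two]

/-- A lower unipotent matrix with entry divisible by `N` lies in `Γ₀(N)`. -/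
theorem lowU_mem_Gamma0 {N : ℕ} {c : ℤ} (h : (c : ZMod N) = 0) : lowU c ∈ Gamma0 N := by
  rw [Gamma0_mem]
  simpa [lowU] using h

theorem zmod_prod_one_small {m : ℕ} (hm : m = 2 ∨ m = 3) {a d : ZMod m} (h : a * d = 1) :
    a = d ∧ (a = 1 ∨ a = -1) := by
  rcases hm with rfl | rfl <;> revert a d <;> decide

/-- Parabolic characters trivial on `Γ ∩ Γ(m)`, `m ∈ {2, 3}`, are trivial. -/
theorem parChar_eq_one {Γ : Subgroup SL(2, ℤ)} (hT : ModularGroup.T ∈ Γ) (hneg : -1 ∈ Γ)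
    (hlow : ∀ γ ∈ Γ, lowU (γ 1 0) ∈ Γ) {m : ℕ} (hm : m = 2 ∨ m = 3) (χ : Γ →* ℂˣ)
    (hχ : IsParChar Γ χ) (htriv : ∀ (δ : SL(2, ℤ)) (hδ : δ ∈ Γ), δ ∈ Gamma m → χ ⟨δ, hδ⟩ = 1) :
    χ = 1 := by
  have : Fact m.Prime := ⟨by rcases hm with rfl | rfl <;> norm_num⟩
  have hTz : ∀ x : ℤ, χ ⟨ModularGroup.T ^ x, zpow_mem hT x⟩ = 1 := fun x => hχ _ (by
    show Matrix.trace (ModularGroup.T ^ x).1 ^ 2 = 4
    rw [ModularGroup.coe_T_zpow]; simp [Matrix.trace_fin_two])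
  have hN : χ ⟨-1, hneg⟩ = 1 := hχ _ (by simp [Matrix.trace_neg])
  refine MonoidHom.ext fun γ => ?_
  obtain ⟨γ, hγ⟩ := γ
  rw [MonoidHom.one_apply]
  -- a product of parabolic elements congruent to `γ`
  have key : ∀ E : Γ, χ E = 1 →
      Matrix.SpecialLinearGroup.map (Int.castRingHom (ZMod m)) (E : SL(2, ℤ)) =
        Matrix.SpecialLinearGroup.map (Int.castRingHom (ZMod m)) γ → χ ⟨γ, hγ⟩ = 1 := by
    intro E hE hmap
    have hδ : (E : SL(2, ℤ))⁻¹ * γ ∈ Gamma m := by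
      rw [Gamma_mem', map_mul, map_inv, hmap, inv_mul_cancel]
    have h := htriv _ (mul_mem (inv_mem E.2) hγ) hδ
    rw [show (⟨γ, hγ⟩ : Γ) = E * ⟨(E : SL(2, ℤ))⁻¹ * γ, mul_mem (inv_mem E.2) hγ⟩ from
      Subtype.ext (mul_inv_cancel_left _ _).symm, map_mul, hE, h, one_mul]
  have hdet : (γ 0 0 : ZMod m) * γ 1 1 - (γ 0 1 : ZMod m) * γ 1 0 = 1 := by
    have h := γ.2
    rw [Matrix.det_fin_two] at h
    exact_mod_cast congrArg (Int.cast : ℤ → ZMod m) h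
  by_cases hc : (γ 1 0 : ZMod m) = 0
  · rw [hc, mul_zero, sub_zero] at hdet
    obtain ⟨had, ha⟩ := zmod_prod_one_small hm hdet
    rcases ha with ha | ha
    · refine key ⟨_, zpow_mem hT (γ 0 1)⟩ (hTz _) ?_
      ext i j
      fin_cases i <;> fin_cases j <;>
        simp [-map_zpow, ModularGroup.coe_T_zpow, ha, ← had, hc]
    · refine key (⟨-1, hneg⟩ * ⟨_, zpow_mem hT (-γ 0 1)⟩) (by rw [map_mul, hN, hTz, one_mul]) ?_
      ext i j
      fin_cases i <;> fin_cases j <;>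
        simp [-map_zpow, -zpow_neg, ModularGroup.coe_T_zpow, ha, ← had, hc]
  · obtain ⟨x, hx⟩ := ZMod.intCast_surjective (((γ 0 0 : ZMod m) - 1) / (γ 1 0 : ZMod m))
    obtain ⟨z, hz⟩ := ZMod.intCast_surjective (((γ 1 1 : ZMod m) - 1) / (γ 1 0 : ZMod m))
    refine key (⟨_, zpow_mem hT x⟩ * ⟨_, hlow γ hγ⟩ * ⟨_, zpow_mem hT z⟩)
      (by rw [map_mul, map_mul, hTz, hTz, hχ ⟨_, hlow γ hγ⟩ (trace_lowU _), one_mul, one_mul]) ?_
    have ex : (x : ZMod m) * γ 1 0 = γ 0 0 - 1 := by rw [hx, div_mul_cancel₀ _ hc]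
    have ez : (γ 1 0 : ZMod m) * z = γ 1 1 - 1 := by rw [hz, mul_div_cancel₀ _ hc]
    have e01 : (x : ZMod m) + z + x * γ 1 0 * z = γ 0 1 := by
      apply mul_left_cancel₀ hc
      linear_combination (1 + (γ 1 0 : ZMod m) * z) * ex + (γ 0 0 : ZMod m) * ez + hdet
    ext i j
    fin_cases i <;> fin_cases j <;>
      simp [-map_zpow, ModularGroup.coe_T_zpow, coe_lowU, Matrix.mul_apply, Fin.sum_univ_two]
    · linear_combination ex
    · linear_combination e01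
    · linear_combination ez

/-- A parabolic character of `Γ₀(N)` trivial on its level `m` part, `m ∈ {2, 3}`, is trivial. -/
theorem parChar_eq_one_Gamma0 (N : ℕ) {m : ℕ} (hm : m = 2 ∨ m = 3) (χ : Gamma0 N →* ℂˣ)
    (hχ : IsParChar (Gamma0 N) χ)
    (htriv : ∀ (δ : SL(2, ℤ)) (hδ : δ ∈ Gamma0 N), δ ∈ Gamma m → χ ⟨δ, hδ⟩ = 1) : χ = 1 :=
  parChar_eq_one (ES.goodLevel_Gamma0 N).T_mem (ES.goodLevel_Gamma0 N).neg_mem
    (fun _ hγ => lowU_mem_Gamma0 (Gamma0_mem.mp hγ)) hm χ hχ htriv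

/-- The auxiliary level attached to a prime exactly dividing `N`. -/
theorem exists_level {q N : ℕ} [NeZero N] [Fact q.Prime] (hqN : q ∣ N) (hq2 : ¬ q ^ 2 ∣ N) :
    ∃ M m r : ℕ, NeZero M ∧ AuxLevel M m ∧ M.Coprime q ∧ q ≠ m ∧ N ∣ q * M ∧ r ≠ 0 ∧
      12 * N = r * (q * M) ∧ lam q M ≤ Gamma0 N ∧ Gamma0 N ≤ Gamma0 q := by
  have hq : q.Prime := Fact.out
  obtain ⟨N', rfl⟩ := hqN
  have : NeZero N' := ⟨right_ne_zero_of_mul (NeZero.ne (q * N'))⟩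
  have hN' : ¬ q ∣ N' := fun h => hq2 (by rw [sq]; exact mul_dvd_mul_left q h)
  obtain ⟨M, m, r, haux, hM, hNM, hr, h12⟩ := ES.exists_auxLevel_coprime hq hN'
  refine ⟨M, m, r, ⟨fun h => by have := haux.three_le; omega⟩, haux, hM, fun h => ?_,
    mul_dvd_mul_left q hNM, hr, by rw [mul_left_comm, h12, mul_left_comm], fun γ hγ => ?_,
    fun γ hγ => ?_⟩
  · exact hq.one_lt.ne' (Nat.dvd_one.mp (by
      rw [← hM.gcd_eq_one]; exact Nat.dvd_gcd (h ▸ haux.dvd) dvd_rfl))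
  · obtain ⟨h1, h2⟩ := Subgroup.mem_inf.mp hγ
    rw [Gamma0_mem, ZMod.intCast_zmod_eq_zero_iff_dvd, Nat.cast_mul]
    refine IsCoprime.mul_dvd ?_ (mem_Gamma0_dvd.mp h1) ?_
    · exact Nat.Coprime.isCoprime ((hq.coprime_iff_not_dvd).mpr hN')
    · exact (Int.natCast_dvd_natCast.mpr hNM).trans
        ((ZMod.intCast_zmod_eq_zero_iff_dvd _ _).mp (Gamma_mem.mp h2).2.2.1)
  · rw [Gamma0_mem, ZMod.intCast_zmod_eq_zero_iff_dvd, Nat.cast_mul] at hγ
    exact mem_Gamma0_dvd.mpr ((dvd_mul_right _ _).trans hγ)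

end FermatAgent.BAD
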