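import Fermat.Agent.BAD.Unipotent
import Fermat.Agent.BAD.GenLevel
import Fermat.Agent.ES.Tate.Module

/-!
# Inertia at a prime exactly dividing `N` is unipotent on the `p`-adic representation

`(τ - 1)² = 0` on the parabolic characters of `Γ₀(N)` of order prime to `q`, hence on the `p`-adic
representation on the parabolic homomorphisms.
-/

set_option autoImplicit false

open CongruenceSubgroup
open scoped MatrixGroups Matrix
open ModularCurve.Period
open FermatAgent.Period (parRank parabolicCoords)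

noncomputable section

namespace FermatAgent.BAD

open FermatAgent.ES (GQ parGroup galChar galPad galMat padChar)

/-- `(τ - 1)² = 0` on parabolic characters of `Γ₀(N)`, `q ∣∣ N`. -/
theorem galChar_unipotent_Gamma0 {q N : ℕ} [Fact q.Prime] [NeZero N] (hqN : q ∣ N)
    (hq2 : ¬ q ^ 2 ∣ N) {A : ValuationSubring (AlgebraicClosure ℚ)} (hA : A.LiesOverPrime q)
    {g : GQ} (hg : g ∈ A.inertiaSubgroupIn ℚ) {n : ℕ} [NeZero n] (hn : n.Coprime q)
    (φ : parGroup (Gamma0 N) n) :
    galChar (ES.goodLevel_Gamma0 N) n g (galChar (ES.goodLevel_Gamma0 N) n g φ) * φ =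
      galChar (ES.goodLevel_Gamma0 N) n g φ * galChar (ES.goodLevel_Gamma0 N) n g φ := by
  obtain ⟨M, m, r, hM0, haux, hM, hqm, hNM, hr, h12, hle, hq⟩ := exists_level hqN hq2
  have := hM0
  exact galChar_unipotent haux hM hqm (ES.goodLevel_Gamma0 N) hle hq hNM hr h12
    (parChar_eq_one_Gamma0 N haux.small) hA hg hn φ

variable (p : ℕ) [Fact p.Prime] {N : ℕ} [NeZero N]

/-- **`(τ - 1)² = 0`** on the `p`-adic representation, for inertia at `q ∣∣ N`, `q ≠ p`. -/
theorem galMat_unipotent {q : ℕ} (hq : q.Prime) (hqN : q ∣ N) (hq2 : ¬ q ^ 2 ∣ N) (hqp : q ≠ p)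
    {A : ValuationSubring (AlgebraicClosure ℚ)} (hA : A.LiesOverPrime q) {g : GQ}
    (hg : g ∈ A.inertiaSubgroupIn ℚ) : (galMat p N g - 1) ^ 2 = 0 := by
  have := Fact.mk hq
  have hp : p.Prime := Fact.out
  suffices h : galMat p N g * galMat p N g + 1 = galMat p N g + galMat p N g by
    rw [sq, sub_mul, mul_sub, one_mul, mul_one]
    linear_combination (norm := abel) h
  refine Matrix.ext_iff_mulVec.mpr fun v => ?_
  obtain ⟨ψ, rfl⟩ := (parabolicCoords (Gamma0 N) ℤ_[p] ℤ_[p]).surjective v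
  rw [Matrix.add_mulVec, Matrix.add_mulVec, ← Matrix.mulVec_mulVec, ES.galMat_mulVec,
    ES.galMat_mulVec, Matrix.one_mulVec, ← map_add, ← map_add]
  refine congrArg _ (ES.padChar_ext p fun k => ?_)
  rw [ES.padChar_add, ES.padChar_add, ES.padChar_galPad, ES.padChar_galPad]
  exact galChar_unipotent_Gamma0 hqN hq2 hA hg
    (Nat.Coprime.pow_left k ((Nat.coprime_primes hp hq).mpr (Ne.symm hqp))) _

end FermatAgent.BAD
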