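import Fermat.Agent.BAD.Dilate
import Fermat.Agent.ES.LemmaL

/-!
# Functions on `Γ₀(q) ∩ Γ(M)`: the two types of cusps and the Atkin operator

`LRing q M O` consists of the modular functions of level `qM` invariant under `Γ₀(q) ∩ Γ(M)` whose
expansions at all cusps have coefficients in `O`. The cusp `γ` has type `∞` or `0` according as
`γ` lies in `Γ₀(q)` or not; the Atkin operator, `f ↦ f(g • qτ)` for a `g ∈ Γ(M)`, is an
automorphism of `LRing q M O` exchanging the two types.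
-/

set_option autoImplicit false

open UpperHalfPlane CongruenceSubgroup
open scoped MatrixGroups

noncomputable section

namespace FermatAgent.BAD

open FermatAgent.ES (BSub BRing SerIn HasLExp lexp lexp_eq hasLExp_lexp lexp_act act
  twistSer zetaC modMat CPlace)

variable (q M : ℕ) [Fact q.Prime] [NeZero M]

/-- The level group. -/
def lam : Subgroup SL(2, ℤ) := Gamma0 q ⊓ Gamma M

variable {q M}

section

omit [Fact (Nat.Prime q)]

/-- Membership in `Γ₀(q)` says that `q` divides the lower left entry. -/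
theorem mem_Gamma0_dvd {γ : SL(2, ℤ)} : γ ∈ Gamma0 q ↔ (q : ℤ) ∣ γ 1 0 := by
  rw [Gamma0_mem, ZMod.intCast_zmod_eq_zero_iff_dvd]

omit [NeZero M] in
/-- `Γ(qM)` is contained in `Γ₀(q) ∩ Γ(M)`. -/
theorem gamma_qM_le : Gamma (q * M) ≤ lam q M := fun γ hγ => by
  refine ⟨?_, ES.gamma_le_of_dvd (dvd_mul_left M q) hγ⟩
  have h := (Gamma_mem.mp (ES.gamma_le_of_dvd (dvd_mul_right q M) hγ)).2.2.1
  exact Gamma0_mem.mpr h

omit [NeZero M] in
/-- `Γ₀(q)` normalises `Γ₀(q) ∩ Γ(M)`. -/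
theorem lam_normalised {δ γ : SL(2, ℤ)} (hδ : δ ∈ Gamma0 q) (hγ : γ ∈ lam q M) :
    δ * γ * δ⁻¹ ∈ lam q M :=
  Subgroup.mem_inf.mpr ⟨mul_mem (mul_mem hδ hγ.1) (inv_mem hδ), (Gamma_normal M).conj_mem γ hγ.2 δ⟩

end

variable (q M)

/-- The functions of level `q M` invariant under `lam q M`. -/
def LSub : Subalgebra ℂ (ℍ → ℂ) where
  carrier := {f | f ∈ BSub (q * M) ∧ ∀ γ ∈ lam q M, act γ f = f}
  mul_mem' {f g} hf hg := ⟨mul_mem hf.1 hg.1, fun γ hγ => by
    rw [ES.act_mulFun, hf.2 γ hγ, hg.2 γ hγ]⟩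
  add_mem' {f g} hf hg := ⟨add_mem hf.1 hg.1, fun γ hγ => by
    rw [ES.act_add, hf.2 γ hγ, hg.2 γ hγ]⟩
  algebraMap_mem' a := ⟨(BSub (q * M)).algebraMap_mem a, fun _ _ => rfl⟩

/-- Those with coefficients in `O`. -/
def LRing (O : Subring ℂ) : Subring (ℍ → ℂ) := BRing (q * M) O ⊓ (LSub q M).toSubring

variable {q M}

/-- An element of `LRing q M O` is an invariant function of level `qM` all whose expansions have
coefficients in `O`. -/
theorem mem_LRing {O : Subring ℂ} {f : ℍ → ℂ} :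
    f ∈ LRing q M O ↔ f ∈ LSub q M ∧ ∀ γ, SerIn O (lexp (q * M) γ f) :=
  ⟨fun h => ⟨h.2, h.1.2⟩, fun h => ⟨⟨h.1.1, h.2⟩, h.1⟩⟩

/-- `LRing q M O` grows with the ring of coefficients. -/
theorem LRing_mono {O O' : Subring ℂ} (h : O ≤ O') : LRing q M O ≤ LRing q M O' := fun _ hf =>
  ⟨⟨hf.1.1, fun γ n => h (hf.1.2 γ n)⟩, hf.2⟩

/-- Constants from `O` lie in `LRing q M O`. -/
theorem const_mem_LRing {O : Subring ℂ} {a : ℂ} (ha : a ∈ O) :
    (fun _ : ℍ => a) ∈ LRing q M O :=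
  ⟨ES.const_mem_BRing ha, (LSub q M).algebraMap_mem a⟩

/-- Twisting a series by a root of unity in `O` keeps its coefficients in `O`. -/
theorem serIn_twist {O : Subring ℂ} {s : LaurentSeries ℂ} (h : SerIn O s) {N : ℕ} [NeZero N]
    (hz : zetaC N ∈ O) (j : ℕ) : SerIn O (twistSer (zetaC N ^ j) s) := fun n => by
  rw [ES.coeff_twistSer]
  refine O.mul_mem (h n) ?_
  have hN : zetaC N ^ N = 1 := (ES.zetaC_isPrimitiveRoot N).pow_eq_one
  obtain ⟨k, hk⟩ : ∃ k : ℕ, (zetaC N ^ j) ^ n = zetaC N ^ k := by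
    refine ⟨(((j : ℤ) * n) % N).toNat, ?_⟩
    rw [← zpow_natCast (zetaC N) j, ← zpow_mul, ← zpow_natCast (zetaC N),
      Int.toNat_of_nonneg (Int.emod_nonneg _ (Nat.cast_ne_zero.mpr (NeZero.ne N)))]
    conv_lhs => rw [← Int.mul_ediv_add_emod ((j : ℤ) * n) N]
    rw [zpow_add₀ ((ES.zetaC_isPrimitiveRoot N).ne_zero (NeZero.ne N)), zpow_mul, zpow_natCast, hN,
      one_zpow, one_mul]
  rw [hk]
  exact O.pow_mem hz _

section Raise

variable {f : ℍ → ℂ}

/-- An expansion at level `M`, with exponents multiplied by `q`, is one at level `qM`. -/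
theorem hasLExp_level (hf : f ∈ BSub M) (γ : SL(2, ℤ)) :
    HasLExp (q * M) (act γ f) (expandL q (lexp M γ f)) :=
  hasLExp_raise q (hasLExp_lexp hf γ)

/-- A function of level `M` is an invariant function of level `qM`. -/
theorem mem_LSub_of_BSub (hf : f ∈ BSub M) : f ∈ LSub q M :=
  ⟨⟨fun γ hγ => hf.1 γ (ES.gamma_le_of_dvd (dvd_mul_left M q) hγ),
    fun γ => ⟨_, hasLExp_level hf γ⟩⟩, fun γ hγ => hf.1 γ hγ.2⟩

/-- The expansion at level `qM` of a function of level `M` is the one at level `M` with exponents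
multiplied by `q`. -/
theorem lexp_level (hf : f ∈ BSub M) (γ : SL(2, ℤ)) :
    lexp (q * M) γ f = expandL q (lexp M γ f) := lexp_eq (hasLExp_level hf γ)

/-- `BRing M O` is contained in `LRing q M O`. -/
theorem mem_LRing_of_BRing {O : Subring ℂ} (hf : f ∈ BRing M O) : f ∈ LRing q M O :=
  mem_LRing.mpr ⟨mem_LSub_of_BSub hf.1, fun γ => by
    rw [lexp_level hf.1]; exact expandL_serIn (hf.2 γ)⟩

end Raise

variable (hM : M.Coprime q)
include hM

omit [Fact (Nat.Prime q)] [NeZero M] in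
/-- Conjugating an element of `Γ(M)` by `τ ↦ qτ` stays in `Γ(M)` when it is integral. -/
theorem dil_conj_mem {γ γ' : SL(2, ℤ)} (hγ : γ ∈ Gamma M) (h00 : γ' 0 0 = γ 0 0)
    (h01 : γ' 0 1 = q * γ 0 1) (h10 : (q : ℤ) * γ' 1 0 = γ 1 0) (h11 : γ' 1 1 = γ 1 1) :
    γ' ∈ Gamma M := by
  obtain ⟨a, b, c, d⟩ := Gamma_mem.mp hγ
  refine Gamma_mem.mpr
    ⟨by rw [h00, a], by rw [h01]; push_cast; rw [b, mul_zero], ?_, by rw [h11, d]⟩
  have hu : IsUnit (q : ZMod M) := (ZMod.isUnit_iff_coprime q M).mpr hM.symm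
  refine hu.mul_left_cancel ?_
  rw [mul_zero, ← c, ← h10]
  push_cast
  ring

/-- For `f` of level `M` the function `f(qτ)` is invariant of level `qM`. -/
theorem dilFun_mem_LSub {f : ℍ → ℂ} (hf : f ∈ BSub M) : dilFun q f ∈ LSub q M := by
  have hq := (Fact.out : q.Prime)
  have hinv : ∀ γ ∈ lam q M, act γ (dilFun q f) = dilFun q f := by
    intro γ hγ
    obtain ⟨γ', h00, h01, h10, h11, h⟩ := exists_dil_conj q γ (mem_Gamma0_dvd.mp hγ.1)
    funext τ
    rw [ES.act_apply, dilFun_apply, h, dilFun_apply]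
    exact congrFun (hf.1 γ' (dil_conj_mem hM hγ.2 h00 h01 h10 h11)) _
  refine ⟨⟨fun γ hγ => hinv γ (gamma_qM_le hγ), fun γ => ?_⟩, hinv⟩
  by_cases hc : (q : ℤ) ∣ γ 1 0
  · obtain ⟨γ', -, -, -, -, h⟩ := exists_dil_conj q γ hc
    exact ⟨_, hasLExp_dil_conj q (hasLExp_lexp hf γ') h⟩
  · obtain ⟨j, -, hj⟩ := exists_ctr_index q hq hM γ hc
    obtain ⟨γ', -, -, -, -, h⟩ := exists_ctr_conj q γ j hj
    exact ⟨_, hasLExp_ctr_conj q (hasLExp_lexp hf γ') h⟩

/-- For `f` in `BRing M O` the function `f(qτ)` lies in `LRing q M O`. -/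
theorem dilFun_mem_LRing {f : ℍ → ℂ} {O : Subring ℂ} (hζ : zetaC (q * M) ∈ O)
    (hf : f ∈ BRing M O) : dilFun q f ∈ LRing q M O := by
  have hq := (Fact.out : q.Prime)
  refine mem_LRing.mpr ⟨dilFun_mem_LSub hM hf.1, fun γ => ?_⟩
  by_cases hc : (q : ℤ) ∣ γ 1 0
  · obtain ⟨γ', -, -, -, -, h⟩ := exists_dil_conj q γ hc
    rw [lexp_eq (hasLExp_dil_conj q (hasLExp_lexp hf.1 γ') h)]
    exact expandL_serIn (expandL_serIn (hf.2 γ'))
  · obtain ⟨j, -, hj⟩ := exists_ctr_index q hq hM γ hc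
    obtain ⟨γ', -, -, -, -, h⟩ := exists_ctr_conj q γ j hj
    rw [lexp_eq (hasLExp_ctr_conj q (hasLExp_lexp hf.1 γ') h)]
    exact serIn_twist (hf.2 γ') hζ j

omit hM in
/-- A function fixed by `γ T ^ M γ⁻¹` has only exponents divisible by `q` at `γ`. -/
theorem coeff_eq_zero_of_act_conj {f : ℍ → ℂ} (hf : f ∈ BSub (q * M)) {γ : SL(2, ℤ)}
    (hinv : act (γ * ModularGroup.T ^ M * γ⁻¹) f = f) {n : ℤ} (hn : ¬ (q : ℤ) ∣ n) :
    (lexp (q * M) γ f).coeff n = 0 := by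
  have h := ES.lexp_mul_T_pow hf γ M
  rw [show γ * ModularGroup.T ^ M = (γ * ModularGroup.T ^ M * γ⁻¹) * γ by group, ← lexp_act,
    hinv] at h
  have h2 := congrArg (fun s => s.coeff n) h
  simp only [ES.coeff_twistSer] at h2
  by_contra h0
  have h3 : (zetaC (q * M) ^ M) ^ n = 1 := mul_left_cancel₀ h0 (by rw [← h2, mul_one])
  exact hn
    (((ES.zetaC_isPrimitiveRoot (q * M)).pow (NeZero.pos _) (mul_comm q M)).zpow_eq_one_iff_dvd n
    |>.mp h3)

omit hM in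
/-- At a cusp of type `∞` only exponents divisible by `q` occur. -/
theorem coeff_eq_zero_of_not_dvd_type {f : ℍ → ℂ} (hf : f ∈ LSub q M) {γ : SL(2, ℤ)}
    (hγ : γ ∈ Gamma0 q) {n : ℤ} (hn : ¬ (q : ℤ) ∣ n) : (lexp (q * M) γ f).coeff n = 0 := by
  refine coeff_eq_zero_of_act_conj hf.1 (hf.2 _ (lam_normalised hγ ?_)) hn
  refine Subgroup.mem_inf.mpr ⟨Gamma0_mem.mpr ?_, Gamma_mem.mpr ?_⟩ <;>
    rw [ES.T_pow_coe] <;> simp

omit hM [NeZero M] in
/-- Descent of an expansion with exponents divisible by `q`. -/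
theorem exists_hasLExp_descend {g : ℍ → ℂ} {s : LaurentSeries ℂ} (h : HasLExp (q * M) g s)
    (hs : ∀ n : ℤ, ¬ (q : ℤ) ∣ n → s.coeff n = 0) :
    ∃ t, HasLExp M g t ∧ s = expandL q t := by
  obtain ⟨r, c, hc, hsc⟩ := h
  obtain ⟨k, hk⟩ : ∃ k, q * r = k + r :=
    ⟨q * r - r, (Nat.sub_add_cancel (Nat.le_mul_of_pos_left r (NeZero.pos q))).symm⟩
  set c' := PowerSeries.X ^ k * c
  have hc' : ES.HasExp (q * M) (fun τ => ES.qm (q * M) τ ^ (q * r) * g τ) c' :=
    ((ES.HasExp.qm_pow k).mul hc).congr_fun fun τ => by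
      rw [Pi.mul_apply, hk, pow_add]; ring
  have hsc' : s = HahnSeries.single (-((q * r : ℕ) : ℤ)) 1 * HahnSeries.ofPowerSeries ℤ ℂ c' := by
    rw [hsc, hk, ES.HasLExp.single_neg_shift]
  have hzero : ∀ e, ¬ q ∣ e → PowerSeries.coeff e c' = 0 := fun e he => by
    have h1 := hs ((e : ℤ) - (q * r : ℕ)) fun hd => he (Int.natCast_dvd_natCast.mp (by
      have := hd.add (dvd_mul_right (q : ℤ) r)
      push_cast at this
      simpa using this))
    rw [hsc', ES.coeff_single_mul_ofPowerSeries, if_pos (by omega)] at h1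
    convert h1 using 2
    congr 1
    omega
  set t0 : PowerSeries ℂ := PowerSeries.mk fun e => PowerSeries.coeff (q * e) c'
  have hexp : PowerSeries.expand q (NeZero.ne q) t0 = c' := by
    ext e
    by_cases he : q ∣ e
    · obtain ⟨i, rfl⟩ := he
      rw [PowerSeries.coeff_expand_mul, PowerSeries.coeff_mk]
    · rw [PowerSeries.coeff_expand_of_not_dvd q (NeZero.ne q) _ he, hzero e he]
  refine ⟨HahnSeries.single (-(r : ℤ)) 1 * HahnSeries.ofPowerSeries ℤ ℂ t0,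
    ⟨r, t0, fun τ => ?_, rfl⟩, ?_⟩
  · have h2 := hc' τ
    rw [← hexp] at h2
    have hinj : Function.Injective fun e : ℕ => q * e := mul_right_injective₀ (NeZero.ne q)
    have h3 := (hinj.hasSum_iff fun e he => ?_).mpr h2
    · simp only [pow_mul, ES.qm_mul_pow (NeZero.ne q)] at h3
      refine h3.congr_fun fun e => ?_
      rw [Function.comp_apply, PowerSeries.coeff_expand_mul, pow_mul, ES.qm_mul_pow (NeZero.ne q)]
    · rw [PowerSeries.coeff_expand_of_not_dvd q (NeZero.ne q), zero_mul]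
      rintro ⟨i, rfl⟩
      exact he ⟨i, rfl⟩
  · rw [hsc', ← hexp, map_mul, expandL_single, expandL_ofPowerSeries]
    push_cast
    rw [mul_neg]

theorem exists_atkinMat :
    ∃ γ : SL(2, ℤ), γ ∈ Gamma M ∧ (q : ℤ) ∣ γ 0 0 ∧ (q : ℤ) ∣ γ 1 1 := by
  obtain ⟨u, v, huv⟩ :=
    Int.isCoprime_iff_nat_coprime.mpr (show Int.natAbs q |>.Coprime (Int.natAbs M) by
    simpa using hM.symm)
  have h0 : (((u * q : ℤ) : ZMod (q * M))) * ((v * M : ℤ) : ZMod (q * M)) = 0 := by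
    rw [← Int.cast_mul, ZMod.intCast_zmod_eq_zero_iff_dvd]
    exact ⟨u * v, by push_cast; ring⟩
  have h1 : ((u * q : ℤ) : ZMod (q * M)) + ((v * M : ℤ) : ZMod (q * M)) = 1 := by
    rw [← Int.cast_add, huv, Int.cast_one]
  set x := ((u * q : ℤ) : ZMod (q * M))
  set y := ((v * M : ℤ) : ZMod (q * M))
  obtain ⟨γ, hγ⟩ := ES.exists_lift_modMat (a := x) (b := -y) (c := y) (d := x)
    (by linear_combination (x + y + 1) * h1 - 2 * h0)
  have hp : ∀ {d : ℕ} (hd : d ∣ q * M) (i j : Fin 2) (w : ℤ),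
      modMat (q * M) γ i j = (w : ZMod (q * M)) → ((γ i j : ℤ) : ZMod d) = w := by
    intro d hd i j w h
    have := congrArg (ZMod.castHom hd (ZMod d)) h
    simpa [ES.modMat] using this
  have e00 : modMat (q * M) γ 0 0 = ((u * q : ℤ) : ZMod (q * M)) := by rw [hγ]; rfl
  have e11 : modMat (q * M) γ 1 1 = ((u * q : ℤ) : ZMod (q * M)) := by rw [hγ]; rfl
  have e01 : modMat (q * M) γ 0 1 = ((-(v * M) : ℤ) : ZMod (q * M)) := by
    rw [hγ, Int.cast_neg]; rfl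
  have e10 : modMat (q * M) γ 1 0 = ((v * M : ℤ) : ZMod (q * M)) := by rw [hγ]; rfl
  have hu : ((u * q : ℤ) : ZMod M) = 1 := by
    rw [show u * (q : ℤ) = 1 - v * M by linarith]; push_cast; simp
  refine ⟨γ, Gamma_mem.mpr ⟨?_, ?_, ?_, ?_⟩, ?_, ?_⟩
  · rw [hp (dvd_mul_left M q) 0 0 _ e00, hu]
  · rw [hp (dvd_mul_left M q) 0 1 _ e01]; simp
  · rw [hp (dvd_mul_left M q) 1 0 _ e10]; simp
  · rw [hp (dvd_mul_left M q) 1 1 _ e11, hu]
  · rw [← ZMod.intCast_zmod_eq_zero_iff_dvd, hp (dvd_mul_right q M) 0 0 _ e00]; simp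
  · rw [← ZMod.intCast_zmod_eq_zero_iff_dvd, hp (dvd_mul_right q M) 1 1 _ e11]; simp

/-- A matrix in `Γ(M)` interchanging the two types of cusps. -/
def atkinMat : SL(2, ℤ) := (exists_atkinMat hM).choose

/-- The Atkin matrix lies in `Γ(M)`. -/
theorem atkinMat_mem : atkinMat hM ∈ Gamma M := (exists_atkinMat hM).choose_spec.1

/-- The diagonal entries of the Atkin matrix are divisible by `q`. -/
theorem atkinMat_dvd : (q : ℤ) ∣ atkinMat hM 0 0 ∧ (q : ℤ) ∣ atkinMat hM 1 1 :=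
  (exists_atkinMat hM).choose_spec.2

/-- The lower left entry of the Atkin matrix is prime to `q`. -/
theorem atkinMat_not_dvd : ¬ (q : ℤ) ∣ atkinMat hM 1 0 := fun h => by
  have hdet := Matrix.det_fin_two (atkinMat hM : Matrix (Fin 2) (Fin 2) ℤ)
  rw [(atkinMat hM).2] at hdet
  have h1 : (q : ℤ) ∣ 1 := by
    rw [hdet]
    exact Int.dvd_sub ((atkinMat_dvd hM).1.mul_right _) (h.mul_left _)
  exact (Fact.out : q.Prime).one_lt.ne' (by exact_mod_cast Int.eq_one_of_dvd_one (by positivity) h1)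

/-- `γ₀ γ'` with `γ'` of the shape `exists_dil_conj`: the type changes. -/
theorem atkin_type_inf {γ' : SL(2, ℤ)} (h01 : (q : ℤ) ∣ γ' 0 1) :
    atkinMat hM * γ' ∉ Gamma0 q := by
  intro h
  rw [Gamma0_mem] at h
  obtain ⟨-, h11⟩ := atkinMat_dvd hM
  have hdet := congrArg (Int.cast : ℤ → ZMod q) (Matrix.det_fin_two (γ' : Matrix (Fin 2) (Fin 2) ℤ))
  rw [γ'.2] at hdet
  rw [← ZMod.intCast_zmod_eq_zero_iff_dvd] at h01 h11
  simp only [Int.cast_one, Int.cast_sub, Int.cast_mul, h01, zero_mul, sub_zero] at hdet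
  simp only [Matrix.SpecialLinearGroup.coe_mul, Matrix.mul_apply, Fin.sum_univ_two, Int.cast_add,
    Int.cast_mul, h11, zero_mul, add_zero] at h
  rcases mul_eq_zero.mp h with h | h
  · exact atkinMat_not_dvd hM ((ZMod.intCast_zmod_eq_zero_iff_dvd _ _).mp h)
  · rw [h, zero_mul] at hdet; exact one_ne_zero hdet

/-- If `q` divides `γ' 0 0`, the Atkin matrix times `γ'` lies in `Γ₀(q)`. -/
theorem atkin_type_zero {γ' : SL(2, ℤ)} (h00 : (q : ℤ) ∣ γ' 0 0) :
    atkinMat hM * γ' ∈ Gamma0 q := by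
  rw [mem_Gamma0_dvd, Matrix.SpecialLinearGroup.coe_mul, Matrix.mul_apply, Fin.sum_univ_two]
  exact Int.dvd_add (h00.mul_left _) ((atkinMat_dvd hM).2.mul_right _)

/-- The Atkin operator. -/
def atkin : (ℍ → ℂ) →+* (ℍ → ℂ) := (dilFun q).comp (ES.actHom (atkinMat hM))

/-- The Atkin operator is the action of the Atkin matrix followed by `τ ↦ qτ`. -/
theorem atkin_apply (f : ℍ → ℂ) : atkin hM f = dilFun q (act (atkinMat hM) f) := rfl

/-- The value of the Atkin transform at a point. -/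
theorem atkin_apply_pt (f : ℍ → ℂ) (τ : ℍ) :
    atkin hM f τ = f (atkinMat hM • dilPt q τ) := rfl

/-- The Atkin operator fixes constants. -/
theorem atkin_const (a : ℂ) : atkin hM (fun _ => a) = fun _ => a := rfl

/-- On functions of level `M` the Atkin operator is `f ↦ f(qτ)`. -/
theorem atkin_of_BSub {f : ℍ → ℂ} (hf : f ∈ BSub M) : atkin hM f = dilFun q f := by
  rw [atkin_apply, hf.1 _ (atkinMat_mem hM)]

/-- At a cusp of type `∞` the Atkin transform has the expansion of `f` at a cusp of type `0`, with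
exponents multiplied by `q`. -/
theorem hasLExp_atkin_inf {f : ℍ → ℂ} (hf : f ∈ LSub q M) {γ : SL(2, ℤ)} (hγ : γ ∈ Gamma0 q) :
    ∃ γ' ∉ Gamma0 q,
      HasLExp (q * M) (act γ (atkin hM f)) (expandL q (lexp (q * M) γ' f)) := by
  obtain ⟨γ', -, h01, -, -, h⟩ := exists_dil_conj q γ (mem_Gamma0_dvd.mp hγ)
  refine ⟨atkinMat hM * γ', atkin_type_inf hM ⟨_, h01⟩, ?_⟩
  refine (hasLExp_dilFun q (hasLExp_lexp hf.1 (atkinMat hM * γ'))).congr_fun fun τ => ?_
  rw [ES.act_apply, atkin_apply_pt, h, dilFun_apply, ES.act_apply, mul_smul]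

/-- At a cusp of type `0` the Atkin transform has, up to a root of unity twist, the expansion of
`f` at a cusp of type `∞` with exponents divided by `q`. -/
theorem hasLExp_atkin_zero {f : ℍ → ℂ} (hf : f ∈ LSub q M) {γ : SL(2, ℤ)} (hγ : γ ∉ Gamma0 q) :
    ∃ γ' ∈ Gamma0 q, ∃ j t, lexp (q * M) γ' f = expandL q t ∧
      HasLExp (q * M) (act γ (atkin hM f)) (twistSer (zetaC (q * M) ^ j) t) := by
  obtain ⟨j, -, hj⟩ := exists_ctr_index q Fact.out hM γ (fun h => hγ (mem_Gamma0_dvd.mpr h))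
  obtain ⟨γ', h00, -, -, -, h⟩ := exists_ctr_conj q γ j hj
  have ht := atkin_type_zero hM ⟨_, h00⟩
  obtain ⟨t, htexp, hts⟩ := exists_hasLExp_descend (hasLExp_lexp hf.1 (atkinMat hM * γ'))
    fun n hn => coeff_eq_zero_of_not_dvd_type hf ht hn
  refine ⟨atkinMat hM * γ', ht, j, t, hts, ?_⟩
  refine (hasLExp_ctrPt q htexp j).congr_fun fun τ => ?_
  rw [ES.act_apply, atkin_apply_pt, h, ES.act_apply, mul_smul]

/-- Conjugation by the Atkin matrix preserves `Γ₀(q)` on matrices with `q ∣ γ 0 1`. -/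
theorem atkin_conj_mem_Gamma0 {γ : SL(2, ℤ)} (h : (q : ℤ) ∣ γ 0 1) :
    atkinMat hM * γ * (atkinMat hM)⁻¹ ∈ Gamma0 q := by
  set g := atkinMat hM
  rw [Gamma0_mem, Matrix.SpecialLinearGroup.coe_mul, Matrix.SpecialLinearGroup.coe_mul,
    Matrix.SpecialLinearGroup.coe_inv, Matrix.adjugate_fin_two]
  obtain ⟨-, hd⟩ := atkinMat_dvd hM
  rw [← ZMod.intCast_zmod_eq_zero_iff_dvd] at hd h
  simp [Matrix.mul_apply, Fin.sum_univ_two, hd, h, g]

/-- The Atkin operator preserves invariance under `Γ₀(q) ∩ Γ(n)`. -/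
theorem act_atkin_of_lam {n : ℕ} (hg : atkinMat hM ∈ Gamma n) (hn : n.Coprime q) {f : ℍ → ℂ}
    (hf : ∀ δ ∈ lam q n, act δ f = f) {δ : SL(2, ℤ)} (hδ : δ ∈ lam q n) :
    act δ (atkin hM f) = atkin hM f := by
  obtain ⟨γ', h00, h01, h10, h11, h⟩ := exists_dil_conj q δ (mem_Gamma0_dvd.mp hδ.1)
  set g := atkinMat hM
  have hmem : g * γ' * g⁻¹ ∈ lam q n := Subgroup.mem_inf.mpr
    ⟨atkin_conj_mem_Gamma0 hM ⟨_, h01⟩,
      mul_mem (mul_mem hg (dil_conj_mem hn hδ.2 h00 h01 h10 h11)) (inv_mem hg)⟩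
  funext τ
  rw [ES.act_apply, atkin_apply_pt, h, atkin_apply_pt, ← mul_smul,
    show g * γ' = g * γ' * g⁻¹ * g by group, mul_smul]
  exact congrFun (hf _ hmem) _

/-- The Atkin operator preserves the invariant functions of level `qM`. -/
theorem atkin_mem_LSub {f : ℍ → ℂ} (hf : f ∈ LSub q M) : atkin hM f ∈ LSub q M := by
  have hinv : ∀ γ ∈ lam q M, act γ (atkin hM f) = atkin hM f := fun γ hγ =>
    act_atkin_of_lam hM (atkinMat_mem hM) hM hf.2 hγ
  refine ⟨⟨fun γ hγ => hinv γ (gamma_qM_le hγ), fun γ => ?_⟩, hinv⟩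
  by_cases hγ : γ ∈ Gamma0 q
  · obtain ⟨γ', -, h⟩ := hasLExp_atkin_inf hM hf hγ
    exact ⟨_, h⟩
  · obtain ⟨γ', -, j, t, -, h⟩ := hasLExp_atkin_zero hM hf hγ
    exact ⟨_, h⟩

/-- The Atkin operator preserves `LRing q M O`. -/
theorem atkin_mem_LRing {O : Subring ℂ} (hζ : zetaC (q * M) ∈ O) {f : ℍ → ℂ}
    (hf : f ∈ LRing q M O) : atkin hM f ∈ LRing q M O := by
  obtain ⟨hf, hfO⟩ := mem_LRing.mp hf
  refine mem_LRing.mpr ⟨atkin_mem_LSub hM hf, fun γ => ?_⟩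
  by_cases hγ : γ ∈ Gamma0 q
  · obtain ⟨γ', -, h⟩ := hasLExp_atkin_inf hM hf hγ
    rw [lexp_eq h]
    exact expandL_serIn (hfO γ')
  · obtain ⟨γ', -, j, t, hts, h⟩ := hasLExp_atkin_zero hM hf hγ
    rw [lexp_eq h]
    refine serIn_twist (fun n => ?_) hζ j
    rw [← expandL_coeff_mul q t, ← hts]
    exact hfO γ' _

omit hM in
/-- `Γ₀(q)` acts on `LRing q M O`. -/
theorem act_mem_LRing {O : Subring ℂ} {f : ℍ → ℂ} (hf : f ∈ LRing q M O) {δ : SL(2, ℤ)}
    (hδ : δ ∈ Gamma0 q) : act δ f ∈ LRing q M O := by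
  refine ⟨ES.act_mem_BRing hf.1 δ, ES.act_mem_BSub hf.2.1 δ, fun γ hγ => ?_⟩
  rw [← ES.act_mul, show δ * γ = (δ * γ * δ⁻¹) * δ by group, ES.act_mul,
    hf.2.2 _ (lam_normalised hδ hγ)]

/-- The Atkin operator squared is a diamond operator. -/
theorem exists_atkin_sq :
    ∃ δ ∈ Gamma0 q, ∀ f : ℍ → ℂ, atkin hM (atkin hM f) = act δ f := by
  obtain ⟨h00, h11⟩ := atkinMat_dvd hM
  obtain ⟨γ', e00, -, -, -, h⟩ := exists_ctr_conj q (atkinMat hM) 0 (by simpa using h11)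
  refine ⟨atkinMat hM * γ', atkin_type_zero hM ⟨_, e00⟩, fun f => funext fun τ => ?_⟩
  rw [atkin_apply_pt, atkin_apply_pt, h, ES.act_apply, mul_smul]
  congr 3
  refine UpperHalfPlane.ext ?_
  rw [coe_ctrPt, coe_dilPt, Nat.cast_zero, add_zero,
    mul_div_cancel_left₀ _ (Nat.cast_ne_zero.mpr (NeZero.ne q))]

section Atk

variable {O : Subring ℂ} (hζ : zetaC (q * M) ∈ O)

/-- The Atkin operator on the integral ring. -/
def atkinL : LRing q M O →+* LRing q M O :=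
  ((atkin hM).comp (LRing q M O).subtype).codRestrict _ fun f => atkin_mem_LRing hM hζ f.2

/-- The Atkin endomorphism of `LRing q M O` is the Atkin operator on functions. -/
theorem coe_atkinL (f : LRing q M O) : (atkinL hM hζ f : ℍ → ℂ) = atkin hM f := rfl

theorem atkinL_bijective : Function.Bijective (atkinL hM hζ) := by
  obtain ⟨δ, hδ, h⟩ := exists_atkin_sq hM
  constructor
  · intro f g hfg
    have h1 := congrArg (fun x : LRing q M O => act δ⁻¹ (atkin hM (x : ℍ → ℂ))) hfg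
    simp only [coe_atkinL, h, ← ES.act_mul, mul_inv_cancel, ES.act_one] at h1
    exact Subtype.ext h1
  · intro f
    refine ⟨⟨_, atkin_mem_LRing hM hζ (act_mem_LRing f.2 (inv_mem hδ))⟩, Subtype.ext ?_⟩
    rw [coe_atkinL]
    show atkin hM (atkin hM (act δ⁻¹ (f : ℍ → ℂ))) = _
    rw [h, ← ES.act_mul, inv_mul_cancel, ES.act_one]

/-- The Atkin operator as an automorphism. -/
def atkinEquiv : LRing q M O ≃+* LRing q M O := RingEquiv.ofBijective _ (atkinL_bijective hM hζ)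

/-- The Atkin automorphism is the Atkin operator on functions. -/
theorem coe_atkinEquiv (f : LRing q M O) : (atkinEquiv hM hζ f : ℍ → ℂ) = atkin hM f := rfl

end Atk

end FermatAgent.BAD
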