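import Mathlib
import Fermat.Prelude.Thm_IsAdicComplete_of_module_finite
import Fermat.Agent.GaloisBasic.PowerSeriesComplete

/-!
# The ring of a node

`Node O c = O⟦X₀, X₁⟧ / (X₀ X₁ - c)`: its two branches in the special fibre, and, for `c` the
uniformiser, unique factorisation.
-/

set_option autoImplicit false

noncomputable section

open MvPowerSeries IsLocalRing

namespace FermatAgent.BAD

/-- Two exponents as a monomial. -/
def bi (i j : ℕ) : Fin 2 →₀ ℕ := Finsupp.single 0 i + Finsupp.single 1 j

/-- The exponent of `X₀` in `bi i j`. -/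
@[simp] theorem bi_zero (i j : ℕ) : bi i j 0 = i := by simp [bi]

/-- The exponent of `X₁` in `bi i j`. -/
@[simp] theorem bi_one (i j : ℕ) : bi i j 1 = j := by simp [bi]

/-- Every exponent is some `bi i j`. -/
theorem eq_bi (d : Fin 2 →₀ ℕ) : d = bi (d 0) (d 1) := by
  ext i; fin_cases i <;> simp

/-- A Noetherian local ring is a domain if a nonunit nonzerodivisor `x` has the prime property. -/
theorem isDomain_of_regular_prime {R : Type*} [CommRing R] [IsNoetherianRing R] [IsLocalRing R]
    {x : R} (hreg : ∀ z, x * z = 0 → z = 0) (hu : ¬ IsUnit x)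
    (hp : ∀ a b, x ∣ a * b → x ∣ a ∨ x ∣ b) : IsDomain R := by
  have hbot := Ideal.iInf_pow_eq_bot_of_isLocalRing (Ideal.span {x})
    (mt Ideal.span_singleton_eq_top.mp hu)
  have split : ∀ z : R, z ≠ 0 → ∃ (e : ℕ) (z' : R), z = x ^ e * z' ∧ ¬ x ∣ z' := fun z hz =>
    ⟨_, FiniteMultiplicity.exists_eq_pow_mul_and_not_dvd (a := x) (b := z) (by
      by_contra hno
      refine hz ?_
      rw [← Ideal.mem_bot, ← hbot, Submodule.mem_iInf]
      intro e
      rw [Ideal.span_singleton_pow, Ideal.mem_span_singleton]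
      exact (pow_dvd_pow x e.le_succ).trans (FiniteMultiplicity.not_iff_forall.mp hno (e + 1)))⟩
  have hreg' : ∀ (e : ℕ) (z : R), x ^ e * z = 0 → z = 0 := by
    intro e
    induction e with
    | zero => intro z hz; simpa using hz
    | succ e ih => intro z hz; exact ih z (hreg _ (by rw [← hz]; ring))
  have : NoZeroDivisors R := ⟨fun {a b} hab => by
    by_contra hno
    rw [not_or] at hno
    obtain ⟨e, a', rfl, ha⟩ := split a hno.1
    obtain ⟨e', b', rfl, hb⟩ := split b hno.2
    have h0 := hreg' (e + e') (a' * b') (by rw [← hab]; ring)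
    exact (hp _ _ (h0 ▸ dvd_zero x)).elim ha hb⟩
  exact NoZeroDivisors.to_isDomain _

/-- Primes avoiding `x` are principal if the quotient by `x` is a principal ideal ring. -/
theorem principal_of_notMem_of_surjective {R S : Type*} [CommRing R] [IsNoetherianRing R]
    [IsLocalRing R] [CommRing S] [IsPrincipalIdealRing S] {f : R →+* S}
    (hf : Function.Surjective f) {x : R} (hu : ¬ IsUnit x) (hker : ∀ z, f z = 0 → x ∣ z)
    {P : Ideal R} (hP : P.IsPrime) (hx : x ∉ P) : ∃ t, P = Ideal.span {t} := by
  obtain ⟨g, hg⟩ : ∃ g, P.map f = Ideal.span {g} :=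
    (IsPrincipalIdealRing.principal (P.map f)).principal
  obtain ⟨t, htP, rfl⟩ := (Ideal.mem_map_iff_of_surjective f hf).mp
    (hg ▸ Ideal.mem_span_singleton_self g : g ∈ P.map f)
  refine ⟨t, le_antisymm ?_ ((Ideal.span_singleton_le_iff_mem P).mpr htP)⟩
  refine Submodule.le_of_le_smul_of_le_jacobson_bot (I := Ideal.span {x})
    (IsNoetherian.noetherian P) ?_ fun z hz => ?_
  · rw [jacobson_eq_maximalIdeal ⊥ bot_ne_top]
    exact IsLocalRing.le_maximalIdeal (mt Ideal.span_singleton_eq_top.mp hu)
  · obtain ⟨a, ha⟩ := Ideal.mem_span_singleton'.mp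
      (hg ▸ Ideal.mem_map_of_mem f hz : f z ∈ Ideal.span {f t})
    obtain ⟨a', rfl⟩ := hf a
    obtain ⟨w, hw⟩ := hker (z - a' * t) (by rw [map_sub, map_mul, ha, sub_self])
    have hwP : w ∈ P := (hP.mem_or_mem (show x * w ∈ P by
      rw [← hw]; exact P.sub_mem hz (P.mul_mem_left _ htP))).resolve_left hx
    rw [eq_add_of_sub_eq' hw]
    exact Submodule.add_mem_sup (Ideal.mem_span_singleton'.mpr ⟨a', rfl⟩)
      (Submodule.smul_mem_smul (Ideal.mem_span_singleton_self x) hwP)

variable (O : Type) [CommRing O]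

/-- The relation. -/
def nodeRel (c : O) : MvPowerSeries (Fin 2) O := X 0 * X 1 - C c

/-- The ring of a node. -/
abbrev Node (c : O) : Type := MvPowerSeries (Fin 2) O ⧸ Ideal.span {nodeRel O c}

variable {O}

/-- The quotient map. -/
def nodeMk (c : O) : MvPowerSeries (Fin 2) O →+* Node O c := Ideal.Quotient.mk _

/-- The quotient map onto the node ring is surjective. -/
theorem nodeMk_surjective (c : O) : Function.Surjective (nodeMk c) :=
  Ideal.Quotient.mk_surjective

/-- Two series agree in the node ring iff the relation divides their difference. -/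
theorem nodeMk_eq_iff {c : O} {f g : MvPowerSeries (Fin 2) O} :
    nodeMk c f = nodeMk c g ↔ nodeRel O c ∣ f - g := by
  rw [nodeMk, Ideal.Quotient.eq, Ideal.mem_span_singleton]

/-- A series vanishes in the node ring iff the relation divides it. -/
theorem nodeMk_eq_zero_iff {c : O} {f : MvPowerSeries (Fin 2) O} :
    nodeMk c f = 0 ↔ nodeRel O c ∣ f := by
  rw [nodeMk, Ideal.Quotient.eq_zero_iff_dvd]

/-- The two coordinates. -/
def nodeVar (c : O) (i : Fin 2) : Node O c := nodeMk c (X i)

/-- The constants. -/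
def nodeC (c : O) : O →+* Node O c := (nodeMk c).comp C

/-- `X₀ X₁ = c` in the node ring. -/
theorem nodeVar_mul (c : O) : nodeVar c 0 * nodeVar c 1 = nodeC c c := by
  rw [nodeVar, nodeVar, nodeC, RingHom.comp_apply, ← map_mul, nodeMk_eq_iff]
  exact dvd_refl _

section Branch

variable [IsLocalRing O]

/-- The exponent on the branch `i`. -/
def axisExp (i : Fin 2) (e : ℕ) : Fin 2 →₀ ℕ := Finsupp.single i e

/-- The restriction to the branch where the other coordinate vanishes, modulo the maximal
ideal. -/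
def axisHom (i : Fin 2) : MvPowerSeries (Fin 2) O →+* PowerSeries (ResidueField O) where
  toFun f := PowerSeries.mk fun e => residue O (coeff (axisExp i e) f)
  map_one' := by
    ext e
    simp only [PowerSeries.coeff_mk, coeff_one, PowerSeries.coeff_one, axisExp,
      Finsupp.single_eq_zero]
    split_ifs <;> simp
  map_mul' f g := by
    ext e
    simp only [PowerSeries.coeff_mk, PowerSeries.coeff_mul, coeff_mul, axisExp, map_sum,
      Finsupp.antidiagonal_single, Finset.sum_map, map_mul]
    rfl
  map_zero' := by ext e; simp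
  map_add' f g := by ext e; simp

/-- The coefficients of the restriction to an axis. -/
theorem coeff_axisHom (i : Fin 2) (f : MvPowerSeries (Fin 2) O) (e : ℕ) :
    PowerSeries.coeff e (axisHom i f) = residue O (coeff (axisExp i e) f) :=
  PowerSeries.coeff_mk e fun e => residue O (coeff (axisExp i e) f)

theorem axisHom_C (i : Fin 2) (a : O) : axisHom i (C a) = PowerSeries.C (residue O a) := by
  ext e
  simp only [coeff_axisHom, coeff_C, PowerSeries.coeff_C, axisExp, Finsupp.single_eq_zero]
  split_ifs <;> simp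

theorem axisHom_X (i j : Fin 2) :
    axisHom i (X j : MvPowerSeries (Fin 2) O) = if i = j then PowerSeries.X else 0 := by
  ext e
  simp only [coeff_axisHom, coeff_X, axisExp]
  by_cases hij : i = j
  · subst hij
    simp only [if_true, PowerSeries.coeff_X, (Finsupp.single_injective i).eq_iff]
    split_ifs <;> simp
  · rw [if_neg hij, if_neg, map_zero, map_zero]
    intro h
    have := congrArg (fun d => d j) h
    simp [Finsupp.single_eq_of_ne (Ne.symm hij)] at this

theorem axisHom_nodeRel (i : Fin 2) {c : O} (hc : c ∈ maximalIdeal O) :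
    axisHom i (nodeRel O c) = 0 := by
  rw [nodeRel, map_sub, map_mul, axisHom_C, axisHom_X, axisHom_X,
    show residue O c = 0 from Ideal.Quotient.eq_zero_iff_mem.mpr hc]
  fin_cases i <;> simp

/-- A branch of the node in the special fibre. -/
def branch {c : O} (hc : c ∈ maximalIdeal O) (i : Fin 2) :
    Node O c →+* PowerSeries (ResidueField O) :=
  Ideal.Quotient.lift _ (axisHom i) fun f hf => by
    obtain ⟨g, rfl⟩ := Ideal.mem_span_singleton.mp hf
    rw [map_mul, axisHom_nodeRel i hc, zero_mul]

variable {c : O} (hc : c ∈ maximalIdeal O)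

/-- A branch of the class of a series is its restriction to the axis. -/
@[simp] theorem branch_nodeMk (i : Fin 2) (f : MvPowerSeries (Fin 2) O) :
    branch hc i (nodeMk c f) = axisHom i f := rfl

/-- A branch sends a constant to its residue. -/
@[simp] theorem branch_nodeC (i : Fin 2) (a : O) :
    branch hc i (nodeC c a) = PowerSeries.C (residue O a) := by
  rw [nodeC, RingHom.comp_apply, branch_nodeMk, axisHom_C]

/-- A branch sends its own coordinate to the variable and the other one to zero. -/
theorem branch_nodeVar (i j : Fin 2) :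
    branch hc i (nodeVar c j) = if i = j then PowerSeries.X else 0 := by
  rw [nodeVar, branch_nodeMk, axisHom_X]

variable {ϖ : O} (hϖ : maximalIdeal O = Ideal.span {ϖ})

include hϖ in
/-- A series vanishing on an axis modulo `ϖ`. -/
theorem exists_of_axisHom_eq_zero {i j : Fin 2} (hij : i ≠ j) {f : MvPowerSeries (Fin 2) O}
    (hf : axisHom i f = 0) :
    ∃ a b : MvPowerSeries (Fin 2) O, f = C ϖ * a + X j * b := by
  have hdvd : ∀ e, ϖ ∣ coeff (axisExp i e) f := fun e => by
    have := congrArg (PowerSeries.coeff e) hf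
    rw [coeff_axisHom, map_zero, residue_eq_zero_iff, hϖ, Ideal.mem_span_singleton] at this
    exact this
  choose r hr using hdvd
  let a : MvPowerSeries (Fin 2) O := fun d => if d j = 0 then r (d i) else 0
  have ha : ∀ d, coeff d a = if d j = 0 then r (d i) else 0 := fun d => rfl
  obtain ⟨b, hb⟩ : (X j : MvPowerSeries (Fin 2) O) ∣ f - C ϖ * a := by
    rw [X_dvd_iff]
    intro d hd
    rw [map_sub, coeff_C_mul, ha, if_pos hd, sub_eq_zero, ← hr]
    congr 2
    ext l
    rcases Fin.exists_fin_two.mp ⟨l, rfl⟩ with rfl | rfl <;>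
      fin_cases i <;> fin_cases j <;> simp_all [axisExp]
  exact ⟨a, b, by rw [← hb]; ring⟩

include hc hϖ in
/-- An element vanishing on branch `i` lies in the ideal of `ϖ` and the coordinate `j`. -/
theorem exists_of_branch_eq_zero {i j : Fin 2} (hij : i ≠ j) {x : Node O c}
    (hx : branch hc i x = 0) : ∃ a b, x = nodeC c ϖ * a + nodeVar c j * b := by
  obtain ⟨f, rfl⟩ := nodeMk_surjective c x
  obtain ⟨a, b, rfl⟩ := exists_of_axisHom_eq_zero hϖ hij (by simpa using hx)
  exact ⟨nodeMk c a, nodeMk c b, by simp [nodeC, nodeVar]⟩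

include hc hϖ in
/-- An element vanishing on both branches is divisible by `ϖ`. -/
theorem dvd_of_branches {x : Node O c} (h0 : branch hc 0 x = 0) (h1 : branch hc 1 x = 0) :
    nodeC c ϖ ∣ x := by
  obtain ⟨a, b, rfl⟩ := exists_of_branch_eq_zero hc hϖ (by decide : (0 : Fin 2) ≠ 1) h0
  have h1b : branch hc 1 b = 0 := by
    simp only [map_add, map_mul, branch_nodeC, branch_nodeVar, if_true,
      show residue O ϖ = 0 from (residue_eq_zero_iff _).mpr (hϖ ▸ Ideal.subset_span rfl),
      map_zero, zero_mul, zero_add] at h1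
    exact (mul_eq_zero.mp h1).resolve_left PowerSeries.X_ne_zero
  obtain ⟨a', b', rfl⟩ := exists_of_branch_eq_zero hc hϖ (by decide : (1 : Fin 2) ≠ 0) h1b
  obtain ⟨c', hc'⟩ := Ideal.mem_span_singleton.mp (hϖ ▸ hc)
  refine ⟨a + nodeVar c 1 * a' + nodeC c c' * b', ?_⟩
  have : nodeVar c 0 * nodeVar c 1 = nodeC c ϖ * nodeC c c' := by
    rw [nodeVar_mul, ← map_mul, ← hc']
  linear_combination b' * this

include hϖ in
/-- The uniformiser has residue zero. -/
theorem residue_uniformiser : residue O ϖ = 0 :=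
  (residue_eq_zero_iff _).mpr (hϖ ▸ Ideal.subset_span rfl)

include hc hϖ in
/-- Divisibility by `ϖ` is vanishing on both branches. -/
theorem dvd_iff_branches {x : Node O c} :
    nodeC c ϖ ∣ x ↔ branch hc 0 x = 0 ∧ branch hc 1 x = 0 := by
  refine ⟨fun ⟨r, hr⟩ => ?_, fun h => dvd_of_branches hc hϖ h.1 h.2⟩
  subst hr
  simp [residue_uniformiser hϖ]

include hc hϖ in
/-- `ϖ` is a nonzerodivisor. -/
theorem nodeC_uniformiser_regular [IsDomain O] (hϖ0 : ϖ ≠ 0) {x : Node O c}
    (hx : nodeC c ϖ * x = 0) : x = 0 := by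
  obtain ⟨f, rfl⟩ := nodeMk_surjective c x
  rw [nodeC, RingHom.comp_apply, ← map_mul, nodeMk_eq_zero_iff] at hx
  obtain ⟨g, hg⟩ := hx
  have hg' : C ϖ ∣ g := by
    have h2 := congrArg (MvPowerSeries.map (residue O)) hg
    simp only [map_mul, map_sub, nodeRel, MvPowerSeries.map_C, MvPowerSeries.map_X,
      residue_uniformiser hϖ, show residue O c = 0 from (residue_eq_zero_iff _).mpr hc, map_zero,
      zero_mul, sub_zero] at h2
    have h3 := (mul_eq_zero.mp h2.symm).resolve_left
      (mul_ne_zero (nonzero_X 0) (nonzero_X 1))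
    have hdvd : ∀ d, ϖ ∣ coeff d g := fun d => by
      have := congrArg (coeff d) h3
      rw [coeff_map, map_zero, residue_eq_zero_iff, hϖ, Ideal.mem_span_singleton] at this
      exact this
    choose r hr using hdvd
    let r' : MvPowerSeries (Fin 2) O := r
    exact ⟨r', MvPowerSeries.ext fun d => by rw [coeff_C_mul]; exact hr d⟩
  obtain ⟨g', rfl⟩ := hg'
  rw [nodeMk_eq_zero_iff]
  refine ⟨g', mul_left_cancel₀ (a := C ϖ) ?_ (hg.trans (by ring))⟩
  exact fun h => hϖ0 (by simpa using congrArg constantCoeff h)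
where
  nonzero_X (i : Fin 2) : (X i : MvPowerSeries (Fin 2) (ResidueField O)) ≠ 0 := fun h => by
    have := congrArg (coeff (Finsupp.single i 1)) h
    simp [coeff_X] at this

end Branch

section Ring

variable [IsDomain O] [IsDiscreteValuationRing O] {c : O}

theorem nodeRel_mem_maximal (hc : c ∈ maximalIdeal O) :
    nodeRel O c ∈ maximalIdeal (MvPowerSeries (Fin 2) O) := by
  rw [GaloisBasic.mem_maximalIdeal_iff_constantCoeff]
  simpa [nodeRel] using hc

/-- The node ring is local. -/
theorem node_isLocalRing (hc : c ∈ maximalIdeal O) : IsLocalRing (Node O c) := by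
  have : Nontrivial (Node O c) := Ideal.Quotient.nontrivial_iff.mpr fun h => by
    have h1 := (Ideal.span_singleton_le_iff_mem _).mpr (nodeRel_mem_maximal hc)
    rw [h] at h1
    exact (IsLocalRing.maximalIdeal.isMaximal _).ne_top (top_le_iff.mp h1)
  exact IsLocalRing.of_surjective' (nodeMk c) (nodeMk_surjective c)

/-- The node ring is complete. -/
theorem node_isAdicComplete [IsAdicComplete (maximalIdeal O) O] (hc : c ∈ maximalIdeal O) :
    haveI := node_isLocalRing hc
    IsAdicComplete (maximalIdeal (Node O c)) (Node O c) := by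
  have := node_isLocalRing hc
  obtain ⟨ϖ, hϖ⟩ := IsDiscreteValuationRing.exists_irreducible O
  have : IsAdicComplete (maximalIdeal (MvPowerSeries (Fin 2) O)) (MvPowerSeries (Fin 2) O) :=
    GaloisBasic.isAdicComplete_mvPowerSeries_of_complete
  have := IsAdicComplete.of_module_finite (maximalIdeal (MvPowerSeries (Fin 2) O)) (Node O c)
  have e : (maximalIdeal (MvPowerSeries (Fin 2) O)).map
      (algebraMap (MvPowerSeries (Fin 2) O) (Node O c)) = maximalIdeal (Node O c) := by
    refine IsLocalRing.map_maximalIdeal_of_surjective _ ?_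
    exact Ideal.Quotient.mk_surjective
  rw [← e]
  exact (IsAdicComplete.map_algebraMap_iff _ _).mpr inferInstance

variable {ϖ : O} (hϖ : Irreducible ϖ)
include hϖ

/-- The uniformiser lies in the maximal ideal. -/
theorem unif_mem : ϖ ∈ maximalIdeal O := hϖ.maximalIdeal_eq ▸ Ideal.mem_span_singleton_self ϖ

theorem dvd_var_of_branch {i j : Fin 2} (hij : i ≠ j) {x : Node O ϖ}
    (hx : branch (unif_mem hϖ) i x = 0) : nodeVar ϖ j ∣ x := by
  obtain ⟨a, b, rfl⟩ := exists_of_branch_eq_zero (unif_mem hϖ) hϖ.maximalIdeal_eq hij hx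
  refine dvd_add (Dvd.dvd.mul_right ?_ a) (dvd_mul_right _ b)
  rw [← nodeVar_mul]
  fin_cases i <;> fin_cases j <;> simp_all

theorem var_zero_regular {x : Node O ϖ} (hx : nodeVar ϖ 0 * x = 0) : x = 0 := by
  apply nodeC_uniformiser_regular (unif_mem hϖ) hϖ.maximalIdeal_eq hϖ.ne_zero
  rw [← nodeVar_mul]
  linear_combination (nodeVar ϖ 1) * hx

theorem dvd_or_dvd_of_var_zero {a b : Node O ϖ} (hab : nodeVar ϖ 0 ∣ a * b) :
    nodeVar ϖ 0 ∣ a ∨ nodeVar ϖ 0 ∣ b := by
  obtain ⟨r, hr⟩ := hab
  have := congrArg (branch (unif_mem hϖ) 1) hr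
  simp only [map_mul, branch_nodeVar, show ((1 : Fin 2) = 0) = False by decide, if_false,
    zero_mul] at this
  exact (mul_eq_zero.mp this).imp (dvd_var_of_branch hϖ (by decide))
    (dvd_var_of_branch hϖ (by decide))

theorem not_isUnit_var_zero : ¬ IsUnit (nodeVar ϖ 0) := fun h => by
  have := h.map (branch (unif_mem hϖ) 1)
  rw [branch_nodeVar] at this
  simp at this

/-- The node ring of the uniformiser is a domain. -/
theorem node_isDomain : IsDomain (Node O ϖ) :=
  have := node_isLocalRing (unif_mem hϖ)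
  isDomain_of_regular_prime (fun _ => var_zero_regular hϖ) (not_isUnit_var_zero hϖ)
    fun _ _ => dvd_or_dvd_of_var_zero hϖ

/-- The coordinate `X₀` is prime for `c` the uniformiser. -/
theorem prime_nodeVar_zero : Prime (nodeVar ϖ 0) :=
  have := node_isDomain hϖ
  ⟨fun h => one_ne_zero (var_zero_regular hϖ (x := 1) (by rw [h, zero_mul])),
    not_isUnit_var_zero hϖ, fun _ _ => dvd_or_dvd_of_var_zero hϖ⟩

/-- **The tame node is factorial.** -/
theorem node_ufm : haveI := node_isDomain hϖ; UniqueFactorizationMonoid (Node O ϖ) := by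
  have := node_isDomain hϖ
  have := node_isLocalRing (unif_mem hϖ)
  refine UniqueFactorizationMonoid.iff_exists_prime_mem_of_isPrime.mpr fun P hP0 hP => ?_
  by_cases hu : nodeVar ϖ 0 ∈ P
  · exact ⟨_, hu, prime_nodeVar_zero hϖ⟩
  set b1 := branch (unif_mem hϖ) 1
  have hb1 : Function.Surjective b1 := fun s => by
    have : ∀ e, ∃ a, residue O a = PowerSeries.coeff e s := fun e => residue_surjective _
    choose a ha using this
    let f : MvPowerSeries (Fin 2) O := fun d => if d 0 = 0 then a (d 1) else 0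
    refine ⟨nodeMk ϖ f, PowerSeries.ext fun e => ?_⟩
    rw [branch_nodeMk, coeff_axisHom, ← ha]
    show residue O (if (axisExp 1 e : Fin 2 →₀ ℕ) 0 = 0 then _ else 0) = _
    simp [axisExp]
  obtain ⟨f, rfl⟩ := principal_of_notMem_of_surjective hb1 (not_isUnit_var_zero hϖ)
    (fun _ => dvd_var_of_branch hϖ (by decide : (1 : Fin 2) ≠ 0)) hP hu
  refine ⟨f, Ideal.mem_span_singleton_self f, (Ideal.span_singleton_prime ?_).mp hP⟩
  rintro rfl
  exact hP0 (by simp)

/-- The coordinate `X₁` is prime for `c` the uniformiser. -/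
theorem prime_nodeVar_one : Prime (nodeVar ϖ 1) := by
  have := node_isDomain hϖ
  refine ⟨fun h => ?_, fun h => ?_, fun a b hab => ?_⟩
  · have := congrArg (branch (unif_mem hϖ) 1) h
    rw [branch_nodeVar, map_zero, if_pos rfl] at this
    exact PowerSeries.X_ne_zero this
  · have := h.map (branch (unif_mem hϖ) 0)
    rw [branch_nodeVar] at this
    simp at this
  · obtain ⟨r, hr⟩ := hab
    have := congrArg (branch (unif_mem hϖ) 0) hr
    simp only [map_mul, branch_nodeVar, show ((0 : Fin 2) = 1) = False by decide, if_false,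
      zero_mul] at this
    rcases mul_eq_zero.mp this with h | h
    · exact Or.inl (dvd_var_of_branch hϖ (by decide) h)
    · exact Or.inr (dvd_var_of_branch hϖ (by decide) h)

/-- An element nonzero on both branches cuts out a finite subscheme of the special fibre. -/
theorem exists_pow_var_mem {x : Node O c} (hc : c ∈ maximalIdeal O)
    (h : ∀ i, branch hc i x ≠ 0) :
    ∃ N, ∀ i, nodeVar c i ^ N ∈ Ideal.span {x, nodeC c ϖ} := by
  set I : Ideal (Node O c) := Ideal.span {x, nodeC c ϖ}
  have hxI : x ∈ I := Ideal.subset_span (Set.mem_insert _ _)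
  have hϖI : nodeC c ϖ ∈ I := Ideal.subset_span (Set.mem_insert_of_mem _ rfl)
  have key : ∀ i j : Fin 2, i ≠ j →
      ∃ N b, nodeVar c i ^ N - nodeVar c j * b ∈ I := by
    intro i j hij
    obtain ⟨w, hw⟩ : IsUnit (PowerSeries.divXPowOrder (branch hc i x)) :=
      PowerSeries.isUnit_iff_constantCoeff.mpr (isUnit_iff_ne_zero.mpr
        fun h0 => h i (PowerSeries.constantCoeff_divXPowOrder_eq_zero_iff.mp h0))
    have hb := PowerSeries.X_pow_order_mul_divXPowOrder (f := branch hc i x)
    set N := (branch hc i x).order.toNat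
    obtain ⟨winv, hwinv⟩ : ∃ r, branch hc i r = ↑w⁻¹ := by
      have : ∀ e, ∃ a, residue O a = PowerSeries.coeff e (↑w⁻¹ : PowerSeries (ResidueField O)) :=
        fun e => residue_surjective _
      choose a ha using this
      let f : MvPowerSeries (Fin 2) O := fun d => a (d i)
      refine ⟨nodeMk c f, PowerSeries.ext fun e => ?_⟩
      rw [branch_nodeMk, coeff_axisHom, ← ha]
      show residue O (a ((axisExp i e : Fin 2 →₀ ℕ) i)) = _
      simp [axisExp]
    have hz : branch hc i (nodeVar c i ^ N - x * winv) = 0 := by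
      rw [map_sub, map_pow, map_mul, hwinv, branch_nodeVar, if_pos rfl]
      nth_rewrite 1 [← hb]
      rw [← hw, mul_assoc, Units.mul_inv, mul_one, sub_self]
    obtain ⟨a, b, hab⟩ := exists_of_branch_eq_zero hc hϖ.maximalIdeal_eq hij hz
    refine ⟨N, b, ?_⟩
    rw [show nodeVar c i ^ N - nodeVar c j * b = nodeC c ϖ * a + x * winv by
      linear_combination hab]
    exact I.add_mem (I.mul_mem_right _ hϖI) (I.mul_mem_right _ hxI)
  obtain ⟨N, b, hN⟩ := key 0 1 (by decide)
  obtain ⟨N', b', hN'⟩ := key 1 0 (by decide)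
  obtain ⟨c', hc'⟩ := Ideal.mem_span_singleton.mp (hϖ.maximalIdeal_eq ▸ hc)
  have hxy : nodeVar c 0 * nodeVar c 1 ∈ I := by
    rw [nodeVar_mul, congrArg (nodeC c) hc', map_mul]; exact I.mul_mem_right _ hϖI
  have h0 : nodeVar c 0 ^ (N + 1) ∈ I := by
    rw [show nodeVar c 0 ^ (N + 1) = nodeVar c 0 * (nodeVar c 0 ^ N - nodeVar c 1 * b) +
      nodeVar c 0 * nodeVar c 1 * b by ring]
    exact I.add_mem (I.mul_mem_left _ hN) (I.mul_mem_right _ hxy)
  have h1 : nodeVar c 1 ^ (N' + 1) ∈ I := by
    rw [show nodeVar c 1 ^ (N' + 1) = nodeVar c 1 * (nodeVar c 1 ^ N' - nodeVar c 0 * b') +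
      nodeVar c 0 * nodeVar c 1 * b' by ring]
    exact I.add_mem (I.mul_mem_left _ hN') (I.mul_mem_right _ hxy)
  refine ⟨N + N' + 1, fun i => ?_⟩
  fin_cases i
  · exact I.pow_mem_of_pow_mem h0 (by omega)
  · exact I.pow_mem_of_pow_mem h1 (by omega)

end Ring

end FermatAgent.BAD
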