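import Fermat.Agent.BAD.Node
import Fermat.Agent.BAD.Crit

/-!
# Diagonal maps of nodes and descent of roots along a tame covering

A map `X i ↦ a i * X i ^ E` of nodes restricts to `X ↦ X ^ E` up to scaling on each branch; for
units `a i` it is injective with image the part of weight zero, so `n`-th roots found on the
covering descend.
-/

set_option autoImplicit false

noncomputable section

open MvPowerSeries IsLocalRing

namespace FermatAgent.BAD

variable {O : Type} [CommRing O]

/-- `X i ↦ a i * X i ^ E` and `σ` on the coefficients. -/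
def diagMap (σ : O →+* O) (a : Fin 2 → O) (E : ℕ) [NeZero E] :
    MvPowerSeries (Fin 2) O →+* MvPowerSeries (Fin 2) O :=
  ((MvPowerSeries.expand E (NeZero.ne E)).toRingHom.comp (rescale a)).comp (MvPowerSeries.map σ)

variable (σ : O →+* O) (a : Fin 2 → O) (E : ℕ) [NeZero E]

/-- The coefficient at `E d` of the image of a series. -/
theorem coeff_diagMap_smul (f : MvPowerSeries (Fin 2) O) (d : Fin 2 →₀ ℕ) :
    coeff (E • d) (diagMap σ a E f) = a 0 ^ d 0 * a 1 ^ d 1 * σ (coeff d f) := by
  simp only [diagMap, RingHom.comp_apply, AlgHom.toRingHom_eq_coe, RingHom.coe_coe,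
    coeff_expand_smul, coeff_rescale, coeff_map]
  congr 1
  rw [Finsupp.prod_fintype _ _ (fun i => pow_zero _), Fin.prod_univ_two]

/-- The image has no coefficient at exponents not divisible by `E`. -/
theorem coeff_diagMap_of_not_dvd (f : MvPowerSeries (Fin 2) O) {d : Fin 2 →₀ ℕ} {i : Fin 2}
    (h : ¬ E ∣ d i) : coeff d (diagMap σ a E f) = 0 := by
  simp only [diagMap, RingHom.comp_apply, AlgHom.toRingHom_eq_coe, RingHom.coe_coe]
  exact coeff_expand_of_not_dvd _ _ _ h

/-- An exponent divisible by `E` in both entries is `E` times an exponent. -/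
theorem exists_eq_smul {E : ℕ} {d : Fin 2 →₀ ℕ} (h : ∀ i, E ∣ d i) :
    ∃ d' : Fin 2 →₀ ℕ, d = E • d' :=
  ⟨Finsupp.equivFunOnFinite.symm fun i => d i / E, Finsupp.ext fun i => by
    simp [Nat.mul_div_cancel' (h i)]⟩

theorem diagMap_C (r : O) : diagMap σ a E (C r) = C (σ r) := by
  simp only [diagMap, RingHom.comp_apply, AlgHom.toRingHom_eq_coe, RingHom.coe_coe, map_C]
  have : rescale a (C (σ r) : MvPowerSeries (Fin 2) O) = C (σ r) := by
    ext d
    rw [coeff_rescale, coeff_C]
    split_ifs with h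
    · subst h; simp
    · simp
  rw [this, expand_C]

theorem diagMap_X (i : Fin 2) : diagMap σ a E (X i) = C (a i) * X i ^ E := by
  simp only [diagMap, RingHom.comp_apply, AlgHom.toRingHom_eq_coe, RingHom.coe_coe, map_X]
  have : rescale a (X i : MvPowerSeries (Fin 2) O) = C (a i) * X i := by
    ext d
    rw [coeff_rescale, coeff_C_mul, coeff_X]
    split_ifs with h
    · subst h; simp [Finsupp.prod_single_index]
    · simp
  rw [this, map_mul, expand_C, expand_X]

theorem diagMap_comp {E' : ℕ} [NeZero E'] (σ' : O →+* O) (a' : Fin 2 → O)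
    (f : MvPowerSeries (Fin 2) O) : diagMap σ a E (diagMap σ' a' E' f) =
      (haveI : NeZero (E * E') := ⟨mul_ne_zero (NeZero.ne E) (NeZero.ne E')⟩
       diagMap (σ.comp σ') (fun i => a i ^ E' * σ (a' i)) (E * E') f) := by
  have : NeZero (E * E') := ⟨mul_ne_zero (NeZero.ne E) (NeZero.ne E')⟩
  ext d
  by_cases h : ∀ i, E * E' ∣ d i
  · obtain ⟨d', rfl⟩ := exists_eq_smul h
    rw [coeff_diagMap_smul, mul_smul, coeff_diagMap_smul, coeff_diagMap_smul]
    simp only [Finsupp.smul_apply, smul_eq_mul, map_mul, map_pow, RingHom.comp_apply, mul_pow,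
      ← pow_mul]
    ring
  · push Not at h
    obtain ⟨i, hi⟩ := h
    rw [coeff_diagMap_of_not_dvd _ _ _ _ hi]
    by_cases hE : ∀ i, E ∣ d i
    · obtain ⟨d', rfl⟩ := exists_eq_smul hE
      rw [coeff_diagMap_smul, coeff_diagMap_of_not_dvd σ' a' E' f (d := d') (i := i),
        map_zero σ, mul_zero]
      intro hd
      exact hi (by simpa using mul_dvd_mul_left E hd)
    · push Not at hE
      obtain ⟨j, hj⟩ := hE
      exact coeff_diagMap_of_not_dvd _ _ _ _ hj

variable {σ a E} {c c' : O}

theorem diagMap_nodeRel (h : σ c = a 0 * a 1 * c' ^ E) :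
    nodeRel O c' ∣ diagMap σ a E (nodeRel O c) := by
  have e : diagMap σ a E (nodeRel O c) =
      C (a 0 * a 1) * ((X 0 * X 1) ^ E - C c' ^ E) := by
    rw [nodeRel, map_sub, map_mul, diagMap_X, diagMap_X, diagMap_C, h, map_mul, map_mul, map_pow]
    ring
  rw [e]
  exact (sub_dvd_pow_sub_pow _ _ E).mul_left _

/-- The diagonal map of nodes. -/
def nodeDiag (h : σ c = a 0 * a 1 * c' ^ E) : Node O c →+* Node O c' :=
  Ideal.Quotient.lift _ ((nodeMk c').comp (diagMap σ a E)) fun f hf => by
    obtain ⟨g, rfl⟩ := Ideal.mem_span_singleton.mp hf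
    rw [RingHom.comp_apply, nodeMk_eq_zero_iff, map_mul]
    exact (diagMap_nodeRel h).mul_right _

/-- The map of nodes on classes of series. -/
@[simp] theorem nodeDiag_nodeMk (h : σ c = a 0 * a 1 * c' ^ E) (f : MvPowerSeries (Fin 2) O) :
    nodeDiag h (nodeMk c f) = nodeMk c' (diagMap σ a E f) := rfl

/-- The map of nodes acts on constants by `σ`. -/
theorem nodeDiag_nodeC (h : σ c = a 0 * a 1 * c' ^ E) (r : O) :
    nodeDiag h (nodeC c r) = nodeC c' (σ r) := by
  rw [nodeC, RingHom.comp_apply, nodeDiag_nodeMk, diagMap_C]; rfl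

/-- The map of nodes on the coordinates. -/
theorem nodeDiag_nodeVar (h : σ c = a 0 * a 1 * c' ^ E) (i : Fin 2) :
    nodeDiag h (nodeVar c i) = nodeC c' (a i) * nodeVar c' i ^ E := by
  rw [nodeVar, nodeDiag_nodeMk, diagMap_X, map_mul, map_pow]; rfl

/-- Composites of diagonal maps are diagonal. -/
theorem nodeDiag_nodeDiag {c'' : O} {E' : ℕ} [NeZero E'] {σ' : O →+* O} {a' : Fin 2 → O}
    (h : σ c' = a 0 * a 1 * c'' ^ E) (h' : σ' c = a' 0 * a' 1 * c' ^ E') {F : ℕ} [NeZero F]
    {ρ : O →+* O} {b : Fin 2 → O} (hb : ρ c = b 0 * b 1 * c'' ^ F) (hF : E * E' = F)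
    (hρ : σ.comp σ' = ρ) (he : ∀ i, a i ^ E' * σ (a' i) = b i) (x : Node O c) :
    nodeDiag h (nodeDiag h' x) = nodeDiag hb x := by
  obtain ⟨f, rfl⟩ := nodeMk_surjective c x
  subst hF hρ
  simp only [nodeDiag_nodeMk, diagMap_comp, funext he]

section Branch

variable [IsLocalRing O]

/-- On a branch the map is a rescaling followed by `X ↦ X ^ E`. -/
theorem branch_nodeDiag (hc : c ∈ maximalIdeal O) (hc' : c' ∈ maximalIdeal O)
    (h : σ c = a 0 * a 1 * c' ^ E) (hσ : ∀ r, residue O (σ r) = residue O r) (i : Fin 2)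
    (x : Node O c) : branch hc' i (nodeDiag h x) =
      PowerSeries.expand E (NeZero.ne E)
        (PowerSeries.rescale (residue O (a i)) (branch hc i x)) := by
  obtain ⟨f, rfl⟩ := nodeMk_surjective c x
  ext e
  rw [nodeDiag_nodeMk, branch_nodeMk, branch_nodeMk, coeff_axisHom]
  by_cases he : E ∣ e
  · obtain ⟨e', rfl⟩ := he
    rw [PowerSeries.coeff_expand_mul, PowerSeries.coeff_rescale, coeff_axisHom,
      show axisExp i (E * e') = E • axisExp i e' by simp [axisExp],
      coeff_diagMap_smul]
    fin_cases i <;> simp [axisExp, map_mul, map_pow, hσ]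
  · rw [PowerSeries.coeff_expand_of_not_dvd _ _ _ he,
      coeff_diagMap_of_not_dvd σ a E f (i := i) (by simpa [axisExp] using he), map_zero]

/-- With unit scaling the map keeps elements nonzero on a branch. -/
theorem branch_nodeDiag_ne_zero (hc : c ∈ maximalIdeal O) (hc' : c' ∈ maximalIdeal O)
    (h : σ c = a 0 * a 1 * c' ^ E) (hσ : ∀ r, residue O (σ r) = residue O r) {i : Fin 2}
    (ha : IsUnit (a i)) {x : Node O c} (hx : branch hc i x ≠ 0) :
    branch hc' i (nodeDiag h x) ≠ 0 := by
  rw [branch_nodeDiag hc hc' h hσ]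
  intro h0
  refine hx (PowerSeries.ext fun e => ?_)
  have := congrArg (PowerSeries.coeff (E * e)) h0
  rw [PowerSeries.coeff_expand_mul, PowerSeries.coeff_rescale, map_zero] at this
  rw [map_zero]
  exact (mul_eq_zero.mp this).resolve_left (pow_ne_zero _ (ha.map (residue O)).ne_zero)

/-- An element nonzero on both branches is regular modulo `ϖ`. -/
theorem regMod_of_branches {ϖ : O} (hc : c ∈ maximalIdeal O)
    (hϖ : maximalIdeal O = Ideal.span {ϖ}) {x : Node O c} (h : ∀ i, branch hc i x ≠ 0) :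
    RegMod (nodeC c ϖ) x := fun z hz => by
  rw [dvd_iff_branches hc hϖ] at hz ⊢
  rw [map_mul, map_mul] at hz
  exact ⟨(mul_eq_zero.mp hz.1).resolve_left (h 0), (mul_eq_zero.mp hz.2).resolve_left (h 1)⟩

end Branch

/-! ### The invariant part -/

variable (E) in
/-- The monomials of weight zero. -/
def wtPart (f : MvPowerSeries (Fin 2) O) : MvPowerSeries (Fin 2) O :=
  fun d => if (d 0 : ZMod E) = d 1 then coeff d f else 0

section

omit [NeZero E]

/-- The coefficients of the weight zero part. -/
theorem coeff_wtPart (f : MvPowerSeries (Fin 2) O) (d : Fin 2 →₀ ℕ) :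
    coeff d (wtPart E f) = if (d 0 : ZMod E) = d 1 then coeff d f else 0 := rfl

theorem wtPart_add (f g : MvPowerSeries (Fin 2) O) :
    wtPart E (f + g) = wtPart E f + wtPart E g := by
  ext d; simp only [coeff_wtPart, map_add]; split_ifs <;> simp

theorem wtPart_mul {g : MvPowerSeries (Fin 2) O} (hg : wtPart E g = g)
    (f : MvPowerSeries (Fin 2) O) : wtPart E (g * f) = g * wtPart E f := by
  classical
  ext d
  rw [coeff_wtPart, coeff_mul, coeff_mul]
  have key : ∀ p ∈ Finset.HasAntidiagonal.antidiagonal d, coeff p.1 g * coeff p.2 (wtPart E f) =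
      if (d 0 : ZMod E) = d 1 then coeff p.1 g * coeff p.2 f else 0 := by
    intro p hp
    rw [Finset.HasAntidiagonal.mem_antidiagonal] at hp
    by_cases h1 : (p.1 0 : ZMod E) = p.1 1
    · have : (d 0 : ZMod E) = d 1 ↔ (p.2 0 : ZMod E) = p.2 1 := by
        subst hp
        simp [h1]
      rw [coeff_wtPart]
      simp only [this, mul_ite, mul_zero]
    · have : coeff p.1 g = 0 := by rw [← hg, coeff_wtPart, if_neg h1]
      simp [this]
  rw [Finset.sum_congr rfl key]
  split_ifs <;> simp

theorem wtPart_C (r : O) : wtPart E (C r : MvPowerSeries (Fin 2) O) = C r := by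
  classical
  ext d
  rw [coeff_wtPart, coeff_C]
  by_cases h : d = 0
  · subst h; simp
  · simp [h]

theorem wtPart_nodeRel (c : O) : wtPart E (nodeRel O c) = nodeRel O c := by
  classical
  ext d
  rw [coeff_wtPart]
  split_ifs with h
  · rfl
  · rw [nodeRel, map_sub, coeff_C, X, X, monomial_mul_monomial, coeff_monomial, if_neg, if_neg,
      sub_zero]
    · rintro rfl; simp at h
    · rintro rfl; simp at h

end

theorem wtPart_diagMap (f : MvPowerSeries (Fin 2) O) :
    wtPart E (diagMap σ a E f) = diagMap σ a E f := by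
  ext d
  rw [coeff_wtPart]
  split_ifs with h
  · rfl
  · by_cases hE : ∀ i, E ∣ d i
    · exact absurd (by rw [(ZMod.natCast_eq_zero_iff _ _).mpr (hE 0),
        (ZMod.natCast_eq_zero_iff _ _).mpr (hE 1)]) h
    · push Not at hE
      obtain ⟨i, hi⟩ := hE
      exact (coeff_diagMap_of_not_dvd _ _ _ _ hi).symm

variable (E) in
/-- The projection to weight zero. -/
def nodeProj (c : O) (x : Node O c) : Node O c :=
  nodeMk c (wtPart E (Function.surjInv (nodeMk_surjective c) x))

section

omit [NeZero E]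

/-- The weight zero projection on classes of series. -/
theorem nodeProj_nodeMk (f : MvPowerSeries (Fin 2) O) :
    nodeProj E c (nodeMk c f) = nodeMk c (wtPart E f) := by
  rw [nodeProj, nodeMk_eq_iff]
  obtain ⟨g, hg⟩ := nodeMk_eq_iff.mp (Function.surjInv_eq (nodeMk_surjective c) (nodeMk c f))
  set f' := Function.surjInv (nodeMk_surjective c) (nodeMk c f)
  refine ⟨wtPart E g, ?_⟩
  rw [← wtPart_mul (wtPart_nodeRel c), ← hg]
  have h2 := wtPart_add (E := E) (f' - f) f
  rw [sub_add_cancel] at h2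
  rw [h2, add_sub_cancel_right]

/-- The weight zero projection is additive. -/
theorem nodeProj_add (x y : Node O c) : nodeProj E c (x + y) = nodeProj E c x + nodeProj E c y := by
  obtain ⟨f, rfl⟩ := nodeMk_surjective c x
  obtain ⟨g, rfl⟩ := nodeMk_surjective c y
  rw [← map_add, nodeProj_nodeMk, nodeProj_nodeMk, nodeProj_nodeMk, wtPart_add, map_add]

theorem nodeProj_sub (x y : Node O c) : nodeProj E c (x - y) = nodeProj E c x - nodeProj E c y := by
  have := nodeProj_add (E := E) (x - y) y
  rw [sub_add_cancel] at this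
  rw [this, add_sub_cancel_right]

theorem wtPart_idem (f : MvPowerSeries (Fin 2) O) : wtPart E (wtPart E f) = wtPart E f := by
  ext d; simp only [coeff_wtPart]; split_ifs <;> rfl

/-- The weight zero projection is idempotent. -/
theorem nodeProj_idem (x : Node O c) : nodeProj E c (nodeProj E c x) = nodeProj E c x := by
  obtain ⟨f, rfl⟩ := nodeMk_surjective c x
  rw [nodeProj_nodeMk, nodeProj_nodeMk, wtPart_idem]

/-- The projection is linear over elements of weight zero. -/
theorem nodeProj_mul {z : Node O c} (hz : nodeProj E c z = z) (x : Node O c) :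
    nodeProj E c (z * x) = z * nodeProj E c x := by
  obtain ⟨g, rfl⟩ := nodeMk_surjective c z
  obtain ⟨f, rfl⟩ := nodeMk_surjective c x
  rw [← hz, nodeProj_nodeMk, nodeProj_nodeMk, ← map_mul, nodeProj_nodeMk,
    wtPart_mul (wtPart_idem g), map_mul]

/-- Constants have weight zero. -/
theorem nodeProj_nodeC (r : O) : nodeProj E c (nodeC c r) = nodeC c r := by
  rw [nodeC, RingHom.comp_apply, nodeProj_nodeMk, wtPart_C]

theorem nodeProj_pow {z : Node O c} (hz : nodeProj E c z = z) (k : ℕ) :
    nodeProj E c (z ^ k) = z ^ k := by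
  induction k with
  | zero => rw [pow_zero, ← map_one (nodeC c), nodeProj_nodeC]
  | succ k ih => rw [pow_succ, nodeProj_mul ih, hz]

end

/-- The image of a diagonal map has weight zero. -/
theorem nodeProj_nodeDiag (h : σ c = a 0 * a 1 * c' ^ E) (x : Node O c) :
    nodeProj E c' (nodeDiag h x) = nodeDiag h x := by
  obtain ⟨f, rfl⟩ := nodeMk_surjective c x
  rw [nodeDiag_nodeMk, nodeProj_nodeMk, wtPart_diagMap]

/-- Every element of weight zero comes from the covered node. -/
theorem exists_of_nodeProj_eq (h : (RingHom.id O) c = a 0 * a 1 * c' ^ E)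
    (ha : ∀ i, IsUnit (a i)) {x : Node O c'} (hx : nodeProj E c' x = x) :
    ∃ y, nodeDiag h y = x := by
  classical
  obtain ⟨f, rfl⟩ := nodeMk_surjective c' x
  rw [nodeProj_nodeMk] at hx
  choose inv hinv using fun i => (ha i).exists_left_inv
  let g : ℕ → MvPowerSeries (Fin 2) O := fun s d =>
    inv 0 ^ d 0 * inv 1 ^ d 1 * coeff (E • d + bi s s) f
  refine ⟨∑ s ∈ Finset.range E, nodeC c c' ^ s * nodeMk c (g s), ?_⟩
  have e : wtPart E f =
      ∑ s ∈ Finset.range E, monomial (bi s s) (1 : O) * diagMap (RingHom.id O) a E (g s) := by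
    ext d
    rw [map_sum, coeff_wtPart]
    have hE := Nat.pos_of_ne_zero (NeZero.ne E)
    split_ifs with hd
    · have hm : d 0 % E = d 1 % E := (ZMod.natCast_eq_natCast_iff' _ _ _).mp hd
      obtain ⟨d', hd'⟩ : ∃ d' : Fin 2 →₀ ℕ, d = bi (d 0 % E) (d 0 % E) + E • d' := by
        refine ⟨bi (d 0 / E) (d 1 / E), Finsupp.ext fun i => ?_⟩
        fin_cases i
        · simp [Nat.mod_add_div]
        · simp only [Fin.mk_one, Finsupp.coe_add, Pi.add_apply, bi_one, Finsupp.smul_apply,
            smul_eq_mul, hm, Nat.mod_add_div]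
      rw [Finset.sum_eq_single (d 0 % E)]
      · generalize d 0 % E = s at hd' ⊢
        subst hd'
        rw [coeff_add_monomial_mul, one_mul, coeff_diagMap_smul, add_comm]
        show _ = a 0 ^ d' 0 * a 1 ^ d' 1 * (inv 0 ^ d' 0 * inv 1 ^ d' 1 * _)
        have e0 : inv 0 * a 0 = 1 := hinv 0
        have e1 : inv 1 * a 1 = 1 := hinv 1
        rw [← mul_assoc, show a 0 ^ d' 0 * a 1 ^ d' 1 * (inv 0 ^ d' 0 * inv 1 ^ d' 1) =
          (inv 0 * a 0) ^ d' 0 * (inv 1 * a 1) ^ d' 1 by ring, e0, e1, one_pow, one_pow, one_mul,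
          one_mul]
      · intro s hs hne
        rw [coeff_monomial_mul]
        split_ifs with hle
        · rw [one_mul]
          refine coeff_diagMap_of_not_dvd _ _ _ _ (i := 0) fun hdvd => hne ?_
          have hsd : s ≤ d 0 := by simpa using hle 0
          rw [Finsupp.tsub_apply, bi_zero] at hdvd
          have := (Nat.modEq_iff_dvd' hsd).mpr hdvd
          rwa [Nat.ModEq, Nat.mod_eq_of_lt (Finset.mem_range.mp hs)] at this
        · rfl
      · intro h'
        exact absurd (Finset.mem_range.mpr (Nat.mod_lt _ hE)) h'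
    · refine (Finset.sum_eq_zero fun s hs => ?_).symm
      rw [coeff_monomial_mul]
      split_ifs with hle
      · rw [one_mul]
        by_cases hb : ∀ i, E ∣ (d - bi s s) i
        · refine absurd ?_ hd
          have h0 := (ZMod.natCast_eq_zero_iff _ _).mpr (hb 0)
          have h1 := (ZMod.natCast_eq_zero_iff _ _).mpr (hb 1)
          rw [Finsupp.tsub_apply, bi_zero, Nat.cast_sub (by simpa using hle 0), sub_eq_zero] at h0
          rw [Finsupp.tsub_apply, bi_one, Nat.cast_sub (by simpa using hle 1), sub_eq_zero] at h1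
          rw [h0, h1]
        · push Not at hb
          obtain ⟨i, hi⟩ := hb
          exact coeff_diagMap_of_not_dvd _ _ _ _ hi
      · rfl
  rw [← hx, e, map_sum, map_sum]
  refine Finset.sum_congr rfl fun s _ => ?_
  rw [map_mul, map_mul, map_pow, nodeDiag_nodeC, nodeDiag_nodeMk, RingHom.id_apply]
  congr 1
  rw [← nodeVar_mul, show monomial (bi s s) (1 : O) = (X 0 * X 1) ^ s by
    rw [X, X, monomial_mul_monomial, monomial_pow, one_mul, one_pow,
      show bi s s = s • (Finsupp.single (0 : Fin 2) 1 + Finsupp.single 1 1) by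
        ext i; fin_cases i <;> simp [bi]], map_pow, map_mul]
  rfl

section Descent

variable [IsDomain O] [IsDiscreteValuationRing O] {ϖ : O}

/-- The node ring is separated for powers of the uniformiser. -/
theorem eq_zero_of_forall_pow_dvd (hc : c ∈ maximalIdeal O) (hϖ : Irreducible ϖ) {x : Node O c}
    (h : ∀ k, nodeC c ϖ ^ k ∣ x) : x = 0 := by
  have := node_isLocalRing hc
  have hne : Ideal.span {nodeC c ϖ} ≠ ⊤ := fun ht => by
    have := (Ideal.span_singleton_eq_top.mp ht).map (branch hc 0)
    rw [branch_nodeC, residue_uniformiser hϖ.maximalIdeal_eq] at this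
    simp at this
  have : x ∈ ⨅ k, Ideal.span {nodeC c ϖ} ^ k := by
    simp only [Submodule.mem_iInf, Ideal.span_singleton_pow, Ideal.mem_span_singleton]
    exact h
  rwa [Ideal.iInf_pow_eq_bot_of_isLocalRing _ hne, Ideal.mem_bot] at this

/-- A diagonal map with unit scaling is injective. -/
theorem nodeDiag_id_injective (hc : c ∈ maximalIdeal O) (hc' : c' ∈ maximalIdeal O)
    (hϖ : Irreducible ϖ) (h : (RingHom.id O) c = a 0 * a 1 * c' ^ E) (ha : ∀ i, IsUnit (a i)) :
    Function.Injective (nodeDiag h) := by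
  rw [injective_iff_map_eq_zero]
  suffices key : ∀ (k : ℕ) x, nodeDiag h x = 0 → nodeC c ϖ ^ k ∣ x from
    fun x hx => eq_zero_of_forall_pow_dvd hc hϖ fun k => key k x hx
  intro k
  induction k with
  | zero => simp
  | succ k ih =>
    intro x hx
    have hb : ∀ i, branch hc i x = 0 := fun i => by
      by_contra hne
      exact branch_nodeDiag_ne_zero hc hc' h (fun _ => rfl) (ha i) hne (by rw [hx, map_zero])
    obtain ⟨x', rfl⟩ := dvd_of_branches hc hϖ.maximalIdeal_eq (hb 0) (hb 1)
    rw [map_mul, nodeDiag_nodeC, RingHom.id_apply] at hx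
    rw [pow_succ']
    exact mul_dvd_mul_left _
      (ih x' (nodeC_uniformiser_regular hc' hϖ.maximalIdeal_eq hϖ.ne_zero hx))

/-- **Roots descend along a tame covering of nodes.** -/
theorem exists_root_descent (hc : c ∈ maximalIdeal O) (hc' : c' ∈ maximalIdeal O)
    (hϖ : Irreducible ϖ) (h : (RingHom.id O) c = a 0 * a 1 * c' ^ E) (ha : ∀ i, IsUnit (a i))
    {n : ℕ} (hn : IsUnit (n : O)) {L : Node O c'} {y b : Node O c}
    (hL : L ^ n = nodeDiag h y) (hLb : nodeC c' ϖ ∣ L - nodeDiag h b)
    (hb : ∀ i, branch hc i b ≠ 0) :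
    ∃ L₀ : Node O c, L₀ ^ n = y ∧ nodeC c ϖ ∣ L₀ - b := by
  set T := nodeDiag h
  set P := nodeProj E c' with hP
  set w := nodeC c' ϖ with hw
  have hPlin : ∀ (k : ℕ) x, P (w ^ k * x) = w ^ k * P x := fun k x =>
    nodeProj_mul (nodeProj_pow (nodeProj_nodeC ϖ) k) x
  obtain ⟨r, hr⟩ := hLb
  have hTb : P (T b) = T b := nodeProj_nodeDiag h b
  set L1 := P L with hL1
  have hL1b : w ∣ L1 - T b := ⟨P r, by
    rw [hL1, ← hTb, ← nodeProj_sub, hr]; simpa using hPlin 1 r⟩
  have hreg : RegMod w L1 := RegMod.of_dvd_sub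
    (regMod_of_branches hc' hϖ.maximalIdeal_eq fun i =>
      branch_nodeDiag_ne_zero hc hc' h (fun _ => rfl) (ha i) (hb i)) hL1b
  have hn' : ∀ x : Node O c', (n : Node O c') * x = 0 → x = 0 := fun x hx => by
    rw [← map_natCast (nodeC c')] at hx
    exact (hn.map (nodeC c')).mul_right_eq_zero.mp hx
  obtain ⟨nv, hnv⟩ := hn.exists_left_inv
  have hD : ∀ j : ℕ, w ^ j ∣ L - L1 := by
    intro j
    induction j with
    | zero => simp
    | succ j ih =>
      rcases Nat.eq_zero_or_pos j with rfl | hj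
      · rw [zero_add, pow_one]
        rw [show L - L1 = (L - T b) - (L1 - T b) by ring]
        exact dvd_sub ⟨r, hr⟩ hL1b
      obtain ⟨D', hD'⟩ := ih
      set D := L - L1 with hDdef
      obtain ⟨K, hK⟩ := sq_dvd_add_pow_sub_sub D L1 n
      set z := (n : Node O c') * L1 ^ (n - 1) * D with hz
      set v := L ^ n - L1 ^ n with hv
      have hLD : L1 + D = L := by rw [hDdef]; ring
      have hzv : z = v + w ^ (2 * j) * (-(D' ^ 2 * K)) := by
        have h2 : D ^ 2 = w ^ (2 * j) * D' ^ 2 := by rw [hD', mul_pow, ← pow_mul, mul_comm j]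
        rw [hLD] at hK
        rw [hz, hv]
        linear_combination -hK - K * h2
      have hPv : P v = v := by
        rw [hv, hP, nodeProj_sub, hL, nodeProj_nodeDiag, nodeProj_pow (nodeProj_idem L)]
      have hPz : P z = 0 := by
        have hfix : P ((n : Node O c') * L1 ^ (n - 1)) = (n : Node O c') * L1 ^ (n - 1) := by
          rw [← map_natCast (nodeC c'), hP, nodeProj_mul (nodeProj_nodeC _),
            nodeProj_pow (nodeProj_idem L)]
        rw [hz, hP, nodeProj_mul hfix, hDdef, nodeProj_sub, hL1, hP, nodeProj_idem, sub_self,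
          mul_zero]
      have hdvd : w ^ (j + 1) ∣ z := by
        set x := -(D' ^ 2 * K)
        have : z = w ^ (2 * j) * (x - P x) := by
          have h1 := congrArg P hzv
          rw [hPz, hP, nodeProj_add, ← hP, hPv, hPlin] at h1
          linear_combination hzv - h1
        rw [this]
        exact (pow_dvd_pow w (by omega)).trans (dvd_mul_right _ _)
      refine (hreg.pow (n - 1)).dvd_pow
        (fun x hx => nodeC_uniformiser_regular hc' hϖ.maximalIdeal_eq hϖ.ne_zero hx) ?_
      have := hdvd.mul_left (nodeC c' nv)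
      rwa [hz, ← map_natCast (nodeC c'), ← mul_assoc, ← mul_assoc, ← map_mul, hnv, map_one,
        one_mul] at this
  have hLP : P L = L :=
    (sub_eq_zero.mp (eq_zero_of_forall_pow_dvd hc' hϖ hD)).symm
  obtain ⟨L₀, rfl⟩ := exists_of_nodeProj_eq h ha hLP
  refine ⟨L₀, nodeDiag_id_injective hc hc' hϖ h ha (by rw [map_pow, hL]), ?_⟩
  refine dvd_of_branches hc hϖ.maximalIdeal_eq ?_ ?_ <;>
  · by_contra hne
    refine branch_nodeDiag_ne_zero hc hc' h (fun _ => rfl) (ha _) hne ?_
    rw [map_sub, hr, map_mul, branch_nodeC, residue_uniformiser hϖ.maximalIdeal_eq, map_zero,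
      zero_mul]

end Descent

end FermatAgent.BAD
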