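import Fermat.Agent.BAD.NodeMaps

/-!
# Roots at a node and the finite quotients of a node

The quotient of a node by an element nonzero on both branches is finite over `O`, so its primes
are points; an element whose zeros have multiplicities divisible by `n` is a unit times an `n`-th
power.
-/

set_option autoImplicit false

noncomputable section

open IsLocalRing

namespace FermatAgent.BAD

section Roots

variable {O : Type} [CommRing O] [IsLocalRing O]

/-- Hensel: an `n`-th root of the residue lifts, `n` being a unit. -/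
theorem exists_root_of_residue [IsAdicComplete (maximalIdeal O) O] {n : ℕ} (hn : IsUnit (n : O))
    {u r : O} (hr : IsUnit r) (h : residue O u = residue O r ^ n) :
    ∃ α, α ^ n = u ∧ residue O α = residue O r := by
  have hn0 : n ≠ 0 := by rintro rfl; simp at hn
  obtain ⟨α, hα, hαr⟩ := HenselianRing.is_henselian (I := maximalIdeal O)
    (Polynomial.X ^ n - Polynomial.C u) (Polynomial.monic_X_pow_sub_C u hn0) r
    (by rw [← residue_eq_zero_iff]; simp [h])
    (by
      simpa [Polynomial.derivative_X_pow] using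
        (hn.mul (hr.pow (n - 1))).map (Ideal.Quotient.mk (maximalIdeal O)))
  refine ⟨α, sub_eq_zero.mp (by simpa [Polynomial.IsRoot.def] using hα), ?_⟩
  exact sub_eq_zero.mp (by rw [← map_sub, residue_eq_zero_iff]; exact hαr)

/-- Units with equal `n`-th powers and equal residues are equal. -/
theorem eq_of_pow_eq_pow {n : ℕ} (hn : IsUnit (n : O)) {x y : O} (hx : IsUnit x)
    (h : x ^ n = y ^ n) (hres : residue O x = residue O y) : x = y := by
  set U := ∑ i ∈ Finset.range n, x ^ i * y ^ (n - 1 - i)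
  have hU : residue O U = residue O ((n : O) * x ^ (n - 1)) := by
    simp only [U, map_sum, map_mul, map_pow, map_natCast, ← hres]
    rw [Finset.sum_congr rfl (g := fun _ => residue O x ^ (n - 1)) (fun i hi => by
      rw [← pow_add]; congr 1; have := Finset.mem_range.mp hi; omega), Finset.sum_const,
      Finset.card_range, nsmul_eq_mul]
  have hUu : IsUnit U := by
    refine isUnit_of_map_unit (residue O) _ ?_
    rw [hU]
    exact ((hn.mul (hx.pow _))).map _
  have : (x - y) * U = 0 := by rw [mul_comm, geom_sum₂_mul, h, sub_self]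
  exact sub_eq_zero.mp (hUu.mul_left_eq_zero.mp this)

/-- A diagonal map with exponent one rescales the branches. -/
theorem branch_semi {σ : O →+* O} {a : Fin 2 → O} {c c' : O} (hc : c ∈ maximalIdeal O)
    (hc' : c' ∈ maximalIdeal O) (h : σ c = a 0 * a 1 * c' ^ 1)
    (hσ : ∀ r, residue O (σ r) = residue O r) (i : Fin 2) (x : Node O c) :
    branch hc' i (nodeDiag h x) = PowerSeries.rescale (residue O (a i)) (branch hc i x) := by
  ext e
  conv_lhs => rw [branch_nodeDiag hc hc' h hσ, ← one_mul e, PowerSeries.coeff_expand_mul]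

end Roots

section Quotient

variable {O : Type} [CommRing O] [IsDomain O] [IsDiscreteValuationRing O]
  [IsAdicComplete (maximalIdeal O) O] {ϖ c : O} (hϖ : Irreducible ϖ) (hc : c ∈ maximalIdeal O)

omit [IsDomain O] [IsDiscreteValuationRing O] [IsAdicComplete (maximalIdeal O) O] in
theorem algebraMap_node (r : O) : algebraMap O (Node O c) r = nodeC c r := rfl

include hϖ hc in
/-- The quotient by an element nonzero on both branches is finite over `O`. -/
theorem node_quotient_finite {f : Node O c} (hf : ∀ i, branch hc i f ≠ 0) :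
    Module.Finite O (Node O c ⧸ Ideal.span {f}) := by
  classical
  have := node_isLocalRing hc
  obtain ⟨N, hN⟩ := exists_pow_var_mem hϖ hc hf
  set M := Node O c ⧸ Ideal.span {f}
  let F : (Fin N × Fin N → O) →ₗ[O] M := Fintype.linearCombination O
    (fun p => Ideal.Quotient.mk (Ideal.span {f})
      (nodeVar c 0 ^ (p.1 : ℕ) * nodeVar c 1 ^ (p.2 : ℕ)))
  have : IsPrecomplete (maximalIdeal O) (Fin N × Fin N → O) :=
    (IsAdicComplete.of_module_finite (maximalIdeal O) (Fin N × Fin N → O)).toIsPrecomplete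
  have : IsHausdorff (maximalIdeal O) M := by
    refine IsHausdorff.map_algebraMap_iff.mp
      (IsHausdorff.of_isLocalRing ((maximalIdeal O).map (algebraMap O (Node O c))) M ?_)
    refine fun h => (IsLocalRing.maximalIdeal.isMaximal (Node O c)).ne_top (top_le_iff.mp ?_)
    rw [← h, Ideal.map_le_iff_le_comap]
    intro r hr
    rw [Ideal.mem_comap, algebraMap_node, IsLocalRing.mem_maximalIdeal, mem_nonunits_iff]
    intro hu
    have := hu.map (branch hc 0)
    rw [branch_nodeC, (residue_eq_zero_iff r).mpr hr, map_zero] at this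
    exact not_isUnit_zero this
  refine Module.Finite.of_surjective F (surjective_of_mkQ_comp_surjective (I := maximalIdeal O)
    fun z => ?_)
  obtain ⟨z, rfl⟩ := Submodule.mkQ_surjective _ z
  obtain ⟨x, rfl⟩ := Ideal.Quotient.mk_surjective z
  obtain ⟨g, rfl⟩ := nodeMk_surjective c x
  refine ⟨fun p => MvPowerSeries.coeff (bi p.1 p.2) g, ?_⟩
  rw [LinearMap.comp_apply, Submodule.mkQ_apply, Submodule.mkQ_apply, eq_comm,
    Submodule.Quotient.eq]
  -- the truncation
  set t : MvPowerSeries (Fin 2) O := ∑ p : Fin N × Fin N,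
    MvPowerSeries.monomial (bi p.1 p.2) (MvPowerSeries.coeff (bi p.1 p.2) g) with ht
  have hFt : F (fun p => MvPowerSeries.coeff (bi p.1 p.2) g) =
      Ideal.Quotient.mk (Ideal.span {f}) (nodeMk c t) := by
    rw [ht, map_sum, map_sum, Fintype.linearCombination_apply]
    refine Finset.sum_congr rfl fun p _ => ?_
    show Ideal.Quotient.mk (Ideal.span {f}) (_ • (_ : Node O c)) = _
    refine (congrArg (Ideal.Quotient.mk (Ideal.span {f})) (Algebra.smul_def _ _)).trans ?_
    rw [algebraMap_node, nodeVar, nodeVar, nodeC, RingHom.comp_apply, ← map_pow, ← map_pow,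
      ← map_mul, ← map_mul]
    congr 2
    rw [MvPowerSeries.X, MvPowerSeries.X, MvPowerSeries.monomial_pow, MvPowerSeries.monomial_pow,
      one_pow, one_pow, MvPowerSeries.monomial_mul_monomial, one_mul,
      ← MvPowerSeries.monomial_zero_eq_C_apply,
      MvPowerSeries.monomial_mul_monomial, mul_one, zero_add]
    congr 2
    ext i; fin_cases i <;> simp [bi]
  rw [hFt, ← map_sub, ← map_sub]
  -- the rest lies in the ideal of high powers
  let g0 : MvPowerSeries (Fin 2) O := fun d => if N ≤ d 0 then MvPowerSeries.coeff d g else 0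
  let g1 : MvPowerSeries (Fin 2) O :=
    fun d => if d 0 < N ∧ N ≤ d 1 then MvPowerSeries.coeff d g else 0
  have hsplit : g - t = g0 + g1 := by
    ext d
    rw [map_sub, ht, map_sum, map_add]
    show _ = (if N ≤ d 0 then _ else 0) + (if d 0 < N ∧ N ≤ d 1 then _ else 0)
    by_cases h : d 0 < N ∧ d 1 < N
    · rw [Finset.sum_eq_single (⟨d 0, h.1⟩, ⟨d 1, h.2⟩), MvPowerSeries.coeff_monomial,
        if_pos (eq_bi d), if_neg (by omega), if_neg (by omega)]
      · simp [← eq_bi d]
      · intro p _ hp
        rw [MvPowerSeries.coeff_monomial, if_neg]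
        exact fun e => hp (Prod.ext (Fin.ext (by simp [e])) (Fin.ext (by simp [e])))
      · simp
    · rw [Finset.sum_eq_zero fun p _ => ?_, sub_zero]
      · split_ifs <;> simp <;> omega
      · rw [MvPowerSeries.coeff_monomial, if_neg]
        rintro rfl
        exact h ⟨by simp, by simp⟩
  have hd0 : (MvPowerSeries.X 0 : MvPowerSeries (Fin 2) O) ^ N ∣ g0 :=
    MvPowerSeries.X_pow_dvd_iff.mpr fun d hd => if_neg (not_le.mpr hd)
  have hd1 : (MvPowerSeries.X 1 : MvPowerSeries (Fin 2) O) ^ N ∣ g1 :=
    MvPowerSeries.X_pow_dvd_iff.mpr fun d hd => if_neg (fun h => absurd hd (not_lt.mpr h.2))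
  have hmem : nodeMk c (g - t) ∈ Ideal.span {f, nodeC c ϖ} := by
    obtain ⟨r0, hr0⟩ := hd0
    obtain ⟨r1, hr1⟩ := hd1
    rw [hsplit, hr0, hr1, map_add, map_mul, map_mul, map_pow, map_pow]
    exact Ideal.add_mem _ (Ideal.mul_mem_right _ _ (hN 0)) (Ideal.mul_mem_right _ _ (hN 1))
  obtain ⟨a, b, hab⟩ := Ideal.mem_span_pair.mp hmem
  rw [← hab]
  have hb : Ideal.Quotient.mk (Ideal.span {f}) (a * f + b * nodeC c ϖ) =
      Ideal.Quotient.mk (Ideal.span {f}) (ϖ • b) := Ideal.Quotient.eq.mpr <|
    Ideal.mem_span_singleton.mpr ⟨a, by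
      rw [(Algebra.smul_def ϖ b : ϖ • b = algebraMap O (Node O c) ϖ * b), algebraMap_node]; ring⟩
  rw [hb]
  exact Submodule.smul_mem_smul (N := (⊤ : Submodule O M))
    (hϖ.maximalIdeal_eq ▸ Ideal.mem_span_singleton_self ϖ)
    (Submodule.mem_top (x := Ideal.Quotient.mk (Ideal.span {f}) b))

include hϖ hc in
/-- Points on a horizontal divisor. -/
theorem exists_node_point {f : Node O c} (hf : ∀ i, branch hc i f ≠ 0)
    (hprime : (Ideal.span {f}).IsPrime) {K : Type} [Field K] [IsAlgClosed K] (j : O →+* K)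
    (hj : Function.Injective j) :
    ∃ ψ : Node O c →+* K, (∀ r, ψ (nodeC c r) = j r) ∧ (∀ x, ψ x = 0 ↔ f ∣ x) ∧
      ∀ x, ∃ P : Polynomial O, P.Monic ∧ Polynomial.eval₂ j (ψ x) P = 0 := by
  have : IsDomain (Node O c ⧸ Ideal.span {f}) := Ideal.Quotient.isDomain _
  have := node_quotient_finite hϖ hc hf
  let : CommRing (Node O c ⧸ Ideal.span {f}) := Ideal.Quotient.commRing _
  let : Algebra O (Node O c ⧸ Ideal.span {f}) := Ideal.Quotient.algebra O
  have hinj : Function.Injective (algebraMap O (Node O c ⧸ Ideal.span {f})) := by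
    rw [injective_iff_map_eq_zero]
    intro r hr
    by_contra hr0
    obtain ⟨k, w, rfl⟩ := IsDiscreteValuationRing.eq_unit_mul_pow_irreducible hr0 hϖ
    rw [map_mul, map_pow] at hr
    have h1 : algebraMap O (Node O c ⧸ Ideal.span {f}) ϖ = 0 :=
      (pow_eq_zero_iff'.mp ((RingHom.isUnit_map (algebraMap O (Node O c ⧸ Ideal.span {f}))
        w.isUnit).mul_right_eq_zero.mp hr)).1
    rw [IsScalarTower.algebraMap_apply O (Node O c) (Node O c ⧸ Ideal.span {f}),
      Ideal.Quotient.algebraMap_eq, Ideal.Quotient.eq_zero_iff_dvd, algebraMap_node] at h1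
    have := node_isLocalRing hc
    obtain ⟨x, hx⟩ := h1
    refine hf 0 ?_
    have hb := congrArg (branch hc 0) hx
    rw [branch_nodeC, residue_uniformiser hϖ.maximalIdeal_eq, map_zero, map_mul, eq_comm,
      mul_eq_zero] at hb
    rcases hb with h | h
    · exact h
    have hb' := congrArg (branch hc 1) hx
    rw [branch_nodeC, residue_uniformiser hϖ.maximalIdeal_eq, map_zero, map_mul, eq_comm,
      mul_eq_zero] at hb'
    obtain ⟨x', rfl⟩ := dvd_of_branches hc hϖ.maximalIdeal_eq h (hb'.resolve_left (hf 1))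
    have h2 : nodeC c ϖ * (1 - f * x') = 0 := by linear_combination hx
    have h3 := nodeC_uniformiser_regular hc hϖ.maximalIdeal_eq hϖ.ne_zero h2
    exact absurd (Ideal.span_singleton_eq_top.mpr
      (IsUnit.of_mul_eq_one x' (sub_eq_zero.mp h3).symm))
      hprime.ne_top
  let := j.toAlgebra
  have : Algebra.IsIntegral O (Node O c ⧸ Ideal.span {f}) :=
    Algebra.IsIntegral.of_finite O (Node O c ⧸ Ideal.span {f})
  have : FaithfulSMul O (Node O c ⧸ Ideal.span {f}) :=
    (faithfulSMul_iff_algebraMap_injective O (Node O c ⧸ Ideal.span {f})).mpr hinj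
  have : Module.IsTorsionFree O (Node O c ⧸ Ideal.span {f}) :=
    Module.isTorsionFree_iff_algebraMap_injective.mpr hinj
  have : Module.IsTorsionFree O K := Module.isTorsionFree_iff_algebraMap_injective.mpr hj
  let φ : (Node O c ⧸ Ideal.span {f}) →ₐ[O] K := IsAlgClosed.lift
  refine ⟨φ.toRingHom.comp (Ideal.Quotient.mk _), fun r => φ.commutes r, fun x => ?_, fun x => ?_⟩
  · rw [RingHom.comp_apply, ← Ideal.Quotient.eq_zero_iff_dvd]
    refine ⟨fun h => ?_, fun h => by rw [h, map_zero]⟩
    have hker : RingHom.ker φ.toRingHom = ⊥ := Ideal.eq_bot_of_comap_eq_bot (R := O) (by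
      refine eq_bot_iff.mpr fun r hr => ?_
      rw [Ideal.mem_comap, RingHom.mem_ker] at hr
      exact hj (by rw [map_zero]; exact (φ.commutes r).symm.trans hr))
    exact (RingHom.injective_iff_ker_eq_bot _).mpr hker (h.trans (map_zero _).symm)
  · obtain ⟨P, hP, hev⟩ :=
      Algebra.IsIntegral.isIntegral (R := O) (Ideal.Quotient.mk (Ideal.span {f}) x)
    refine ⟨P, hP, ?_⟩
    have := congrArg φ hev
    rw [map_zero, ← AlgHom.coe_toRingHom, Polynomial.hom_eval₂] at this
    rw [← show φ.toRingHom.comp (algebraMap O (Node O c ⧸ Ideal.span {f})) = j from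
      φ.comp_algebraMap]
    exact this

end Quotient

section Factor

variable {R : Type*} [CommRing R] [IsDomain R] [UniqueFactorizationMonoid R]

/-- An element all whose multiplicities are divisible by `n` is an `n`-th power up to a unit. -/
theorem exists_unit_mul_pow {n : ℕ} (y : R) (hy : y ≠ 0)
    (h : ∀ f : R, Prime f → f ∣ y →
      ∃ (i : ℕ) (d e g : R), ¬ f ∣ e ∧ ¬ f ∣ g ∧ y * e = d ^ (n * i) * g) :
    ∃ (u : Rˣ) (H : R), y = u * H ^ n := by
  induction y using (wellFounded_dvdNotUnit (α := R)).induction with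
  | _ y ih =>
    by_cases hu : IsUnit y
    · exact ⟨hu.unit, 1, by simp⟩
    obtain ⟨f, hf, hfy⟩ := WfDvdMonoid.exists_irreducible_factor hu hy
    have hfp := UniqueFactorizationMonoid.irreducible_iff_prime.mp hf
    obtain ⟨m, y', hfy', rfl⟩ := WfDvdMonoid.max_power_factor hy hf
    obtain ⟨i, d, e, g, he, hg, hid⟩ := h f hfp hfy
    have hm : n ∣ m := by
      have h1 := congrArg (emultiplicity f) hid
      rw [emultiplicity_mul hfp, emultiplicity_mul hfp, emultiplicity_mul hfp,
        emultiplicity_pow hfp, emultiplicity_pow hfp,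
        emultiplicity_eq_zero.mpr hfy', emultiplicity_eq_zero.mpr he,
        emultiplicity_eq_zero.mpr hg, add_zero, add_zero, add_zero,
        (FiniteMultiplicity.of_prime_left hfp hfp.ne_zero).emultiplicity_self, mul_one] at h1
      rcases eq_or_ne d 0 with rfl | hd
      · rcases Nat.eq_zero_or_pos (n * i) with h0 | h0
        · rw [h0, Nat.cast_zero, zero_mul] at h1
          rw [Nat.cast_eq_zero.mp h1]; exact dvd_zero n
        · rw [zero_pow h0.ne', zero_mul] at hid
          exact absurd (mul_eq_zero.mp hid) (by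
            rintro (h | h)
            · exact hy h
            · exact he (h ▸ dvd_zero f))
      · obtain ⟨l, hl⟩ := ENat.ne_top_iff_exists.mp
          (finiteMultiplicity_iff_emultiplicity_ne_top.mp
            (FiniteMultiplicity.of_prime_left hfp hd))
        rw [← hl, ← Nat.cast_mul, Nat.cast_inj] at h1
        exact ⟨i * l, by rw [h1]; ring⟩
    have hm0 : m ≠ 0 := by rintro rfl; exact hfy' (by simpa using hfy)
    have hy' : y' ≠ 0 := right_ne_zero_of_mul hy
    obtain ⟨u, H, hH⟩ := ih y' ⟨hy', f ^ m, fun h => hfp.not_isUnit ((isUnit_pow_iff hm0).mp h),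
      mul_comm _ _⟩ hy' fun f' hf' hf'y => by
        obtain ⟨i', d', e', g', he', hg', hid'⟩ := h f' hf' (hf'y.mul_left _)
        refine ⟨i', d', f ^ m * e', g', fun hd => ?_, hg', by rw [← hid']; ring⟩
        rcases hf'.dvd_or_dvd hd with h1 | h1
        · exact hfy' (((hf'.associated_of_dvd hfp (hf'.dvd_of_dvd_pow h1)).symm.dvd).trans hf'y)
        · exact he' h1
    obtain ⟨k, rfl⟩ := hm
    exact ⟨u, f ^ k * H, by rw [hH]; ring⟩

end Factor

/-- On a node, an element nonzero on both branches whose zeros have multiplicities divisible by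
`n` is a unit times an `n`-th power. -/
theorem exists_node_factor_of_witness {O : Type} [CommRing O] [IsDomain O]
    [IsDiscreteValuationRing O] [IsAdicComplete (maximalIdeal O) O] {ϖ : O}
    (hϖ : Irreducible ϖ) {K : Type} [Field K] [IsAlgClosed K] (j : O →+* K)
    (hj : Function.Injective j) {n : ℕ} {y : Node O ϖ}
    (hy : ∀ i, branch (unif_mem hϖ) i y ≠ 0)
    (hw : ∀ ψ : Node O ϖ →+* K, (∀ r, ψ (nodeC ϖ r) = j r) → ψ y = 0 →
      ∃ (i : ℕ) (d e g : Node O ϖ), ψ e ≠ 0 ∧ ψ g ≠ 0 ∧ y * e = d ^ (n * i) * g) :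
    ∃ (u : (Node O ϖ)ˣ) (H : Node O ϖ), y = u * H ^ n := by
  have := node_isDomain hϖ
  have := node_ufm hϖ
  refine exists_unit_mul_pow y (fun h => hy 0 (by rw [h, map_zero])) fun f hf hfy => ?_
  obtain ⟨ψ, hψC, hψ, -⟩ := exists_node_point hϖ (unif_mem hϖ) (f := f) (fun i h0 => by
    obtain ⟨w, hw⟩ := hfy
    exact hy i (by rw [hw, map_mul, h0, zero_mul]))
    ((Ideal.span_singleton_prime hf.ne_zero).mpr hf) j hj
  obtain ⟨i, d, e, g, he, hg, hid⟩ := hw ψ hψC ((hψ y).mpr hfy)
  exact ⟨i, d, e, g, fun h => he ((hψ e).mpr h), fun h => hg ((hψ g).mpr h), hid⟩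

end FermatAgent.BAD
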