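import Fermat.Agent.BAD.Deriv
import Fermat.Agent.BAD.Divisible

/-!
# Expansions with integral coefficients, and their residues

`serO` is the expansion with coefficients in `O`, `resSer` its reduction; an element of `pInf` has
zero residual expansions at the cusps of type `∞`, and conversely for functions of level `M`.
-/

set_option autoImplicit false

open UpperHalfPlane CongruenceSubgroup
open scoped MatrixGroups

noncomputable section

namespace FermatAgent.BAD

open FermatAgent.ES (BSub BRing SerIn HasLExp lexp lexp_eq hasLExp_lexp zetaC CPlace liftSer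
  cuspSer fracRing)

/-- `q d/dq` commutes with changes of coefficients. -/
theorem liftSer_thetaSer {R S : Type*} [CommRing R] [CommRing S] (f : R →+* S)
    (s : LaurentSeries R) : liftSer f (thetaSer s) = thetaSer (liftSer f s) := by
  ext n
  rw [ES.coeff_liftSer, coeff_thetaSer, coeff_thetaSer, ES.coeff_liftSer, map_mul, map_intCast]

variable {q M : ℕ} [Fact q.Prime] [NeZero M] {O : Subring ℂ}

variable (M O) in
/-- The expansion at `γ` with coefficients in `O`. -/
def serO (q : ℕ) [Fact q.Prime] (γ : SL(2, ℤ)) : LRing q M O →+* LaurentSeries O :=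
  (cuspSer (M := q * M) O γ).comp (Subring.inclusion inf_le_left)

/-- The integral expansion maps to the expansion. -/
theorem liftSer_serO (γ : SL(2, ℤ)) (f : LRing q M O) :
    liftSer O.subtype (serO M O q γ f) = serAt M O q γ f := ES.liftSer_cuspSer O γ _

/-- An integral series mapping to the expansion is the integral expansion. -/
theorem serO_ext {γ : SL(2, ℤ)} {f : LRing q M O} {t : LaurentSeries O}
    (h : serAt M O q γ f = liftSer O.subtype t) : serO M O q γ f = t :=
  ES.liftSer_injective O.subtype_injective ((liftSer_serO γ f).trans h)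

/-- The integral expansion of a function of level `M` at level `qM`. -/
theorem serO_raiseL (γ : SL(2, ℤ)) (x : BRing M O) :
    serO M O q γ (raiseL M x) = expandL q (cuspSer O γ x) := serO_ext (by
  rw [serAt_raiseL, liftSer_expandL, ES.liftSer_cuspSer])

section Dil

variable (hM : M.Coprime q) (hζ : zetaC (q * M) ∈ O)

/-- Dilation into the integral ring. -/
def dilL : BRing M O →+* LRing q M O :=
  ((dilFun q).comp (BRing M O).subtype).codRestrict _ fun f => dilFun_mem_LRing hM hζ f.2

/-- The dilation as a function. -/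
theorem coe_dilL (f : BRing M O) : (dilL hM hζ f : ℍ → ℂ) = dilFun q (f : ℍ → ℂ) := rfl

/-- The integral expansion at `∞` of a dilation. -/
theorem serO_dilL_one (f : BRing M O) :
    serO M O q 1 (dilL hM hζ f) = expandL q (expandL q (cuspSer O 1 f)) := serO_ext (by
  rw [liftSer_expandL, liftSer_expandL, ES.liftSer_cuspSer, serAt_apply, coe_dilL]
  exact lexp_eq (hasLExp_dil_conj q (hasLExp_lexp f.2.1 1) fun τ => by rw [one_smul, one_smul]))

end Dil

omit [Fact (Nat.Prime q)] in
/-- In `O`, smaller absolute value means divisibility. -/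
theorem dvd_of_abv_le {P : CPlace q} (hO' : P.IsCDVR O) {x y : O} (hy : (y : ℂ) ≠ 0)
    (h : P.abv (x : ℂ) ≤ P.abv (y : ℂ)) : y ∣ x :=
  ⟨⟨(x : ℂ) / y, mem_of_mem_fracRing hO'
    ((Subfield.closure (O : Set ℂ)).div_mem (Subfield.subset_closure x.2)
      (Subfield.subset_closure y.2)) (by
        rw [map_div₀]; exact div_le_one_of_le₀ h (P.abv.nonneg _))⟩,
    Subtype.ext (by
      show (x : ℂ) = (y : ℂ) * ((x : ℂ) / y)
      rw [mul_div_cancel₀ _ hy])⟩

/-- `q` is nonzero in `O`. -/
theorem natCast_q_ne_zero : ((q : O) : ℂ) ≠ 0 := by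
  simpa using (Fact.out : q.Prime).ne_zero

/-- `q` is nonzero as a series. -/
theorem natCast_q_laurent_ne_zero : (q : LaurentSeries O) ≠ 0 := fun h => by
  have h1 := congrArg (fun s : LaurentSeries O => ((s.coeff 0 : O) : ℂ)) h
  simp only [← map_natCast (HahnSeries.C (Γ := ℤ) (R := O)), HahnSeries.C_apply,
    HahnSeries.coeff_single_same, HahnSeries.coeff_zero, ZeroMemClass.coe_zero] at h1
  exact natCast_q_ne_zero h1

/-- Division of a series by `q`. -/
theorem exists_natCast_mul {P : CPlace q} (hO' : P.IsCDVR O) {s : LaurentSeries O}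
    (h : P.SerLE (P.abv q) (liftSer O.subtype s)) :
    ∃ V : LaurentSeries O, s = (q : LaurentSeries O) * V := by
  have hd : ∀ n, ∃ c : O, s.coeff n = (q : O) * c ∧ (s.coeff n = 0 → c = 0) := fun n => by
    obtain ⟨c, hc⟩ := dvd_of_abv_le hO' (y := (q : O)) (x := s.coeff n) natCast_q_ne_zero (by
      rw [show ((q : O) : ℂ) = (q : ℂ) by simp]; exact h n)
    refine ⟨c, hc, fun h0 => ?_⟩
    rcases mul_eq_zero.mp (hc.symm.trans h0) with h1 | h1
    · exact absurd (congrArg Subtype.val h1) natCast_q_ne_zero
    · exact h1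
  choose c hc hc0 using hd
  refine ⟨⟨c, s.isPWO_support.mono fun n hn h0 => hn (hc0 n h0)⟩, ?_⟩
  ext n
  rw [← map_natCast (HahnSeries.C (Γ := ℤ) (R := O)), HahnSeries.C_mul_eq_smul,
    HahnSeries.coeff_smul, smul_eq_mul]
  exact congrArg _ (hc n)

section Res

variable [IsLocalRing O]

variable (M O) in
/-- The residual expansion at `γ`. -/
def resSer (q : ℕ) [Fact q.Prime] (γ : SL(2, ℤ)) :
    LRing q M O →+* LaurentSeries (IsLocalRing.ResidueField O) :=
  (liftSer (IsLocalRing.residue O)).comp (serO M O q γ)

variable (M O) in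
/-- The residual expansion at `γ` of a function of level `M`. -/
def resCusp (γ : SL(2, ℤ)) : BRing M O →+* LaurentSeries (IsLocalRing.ResidueField O) :=
  (liftSer (IsLocalRing.residue O)).comp (cuspSer O γ)

/-- The residual expansion of a function of level `M` at level `qM`. -/
theorem resSer_raiseL (γ : SL(2, ℤ)) (x : BRing M O) :
    resSer M O q γ (raiseL M x) = expandL q (resCusp M O γ x) := by
  simp only [resSer, resCusp, RingHom.comp_apply, serO_raiseL, liftSer_expandL]

omit [Fact (Nat.Prime q)] in
/-- A small series reduces to zero. -/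
theorem liftSer_residue_eq_zero {P : CPlace q} (hO' : P.IsCDVR O) {s : LaurentSeries O}
    (h : P.SerLT (liftSer O.subtype s)) : liftSer (IsLocalRing.residue O) s = 0 := by
  ext n
  rw [ES.coeff_liftSer, HahnSeries.coeff_zero, IsLocalRing.residue_eq_zero_iff]
  exact (hO'.mem_maximalIdeal_iff _).mpr (h n)

omit [Fact (Nat.Prime q)] in
/-- A series reducing to zero has no unit coefficient. -/
theorem not_unitCoeff_of_residue {P : CPlace q} (hO' : P.IsCDVR O) {s : LaurentSeries O}
    (h : liftSer (IsLocalRing.residue O) s = 0) : ¬ P.UnitCoeff (liftSer O.subtype s) := by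
  rintro ⟨n, hn⟩
  have h1 := congrArg (fun t : LaurentSeries (IsLocalRing.ResidueField O) => t.coeff n) h
  simp only [ES.coeff_liftSer, HahnSeries.coeff_zero, IsLocalRing.residue_eq_zero_iff] at h1
  exact (ne_of_lt ((hO'.mem_maximalIdeal_iff _).mp h1)) hn

variable {P : CPlace q} (hO : O ≤ P.ring) (hO' : P.IsCDVR O)
include hO'

/-- An element of `pInf` has zero residual expansions at type `∞`. -/
theorem resSer_eq_zero_of_mem_pInf {f : LRing q M O} (h : f ∈ pInf hO) {γ : SL(2, ℤ)}
    (hγ : γ ∈ Gamma0 q) : resSer M O q γ f = 0 :=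
  liftSer_residue_eq_zero hO' (by rw [liftSer_serO]; exact h γ hγ)

include hO in
/-- A function of level `M` with vanishing residual expansion lies in the component at `∞`. -/
theorem raiseL_mem_pInf_of_resCusp {m : ℕ} (haux : ES.AuxLevel M m) (hM : M.Coprime q)
    {x : BRing M O} (h : resCusp M O 1 x = 0) : (raiseL M x : LRing q M O) ∈ pInf hO := by
  rw [mem_pInf]
  intro γ hγ
  by_contra hno
  have hu : P.UnitCoeff (serAt M O q γ (raiseL M x)) := by
    by_contra hu
    exact hno (P.serLT_of_not_unitCoeff (fun n => hO (serIn_serAt γ (raiseL M x) n)) hu)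
  rw [serAt_raiseL] at hu
  obtain ⟨k, hn⟩ := unitCoeff_of_expandL hu
  refine not_unitCoeff_of_residue (P := P) hO' (s := serO M O q 1 (raiseL M x)) ?_ ?_
  · have h1 := resSer_raiseL (q := q) 1 x
    rw [h, map_zero] at h1
    exact h1
  · rw [liftSer_serO]
    exact unitAt_raiseL (M := M) hO haux hM ⟨γ, k, hn⟩ (fun _ => True) 1 trivial

omit [Fact (Nat.Prime q)] in
/-- A function with a unit coefficient at `∞` has non-zero residual expansion. -/
theorem resCusp_ne_zero {x : BRing M O} (h : P.UnitCoeff (lexp M 1 (x : ℍ → ℂ))) :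
    resCusp M O 1 x ≠ 0 := fun h0 => not_unitCoeff_of_residue (P := P) hO' h0 (by
  rwa [ES.liftSer_cuspSer])

end Res

end FermatAgent.BAD
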