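import Fermat.Agent.ES.LemmaL
import Fermat.Agent.ES.Forms.Classes
import Fermat.Agent.ES.Coeff.Padic
import Fermat.Agent.ES.Local.Disc

/-!
# The interface for lifting residual classes at a good prime

A form of level `N` and trivial multiplier whose reduction has divisor divisible by `n` is, up to
an exponent `e0` and `n`-th powers, congruent to the `n`-th power of a form with multiplier.
-/

set_option autoImplicit false

open UpperHalfPlane CongruenceSubgroup
open scoped MatrixGroups ModularForm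

noncomputable section

namespace FermatAgent.BAD

open FermatAgent.ES (HasExp AuxLevel CPlace IsTwist parGroup BRing GoodPoint discHom auxW)

/-- **The residual series `c` of weight `12 a n` lifts up to the exponent `e0`**: the `n`-th power
of the reduction of a form with parabolic multiplier of order dividing `n` is the `e0`-th power of
the reduction of `c` times the `n`-th power of the reduction of a form with trivial multiplier. -/
def LiftsResidual {q : ℕ} [Fact q.Prime] (Φ : ℂ ≃+* PadicAlgCl q) (N : ℕ) [NeZero N]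
    (n a e0 : ℕ) (c : PowerSeries (CPlace.ofEquiv Φ).ring) : Prop :=
  ∃ (i j : ℕ) (ψ : parGroup (Gamma0 N) n) (v D : ℍ → ℂ)
    (cv cD : PowerSeries (CPlace.ofEquiv Φ).ring),
    i = e0 * (6 * a) + j ∧
    IsTwist (Gamma0 N) ((2 * i : ℕ) : ℤ) (ψ : Gamma0 N →* ℂˣ) v ∧
    IsTwist (Gamma0 N) ((2 * j : ℕ) : ℤ) 1 D ∧
    HasExp 1 v (cv.map (CPlace.ofEquiv Φ).ring.subtype) ∧
    HasExp 1 D (cD.map (CPlace.ofEquiv Φ).ring.subtype) ∧
    cD.map (CPlace.ofEquiv Φ).res ≠ 0 ∧
    cv.map (CPlace.ofEquiv Φ).res ^ n =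
      c.map (CPlace.ofEquiv Φ).res ^ e0 * cD.map (CPlace.ofEquiv Φ).res ^ n

/-- **Residual classes lift up to the exponent `e0`.**

The reduction of the form `F` has orders divisible by `n` at the cusps, in their own widths, and
at the points of auxiliary level `M`. -/
def ResidualLift {q : ℕ} [Fact q.Prime] (Φ : ℂ ≃+* PadicAlgCl q) (N : ℕ) [NeZero N] {M m : ℕ}
    [NeZero M] (haux : AuxLevel M m) (hM : M.Coprime q) (e0 : ℕ) : Prop :=
  ∀ (n a : ℕ) [NeZero n], n.Coprime q →
    ∀ (F : ℍ → ℂ) (c : PowerSeries (CPlace.ofEquiv Φ).ring),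
    IsTwist (Gamma0 N) ((2 * (6 * n * a) : ℕ) : ℤ) 1 F →
    HasExp 1 F (c.map (CPlace.ofEquiv Φ).ring.subtype) →
    (∀ e, IsAlgebraic ℚ ((PowerSeries.coeff e c : (CPlace.ofEquiv Φ).ring) : ℂ)) →
    c.map (CPlace.ofEquiv Φ).res ≠ 0 →
    (∀ (γ : SL(2, ℤ)) (w : ℕ), γ * ModularGroup.T ^ w * γ⁻¹ ∈ Gamma0 N →
      ∀ d : PowerSeries (CPlace.ofEquiv Φ).ring,
        HasExp M (F ∣[((2 * (6 * n * a) : ℕ) : ℤ)] γ) (d.map (CPlace.ofEquiv Φ).ring.subtype) →
        ∀ i : ℕ, (d.map (CPlace.ofEquiv Φ).res).order = i → n * M ∣ w * i) →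
    (∀ G : BRing M (CPlace.ofEquiv Φ).ring,
      (G : ℍ → ℂ) = (fun τ => F τ / auxW haux τ ^ (6 * n * a)) →
      ∀ (τ : ℍ) (hg : GoodPoint haux (CPlace.ofEquiv Φ).ring τ) (i : ℕ),
        ((discHom haux τ ((CPlace.ofEquiv Φ).goodRoot hM) hg G).map
          (CPlace.ofEquiv Φ).res).order = i → n ∣ i) →
    LiftsResidual Φ N n a e0 c

end FermatAgent.BAD
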