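import Fermat.Agent.BAD.Points
import Fermat.Agent.ES.Local.CuspEval
import Mathlib.RingTheory.RootsOfUnity.Lemmas
import Mathlib.RingTheory.Polynomial.Basic

/-!
# Separation at level `q M` with denominators of level `M`

Scaled by `(qM)²` the separating functions are integral at every place, and
`sepD f = Σ sepSA S · Tr (sepSB S f)`.  Consequences: the ring is Noetherian and every function is
bounded.
-/

set_option autoImplicit false

open UpperHalfPlane CongruenceSubgroup
open scoped MatrixGroups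

noncomputable section

namespace FermatAgent.BAD

open FermatAgent.ES (BSub BRing SerIn HasLExp lexp lexp_eq hasLExp_lexp act zetaC AuxLevel CPlace
  GoodRoot vmul refA refB auxW dif embVec baseVec GalGrp repG trG polRing difLaurent)

section Level

variable {q M m : ℕ} [Fact q.Prime] [NeZero M]

omit [NeZero M] in
/-- An auxiliary level for `M` is one for `qM`. -/
theorem auxLevel_level (haux : AuxLevel M m) : AuxLevel (q * M) m :=
  ⟨haux.small, haux.dvd.trans (dvd_mul_left M q),
    haux.three_le.trans (Nat.le_mul_of_pos_left M (NeZero.pos q))⟩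

/-- Differences of `m`-torsion values do not depend on the level. -/
theorem dif_embVec_level (h : m ∣ M) (h' : m ∣ q * M) (u u' : Fin 2 → ZMod m) :
    dif (q * M) (embVec h' u) (embVec h' u') = dif M (embVec h u) (embVec h u') := by
  have : NeZero m := ⟨fun h0 => NeZero.ne M (zero_dvd_iff.mp (h0 ▸ h))⟩
  funext τ
  have hlift : ∀ (N : ℕ) [NeZero N] (hN : m ∣ N) (v : Fin 2 → ZMod m) (i : Fin 2),
      (((v i).val * (N / m) : ℕ) : ℤ) = (((v i).val * (N / m) : ℕ) : ℤ) ∧
        ((((v i).val * (N / m) : ℕ) : ℤ) : ZMod N) = embVec hN v i := fun N _ hN v i => by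
    refine ⟨rfl, ?_⟩
    conv_rhs => rw [embVec, ← ZMod.natCast_zmod_val (v i), ← Int.cast_natCast, ES.embHom_intCast]
    simp only [Nat.cast_mul, Int.cast_mul, Int.cast_natCast]
  have hpt : ∀ v : Fin 2 → ZMod m, ES.zPt (q * M) (fun i => (((v i).val * (q * M / m) : ℕ) : ℤ)) τ =
      ES.zPt M (fun i => (((v i).val * (M / m) : ℕ) : ℤ)) τ := fun v => by
    have hq : (q : ℂ) ≠ 0 := Nat.cast_ne_zero.mpr (NeZero.ne q)
    have hM : (M : ℂ) ≠ 0 := Nat.cast_ne_zero.mpr (NeZero.ne M)
    simp only [ES.zPt]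
    rw [Nat.mul_div_assoc q h]
    push_cast
    field_simp
  rw [ES.dif_eq_of_lift (q * M) (fun i => (hlift (q * M) h' u i).2)
      (fun i => (hlift (q * M) h' u' i).2),
    ES.dif_eq_of_lift M (fun i => (hlift M h u i).2) (fun i => (hlift M h u' i).2), hpt, hpt]

/-- The standard form does not depend on the level. -/
theorem auxW_level (haux : AuxLevel M m) : auxW (auxLevel_level (q := q) haux) = auxW haux := by
  funext τ
  exact congrFun (dif_embVec_level haux.dvd _ _ _) τ

theorem polFun_level (haux : AuxLevel M m) (j : ℕ) :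
    ES.polFun (auxLevel_level (q := q) haux).dvd j = ES.polFun haux.dvd j := by
  funext τ
  simp only [ES.polFun, ES.ratio, dif_embVec_level haux.dvd]

/-- The Hauptmodul does not depend on the level. -/
theorem haupt_level (haux : AuxLevel M m) :
    ES.haupt (auxLevel_level (q := q) haux).dvd = ES.haupt haux.dvd := polFun_level haux 1

end Level

theorem mem_of_one_sub_mul {N : ℕ} {A : Subring ℂ} (hζ : zetaC N ∈ A) [NeZero N] {i : ℕ}
    (hi : zetaC N ^ i ≠ 1) : (N : ℂ) / (1 - zetaC N ^ i) ∈ A := by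
  obtain ⟨k, hk⟩ : ∃ k, N = k + 1 := ⟨N - 1, by have := NeZero.pos N; omega⟩
  have hprim : IsPrimitiveRoot (zetaC N) (k + 1) := hk ▸ ES.zetaC_isPrimitiveRoot N
  have hprod := hprim.prod_one_sub_pow_eq_order
  have hmod : zetaC N ^ i = zetaC N ^ (i % (k + 1)) := pow_eq_pow_mod i hprim.pow_eq_one
  have h0 : i % (k + 1) ≠ 0 := fun h => hi (by rw [hmod, h, pow_zero])
  obtain ⟨j, hj⟩ : ∃ j, i % (k + 1) = j + 1 := ⟨_, (Nat.succ_pred_eq_of_ne_zero h0).symm⟩
  have hmem : j ∈ Finset.range k := Finset.mem_range.mpr (by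
    have := Nat.mod_lt i (show 0 < k + 1 from k.succ_pos); omega)
  rw [← Finset.mul_prod_erase _ _ hmem, ← hj, ← hmod, show ((k : ℂ) + 1) = (N : ℂ) by
    rw [hk]; push_cast; ring] at hprod
  rw [← hprod, mul_div_cancel_left₀ _ (sub_ne_zero.mpr fun h => hi h.symm)]
  exact Subring.prod_mem _ fun l _ => A.sub_mem A.one_mem (A.pow_mem hζ _)

theorem serIn_smul_difLaurent {N : ℕ} [NeZero N] {A : Subring ℂ} (hζ : zetaC N ∈ A)
    {v w : Fin 2 → ZMod N} (hv : v ≠ 0) (hw : w ≠ 0) :
    SerIn A (HahnSeries.C ((N : ℂ) ^ 2) * difLaurent N (zetaC N) v w) := by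
  have key : ∀ {u : Fin 2 → ZMod N}, u ≠ 0 → ∀ e,
      (N : ℂ) ^ 2 * ES.divCoeff N (zetaC N) u e ∈ A := by
    intro u hu e
    unfold ES.divCoeff
    split_ifs with h1 h2
    · have hne : zetaC N ^ (u 1).val ≠ 1 := by
        intro h
        have h3 := ((ES.zetaC_isPrimitiveRoot N).pow_eq_one_iff_dvd _).mp h
        refine hu (funext fun i => ?_)
        fin_cases i
        · exact h2
        · exact (ZMod.val_eq_zero _).mp (Nat.eq_zero_of_dvd_of_lt h3 (ZMod.val_lt _))
      rw [show (N : ℂ) ^ 2 * (zetaC N ^ (u 1).val / (1 - zetaC N ^ (u 1).val) ^ 2) =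
        zetaC N ^ (u 1).val * ((N : ℂ) / (1 - zetaC N ^ (u 1).val)) ^ 2 by
          rw [div_pow]; ring]
      exact A.mul_mem (A.pow_mem hζ _) (A.pow_mem (mem_of_one_sub_mul hζ hne) 2)
    · rw [mul_zero]; exact A.zero_mem
    · refine A.mul_mem (A.pow_mem (natCast_mem A N) 2)
        (Subring.sum_mem _ fun r _ => A.mul_mem (natCast_mem A r) (A.add_mem ?_ ?_)) <;>
      · split_ifs
        · exact A.pow_mem hζ _
        · exact A.zero_mem
  intro n
  rw [HahnSeries.C_mul_eq_smul, HahnSeries.coeff_smul, smul_eq_mul, difLaurent]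
  rcases le_or_gt 0 n with hn | hn
  · lift n to ℕ using hn
    rw [HahnSeries.ofPowerSeries_apply_coeff, ES.difSeries, PowerSeries.coeff_mk, mul_sub]
    exact A.sub_mem (key hv n) (key hw n)
  · rw [HahnSeries.ofPowerSeries_apply, HahnSeries.embDomain_of_notMem_range, mul_zero]
    · exact A.zero_mem
    · rintro ⟨k, hk⟩; simp at hk; omega

variable {q M m : ℕ} [Fact q.Prime] [NeZero M] (haux : AuxLevel M m)

/-- `(qM)² dif / W`, integral everywhere. -/
def scRatio (v w : Fin 2 → ZMod (q * M)) : ℍ → ℂ :=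
  fun τ => ((q * M : ℕ) : ℂ) ^ 2 * dif (q * M) v w τ / auxW haux τ

theorem act_scRatio {γ : SL(2, ℤ)} (v w : Fin 2 → ZMod (q * M)) :
    act γ (scRatio haux v w) = fun τ => ((q * M : ℕ) : ℂ) ^ 2 *
      dif (q * M) (vmul (q * M) v γ) (vmul (q * M) w γ) τ /
        ES.dif M (vmul M (refB haux.dvd) γ) (vmul M (refA haux.dvd) γ) τ := by
  funext τ
  have h := UpperHalfPlane.denom_ne_zero (γ : GL (Fin 2) ℝ) τ
  rw [ES.act_apply, scRatio, auxW, ES.dif_smul, ES.dif_smul, mul_left_comm,
    mul_div_mul_left _ _ (pow_ne_zero 2 h)]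

theorem hasLExp_scRatio {v w : Fin 2 → ZMod (q * M)} (hv : v ≠ 0) (hw : w ≠ 0) (γ : SL(2, ℤ)) :
    HasLExp (q * M) (act γ (scRatio haux v w))
      (HahnSeries.C (((q * M : ℕ) : ℂ) ^ 2) *
        difLaurent (q * M) (zetaC (q * M)) (vmul (q * M) v γ) (vmul (q * M) w γ) *
          (expandL q (wSer haux γ))⁻¹) := by
  have hne : ∀ {u : Fin 2 → ZMod (q * M)}, u ≠ 0 → vmul (q * M) u γ ≠ 0 := fun hu h0 =>
    hu (ES.vmul_injective γ (by simpa [ES.vmul_zero] using h0))
  refine (((ES.HasLExp.const _).mul (ES.hasLExp_dif (hne hv) (hne hw))).mul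
    ((hasLExp_raise q (hasLExp_auxW_conj haux γ)).inv
      (fun τ => ((ES.adm_ref haux).mul γ).dif_ne_zero τ)
      ((map_ne_zero_iff _ (expandL_injective q)).mpr (wSer_ne_zero haux γ)))).congr_fun fun τ => ?_
  rw [act_scRatio]
  simp [div_eq_mul_inv, mul_assoc]

theorem scRatio_mem_BSub {v w : Fin 2 → ZMod (q * M)} (hv : v ≠ 0) (hw : w ≠ 0) :
    scRatio haux v w ∈ BSub (q * M) := by
  refine ⟨fun γ hγ => ?_, fun γ => ⟨_, hasLExp_scRatio haux hv hw γ⟩⟩
  rw [act_scRatio, ES.vmul_of_mem hγ, ES.vmul_of_mem hγ,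
    ES.vmul_of_mem (ES.gamma_le_of_dvd (dvd_mul_left M q) hγ),
    ES.vmul_of_mem (ES.gamma_le_of_dvd (dvd_mul_left M q) hγ)]
  rfl

variable {A : Subring ℂ} (hA : GoodRoot M A (zetaC M)) (hζ : zetaC (q * M) ∈ A)

include hA hζ in
theorem scRatio_mem {v w : Fin 2 → ZMod (q * M)} (hv : v ≠ 0) (hw : w ≠ 0) :
    scRatio haux v w ∈ BRing (q * M) A := by
  have hne : ∀ {u : Fin 2 → ZMod (q * M)} (γ : SL(2, ℤ)), u ≠ 0 → vmul (q * M) u γ ≠ 0 :=
    fun γ hu h0 => hu (ES.vmul_injective γ (by simpa [ES.vmul_zero] using h0))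
  refine ⟨scRatio_mem_BSub haux hv hw, fun γ => ?_⟩
  rw [lexp_eq (hasLExp_scRatio haux hv hw γ), ← map_inv₀]
  exact (serIn_smul_difLaurent hζ (hne γ hv) (hne γ hw)).mul
    (expandL_serIn (wSer_inv_serIn haux hA γ).2)

/-- The scaled separating function. -/
def sepθ (g : GalGrp (q * M) m) : ℍ → ℂ :=
  scRatio haux (ES.movedVec (auxLevel_level haux) g) (refA (auxLevel_level (q := q) haux).dvd)

/-- The factor `sepθ g - sepθ g ∘ g`. -/
def sepFac (g : GalGrp (q * M) m) : ℍ → ℂ :=
  scRatio haux (ES.movedVec (auxLevel_level haux) g)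
    (vmul (q * M) (ES.movedVec (auxLevel_level haux) g) (repG (q * M) m g))

omit [NeZero M] in
theorem vmul_ref (g : GalGrp (q * M) m) (u : Fin 2 → ZMod m) :
    vmul (q * M) (embVec (auxLevel_level (q := q) haux).dvd u) (repG (q * M) m g) =
      embVec (auxLevel_level (q := q) haux).dvd u := by
  rw [← ES.embVec_vmul, ES.vmul_of_mem (ES.repG_mem g)]

theorem sepFac_eq (g : GalGrp (q * M) m) :
    sepθ haux g - act (repG (q * M) m g) (sepθ haux g) = sepFac haux g := by
  funext τ
  have hfix : ∀ u : Fin 2 → ZMod m, vmul M (embVec haux.dvd u) (repG (q * M) m g) =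
      embVec haux.dvd u := fun u => by rw [← ES.embVec_vmul, ES.vmul_of_mem (ES.repG_mem g)]
  rw [Pi.sub_apply, sepθ, act_scRatio, refA, vmul_ref haux, sepFac, scRatio, scRatio]
  simp only [refA, refB, hfix, auxW]
  have h := congrFun (ES.dif_add_dif (q * M) (ES.movedVec (auxLevel_level haux) g)
    (vmul (q * M) (ES.movedVec (auxLevel_level haux) g) (repG (q * M) m g))
    (embVec (auxLevel_level (q := q) haux).dvd (baseVec m 0))) τ
  simp only [Pi.add_apply] at h
  rw [← sub_div, ← mul_sub, ← h, add_sub_cancel_right]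

variable (q) in
/-- The common denominator. -/
def sepD : ℍ → ℂ := ∏ g ∈ Finset.univ.erase (1 : GalGrp (q * M) m), sepFac haux g

/-- The coefficient functions. -/
def sepSA (S : Finset (GalGrp (q * M) m)) : ℍ → ℂ :=
  ∏ g ∈ Finset.univ.erase 1 \ S, -act (repG (q * M) m g) (sepθ haux g)

/-- The dual functions. -/
def sepSB (S : Finset (GalGrp (q * M) m)) : ℍ → ℂ := ∏ g ∈ S, sepθ haux g

include hA hζ in
theorem sepθ_mem (g : GalGrp (q * M) m) : sepθ haux g ∈ BRing (q * M) A :=
  scRatio_mem haux hA hζ (ES.movedVec_ne_zero _ g) (ES.adm_ref (auxLevel_level haux)).right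

include hA hζ in
/-- The dual separating functions are integral. -/
theorem sepSB_mem (S : Finset (GalGrp (q * M) m)) : sepSB haux S ∈ BRing (q * M) A :=
  prod_mem fun g _ => sepθ_mem haux hA hζ g

include hA hζ in
/-- The separating coefficients are integral. -/
theorem sepSA_mem (S : Finset (GalGrp (q * M) m)) : sepSA haux S ∈ BRing (q * M) A :=
  prod_mem fun g _ => neg_mem (ES.act_mem_BRing (sepθ_mem haux hA hζ g) _)

include hA hζ in
/-- The denominator is integral. -/
theorem sepD_mem : sepD q haux ∈ BRing (q * M) A := prod_mem fun g hg =>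
  scRatio_mem haux hA hζ (ES.movedVec_ne_zero _ g)
    (ES.adm_moved (auxLevel_level haux) (Finset.ne_of_mem_erase hg)).right

/-- The denominator vanishes nowhere. -/
theorem sepD_ne_zero (τ : ℍ) : sepD q haux τ ≠ 0 := by
  rw [sepD, Finset.prod_apply]
  refine Finset.prod_ne_zero_iff.mpr fun g hg => div_ne_zero (mul_ne_zero ?_ ?_) ?_
  · exact pow_ne_zero 2 (Nat.cast_ne_zero.mpr (NeZero.ne (q * M)))
  · exact (ES.adm_moved (auxLevel_level haux) (Finset.ne_of_mem_erase hg)).dif_ne_zero τ
  · exact ES.auxW_ne_zero haux τ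

open Classical in
theorem sum_sepSA_mul_act_sepSB (h : GalGrp (q * M) m) :
    ∑ S ∈ (Finset.univ.erase (1 : GalGrp (q * M) m)).powerset,
      sepSA haux S * act (repG (q * M) m h) (sepSB haux S) = if h = 1 then sepD q haux else 0 := by
  have e : ∑ S ∈ (Finset.univ.erase (1 : GalGrp (q * M) m)).powerset,
      sepSA haux S * act (repG (q * M) m h) (sepSB haux S) =
      ∏ g ∈ Finset.univ.erase (1 : GalGrp (q * M) m),
        (act (repG (q * M) m h) (sepθ haux g) + -act (repG (q * M) m g) (sepθ haux g)) := by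
    rw [Finset.prod_add]
    refine Finset.sum_congr rfl fun S _ => ?_
    simp only [sepSA, sepSB, ES.act_prod]
    ring
  rw [e]
  split_ifs with hh
  · subst hh
    refine Finset.prod_congr rfl fun g _ => ?_
    have hB := scRatio_mem_BSub (q := q) haux (ES.movedVec_ne_zero (auxLevel_level haux) g)
      (ES.adm_ref (auxLevel_level haux)).right
    have h1 := ES.act_eq_act_repG hB (1 : Gamma m)
    rw [Subgroup.coe_one, ES.act_one, QuotientGroup.mk_one] at h1
    rw [sepθ, ← h1, ← sub_eq_add_neg]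
    exact sepFac_eq haux g
  · exact Finset.prod_eq_zero (Finset.mem_erase.mpr ⟨hh, Finset.mem_univ h⟩) (by simp)

/-- The dual basis formula. -/
theorem sepD_mul_eq {f : ℍ → ℂ} (hf : f ∈ BSub (q * M)) :
    sepD q haux * f = ∑ S ∈ (Finset.univ.erase (1 : GalGrp (q * M) m)).powerset,
      sepSA haux S * trG (q * M) m (sepSB haux S * f) := by
  classical
  have h1 : act (repG (q * M) m (1 : GalGrp (q * M) m)) f = f := by
    have := ES.act_eq_act_repG hf (1 : Gamma m)
    rw [Subgroup.coe_one, ES.act_one, QuotientGroup.mk_one] at this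
    exact this.symm
  simp only [trG, ES.act_mulFun, Finset.mul_sum, ← mul_assoc]
  rw [Finset.sum_comm]
  simp only [← Finset.sum_mul, sum_sepSA_mul_act_sepSB haux, ite_mul, zero_mul]
  rw [Finset.sum_ite_eq']
  simp [h1]

include hA hζ in
/-- The traces against the dual functions are integral polynomials in the Hauptmodul. -/
theorem trG_sepSB_mem_polRing {f : ℍ → ℂ} (hf : f ∈ BRing (q * M) A)
    (S : Finset (GalGrp (q * M) m)) :
    trG (q * M) m (sepSB haux S * f) ∈ polRing haux A := by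
  have hmem := ES.trG_mem (m := m) (mul_mem (sepSB_mem haux hA hζ S) hf)
  have hinv : ∀ δ ∈ Gamma m, act δ (trG (q * M) m (sepSB haux S * f)) =
      trG (q * M) m (sepSB haux S * f) := fun δ hδ =>
    ES.trG_invariant (mul_mem (sepSB_mem haux hA hζ S) hf).1 hδ
  exact ES.invariant_mem_polRing haux hA
    (mem_BRing_of_inv hmem fun γ hγ => hinv γ (ES.gamma_le_of_dvd haux.dvd hγ)) hinv

theorem isNoetherianRing_polRing {A : Subring ℂ} [IsNoetherianRing A] :
    IsNoetherianRing (polRing haux A) := by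
  classical
  set φ : MvPolynomial (Fin (m + 1)) A →+* (ℍ → ℂ) :=
    MvPolynomial.eval₂Hom ((algebraMap ℂ (ℍ → ℂ)).comp A.subtype)
      (fun j => ES.polFun haux.dvd j)
  have e : φ.range = polRing haux A := by
    refine le_antisymm ?_ (Subring.closure_le.mpr ?_)
    · rintro f ⟨p, rfl⟩
      induction p using MvPolynomial.induction_on with
      | C a => rw [MvPolynomial.eval₂Hom_C]; exact ES.const_mem_polRing haux a.2
      | add p p' hp hp' => rw [map_add]; exact add_mem hp hp'
      | mul_X p i hp =>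
        rw [map_mul, MvPolynomial.eval₂Hom_X']
        exact mul_mem hp (ES.polFun_mem_polRing haux A (Nat.lt_succ_iff.mp i.2))
    · rintro f (⟨a, ha, rfl⟩ | ⟨j, hj, rfl⟩)
      · exact ⟨MvPolynomial.C ⟨a, ha⟩, MvPolynomial.eval₂Hom_C _ _ _⟩
      · exact ⟨MvPolynomial.X ⟨j, Nat.lt_succ_iff.mpr hj⟩, MvPolynomial.eval₂Hom_X' _ _ _⟩
  rw [← e]
  exact isNoetherianRing_of_surjective _ _ φ.rangeRestrict φ.rangeRestrict_surjective

include hA hζ in
/-- Rings of functions of level `q M` over the polynomial ring are Noetherian. -/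
theorem isNoetherianRing_of_polRing [IsNoetherianRing A] {S₀ : Subring (ℍ → ℂ)}
    (hS₀ : S₀ ≤ BRing (q * M) A) (hpol : polRing haux A ≤ S₀) : IsNoetherianRing S₀ := by
  classical
  set R := polRing haux A
  have := isNoetherianRing_polRing haux (A := A)
  set T := (Finset.univ.erase (1 : GalGrp (q * M) m)).powerset with hT
  let : Algebra R S₀ := (Subring.inclusion hpol).toAlgebra
  have hinv : ∀ r : R, ∀ δ ∈ Gamma m, act δ (r : ℍ → ℂ) = (r : ℍ → ℂ) := fun r δ hδ => by
    refine Subring.closure_induction (p := fun f _ => act δ f = f) ?_ rfl rfl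
      (fun f g _ _ hf hg => by rw [ES.act_add, hf, hg]) (fun f _ hf => by rw [ES.act_neg, hf])
      (fun f g _ _ hf hg => by rw [ES.act_mulFun, hf, hg]) r.2
    rintro f (⟨a, -, rfl⟩ | ⟨j, -, rfl⟩)
    · rfl
    · exact ES.act_polFun haux hδ j
  let F : S₀ →ₗ[R] (T → R) :=
    { toFun := fun f S =>
        ⟨_, trG_sepSB_mem_polRing (q := q) haux hA hζ (hS₀ f.2) (S : Finset (GalGrp (q * M) m))⟩
      map_add' := fun f g => funext fun S => Subtype.ext (by
        simp only [Subring.coe_add, Pi.add_apply, trG, mul_add, ES.act_add,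
          Finset.sum_add_distrib])
      map_smul' := fun r f => funext fun S => Subtype.ext (by
        change trG (q * M) m (sepSB (q := q) haux (S : Finset (GalGrp (q * M) m)) *
          ((r : ℍ → ℂ) * (f : ℍ → ℂ))) =
          (r : ℍ → ℂ) * trG (q * M) m (sepSB (q := q) haux (S : Finset (GalGrp (q * M) m)) *
            (f : ℍ → ℂ))
        simp only [trG, ES.act_mulFun, Finset.mul_sum]
        refine Finset.sum_congr rfl fun g _ => ?_
        rw [hinv r _ (ES.repG_mem g)]
        ring) }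
  have hF : Function.Injective F := by
    refine (injective_iff_map_eq_zero F).mpr fun f hf => Subtype.ext (funext fun τ => ?_)
    have h := congrFun (sepD_mul_eq haux (hS₀ f.2).1) τ
    rw [Finset.sum_eq_zero fun S hS => by
      rw [show trG (q * M) m (sepSB haux S * (f : ℍ → ℂ)) = 0 from
        congrArg Subtype.val (congrFun hf ⟨S, hS⟩), mul_zero]] at h
    exact (mul_eq_zero.mp h).resolve_left (sepD_ne_zero haux τ)
  exact isNoetherian_of_tower R (isNoetherian_of_injective F hF)

include haux hA hζ in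
/-- **The ring is Noetherian.** -/
theorem isNoetherianRing_LRing [IsNoetherianRing A] : IsNoetherianRing (LRing q M A) :=
  isNoetherianRing_of_polRing haux hA hζ (fun _ hf => hf.1) fun f hf =>
    (raiseL M (Subring.inclusion (ES.polRing_le_BRing haux hA) ⟨f, hf⟩)).2

variable {P : CPlace q}

omit [Fact (Nat.Prime q)] in
/-- Every function of level `M` of the invariant ring is bounded. -/
theorem exists_const_mul_polRing (hM : M.Coprime q) {f : ℍ → ℂ}
    (hf : f ∈ polRing haux (⊤ : Subring ℂ)) :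
    ∃ c : ℂ, c ≠ 0 ∧ c ∈ P.ring ∧ (fun _ => c) * f ∈ BRing M P.ring := by
  obtain ⟨c, hc, hc0, h⟩ := (Curve.Red.placeDatum P M hM).exists_const_mul_mem haux
    (f := f) ⟨(ES.polRing_le_BRing haux ES.zetaC_goodRoot_top hf).1, fun _ _ => trivial⟩
  exact ⟨c, hc0, hc, h⟩

variable (q) in
/-- The norm of the denominator: invariant, integral and nowhere zero. -/
def sepN : ℍ → ℂ := ∏ g : GalGrp (q * M) m, act (repG (q * M) m g) (sepD q haux)

/-- The norm of the denominator is invariant under `Γ(m)`. -/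
theorem act_sepN {δ : SL(2, ℤ)} (hδ : δ ∈ Gamma m) : act δ (sepN q haux) = sepN q haux := by
  rw [sepN, ES.act_prod]
  have hD : sepD q haux ∈ BSub (q * M) :=
    (sepD_mem haux (A := ⊤) ES.zetaC_goodRoot_top trivial).1
  refine Fintype.prod_equiv
    (Equiv.mulRight ((⟨δ, hδ⟩ : Gamma m) : GalGrp (q * M) m)) _ _ fun g => ?_
  simp only [Equiv.coe_mulRight]
  obtain ⟨x, rfl⟩ := QuotientGroup.mk_surjective g
  rw [← QuotientGroup.mk_mul, ← ES.act_eq_act_repG hD, ← ES.act_eq_act_repG hD, ← ES.act_mul]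
  rfl

/-- The norm of the denominator vanishes nowhere. -/
theorem sepN_ne_zero (τ : ℍ) : sepN q haux τ ≠ 0 := by
  rw [sepN, Finset.prod_apply]
  exact Finset.prod_ne_zero_iff.mpr fun g _ => sepD_ne_zero haux _

include hA hζ in
/-- The norm of the denominator is integral of level `M`. -/
theorem sepN_mem_BRing : sepN q haux ∈ BRing M A :=
  mem_BRing_of_inv (prod_mem fun _ _ => ES.act_mem_BRing (sepD_mem haux hA hζ) _)
    fun _ hγ => act_sepN haux (ES.gamma_le_of_dvd haux.dvd hγ)

/-- **Boundedness.** Up to a constant and the fixed invariant factor, all functions are integral. -/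
theorem exists_const_mul_sepN (hM : M.Coprime q) {f : ℍ → ℂ} (hf : f ∈ BSub (q * M)) :
    ∃ c : ℂ, c ≠ 0 ∧ c ∈ P.ring ∧ (fun _ => c) * sepN q haux * f ∈ BRing (q * M) P.ring := by
  classical
  have hP := P.goodRoot hM
  have hζP : zetaC (q * M) ∈ P.ring :=
    (P.abv_eq_one_of_pow_eq_one (NeZero.ne (q * M)) (ES.zetaC_isPrimitiveRoot _).pow_eq_one).le
  have hpol : ∀ S, trG (q * M) m (sepSB haux S * f) ∈ polRing haux (⊤ : Subring ℂ) := fun S =>
    trG_sepSB_mem_polRing haux ES.zetaC_goodRoot_top trivial (ES.mem_BRing_top.mpr hf) S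
  choose c hc hcP hcm using fun S => exists_const_mul_polRing haux hM (hpol S)
  set T := (Finset.univ.erase (1 : GalGrp (q * M) m)).powerset
  refine ⟨∏ S ∈ T, c S, Finset.prod_ne_zero_iff.mpr fun S _ => hc S,
    prod_mem fun S _ => hcP S, ?_⟩
  have h1 : act (repG (q * M) m (1 : GalGrp (q * M) m)) (sepD q haux) = sepD q haux := by
    have := ES.act_eq_act_repG (sepD_mem (q := q) haux (A := ⊤) ES.zetaC_goodRoot_top trivial).1
      (1 : Gamma m)
    rw [Subgroup.coe_one, ES.act_one, QuotientGroup.mk_one] at this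
    exact this.symm
  rw [sepN, ← Finset.mul_prod_erase _ _ (Finset.mem_univ (1 : GalGrp (q * M) m)), h1,
    ← mul_assoc, mul_right_comm, mul_assoc _ (sepD q haux) f, sepD_mul_eq haux hf, Finset.mul_sum]
  refine mul_mem (sum_mem fun S hS => ?_)
    (prod_mem fun _ _ => ES.act_mem_BRing (sepD_mem haux hP hζP) _)
  have e : (fun _ : ℍ => ∏ S ∈ T, c S) * (sepSA haux S * trG (q * M) m (sepSB haux S * f)) =
      ((fun _ : ℍ => ∏ S' ∈ T.erase S, c S') * sepSA haux S) *
        ((fun _ : ℍ => c S) * trG (q * M) m (sepSB haux S * f)) := by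
    funext τ
    simp only [Pi.mul_apply, ← Finset.mul_prod_erase T c hS]
    ring
  rw [e]
  exact mul_mem (mul_mem (ES.const_mem_BRing (prod_mem fun S' _ => hcP S'))
    (sepSA_mem haux hP hζP S)) (mem_LRing_of_BRing (q := q) (hcm S)).1

end FermatAgent.BAD
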