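import Fermat.Agent.BAD.NonSpecial
import Fermat.Agent.BAD.GUnit
import Fermat.Agent.BAD.NodeRoot

/-!
# The completion at the points where the two components meet

There the completion is the ring of the node `X Y' = q`.
-/

set_option autoImplicit false

open UpperHalfPlane CongruenceSubgroup IsLocalRing
open scoped MatrixGroups

noncomputable section

namespace FermatAgent.BAD

open FermatAgent.ES (BSub BRing zetaC AuxLevel CPlace GoodRoot GoodPoint)

variable {q M m : ℕ} [Fact q.Prime] [NeZero M] {O : Subring ℂ} (haux : AuxLevel M m)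
  (hA : GoodRoot M O (zetaC M)) {P : CPlace q} (hO : O ≤ P.ring) (hO' : P.IsCDVR O) {ϖ : O}
  (hϖ : Irreducible ϖ) (hM : M.Coprime q) (hζ : zetaC (q * M) ∈ O) (hqm : q ≠ m)

/-- `q` is a nonzerodivisor. -/
theorem natCast_q_mul_cancel {a b : LRing q M O}
    (h : (q : LRing q M O) * a = (q : LRing q M O) * b) : a = b := by
  refine Subtype.ext (funext fun τ => ?_)
  have h1 := congrFun (congrArg Subtype.val h) τ
  simp only [Subring.coe_mul, Pi.mul_apply, show ((q : LRing q M O) : ℍ → ℂ) τ = (q : ℂ) by simp]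
    at h1
  exact mul_left_cancel₀ (Nat.cast_ne_zero.mpr (Fact.out : q.Prime).ne_zero) h1

include haux hM hO in
/-- A function of level `M` outside `pInf` has a unit coefficient at every cusp. -/
theorem unitAt_raiseL_of_not_mem {x : BRing M O} (h : (raiseL M x : LRing q M O) ∉ pInf hO)
    (p : SL(2, ℤ) → Prop) : UnitAt P p (raiseL M x : LRing q M O) := by
  rw [mem_pInf] at h
  push Not at h
  obtain ⟨γ, -, hne⟩ := h
  have hu : P.UnitCoeff (serAt M O q γ (raiseL M x)) := by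
    by_contra hno
    exact hne (P.serLT_of_not_unitCoeff (fun n => hO (serIn_serAt γ (raiseL M x) n)) hno)
  rw [serAt_raiseL] at hu
  exact unitAt_raiseL (M := M) hO haux hM ⟨γ, unitCoeff_of_expandL hu⟩ p

include hqm in
/-- The Atkin automorphism carries `Y` to `X`. -/
theorem atkinEquiv_kYL : atkinEquiv hM hζ (kYL haux hM hA hζ) = kXL haux hM hA hζ :=
  Subtype.ext (atkin_kronY hM haux hqm)

include hqm in
/-- The Atkin automorphism carries `X` to `Y`. -/
theorem atkinEquiv_kXL : atkinEquiv hM hζ (kXL haux hM hA hζ) = kYL haux hM hA hζ :=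
  Subtype.ext (atkin_kronX hM haux hqm)

include hM in
/-- `e⁻¹` exchanges the two components. -/
theorem le_comap_atkinEquiv_symm {𝔪 : Ideal (LRing q M O)} (hinf : pInf hO ≤ 𝔪)
    (hzero : pZero hO ≤ 𝔪) :
    pInf hO ≤ 𝔪.comap ((atkinEquiv hM hζ).symm : LRing q M O →+* LRing q M O) ∧
      pZero hO ≤ 𝔪.comap ((atkinEquiv hM hζ).symm : LRing q M O →+* LRing q M O) :=
  ⟨fun f hf => hzero (mem_pZero_of_atkinL hO hM hζ (by
      show atkinEquiv hM hζ ((atkinEquiv hM hζ).symm f) ∈ pInf hO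
      rwa [RingEquiv.apply_symm_apply])),
    fun f hf => hinf (mem_pInf_of_atkinL hO hM hζ (by
      show atkinEquiv hM hζ ((atkinEquiv hM hζ).symm f) ∈ pZero hO
      rwa [RingEquiv.apply_symm_apply]))⟩

/-- Inverses of `-G` modulo the powers of a maximal ideal. -/
theorem exists_inv_seq {A : Type*} [CommRing A] {𝔪 : Ideal A} (h𝔪 : 𝔪.IsMaximal) {G : A}
    (hG : G ∉ 𝔪) : ∃ g : ℕ → A, (∀ k, G * g k + 1 ∈ 𝔪 ^ k) ∧ ∀ k, g k ∉ 𝔪 := by
  have hinv : ∀ k : ℕ, ∃ r, G * r + 1 ∈ 𝔪 ^ k := fun k => by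
    obtain ⟨r, i, hi, hri⟩ := h𝔪.exists_inv hG
    obtain ⟨w, hw⟩ := sub_dvd_pow_sub_pow (1 : A) i k
    have hi' : (1 : A) - i = r * G := by rw [← hri]; ring
    rw [hi', one_pow] at hw
    refine ⟨-(r * w), ?_⟩
    rw [show G * -(r * w) + 1 = i ^ k by linear_combination hw]
    exact Ideal.pow_mem_pow hi k
  choose g hg using hinv
  refine ⟨fun k => if k = 0 then 1 else g k, fun k => ?_, fun k => ?_⟩
  · rcases eq_or_ne k 0 with rfl | hk
    · simp
    · simp only [if_neg hk]; exact hg k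
  · rcases eq_or_ne k 0 with rfl | hk
    · simp only [if_pos]; exact h𝔪.ne_top ∘ (Ideal.eq_top_iff_one _).mpr
    · simp only [if_neg hk]
      intro hgk
      refine h𝔪.ne_top ((Ideal.eq_top_iff_one _).mpr ?_)
      have := sub_mem (Ideal.pow_le_self hk (hg k)) (𝔪.mul_mem_left G hgk)
      rwa [add_sub_cancel_left] at this

theorem sub_mem_of_inv_seq {A : Type*} [CommRing A] {I : Ideal A} {G a b : A} (ha : G * a + 1 ∈ I)
    (hb : G * b + 1 ∈ I) : a - b ∈ I := by
  rw [show a - b = a * (G * b + 1) - b * (G * a + 1) by ring]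
  exact sub_mem (Ideal.mul_mem_left _ _ hb) (Ideal.mul_mem_left _ _ ha)

include hO hO' hϖ hqm in
/-- The two coordinates generate the maximal ideal. -/
theorem exists_node_gen [IsDiscreteValuationRing O]
    {𝔪 : Ideal (LRing q M O)} [h𝔪 : 𝔪.IsMaximal]
    (hinf : pInf hO ≤ 𝔪) (hzero : pZero hO ≤ 𝔪) {τ0 τ1 : ℍ}
    (hg : GoodPoint haux O τ0) (ht : raiseL M (tPar haux hA hg) ∈ 𝔪)
    (hg' : GoodPoint haux O τ1)
    (ht' : (atkinEquiv hM hζ).symm (raiseL M (tPar haux hA hg')) ∈ 𝔪)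
    (g : LRing q M O) : ∃ s ∉ 𝔪, ∃ (c : O) (x1 x2 : LRing q M O),
      constL ϖ ∣ s * (g - constL c) - kXL haux hM hA hζ * x1 - kYL haux hM hA hζ * x2 := by
  set X := kXL haux hM hA hζ
  set Y := kYL haux hM hA hζ
  set G := nodeG haux hM hA hζ hO hO' hqm
  set e := atkinEquiv (O := O) hM hζ
  obtain ⟨u, hu, hXu⟩ := exists_kXL_param haux hM hA hζ hO hO' hqm hg hinf hzero ht
  set 𝔫 := 𝔪.comap (e.symm : LRing q M O →+* LRing q M O)
  have : 𝔫.IsMaximal := Ideal.comap_isMaximal_of_surjective _ e.symm.surjective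
  obtain ⟨hinf', hzero'⟩ := le_comap_atkinEquiv_symm hO hM hζ hinf hzero
  obtain ⟨u', hu', hXu'⟩ := exists_kXL_param haux hM hA hζ hO hO' hqm hg' hinf' hzero' ht'
  obtain ⟨s, hs, c, x, hx⟩ := exists_inf_param haux hA hO hO' hM hg hinf ht hζ hqm g
  set p := raiseL M u * s * (g - constL c) - X * x
  have hp : p ∈ pInf hO := by
    have e1 : p = raiseL M u * (s * (g - constL c) - raiseL M (tPar haux hA hg) * x) -
        (X - raiseL M (tPar haux hA hg * u)) * x := by simp only [p, map_mul]; ring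
    rw [e1]
    exact sub_mem (Ideal.mul_mem_left _ _ hx) (Ideal.mul_mem_right _ _ hXu)
  have hep : e p ∈ pZero hO := atkinL_mem_pZero hO hM hζ hp
  obtain ⟨s', hs', c', x', hx'⟩ :=
    exists_inf_param haux hA hO hO' hM hg' hinf' ht' hζ hqm (e p)
  have hc' : (constL c' : LRing q M O) ∈ pInf hO := by
    obtain ⟨d, hd⟩ : ϖ ∣ c' := by
      rw [← Ideal.mem_span_singleton, ← hϖ.maximalIdeal_eq, IsLocalRing.mem_maximalIdeal]
      intro hcu
      have e1 : s' * constL c' = s' * e p - raiseL M (tPar haux hA hg') * x' -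
          (s' * (e p - constL c') - raiseL M (tPar haux hA hg') * x') := by ring
      have hmem : s' * constL c' ∈ 𝔫 := by
        rw [e1]
        exact sub_mem (sub_mem (𝔫.mul_mem_left _ (hzero' hep)) (𝔫.mul_mem_right _ ht'))
          (hinf' hx')
      exact (inferInstance : 𝔫.IsMaximal).ne_top (Ideal.eq_top_of_isUnit_mem _
        (((inferInstance : 𝔫.IsMaximal).isPrime.mem_or_mem hmem).resolve_left hs')
        (hcu.map _))
    rw [hd, map_mul]
    exact Ideal.mul_mem_right _ _ (constL_unif_mem hO hO' hϖ _)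
  set r := raiseL M u' * s' * e p - X * x'
  have hr : r ∈ pInf hO := by
    have e1 : r = raiseL M u' * (s' * (e p - constL c') - raiseL M (tPar haux hA hg') * x') +
        raiseL M u' * s' * constL c' - (X - raiseL M (tPar haux hA hg' * u')) * x' := by
      simp only [r, map_mul]; ring
    rw [e1]
    exact sub_mem (add_mem (Ideal.mul_mem_left _ _ hx') (Ideal.mul_mem_left _ _ hc'))
      (Ideal.mul_mem_right _ _ hXu')
  set v := e.symm (raiseL M u' * s')
  set w := e.symm x'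
  have hv : v ∉ 𝔪 := fun h => ((inferInstance : 𝔫.IsMaximal).isPrime.mem_or_mem
    (show raiseL M u' * s' ∈ 𝔫 from h)).elim hu' hs'
  have her : e (v * p - Y * w) = r := by
    rw [map_sub, map_mul, map_mul, e.apply_symm_apply, e.apply_symm_apply,
      atkinEquiv_kYL haux hA hM hζ hqm]
  have h0 : v * p - Y * w ∈ pZero hO :=
    mem_pZero_of_atkinL hO hM hζ (by show e _ ∈ _; rw [her]; exact hr)
  have h1 : v * p - Y * w ∈ pInf hO := sub_mem (Ideal.mul_mem_left _ _ hp)
    (Ideal.mul_mem_right _ _ (kYL_mem_pInf haux hM hA hζ hO hqm))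
  refine ⟨v * (raiseL M u * s), fun h => (h𝔪.isPrime.mem_or_mem h).elim hv
    fun h => (h𝔪.isPrime.mem_or_mem h).elim hu hs, c, v * x, w, ?_⟩
  rw [show v * (raiseL M u * s) * (g - constL c) - X * (v * x) - Y * w = v * p - Y * w by ring]
  exact dvd_of_mem_pInf_pZero hO hO' hϖ h1 h0

omit [Fact q.Prime] [NeZero M] in
/-- A map congruent to the identity modulo an element of an ideal preserves the ideal. -/
theorem map_mem_of_dvd_sub {R : Type*} [CommRing R] {I : Ideal R} {t : R} {τ : R →+* R}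
    (hτ : ∀ z, t ∣ τ z - z) (ht : t ∈ I) {z : R} (hz : z ∈ I) : τ z ∈ I := by
  obtain ⟨w, hw⟩ := hτ z
  rw [eq_add_of_sub_eq hw]
  exact add_mem (I.mul_mem_right _ ht) hz

omit [Fact q.Prime] [NeZero M] in
/-- A map fixing `G` sends an approximate inverse of `-G` to one. -/
theorem map_inv_seq_mem {R : Type*} [CommRing R] {I : Ideal R} {τ : R →+* R}
    (hτI : ∀ z ∈ I, τ z ∈ I) {G g : R} (hτG : τ G = G) {k : ℕ} (hg : G * g + 1 ∈ I ^ k) :
    G * τ g + 1 ∈ I ^ k := by
  have hle : (I ^ k).map τ ≤ I ^ k := by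
    rw [Ideal.map_pow]
    exact Ideal.pow_right_mono (Ideal.map_le_iff_le_comap.mpr hτI) k
  have := hle (Ideal.mem_map_of_mem _ hg)
  rwa [map_add, map_mul, hτG, map_one] at this

include hO hO' hϖ hqm in
/-- The map from the ring of the node onto the completion. -/
theorem exists_nodeHom [IsDiscreteValuationRing O]
    {𝔪 : Ideal (LRing q M O)} [h𝔪 : 𝔪.IsMaximal]
    (hinf : pInf hO ≤ 𝔪) (hzero : pZero hO ≤ 𝔪) {τ0 τ1 : ℍ}
    (hg : GoodPoint haux O τ0) (ht : raiseL M (tPar haux hA hg) ∈ 𝔪)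
    (hg' : GoodPoint haux O τ1)
    (ht' : (atkinEquiv hM hζ).symm (raiseL M (tPar haux hA hg')) ∈ 𝔪)
    {σ : O →+* O} {τ : LRing q M O →+* LRing q M O}
    (hτC : ∀ r, τ (constL r) = constL (σ r)) (hτX : τ (kXL haux hM hA hζ) = kXL haux hM hA hζ)
    (hτY : τ (kYL haux hM hA hζ) = kYL haux hM hA hζ)
    (hτ : ∀ z, constL ϖ ∣ τ z - z) :
    ∃ Φ : Node O (q : O) →+* AdicCompletion 𝔪 (LRing q M O),
      Function.Surjective Φ ∧
      (∀ r, Φ (nodeC (q : O) r) =
        algebraMap (LRing q M O) (AdicCompletion 𝔪 (LRing q M O)) (constL r)) ∧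
      Φ (nodeVar (q : O) 0) =
        algebraMap (LRing q M O) (AdicCompletion 𝔪 (LRing q M O)) (kXL haux hM hA hζ) ∧
      algebraMap (LRing q M O) (AdicCompletion 𝔪 (LRing q M O))
          (nodeG haux hM hA hζ hO hO' hqm) * Φ (nodeVar (q : O) 1) =
        -algebraMap (LRing q M O) (AdicCompletion 𝔪 (LRing q M O)) (kYL haux hM hA hζ) ∧
      ∀ (hhu : σ (q : O) = ![(1 : O), 1] 0 * ![(1 : O), 1] 1 * (q : O) ^ 1) z b,
        Φ z = algebraMap (LRing q M O) (AdicCompletion 𝔪 (LRing q M O)) b →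
          Φ (nodeDiag hhu z) = algebraMap (LRing q M O) (AdicCompletion 𝔪 (LRing q M O)) (τ b) := by
  have := hO'.complete
  have hϖm : (constL ϖ : LRing q M O) ∈ 𝔪 := hinf (constL_unif_mem hO hO' hϖ _)
  set X := kXL haux hM hA hζ
  set Y := kYL haux hM hA hζ
  set G := nodeG haux hM hA hζ hO hO' hqm
  have hXY : X * Y = -((q : LRing q M O) * G) := kXL_mul_kYL haux hM hA hζ hO hO' hqm
  have hG : G ∉ 𝔪 := nodeG_not_mem haux hM hA hζ hO hO' hqm hg hinf hzero ht
  have hX𝔪 : X ∈ 𝔪 := hzero (kXL_mem_pZero haux hM hA hζ hO hqm)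
  have hY𝔪 : Y ∈ 𝔪 := hinf (kYL_mem_pInf haux hM hA hζ hO hqm)
  have hτ𝔪 : ∀ z ∈ 𝔪, τ z ∈ 𝔪 := fun z hz => map_mem_of_dvd_sub hτ hϖm hz
  have hτG : τ G = G := by
    refine natCast_q_mul_cancel ?_
    have h := congrArg τ hXY
    rw [map_mul, hτX, hτY, map_neg, map_mul, map_natCast, hXY, neg_inj] at h
    exact h.symm
  have hgen := exists_node_gen haux hA hO hO' hϖ hM hζ hqm hinf hzero hg ht hg' ht'
  -- inverses of `-G` modulo the powers of `𝔪`
  obtain ⟨g', hg'1, hg'not⟩ := exists_inv_seq h𝔪 hG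
  have huniq : ∀ {j : ℕ} {a b : LRing q M O}, G * a + 1 ∈ 𝔪 ^ j → G * b + 1 ∈ 𝔪 ^ j →
      a - b ∈ 𝔪 ^ j := fun ha hb => sub_mem_of_inv_seq ha hb
  set x : ℕ → Fin 2 → LRing q M O := fun k => ![X, Y * g' k] with hx_def
  have hx : ∀ k i, x k i ∈ 𝔪 := fun k => by
    rw [Fin.forall_fin_two]
    exact ⟨hX𝔪, 𝔪.mul_mem_right _ hY𝔪⟩
  have hcomp : ∀ {j k : ℕ}, j ≤ k → ∀ i, x k i - x j i ∈ 𝔪 ^ j := fun {j k} hjk => by
    rw [Fin.forall_fin_two]
    refine ⟨by simp [hx_def], ?_⟩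
    show Y * g' k - Y * g' j ∈ _
    rw [← mul_sub]
    exact Ideal.mul_mem_left _ _
      (huniq (Ideal.pow_le_pow_right hjk (hg'1 k)) (hg'1 j))
  set f := algebraMap (LRing q M O) (AdicCompletion 𝔪 (LRing q M O))
  set Φ0 := complHomF (O := O) 𝔪 x hx hcomp
  have hev : ∀ k z, AdicCompletion.evalₐ 𝔪 k (f z) = Ideal.Quotient.mk (𝔪 ^ k) z := fun k z =>
    (AdicCompletion.evalₐ 𝔪 k).commutes z
  have hevX : ∀ k i, AdicCompletion.evalₐ 𝔪 k (Φ0 (MvPowerSeries.X i)) =
      Ideal.Quotient.mk (𝔪 ^ k) (x k i) := fun k i => by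
    rw [evalₐ_complHomF]
    exact evalMod_X_fam 𝔪 x hx k i
  have hsurj0 : Function.Surjective Φ0 := by
    refine complHomF_surjective 𝔪 x hx hcomp hϖ (fun k z => ?_) hϖm
    obtain ⟨s, hs, c, x1, x2, w, hw⟩ := hgen z
    refine ⟨g' k * s, fun h => (h𝔪.isPrime.mem_or_mem h).elim (hg'not k) hs, c, ?_⟩
    rw [algL_apply, algL_apply, show g' k * s * (z - constL c) =
      x1 * g' k * X + x2 * (Y * g' k) + constL ϖ * (w * g' k) by linear_combination g' k * hw]
    refine Submodule.add_mem_sup (add_mem ?_ ?_)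
      (Ideal.mul_mem_right _ _ (Ideal.mem_span_singleton_self _))
    · exact Ideal.mul_mem_left _ _ (Ideal.subset_span ⟨0, rfl⟩)
    · exact Ideal.mul_mem_left _ _ (Ideal.subset_span ⟨1, rfl⟩)
  have hqC : ∀ r : O, Φ0 (MvPowerSeries.C r) = f (constL r) := complHomF_C 𝔪 x hx hcomp
  have hrel : Φ0 (nodeRel O (q : O)) = 0 := by
    refine AdicCompletion.ext_evalₐ fun k => ?_
    rw [nodeRel, map_sub, map_mul, map_sub, map_mul, hevX, hevX, hqC, hev, map_zero, ← map_mul,
      ← map_sub, Ideal.Quotient.eq_zero_iff_mem, map_natCast]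
    show X * (Y * g' k) - (q : LRing q M O) ∈ _
    rw [show X * (Y * g' k) - (q : LRing q M O) = -((q : LRing q M O) * (G * g' k + 1)) by
      linear_combination g' k * hXY]
    exact neg_mem (Ideal.mul_mem_left _ _ (hg'1 k))
  obtain ⟨Φ, hΦ0⟩ : ∃ Φ : Node O (q : O) →+* AdicCompletion 𝔪 (LRing q M O),
      ∀ z, Φ (nodeMk _ z) = Φ0 z :=
    ⟨Ideal.Quotient.lift _ Φ0 fun z hz => by
      obtain ⟨w, rfl⟩ := Ideal.mem_span_singleton.mp hz
      rw [map_mul, hrel, zero_mul], fun _ => rfl⟩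
  have hsurj : Function.Surjective Φ := fun z => by
    obtain ⟨w, rfl⟩ := hsurj0 z
    exact ⟨nodeMk _ w, hΦ0 w⟩
  have hΦC : ∀ r : O, Φ (nodeC (q : O) r) = f (constL r) := fun r => (hΦ0 _).trans (hqC r)
  have hΦX : Φ (nodeVar (q : O) 0) = f X := AdicCompletion.ext_evalₐ fun k => by
    rw [show Φ (nodeVar (q : O) 0) = Φ0 (MvPowerSeries.X 0) from hΦ0 _, hevX, hev]
    rfl
  have hΦY : f G * Φ (nodeVar (q : O) 1) = -f Y := AdicCompletion.ext_evalₐ fun k => by
    rw [show Φ (nodeVar (q : O) 1) = Φ0 (MvPowerSeries.X 1) from hΦ0 _, map_mul, hevX, hev,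
      ← map_neg,
      ← map_mul, hev, Ideal.Quotient.eq]
    show G * (Y * g' k) - -Y ∈ _
    rw [show G * (Y * g' k) - -Y = Y * (G * g' k + 1) by ring]
    exact Ideal.mul_mem_left _ _ (hg'1 k)
  refine ⟨Φ, hsurj, hΦC, hΦX, hΦY, fun hhu z b hzb => ?_⟩
  obtain ⟨F, rfl⟩ := nodeMk_surjective _ z
  refine AdicCompletion.ext_evalₐ fun k => ?_
  have h := congrArg (AdicCompletion.evalₐ 𝔪 k) hzb
  rw [hΦ0, evalₐ_complHomF, hev] at h
  rw [nodeDiag_nodeMk, hΦ0, evalₐ_complHomF, hev,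
    show diagMap σ ![1, 1] 1 F = MvPowerSeries.map σ F by
      ext d; simpa using coeff_diagMap_smul σ ![1, 1] 1 F d]
  refine evalMod_map 𝔪 x hx hτC hτ𝔪 ?_ F h
  rw [Fin.forall_fin_two]
  refine ⟨?_, ?_⟩
  · show τ X - X ∈ _
    rw [hτX, sub_self]; exact Ideal.zero_mem _
  · show τ (Y * g' k) - Y * g' k ∈ _
    rw [map_mul, hτY, ← mul_sub]
    exact Ideal.mul_mem_left _ _ (huniq (map_inv_seq_mem hτ𝔪 hτG (hg'1 k)) (hg'1 k))

include hO hO' hqm in
/-- Each coordinate has unit content on its own component. -/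
theorem kXL_kYL_unit
    {𝔪 : Ideal (LRing q M O)} [h𝔪 : 𝔪.IsMaximal]
    (hinf : pInf hO ≤ 𝔪) (hzero : pZero hO ≤ 𝔪) {τ0 : ℍ}
    (hg : GoodPoint haux O τ0) (ht : raiseL M (tPar haux hA hg) ∈ 𝔪) :
    UnitInf P (kXL haux hM hA hζ) ∧ UnitZero P (kYL haux hM hA hζ) := by
  obtain ⟨u, hu, hXu⟩ := exists_kXL_param haux hM hA hζ hO hO' hqm hg hinf hzero ht
  have hXinf : UnitInf P (kXL haux hM hA hζ) := by
    refine UnitAt.of_sub_mem hO (f := raiseL M (tPar haux hA hg * u)) ?_ (by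
      rw [← neg_sub]; exact neg_mem hXu)
    rw [map_mul]
    exact (tPar_unitInf haux hA hO hM hg).mul hO
      (unitAt_raiseL_of_not_mem haux hO hM (fun h => hu (hinf h)) _)
  refine ⟨hXinf, ?_⟩
  rw [show kYL haux hM hA hζ = atkinL hM hζ (kXL haux hM hA hζ) from
    (atkinEquiv_kXL haux hA hM hζ hqm).symm]
  exact atkinL_unitZero hM hζ hXinf

omit [Fact q.Prime] [NeZero M] in
/-- A branch series is a power of the coordinate times the branch of a unit. -/
theorem exists_isUnit_branch_lift [IsLocalRing O] {c : O} (hc : c ∈ maximalIdeal O) (i : Fin 2)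
    {z : Node O c} {e' : ℕ} {w : PowerSeries (ResidueField O)} (hw : ¬ PowerSeries.X ∣ w)
    (hfac : branch hc i z = PowerSeries.X ^ e' * w) :
    ∃ W : Node O c, IsUnit W ∧ branch hc i (z - nodeVar c i ^ e' * W) = 0 := by
  have hw' : PowerSeries.constantCoeff w ≠ 0 := fun h => hw (PowerSeries.X_dvd_iff.mpr h)
  have : ∀ j, ∃ a, residue O a = PowerSeries.coeff j w := fun j => residue_surjective _
  choose a ha using this
  let F : MvPowerSeries (Fin 2) O := fun d => if d = axisExp i (d i) then a (d i) else 0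
  have hF : axisHom i F = w := by
    ext j
    rw [coeff_axisHom, ← ha]
    show residue O (if axisExp i j = axisExp i ((axisExp i j) i) then _ else 0) = _
    simp [axisExp]
  refine ⟨nodeMk _ F, ?_, ?_⟩
  · refine IsUnit.map _ (MvPowerSeries.isUnit_iff_constantCoeff.mpr ?_)
    rw [← residue_ne_zero_iff_isUnit]
    convert hw' using 1
    rw [← PowerSeries.coeff_zero_eq_constantCoeff_apply, ← hF, coeff_axisHom,
      show axisExp i 0 = 0 from Finsupp.single_zero _,
      MvPowerSeries.coeff_zero_eq_constantCoeff_apply]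
  · rw [map_sub, map_mul, map_pow, branch_nodeVar, if_pos rfl, branch_nodeMk, hF, hfac,
      sub_self]

include hO hO' hϖ hqm in
/-- The map from the ring of the node is injective, and units on a component stay nonzero there. -/
theorem nodeHom_branch [IsDiscreteValuationRing O]
    [IsNoetherianRing (LRing q M O)] {𝔪 : Ideal (LRing q M O)} [h𝔪 : 𝔪.IsMaximal]
    (hinf : pInf hO ≤ 𝔪) (hzero : pZero hO ≤ 𝔪) {τ0 : ℍ}
    (hg : GoodPoint haux O τ0) (ht : raiseL M (tPar haux hA hg) ∈ 𝔪)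
    (hq : (q : O) ∈ maximalIdeal O) (Φ : Node O (q : O) →+* AdicCompletion 𝔪 (LRing q M O))
    (hΦC : ∀ r, Φ (nodeC (q : O) r) =
      algebraMap (LRing q M O) (AdicCompletion 𝔪 (LRing q M O)) (constL r))
    (hΦX : Φ (nodeVar (q : O) 0) =
      algebraMap (LRing q M O) (AdicCompletion 𝔪 (LRing q M O)) (kXL haux hM hA hζ))
    (hΦY :
      algebraMap (LRing q M O) (AdicCompletion 𝔪 (LRing q M O))
        (nodeG haux hM hA hζ hO hO' hqm) * Φ (nodeVar (q : O) 1) =
      -algebraMap (LRing q M O) (AdicCompletion 𝔪 (LRing q M O)) (kYL haux hM hA hζ)) :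
    Function.Injective Φ ∧
      ∀ (z : Node O (q : O)) (b : LRing q M O), Φ z =
        algebraMap (LRing q M O) (AdicCompletion 𝔪 (LRing q M O)) b →
        (UnitInf P b → branch hq 0 z ≠ 0) ∧ (UnitZero P b → branch hq 1 z ≠ 0) := by
  have := hO'.complete
  set X := kXL haux hM hA hζ
  set Y := kYL haux hM hA hζ
  set G := nodeG haux hM hA hζ hO hO' hqm
  set f := algebraMap (LRing q M O) (AdicCompletion 𝔪 (LRing q M O))
  have hG : G ∉ 𝔪 := nodeG_not_mem haux hM hA hζ hO hO' hqm hg hinf hzero ht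
  -- the two coordinates
  obtain ⟨hXinf, hYzero⟩ := kXL_kYL_unit haux hA hO hO' hM hζ hqm hinf hzero hg ht
  have hmax := hϖ.maximalIdeal_eq
  have hreg : ∀ x, f (constL ϖ) * x = 0 → x = 0 :=
    completion_regular 𝔪 (fun x hx => constL_unif_regular hO' hϖ hx)
  -- the branches
  have hvanish : ∀ (p : SL(2, ℤ) → Prop) (z : LRing q M O),
      f z ∈ (smallAt hO p).map f → ∃ s ∉ 𝔪, s * z ∈ smallAt hO p := fun p z hz =>
    memLoc_of_completion hz
  have hzero_of : ∀ i : Fin 2, ∀ z, branch hq i z = 0 →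
      f G * Φ z ∈ (if i = 0 then pInf hO else pZero hO).map f := by
    rw [Fin.forall_fin_two]
    refine ⟨fun z hz => ?_, fun z hz => ?_⟩
    · obtain ⟨a, b, rfl⟩ := exists_of_branch_eq_zero hq hmax (by decide : (0 : Fin 2) ≠ 1) hz
      rw [map_add, map_mul, map_mul, hΦC, if_pos rfl, mul_add, ← mul_assoc, ← mul_assoc, hΦY]
      exact add_mem (Ideal.mul_mem_right _ _ (Ideal.mul_mem_left _ _
          (Ideal.mem_map_of_mem _ (constL_unif_mem hO hO' hϖ _))))
        (Ideal.mul_mem_right _ _ (neg_mem (Ideal.mem_map_of_mem _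
          (kYL_mem_pInf haux hM hA hζ hO hqm))))
    · obtain ⟨a, b, rfl⟩ := exists_of_branch_eq_zero hq hmax (by decide : (1 : Fin 2) ≠ 0) hz
      rw [map_add, map_mul, map_mul, hΦC, if_neg (by decide), hΦX]
      exact Ideal.mul_mem_left _ _ (add_mem (Ideal.mul_mem_right _ _
          (Ideal.mem_map_of_mem _ (constL_unif_mem hO hO' hϖ _)))
        (Ideal.mul_mem_right _ _ (Ideal.mem_map_of_mem _ (kXL_mem_pZero haux hM hA hζ hO hqm))))
  have hne_of_unit : ∀ (z : Node O (q : O)) (b : LRing q M O), Φ z = f b →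
      (UnitInf P b → branch hq 0 z ≠ 0) ∧ (UnitZero P b → branch hq 1 z ≠ 0) := fun z b hzb => by
    refine ⟨fun h0 hb => ?_, fun h1 hb => ?_⟩
    · have h := hzero_of 0 z hb
      rw [hzb, ← map_mul, if_pos rfl] at h
      obtain ⟨s, hs, hsz⟩ := hvanish _ _ h
      exact (h𝔪.isPrime.mem_or_mem (hinf (h0.mem_of_mul hO (x := s * G) (by
        rw [show b * (s * G) = s * (G * b) by ring]; exact hsz)))).elim hs hG
    · have h := hzero_of 1 z hb
      rw [hzb, ← map_mul, if_neg (by decide)] at h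
      obtain ⟨s, hs, hsz⟩ := hvanish _ _ h
      exact (h𝔪.isPrime.mem_or_mem (hzero (h1.mem_of_mul hO (x := s * G) (by
        rw [show b * (s * G) = s * (G * b) by ring]; exact hsz)))).elim hs hG
  have hker : ∀ z, Φ z = 0 → ∀ i, branch hq i z = 0 := by
    intro z hz i
    by_contra hne
    obtain ⟨e', w, hw, hfac⟩ := WfDvdMonoid.max_power_factor hne PowerSeries.X_irreducible
    obtain ⟨W, hWu, hW⟩ := exists_isUnit_branch_lift hq i hw hfac
    have h := hzero_of i _ hW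
    rw [map_sub, hz, zero_sub, mul_neg, neg_mem_iff, map_mul, map_pow] at h
    obtain ⟨V, hV⟩ := (hWu.map Φ).exists_right_inv
    have h' := Ideal.mul_mem_right V _ h
    rw [show f G * (Φ (nodeVar (q : O) i) ^ e' * Φ W) * V =
      f G * Φ (nodeVar (q : O) i) ^ e' by linear_combination f G * Φ (nodeVar (q : O) i) ^ e' * hV]
      at h'
    clear h hW hfac hne
    revert i
    rw [Fin.forall_fin_two]
    refine ⟨fun h' => ?_, fun h' => ?_⟩
    · rw [if_pos rfl, hΦX, ← map_pow, ← map_mul] at h'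
      obtain ⟨s, hs, hsz⟩ := hvanish _ _ h'
      exact (h𝔪.isPrime.mem_or_mem (hinf ((hXinf.pow hO e').mem_of_mul hO (x := s * G) (by
        rw [show X ^ e' * (s * G) = s * (G * X ^ e') by ring]; exact hsz)))).elim hs hG
    · rw [if_neg (by decide)] at h'
      have h'' := Ideal.mul_mem_left _ (f G ^ e') h'
      rw [mul_left_comm, ← mul_pow, hΦY, neg_pow, ← map_pow, ← mul_assoc, mul_comm (f G),
        show ((-1 : AdicCompletion 𝔪 (LRing q M O)) ^ e') = f ((-1) ^ e') by simp,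
        ← map_mul, ← map_mul] at h''
      obtain ⟨s, hs, hsz⟩ := hvanish _ _ h''
      exact (h𝔪.isPrime.mem_or_mem (hzero ((hYzero.pow hO e').mem_of_mul hO
        (x := (-1) ^ e' * (s * G)) (by
        rw [show Y ^ e' * ((-1) ^ e' * (s * G)) = s * ((-1) ^ e' * G * Y ^ e') by ring]
        exact hsz)))).elim (fun hs' => h𝔪.ne_top (Ideal.eq_top_of_isUnit_mem _ hs'
          (IsUnit.pow _ isUnit_one.neg))) fun hs' => (h𝔪.isPrime.mem_or_mem hs').elim hs hG
  have hinj : Function.Injective Φ := by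
    rw [injective_iff_map_eq_zero]
    intro z hz
    refine eq_zero_of_forall_pow_dvd hq hϖ fun k => ?_
    induction k generalizing z with
    | zero => simp
    | succ k ih =>
      obtain ⟨z', rfl⟩ := dvd_of_branches hq hmax (hker z hz 0) (hker z hz 1)
      rw [map_mul, hΦC] at hz
      rw [pow_succ']
      exact mul_dvd_mul_left _ (ih z' (hreg _ hz))
  exact ⟨hinj, hne_of_unit⟩

end FermatAgent.BAD
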