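import Fermat.Agent.GaloisBasic.AdicLimit
import Fermat.Agent.GaloisBasic.PowerSeriesComplete
import Mathlib.RingTheory.AdicCompletion.Noetherian

/-!
# Power series rings mapping onto the completion at a maximal ideal

Elements `x` of a maximal ideal `m` define a map from power series to the completion at `m`; it is
surjective when, locally at `m`, every element is congruent to a constant modulo the `x` and the
uniformiser.
-/

set_option autoImplicit false

open IsLocalRing

noncomputable section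

namespace FermatAgent.BAD

variable {σ : Type} [Finite σ] {O : Type} [CommRing O] [IsDomain O] [IsDiscreteValuationRing O]
  {B : Type} [CommRing B] [Algebra O B] (m : Ideal B)

section Fam

variable (x : ℕ → σ → B) (hx : ∀ k i, x k i ∈ m)
  (hcomp : ∀ {j k : ℕ}, j ≤ k → ∀ i, x k i - x j i ∈ m ^ j)

/-- Evaluation at `x k` modulo `m ^ k`. -/
def evalMod (k : ℕ) : MvPowerSeries σ O →ₐ[O] B ⧸ m ^ k :=
  GaloisBasic.evalNilpotent (fun i => Ideal.Quotient.mk (m ^ k) (x k i))
    (m.map (Ideal.Quotient.mk (m ^ k))) (fun i => Ideal.mem_map_of_mem _ (hx k i))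
    (n := k) (by rw [← Ideal.map_pow, Ideal.map_quotient_self])

omit [IsDomain O] [IsDiscreteValuationRing O]

theorem evalMod_coe (k : ℕ) (p : MvPolynomial σ O) :
    evalMod (O := O) m x hx k (p : MvPowerSeries σ O) =
      Ideal.Quotient.mk (m ^ k) (MvPolynomial.aeval (x k) p) := by
  rw [evalMod, GaloisBasic.evalNilpotent_coe, ← Ideal.Quotient.mkₐ_eq_mk O,
    ← AlgHom.comp_apply, MvPolynomial.comp_aeval]

theorem evalMod_apply (k : ℕ) (f : MvPowerSeries σ O) :
    evalMod (O := O) m x hx k f =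
      Ideal.Quotient.mk (m ^ k) (MvPolynomial.aeval (x k) (MvPowerSeries.truncTotal k f)) := by
  rw [evalMod, GaloisBasic.evalNilpotent]
  simp only [AlgHom.coe_comp, Function.comp_apply, AlgHom.coe_restrictScalars',
    MvPowerSeries.truncTotalAlgHom_apply]
  refine (Ideal.Quotient.lift_mk _ _ _).trans ?_
  rw [← Ideal.Quotient.mkₐ_eq_mk O]
  exact (MvPolynomial.comp_aeval_apply (x k) (Ideal.Quotient.mkₐ O (m ^ k)) _).symm

/-- Evaluation intertwines `θ` on the coefficients with a semilinear map fixing the variables. -/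
theorem evalMod_map {θ : O →+* O} {τ : B →+* B}
    (hτC : ∀ r, τ (algebraMap O B r) = algebraMap O B (θ r)) (hτm : ∀ z ∈ m, τ z ∈ m) {k : ℕ}
    (hτx : ∀ i, τ (x k i) - x k i ∈ m ^ k) (f : MvPowerSeries σ O) {g : B}
    (hg : evalMod (O := O) m x hx k f = Ideal.Quotient.mk (m ^ k) g) :
    evalMod (O := O) m x hx k (MvPowerSeries.map θ f) = Ideal.Quotient.mk (m ^ k) (τ g) := by
  rw [evalMod_apply] at hg ⊢
  have ht : MvPowerSeries.truncTotal k (MvPowerSeries.map θ f) =
      MvPolynomial.map θ (MvPowerSeries.truncTotal k f) := by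
    ext d
    rw [MvPolynomial.coeff_map]
    by_cases hd : Finsupp.degree d < k
    · rw [MvPowerSeries.coeff_truncTotal _ hd, MvPowerSeries.coeff_truncTotal _ hd,
        MvPowerSeries.coeff_map]
    · rw [MvPowerSeries.coeff_truncTotal_eq_zero _ (not_lt.mp hd),
        MvPowerSeries.coeff_truncTotal_eq_zero _ (not_lt.mp hd), map_zero]
  rw [ht]
  set p := MvPowerSeries.truncTotal k f
  have h : ((Ideal.Quotient.mk (m ^ k)).comp (MvPolynomial.aeval (x k)).toRingHom).comp
      (MvPolynomial.map θ) =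
      ((Ideal.Quotient.mk (m ^ k)).comp τ).comp (MvPolynomial.aeval (x k)).toRingHom := by
    refine MvPolynomial.ringHom_ext (fun r => ?_) (fun i => ?_)
    · simp [hτC]
    · simpa using (Ideal.Quotient.eq.mpr (hτx i)).symm
  refine (RingHom.congr_fun h p).trans ?_
  have hle : (m ^ k).map τ ≤ m ^ k := by
    rw [Ideal.map_pow]
    exact Ideal.pow_right_mono (Ideal.map_le_iff_le_comap.mpr hτm) k
  have hmem := hle (Ideal.mem_map_of_mem τ (Ideal.Quotient.eq.mp hg))
  rw [map_sub] at hmem
  exact Ideal.Quotient.eq.mpr hmem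

omit [Finite σ] in
include hcomp in
theorem mk_aeval_compat {j k : ℕ} (hle : j ≤ k) (p : MvPolynomial σ O) :
    Ideal.Quotient.mk (m ^ j) (MvPolynomial.aeval (x k) p) =
      Ideal.Quotient.mk (m ^ j) (MvPolynomial.aeval (x j) p) := by
  rw [← Ideal.Quotient.mkₐ_eq_mk O, MvPolynomial.comp_aeval_apply, MvPolynomial.comp_aeval_apply]
  congr 2
  funext i
  exact Ideal.Quotient.eq.mpr (hcomp hle i)

include hcomp in
theorem evalMod_compat {j k : ℕ} (hle : j ≤ k) :
    (Ideal.Quotient.factorPow m hle).comp (evalMod (O := O) m x hx k).toRingHom =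
      (evalMod (O := O) m x hx j).toRingHom := by
  refine RingHom.ext fun f => ?_
  simp only [RingHom.comp_apply, AlgHom.toRingHom_eq_coe, RingHom.coe_coe, evalMod_apply,
    Ideal.Quotient.factor_mk]
  rw [mk_aeval_compat m x hcomp hle, Ideal.Quotient.eq, ← map_sub]
  refine (Ideal.pow_right_mono ?_ j) (show MvPolynomial.aeval (x j) _ ∈
    ((MvPolynomial.idealOfVars σ O).map (MvPolynomial.aeval (R := O) (x j))) ^ j from ?_)
  · rw [Ideal.map_le_iff_le_comap, MvPolynomial.idealOfVars, Ideal.span_le]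
    rintro _ ⟨i, rfl⟩
    simpa using hx j i
  · rw [← Ideal.map_pow]
    refine Ideal.mem_map_of_mem _ ?_
    rw [MvPolynomial.mem_pow_idealOfVars_iff]
    intro d hd
    by_contra hlt
    push Not at hlt
    rw [MvPolynomial.mem_support_iff, MvPolynomial.coeff_sub, MvPowerSeries.coeff_truncTotal _ hlt,
      MvPowerSeries.coeff_truncTotal _ (hlt.trans_le hle), sub_self] at hd
    exact hd rfl

/-- The map to the completion. -/
def complHomF : MvPowerSeries σ O →+* AdicCompletion m B :=
  AdicCompletion.liftRingHom m (fun k => (evalMod (O := O) m x hx k).toRingHom)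
    fun hle => evalMod_compat (O := O) m x hx hcomp hle

/-- The value of the map at level `k` is evaluation at `x k`. -/
theorem evalₐ_complHomF (k : ℕ) (f : MvPowerSeries σ O) :
    AdicCompletion.evalₐ m k (complHomF (O := O) m x hx hcomp f) =
      evalMod (O := O) m x hx k f :=
  AdicCompletion.evalₐ_liftRingHom _ _ (fun hle => evalMod_compat (O := O) m x hx hcomp hle) _ _

/-- The map on constants. -/
theorem complHomF_C (r : O) : complHomF (O := O) m x hx hcomp (MvPowerSeries.C r) =
    algebraMap B (AdicCompletion m B) (algebraMap O B r) := by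
  refine AdicCompletion.ext_evalₐ fun k => ?_
  rw [evalₐ_complHomF, ← MvPolynomial.coe_C, evalMod_coe, MvPolynomial.aeval_C, AlgHom.commutes,
    Ideal.Quotient.algebraMap_eq]

end Fam

section Const

variable (x : σ → B) (hx : ∀ i, x i ∈ m)

omit [Finite σ] in
theorem const_compat {j k : ℕ} (i : σ) :
    (fun _ : ℕ => x) k i - (fun _ : ℕ => x) j i ∈ m ^ j := by
  simp only [sub_self]
  exact Ideal.zero_mem _

/-- The map to the completion given by elements of the ring. -/
def complHom : MvPowerSeries σ O →+* AdicCompletion m B :=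
  complHomF (O := O) m (fun _ => x) (fun _ => hx)
    (fun {j k} _ i => const_compat (j := j) (k := k) m x i)

omit [IsDomain O] [IsDiscreteValuationRing O]

/-- The value of the map of a constant family at level `k`. -/
theorem evalₐ_complHom (k : ℕ) (f : MvPowerSeries σ O) :
    AdicCompletion.evalₐ m k (complHom (O := O) m x hx f) =
      evalMod (O := O) m (fun _ => x) (fun _ => hx) k f :=
  evalₐ_complHomF (O := O) m _ _ _ k f

/-- The map on polynomials is evaluation. -/
theorem complHom_coe (p : MvPolynomial σ O) :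
    complHom (O := O) m x hx (p : MvPowerSeries σ O) =
      algebraMap B (AdicCompletion m B) (MvPolynomial.aeval x p) := by
  refine AdicCompletion.ext_evalₐ fun k => ?_
  rw [evalₐ_complHom, evalMod_coe, AlgHom.commutes, Ideal.Quotient.algebraMap_eq]

/-- The map of a constant family on constants. -/
theorem complHom_C (r : O) : complHom (O := O) m x hx (MvPowerSeries.C r) =
    algebraMap B (AdicCompletion m B) (algebraMap O B r) := by
  rw [← MvPolynomial.coe_C, complHom_coe, MvPolynomial.aeval_C]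

/-- The map sends the variables to the given elements. -/
theorem complHom_X (i : σ) : complHom (O := O) m x hx (MvPowerSeries.X i) =
    algebraMap B (AdicCompletion m B) (x i) := by
  rw [← MvPolynomial.coe_X, complHom_coe, MvPolynomial.aeval_X]

end Const

variable (x : ℕ → σ → B) (hx : ∀ k i, x k i ∈ m)
  (hcomp : ∀ {j k : ℕ}, j ≤ k → ∀ i, x k i - x j i ∈ m ^ j)

omit [Finite σ] in
/-- An element of `m` lies in `G + m ^ k` when `ϖ ∈ G ⊆ m` and every element is congruent to a
constant modulo `G`, up to a factor outside `m`. -/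
private theorem mem_sup_pow {ϖ : O} (hϖ : Irreducible ϖ) [hm : m.IsMaximal] {G : Ideal B}
    (hG : G ≤ m) (hϖG : algebraMap O B ϖ ∈ G)
    (hgen : ∀ g : B, ∃ s ∉ m, ∃ c : O, s * (g - algebraMap O B c) ∈ G) {g : B} (hg : g ∈ m)
    (k : ℕ) : g ∈ G ⊔ m ^ k := by
  obtain ⟨s, hs, c, hc⟩ := hgen g
  have hcm : algebraMap O B c ∈ m := by
    simpa using sub_mem hg ((hm.isPrime.mem_or_mem (hG hc)).resolve_left hs)
  obtain ⟨c', rfl⟩ : ϖ ∣ c := by
    rw [← Ideal.mem_span_singleton, ← hϖ.maximalIdeal_eq]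
    exact (IsLocalRing.mem_maximalIdeal c).mpr fun hu =>
      hm.ne_top (Ideal.eq_top_of_isUnit_mem _ hcm (hu.map _))
  have hsg : s * g ∈ G := by
    have := add_mem hc (G.mul_mem_left s (G.mul_mem_right (algebraMap O B c') hϖG))
    rwa [← map_mul, ← mul_add, sub_add_cancel] at this
  have hu := Ideal.Quotient.isUnit_mk_pow_of_notMem (I := m) (n := k) hs
  obtain ⟨r, hr⟩ := Ideal.Quotient.mk_surjective ((hu.unit⁻¹ : (B ⧸ m ^ k)ˣ) : B ⧸ m ^ k)
  have hrs : 1 - r * s ∈ m ^ k :=
    Ideal.Quotient.eq.mp (by rw [map_one, map_mul, hr, IsUnit.val_inv_mul])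
  rw [show g = r * (s * g) + (1 - r * s) * g by ring]
  exact Submodule.add_mem_sup (G.mul_mem_left _ hsg) (Ideal.mul_mem_right _ _ hrs)

omit [IsDomain O] [IsDiscreteValuationRing O] in
/-- If every element is a value modulo the `j`-th power of the image of `m`, then every element of
`(x k, ϖ)` is one modulo the `(j + 1)`-th power. -/
private theorem exists_sub_evalMod_mem_succ {ϖ : O} (hϖm : algebraMap O B ϖ ∈ m) {k j : ℕ}
    (ih : ∀ g : B, ∃ f, Ideal.Quotient.mk (m ^ k) g - evalMod (O := O) m x hx k f ∈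
      m.map (Ideal.Quotient.mk (m ^ k)) ^ j)
    {a : B} (ha : a ∈ Ideal.span (Set.range (x k)) ⊔ Ideal.span {algebraMap O B ϖ}) :
    ∃ f, Ideal.Quotient.mk (m ^ k) a - evalMod (O := O) m x hx k f ∈
      m.map (Ideal.Quotient.mk (m ^ k)) ^ (j + 1) := by
  have hstep : ∀ (v : B) (f0 : MvPowerSeries σ O), v ∈ m →
      evalMod (O := O) m x hx k f0 = Ideal.Quotient.mk (m ^ k) v → ∀ z : B,
        ∃ f, Ideal.Quotient.mk (m ^ k) (z * v) - evalMod (O := O) m x hx k f ∈
          m.map (Ideal.Quotient.mk (m ^ k)) ^ (j + 1) := fun v f0 hv hf0 z => by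
    obtain ⟨f, hf⟩ := ih z
    refine ⟨f * f0, ?_⟩
    rw [map_mul, map_mul, hf0, ← sub_mul, pow_succ]
    exact Ideal.mul_mem_mul hf (Ideal.mem_map_of_mem _ hv)
  rw [← Ideal.span_union] at ha
  refine Submodule.span_induction (p := fun a _ => ∀ z, ∃ f,
    Ideal.Quotient.mk (m ^ k) (z * a) - evalMod (O := O) m x hx k f ∈
      m.map (Ideal.Quotient.mk (m ^ k)) ^ (j + 1)) ?_ ?_ ?_ ?_ ha 1
    |>.imp fun f hf => by rwa [one_mul] at hf
  · rintro _ (⟨i, rfl⟩ | rfl) z
    · exact hstep _ (MvPowerSeries.X i) (hx k i) (by rw [evalMod, GaloisBasic.evalNilpotent_X]) z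
    · exact hstep _ (MvPowerSeries.C ϖ) hϖm ((evalMod (O := O) m x hx k).commutes ϖ) z
  · exact fun z => ⟨0, by simp⟩
  · intro u v _ _ hu hv z
    obtain ⟨fu, hfu⟩ := hu z
    obtain ⟨fv, hfv⟩ := hv z
    exact ⟨fu + fv, by rw [mul_add, map_add, map_add, add_sub_add_comm]; exact add_mem hfu hfv⟩
  · intro r u _ hu z
    rw [smul_eq_mul, ← mul_assoc]
    exact hu (z * r)

/-- Evaluation modulo each power of `m` is onto. -/
private theorem evalMod_surjective {ϖ : O} (hϖ : Irreducible ϖ) [hm : m.IsMaximal]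
    (hϖm : algebraMap O B ϖ ∈ m) (k : ℕ)
    (hgen : ∀ g : B, ∃ s ∉ m, ∃ c : O,
      s * (g - algebraMap O B c) ∈ Ideal.span (Set.range (x k)) ⊔ Ideal.span {algebraMap O B ϖ}) :
    Function.Surjective (evalMod (O := O) m x hx k) := by
  set G := Ideal.span (Set.range (x k)) ⊔ Ideal.span {algebraMap O B ϖ}
  have hG : G ≤ m := sup_le (Ideal.span_le.mpr (by rintro _ ⟨i, rfl⟩; exact hx k i))
    ((Ideal.span_singleton_le_iff_mem _).mpr hϖm)
  suffices h : ∀ j (g : B), ∃ f, Ideal.Quotient.mk (m ^ k) g - evalMod (O := O) m x hx k f ∈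
      m.map (Ideal.Quotient.mk (m ^ k)) ^ j by
    intro z
    obtain ⟨g, rfl⟩ := Ideal.Quotient.mk_surjective z
    obtain ⟨f, hf⟩ := h k g
    rw [← Ideal.map_pow, Ideal.map_quotient_self, Ideal.mem_bot, sub_eq_zero] at hf
    exact ⟨f, hf.symm⟩
  intro j
  induction j with
  | zero => exact fun g => ⟨0, by simp⟩
  | succ j ih =>
    intro g
    -- residues come from `O`
    obtain ⟨s, hs, c, hc⟩ := hgen g
    obtain ⟨a, ha, b, hb, hab⟩ := Submodule.mem_sup.mp (mem_sup_pow m hϖ hG
      (Ideal.mem_sup_right (Ideal.mem_span_singleton_self _)) hgen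
      ((hm.isPrime.mem_or_mem (hG hc)).resolve_left hs) k)
    obtain ⟨f, hf⟩ := exists_sub_evalMod_mem_succ m x hx hϖm ih ha
    refine ⟨f + MvPowerSeries.C c, ?_⟩
    have hC : evalMod (O := O) m x hx k (MvPowerSeries.C c) =
        Ideal.Quotient.mk (m ^ k) (algebraMap O B c) :=
      (evalMod (O := O) m x hx k).commutes c
    rwa [map_add, hC, show g = a + b + algebraMap O B c by rw [hab, sub_add_cancel], map_add,
      map_add, Ideal.Quotient.eq_zero_iff_mem.mpr hb, add_zero, add_sub_add_right_eq_sub]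

/-- The maximal ideal of the series ring goes onto the image of `m`. -/
private theorem map_maximalIdeal_evalMod [hm : m.IsMaximal] {k : ℕ}
    (hsurj : Function.Surjective (evalMod (O := O) m x hx (k + 1))) :
    (maximalIdeal (MvPowerSeries σ O)).map (evalMod (O := O) m x hx (k + 1)).toRingHom =
      m.map (Ideal.Quotient.mk (m ^ (k + 1))) := by
  have : (m.map (Ideal.Quotient.mk (m ^ (k + 1)))).IsMaximal :=
    Ideal.IsMaximal.map_of_surjective_of_ker_le Ideal.Quotient.mk_surjective
      (by rw [Ideal.mk_ker]; exact Ideal.pow_le_self k.succ_ne_zero)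
  have := Ideal.comap_isMaximal_of_surjective (evalMod (O := O) m x hx (k + 1)).toRingHom hsurj
    (K := m.map (Ideal.Quotient.mk (m ^ (k + 1))))
  rw [← IsLocalRing.eq_maximalIdeal this,
    Ideal.map_comap_of_surjective (evalMod (O := O) m x hx (k + 1)).toRingHom hsurj]

omit [Finite σ] in
/-- The values of an element of the completion are compatible. -/
private theorem factorPow_evalₐ_succ (ξ : AdicCompletion m B) (k : ℕ) :
    Ideal.Quotient.factorPow m k.le_succ (AdicCompletion.evalₐ m (k + 1) ξ) =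
      AdicCompletion.evalₐ m k ξ := by
  obtain ⟨f, rfl⟩ := AdicCompletion.mk_surjective m B ξ
  simp only [AdicCompletion.evalₐ_mk, Ideal.Quotient.factor_mk]
  refine Ideal.Quotient.eq.mpr ?_
  have := f.2 k.le_succ
  rw [SModEq.sub_mem, smul_eq_mul, Ideal.mul_top] at this
  rwa [← neg_sub, neg_mem_iff]

include hcomp in
/-- One step of successive approximation. -/
private theorem exists_evalMod_succ_eq [m.IsMaximal] (ξ : AdicCompletion m B) {k : ℕ}
    (hsurj : Function.Surjective (evalMod (O := O) m x hx (k + 1))) {r : MvPowerSeries σ O}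
    (hr : evalMod (O := O) m x hx k r = AdicCompletion.evalₐ m k ξ) :
    ∃ r', r' - r ∈ maximalIdeal (MvPowerSeries σ O) ^ k ∧
      evalMod (O := O) m x hx (k + 1) r' = AdicCompletion.evalₐ m (k + 1) ξ := by
  set e := fun k => (evalMod (O := O) m x hx k).toRingHom
  obtain ⟨b, hb⟩ := Ideal.Quotient.mk_surjective
    (AdicCompletion.evalₐ m (k + 1) ξ - e (k + 1) r)
  have hbk : b ∈ m ^ k := by
    rw [← Ideal.Quotient.eq_zero_iff_mem,
      ← Ideal.Quotient.factor_mk (Ideal.pow_le_pow_right k.le_succ)]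
    show Ideal.Quotient.factorPow m k.le_succ _ = 0
    rw [hb, map_sub, factorPow_evalₐ_succ, ← RingHom.comp_apply,
      evalMod_compat (O := O) m x hx hcomp, ← hr]
    exact sub_self _
  have h1 : AdicCompletion.evalₐ m (k + 1) ξ - e (k + 1) r ∈
      (maximalIdeal (MvPowerSeries σ O) ^ k).map (e (k + 1)) := by
    rw [Ideal.map_pow, map_maximalIdeal_evalMod m x hx hsurj, ← hb, ← Ideal.map_pow]
    exact Ideal.mem_map_of_mem _ hbk
  obtain ⟨d, hd, hde⟩ := (Ideal.mem_map_iff_of_surjective (e (k + 1)) hsurj).mp h1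
  refine ⟨r + d, by rwa [add_sub_cancel_left], ?_⟩
  show e (k + 1) (r + d) = _
  rw [map_add, hde, add_sub_cancel]

variable {ϖ : O} (hϖ : Irreducible ϖ) [IsAdicComplete (maximalIdeal O) O] [hm : m.IsMaximal]
include hϖ

/-- **Surjectivity onto the completion.** -/
theorem complHomF_surjective
    (hgen : ∀ k, ∀ g : B, ∃ s ∉ m, ∃ c : O,
      s * (g - algebraMap O B c) ∈ Ideal.span (Set.range (x k)) ⊔ Ideal.span {algebraMap O B ϖ})
    (hϖm : algebraMap O B ϖ ∈ m) :
    Function.Surjective (complHomF (O := O) m x hx hcomp) := by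
  classical
  have : IsAdicComplete (maximalIdeal (MvPowerSeries σ O)) (MvPowerSeries σ O) :=
    GaloisBasic.isAdicComplete_mvPowerSeries_of_complete
  set J := maximalIdeal (MvPowerSeries σ O)
  have hsurj : ∀ k, Function.Surjective (evalMod (O := O) m x hx k) := fun k =>
    evalMod_surjective m x hx hϖ hϖm k (hgen k)
  intro ξ
  set e := fun k => (evalMod (O := O) m x hx k).toRingHom
  set ev := fun k => AdicCompletion.evalₐ m k ξ
  have hstep : ∀ k (r : MvPowerSeries σ O), e k r = ev k →
      ∃ r', r' - r ∈ J ^ k ∧ e (k + 1) r' = ev (k + 1) := fun k r hr =>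
    exists_evalMod_succ_eq m x hx hcomp ξ (hsurj (k + 1)) hr
  obtain ⟨r0, hr0⟩ := hsurj 0 (ev 0)
  let r : (k : ℕ) → {f : MvPowerSeries σ O // e k f = ev k} := fun k =>
    Nat.rec (motive := fun k => {f : MvPowerSeries σ O // e k f = ev k}) ⟨r0, hr0⟩
      (fun k f => ⟨(hstep k f.1 f.2).choose, (hstep k f.1 f.2).choose_spec.2⟩) k
  obtain ⟨f, hf⟩ := GaloisBasic.exists_limit_of_succ J (fun k => (r k).1) fun k =>
    (hstep k (r k).1 (r k).2).choose_spec.1
  refine ⟨f, AdicCompletion.ext_evalₐ fun k => ?_⟩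
  rw [evalₐ_complHomF]
  refine Eq.trans ?_ (r k).2
  show e k f = e k (r k).1
  rw [← sub_eq_zero, ← map_sub]
  have h := hf k
  cases k with
  | zero => exact (Ideal.Quotient.eq_zero_iff_mem.mpr (by simp) : (0 : B ⧸ m ^ 0) = 0) ▸
      Subsingleton.elim (h := Ideal.Quotient.subsingleton_iff.mpr (by simp)) _ _
  | succ k =>
    have h1 := Ideal.mem_map_of_mem (e (k + 1)) h
    rw [Ideal.map_pow, map_maximalIdeal_evalMod m x hx (hsurj (k + 1)), ← Ideal.map_pow,
      Ideal.map_quotient_self, Ideal.mem_bot] at h1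
    exact h1

omit [hm : m.IsMaximal] hϖ [IsDomain O] [IsDiscreteValuationRing O]
  [IsAdicComplete (maximalIdeal O) O] in
/-- Evaluation modulo `m ^ k` on the variables. -/
theorem evalMod_X_fam (k : ℕ) (i : σ) :
    evalMod (O := O) m x hx k (MvPowerSeries.X i) = Ideal.Quotient.mk (m ^ k) (x k i) := by
  rw [evalMod, GaloisBasic.evalNilpotent_X]

/-- Surjectivity for a constant family. -/
theorem complHom_surjective (x : σ → B) (hx : ∀ i, x i ∈ m)
    (hgen : ∀ g : B, ∃ s ∉ m, ∃ c : O,
      s * (g - algebraMap O B c) ∈ Ideal.span (Set.range x) ⊔ Ideal.span {algebraMap O B ϖ})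
    (hϖm : algebraMap O B ϖ ∈ m) :
    Function.Surjective (complHom (O := O) m x hx) :=
  complHomF_surjective m _ _ (fun {j k} _ i => const_compat (j := j) (k := k) m x i) hϖ
    (fun _ => hgen) hϖm

end FermatAgent.BAD
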