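import Fermat.Agent.BAD.Diamond.Quad

/-!
# Inertia at a prime exactly dividing the level acts unipotently on parabolic characters

This is the quadratic relation for the trivial nebentypus.
-/

set_option autoImplicit false

open CongruenceSubgroup
open scoped MatrixGroups

noncomputable section

namespace FermatAgent.BAD

open FermatAgent.ES (AuxLevel CPlace IsParChar parGroup GoodLevel conjChar galChar GQ)

variable {q M m : ℕ} [Fact q.Prime] [NeZero M] {Γ : Subgroup SL(2, ℤ)} {N : ℕ} [NeZero N]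

/-- **The square of `τ - 1` kills the parabolic characters.** -/
theorem conjChar_unipotent (haux : AuxLevel M m) (hM : M.Coprime q) (hqm : q ≠ m)
    (hG : GoodLevel N Γ) (hΓ : lam q M ≤ Γ) (hΓq : Γ ≤ Gamma0 q) (hNM : N ∣ q * M) {r : ℕ}
    (hr : r ≠ 0) (h12 : 12 * N = r * (q * M))
    (hgen : ∀ χ : Γ →* ℂˣ, IsParChar Γ χ →
      (∀ (δ : SL(2, ℤ)) (hδ : δ ∈ Γ), δ ∈ Gamma m → χ ⟨δ, hδ⟩ = 1) → χ = 1)
    (Φ : ℂ ≃+* PadicAlgCl q) {s : PadicAlgCl q ≃ₐ[ℚ_[q]] PadicAlgCl q}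
    (hs : ∀ y, ‖y‖ ≤ 1 → ‖s y - y‖ < 1) {n : ℕ} [NeZero n] (hn : n.Coprime q)
    (φ : parGroup Γ n) :
    conjChar hG (conjC Φ s) (conjChar hG (conjC Φ s) φ) * φ =
      conjChar hG (conjC Φ s) φ * conjChar hG (conjC Φ s) φ := by
  obtain ⟨D, hDσ⟩ := exists_inertData (M := M) (P := CPlace.ofEquiv Φ)
    (O := (CPlace.ofEquiv Φ).ring) (conjC Φ s)
    (fun z hz => by
      rw [CPlace.ofEquiv_abv, map_sub, map_conjC]
      exact hs _ hz)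
    (fun z hz => by rw [(CPlace.ofEquiv Φ).mem_ring, abv_conjC]; exact hz)
  have hd : (D.deltaA hM : SL(2, ℤ)) ∈ Γ := hΓ (D.deltaA hM).2
  rw [← hDσ]
  refine conjChar_quadratic haux hM hqm 1 hG (fun γ hγ => hΓ ((mem_lamH (χ := 1)).mp hγ).1) hΓq
    hNM hr h12 hgen Φ D hDσ hn (fun γ hγ => mul_mem (mul_mem hd hγ) (inv_mem hd)) (MonoidHom.id _)
    (fun ψ γ hγ => ?_) φ
  rw [MonoidHom.id_apply,
    show (⟨(D.deltaA hM : SL(2, ℤ)) * γ * (D.deltaA hM : SL(2, ℤ))⁻¹, _⟩ : Γ) =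
      ⟨_, hd⟩ * ⟨γ, hγ⟩ * ⟨_, hd⟩⁻¹ from rfl, map_mul, map_mul, map_inv,
    mul_comm ((ψ : Γ →* ℂˣ) ⟨_, hd⟩), mul_inv_cancel_right]

/-- For `g` in inertia at `q`, `(g - 1)²` kills the parabolic characters. -/
theorem galChar_unipotent (haux : AuxLevel M m) (hM : M.Coprime q) (hqm : q ≠ m)
    (hG : GoodLevel N Γ) (hΓ : lam q M ≤ Γ) (hΓq : Γ ≤ Gamma0 q) (hNM : N ∣ q * M) {r : ℕ}
    (hr : r ≠ 0) (h12 : 12 * N = r * (q * M))
    (hgen : ∀ χ : Γ →* ℂˣ, IsParChar Γ χ →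
      (∀ (δ : SL(2, ℤ)) (hδ : δ ∈ Γ), δ ∈ Gamma m → χ ⟨δ, hδ⟩ = 1) → χ = 1)
    {A : ValuationSubring (AlgebraicClosure ℚ)} (hA : A.LiesOverPrime q) {g : GQ}
    (hg : g ∈ A.inertiaSubgroupIn ℚ) {n : ℕ} [NeZero n] (hn : n.Coprime q)
    (φ : parGroup Γ n) :
    galChar hG n g (galChar hG n g φ) * φ = galChar hG n g φ * galChar hG n g φ := by
  obtain ⟨Φ, hΦ⟩ := ES.exists_padicEquiv_compat hA
  obtain ⟨s, hs1, hs2⟩ := exists_inertiaAut Φ (hΦ.symm ▸ hg)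
  rw [ES.galChar_eq hG n (conjC_embC Φ s hs1), ES.conjAut_apply, ES.conjAut_apply]
  exact conjChar_unipotent haux hM hqm hG hΓ hΓq hNM hr h12 hgen Φ hs2 hn φ

end FermatAgent.BAD
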